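import Mathlib
import Fermat.Prelude.Def_ModularCurve_ArithmeticGalois
import Fermat.Prelude.Def_ModularCurve_GenusNumerics
import Fermat.Prelude.Def_AlgebraicCurve_CanonicalDivisor

/-!
# S24 interface (lead): contract between the work packages 66-70 and the assembly 71

* `RHStatement K F`            : delivered by WP-A (item 66), pure algebra, any `K`, `F`.
* `ModularRamification N`      : delivered by WP-B/C/D (items 67, 68, 69) for `K = ℚ̄`.
* `CosetCounts N`              : delivered by WP-E (item 70), pure combinatorics.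
* `genus_eq_genusFormula_of_interfaces` : the assembly (proved here).
-/

set_option autoImplicit false

open AlgebraicCurve KaehlerDifferential CongruenceSubgroup IntermediateField
open scoped MatrixGroups

namespace Fermat.Agent.FF

section General

variable {K F : Type*} [Field K] [Field F] [Algebra K F]

/-- Places of `F` at which `x - a` vanishes (the fibre of `x` over `a`). -/
def placesOver (x : F) (a : K) : Set (Place K F) :=
  {v | 0 < v.ord (x - algebraMap K F a)}

/-- Places of `F` at which `x` has a pole (the fibre of `x` over `∞`). -/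
def placesOverInf (x : F) : Set (Place K F) :=
  {v | v.ord x < 0}

variable (K F) in
/-- **WP-A deliverable** (Riemann–Hurwitz degree formula).  `B` is any finite set of values
containing all finite branch values of `x`. -/
def RHStatement : Prop :=
  ∀ (x : F), Transcendental K x → FiniteDimensional K⟮x⟯ F →
    (∃ ω : Ω[F⁄K], ω ≠ 0) ∧
    ∀ (B : Finset K),
      (∀ a, a ∉ B → ∀ v : Place K F, 0 < v.ord (x - algebraMap K F a) →
          v.ord (x - algebraMap K F a) = 1) →
      ∀ (ω : Ω[F⁄K]), ω ≠ 0 → ∀ D : Divisor K F, (∀ v, D v = v.ordDifferential ω) →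
        Divisor.degree D
          = -(Module.finrank K⟮x⟯ F : ℤ) - (Nat.card (placesOverInf (K := K) x) : ℤ)
            + ∑ a ∈ B, ((Module.finrank K⟮x⟯ F : ℤ) - (Nat.card (placesOver x a) : ℤ))

end General

section Modular

variable (N : ℕ) [NeZero N]

/-- The coset space `SL(2,ℤ) ⧸ Γ₀(N)` (left cosets, with the left translation action). -/
abbrev X : Type := SL(2, ℤ) ⧸ Gamma0 N

/-- number of orbits of the cyclic group generated by `g` on `SL(2,ℤ) ⧸ Γ₀(N)` -/
noncomputable def orbCount (g : SL(2, ℤ)) : ℕ :=
  Nat.card (MulAction.orbitRel.Quotient (Subgroup.zpowers g) (X N))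

/-- the `j`-function as an element of the function field over `ℚ̄` -/
noncomputable def jBar : ↥(ModularCurve.modularFunctionFieldBar N) :=
  ⟨ModularCurve.coeffEmb (AlgebraicClosure ℚ) ModularCurve.jq,
    ModularCurve.coeffEmb_mem_laurentBaseChange (AlgebraicClosure ℚ)
      (ModularCurve.jqd_mem_full N (d := 1) (one_dvd N) |> fun h => by
        rwa [ModularCurve.qExpand_one_apply] at h)⟩

/-- **WP-B/C/D deliverable**: ramification of `F_N / ℚ̄(j)`. -/
structure ModularRamification : Prop where
  transc : Transcendental (AlgebraicClosure ℚ) (jBar N)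
  findim : FiniteDimensional (AlgebraicClosure ℚ)⟮jBar N⟯ ↥(ModularCurve.modularFunctionFieldBar N)
  finrank_eq : Module.finrank (AlgebraicClosure ℚ)⟮jBar N⟯ ↥(ModularCurve.modularFunctionFieldBar N)
      = Nat.card (X N)
  unram : ∀ a : AlgebraicClosure ℚ, a ≠ 0 → a ≠ 1728 →
      ∀ v : Place (AlgebraicClosure ℚ) ↥(ModularCurve.modularFunctionFieldBar N),
        0 < v.ord (jBar N - algebraMap _ _ a) → v.ord (jBar N - algebraMap _ _ a) = 1
  card_zero : Nat.card (placesOver (jBar N) (0 : AlgebraicClosure ℚ))
      = orbCount N (ModularGroup.S * ModularGroup.T)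
  card_1728 : Nat.card (placesOver (jBar N) (1728 : AlgebraicClosure ℚ))
      = orbCount N ModularGroup.S
  card_inf : Nat.card (placesOverInf (K := AlgebraicClosure ℚ) (jBar N))
      = orbCount N ModularGroup.T

/-- **WP-E deliverable**: the combinatorics of `SL(2,ℤ) ⧸ Γ₀(N) ≅ ℙ¹(ℤ/N)`. -/
structure CosetCounts : Prop where
  card_X : Nat.card (X N) = ModularCurve.dedekindPsi N
  orb_T : orbCount N ModularGroup.T = ModularCurve.cuspCount N
  orb_S : 2 * orbCount N ModularGroup.S = ModularCurve.dedekindPsi N + ModularCurve.nuTwo N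
  orb_U : 3 * orbCount N (ModularGroup.S * ModularGroup.T)
      = ModularCurve.dedekindPsi N + 2 * ModularCurve.nuThree N
  /-- parity (sign of permutations, `S * T = U`) and non-negativity (Scott's lemma / Ree) -/
  genus_nat : ∃ g : ℕ, 2 * g + orbCount N ModularGroup.T + orbCount N ModularGroup.S
      + orbCount N (ModularGroup.S * ModularGroup.T) = ModularCurve.dedekindPsi N + 2

/-- **Assembly of S24** from the three interfaces. -/
theorem genus_eq_genusFormula_of_interfaces
    (hRH : RHStatement (AlgebraicClosure ℚ) ↥(ModularCurve.modularFunctionFieldBar N))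
    (hM : ModularRamification N) (hC : CosetCounts N)
    [AlgebraicCurve.HasCanonicalDivisor (K := AlgebraicClosure ℚ)
      (F := ↥(ModularCurve.modularFunctionFieldBar N))] :
    (AlgebraicCurve.genus (AlgebraicClosure ℚ) ↥(ModularCurve.modularFunctionFieldBar N) : ℚ)
      = ModularCurve.genusFormula N := by
  classical
  obtain ⟨hex, hdeg⟩ := hRH (jBar N) hM.transc hM.findim
  obtain ⟨g, hg⟩ := hC.genus_nat
  have h01 : (0 : AlgebraicClosure ℚ) ≠ 1728 := by norm_num
  have hB : ∀ a, a ∉ ({0, 1728} : Finset (AlgebraicClosure ℚ)) →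
      ∀ v : Place (AlgebraicClosure ℚ) ↥(ModularCurve.modularFunctionFieldBar N),
        0 < v.ord (jBar N - algebraMap _ _ a) → v.ord (jBar N - algebraMap _ _ a) = 1 := by
    intro a ha v hv
    simp only [Finset.mem_insert, Finset.mem_singleton, not_or] at ha
    exact hM.unram a ha.1 ha.2 v hv
  have hdeg' := hdeg {0, 1728} hB hex.choose hex.choose_spec (canonicalDivisorOf hex.choose_spec)
    (fun v => canonicalDivisorOf_apply hex.choose_spec v)
  rw [Finset.sum_pair h01, hM.finrank_eq, hM.card_zero, hM.card_1728, hM.card_inf,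
    hC.card_X] at hdeg'
  have hgen : AlgebraicCurve.genus (AlgebraicClosure ℚ)
      ↥(ModularCurve.modularFunctionFieldBar N) = g := by
    unfold AlgebraicCurve.genus
    rw [dif_pos hex, hdeg']
    have : (-(ModularCurve.dedekindPsi N : ℤ) - (orbCount N ModularGroup.T : ℤ)
        + (((ModularCurve.dedekindPsi N : ℤ) - (orbCount N (ModularGroup.S * ModularGroup.T) : ℤ))
          + ((ModularCurve.dedekindPsi N : ℤ) - (orbCount N ModularGroup.S : ℤ))) + 2)
        = ((2 * g : ℕ) : ℤ) := by
      push_cast
      have := congrArg (Nat.cast : ℕ → ℤ) hg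
      push_cast at this
      linarith
    rw [this, Int.toNat_natCast]
    omega
  rw [hgen, ModularCurve.genusFormula]
  have h1 := congrArg (Nat.cast : ℕ → ℚ) hg
  have h2 := congrArg (Nat.cast : ℕ → ℚ) hC.orb_S
  have h3 := congrArg (Nat.cast : ℕ → ℚ) hC.orb_U
  have h4 := congrArg (Nat.cast : ℕ → ℚ) hC.orb_T
  push_cast at h1 h2 h3 h4
  linarith

end Modular

end Fermat.Agent.FF
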