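import Mathlib
import Fermat.Agent.FF.Interface

/-!
# S24 interface, part 2 (lead): contract between items 66 (algebra), 67 (counting lemma),
68/69 (analytic orders on the modular function field)

* `OrdFn K F`                  : a `ℤ`-valued order function on `F`, trivial on `K`
                                 (in 69: `w f = ord_{τ₀} (γ • Φ f)`, analytic order of a function).
* `PlacesAlgebraStatement K F` : what item 66 (WP-A, A1) must export for item 67.
* `CountingStatement K F`      : the abstract counting lemma, item 67.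
* `ModularOrdData N`           : what items 68 + 69 must deliver.
* `modularRamification_of`     : `ModularRamification N` from the above (proved here).
-/

set_option autoImplicit false

open AlgebraicCurve IntermediateField CongruenceSubgroup
open scoped MatrixGroups

namespace Fermat.Agent.FF

section General

variable (K F : Type*) [Field K] [Field F] [Algebra K F]

/-- A `ℤ`-valued order function on `F`, trivial on `K` (value at `0` is irrelevant). -/
structure OrdFn where
  toFun : F → ℤ
  map_mul' : ∀ f g : F, f ≠ 0 → g ≠ 0 → toFun (f * g) = toFun f + toFun g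
  map_add' : ∀ f g : F, f ≠ 0 → g ≠ 0 → f + g ≠ 0 → min (toFun f) (toFun g) ≤ toFun (f + g)
  map_const' : ∀ c : K, c ≠ 0 → toFun (algebraMap K F c) = 0

instance : CoeFun (OrdFn K F) (fun _ => F → ℤ) := ⟨OrdFn.toFun⟩

/-- **Item 66 export (A1)**: fundamental identity and separation of places in a fibre. -/
def PlacesAlgebraStatement : Prop :=
  ∀ (x : F), Transcendental K x → FiniteDimensional K⟮x⟯ F → ∀ a : K,
    (placesOver x a).Finite ∧
    (∑ᶠ v ∈ placesOver x a, v.ord (x - algebraMap K F a) = (Module.finrank K⟮x⟯ F : ℤ)) ∧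
    (∀ (v : Place K F) (s : Finset (Place K F)), v ∈ placesOver x a → v ∉ s →
      ∃ f : F, f ≠ 0 ∧ 0 < v.ord f ∧ ∀ u ∈ s, u.ord f = 0)

/-- **Item 67**: the abstract counting lemma.  `m` is the order of `x - a` in the analytic
parameter, `H` the stabiliser (acting on the index set `I` of conjugates). -/
def CountingStatement : Prop :=
  ∀ (x : F), Transcendental K x → FiniteDimensional K⟮x⟯ F → ∀ (a : K)
    (I : Type) [Fintype I] (H : Type) [Group H] [MulAction H I] (m : ℕ) (w : I → OrdFn K F),
    Nat.card I = Module.finrank K⟮x⟯ F →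
    0 < m →
    (∀ i, w i (x - algebraMap K F a) = m) →
    (∀ (h : H) (i : I), w (h • i) = w i) →
    (∀ i, ∃ r : ℕ, r * Nat.card (MulAction.orbit H i) = m ∧ ∀ f : F, f ≠ 0 → (r : ℤ) ∣ w i f) →
    (∀ f : F, f ≠ 0 → (∀ i, w i f = 0) →
      ∃ P : Polynomial ↥K⟮x⟯, P.Monic ∧ Polynomial.aeval f P = 0 ∧ P.coeff 0 ≠ 0 ∧
        (∀ i k, P.coeff k ≠ 0 → 0 ≤ w i (P.coeff k : F)) ∧ (∀ i, w i (P.coeff 0 : F) = 0)) →
    Nat.card (placesOver x a) = Nat.card (MulAction.orbitRel.Quotient H I) ∧
    ∀ v ∈ placesOver x a, ∃ i : I, v.ord (x - algebraMap K F a) = (Nat.card (MulAction.orbit H i) : ℤ)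

end General

section Modular

variable (N : ℕ)

/-- `ℚ̄` -/
abbrev Kbar : Type := AlgebraicClosure ℚ

/-- the function field of `X₀(N)` over `ℚ̄` -/
abbrev FN : Type := ↥(ModularCurve.modularFunctionFieldBar N)

/-- The hypotheses of the counting lemma at one point, packaged. -/
structure OrdDataAt (x : FN N) (a : Kbar) (H : Subgroup SL(2, ℤ)) (m : ℕ) : Prop where
  exists_w : ∃ w : X N → OrdFn Kbar (FN N),
    (∀ i, w i (x - algebraMap Kbar (FN N) a) = m) ∧
    (∀ (h : H) (i : X N), w (h • i) = w i) ∧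
    (∀ i, ∃ r : ℕ, r * Nat.card (MulAction.orbit H i) = m ∧ ∀ f : FN N, f ≠ 0 → (r : ℤ) ∣ w i f) ∧
    (∀ f : FN N, f ≠ 0 → (∀ i, w i f = 0) →
      ∃ P : Polynomial ↥Kbar⟮x⟯, P.Monic ∧ Polynomial.aeval f P = 0 ∧ P.coeff 0 ≠ 0 ∧
        (∀ i k, P.coeff k ≠ 0 → 0 ≤ w i (P.coeff k : FN N)) ∧ (∀ i, w i (P.coeff 0 : FN N) = 0))

/-- **Items 68 + 69 deliverable.** -/
structure ModularOrdData : Prop where
  transc : Transcendental Kbar (jBar N)
  findim : FiniteDimensional Kbar⟮jBar N⟯ (FN N)
  finrank_eq : Module.finrank Kbar⟮jBar N⟯ (FN N) = Nat.card (X N)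
  /-- generic point: `j(τ₀) = a`, `j'(τ₀) ≠ 0`, trivial group -/
  generic : ∀ a : Kbar, a ≠ 0 → a ≠ 1728 → OrdDataAt N (jBar N) a ⊥ 1
  /-- `τ₀ = ρ`, `ord_ρ j = 3`, stabiliser generated by `S * T` -/
  at_zero : OrdDataAt N (jBar N) 0 (Subgroup.zpowers (ModularGroup.S * ModularGroup.T)) 3
  /-- `τ₀ = i`, `ord_i (j - 1728) = 2`, stabiliser generated by `S` -/
  at_1728 : OrdDataAt N (jBar N) 1728 (Subgroup.zpowers ModularGroup.S) 2
  /-- the cusp `∞`: parameter `u = exp(2πiτ/N)`, `ord_u (1/j) = N`, stabiliser generated by `T` -/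
  at_inf : OrdDataAt N (jBar N)⁻¹ 0 (Subgroup.zpowers ModularGroup.T) N

end Modular

end Fermat.Agent.FF

namespace Fermat.Agent.FF

open AlgebraicCurve IntermediateField CongruenceSubgroup
open scoped MatrixGroups

section Derivation

variable {K F : Type*} [Field K] [Field F] [Algebra K F]

theorem adjoin_simple_inv_eq (x : F) : K⟮x⁻¹⟯ = K⟮x⟯ := by
  apply le_antisymm
  · rw [adjoin_simple_le_iff]
    exact inv_mem (mem_adjoin_simple_self K x)
  · rw [adjoin_simple_le_iff]
    have h := inv_mem (mem_adjoin_simple_self K x⁻¹)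
    rwa [inv_inv] at h

theorem finrank_congr_intermediateField {E₁ E₂ : IntermediateField K F} (h : E₁ = E₂) :
    Module.finrank E₁ F = Module.finrank E₂ F := by
  subst h; rfl

theorem finiteDimensional_congr_intermediateField {E₁ E₂ : IntermediateField K F} (h : E₁ = E₂)
    (h1 : FiniteDimensional E₁ F) : FiniteDimensional E₂ F := by
  subst h; exact h1

theorem transcendental_inv {x : F} (hx : Transcendental K x) : Transcendental K x⁻¹ := by
  intro halg
  apply hx
  have := halg.inv
  rwa [inv_inv] at this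

theorem placesOverInf_eq (x : F) :
    placesOverInf (K := K) x = placesOver x⁻¹ (0 : K) := by
  ext v
  show v.ord x < 0 ↔ 0 < v.ord (x⁻¹ - algebraMap K F 0)
  rw [map_zero, sub_zero, Place.ord_inv]
  omega

end Derivation

section Modular

variable (N : ℕ) [NeZero N]

instance : Finite (X N) := by
  unfold X
  infer_instance

/-- `ModularRamification N` from the algebra export (66), the counting lemma (67) and the
analytic order data (68 + 69). -/
theorem modularRamification_of
    (hC : CountingStatement Kbar (FN N)) (hD : ModularOrdData N) :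
    ModularRamification N := by
  classical
  let _inst : Fintype (X N) := Fintype.ofFinite _
  have := hD.findim
  have hcard : Nat.card (X N) = Module.finrank Kbar⟮jBar N⟯ (FN N) := hD.finrank_eq.symm
  refine ⟨hD.transc, hD.findim, hD.finrank_eq, ?_, ?_, ?_, ?_⟩
  · intro a ha0 ha1 v hv
    obtain ⟨w, h2, h3, h4, h5⟩ := (hD.generic a ha0 ha1).exists_w
    obtain ⟨-, hc2⟩ := hC (jBar N) hD.transc hD.findim a (X N) (⊥ : Subgroup SL(2, ℤ)) 1 w hcard
      one_pos (by simpa using h2) h3 (by simpa using h4) h5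
    obtain ⟨i, hi⟩ := hc2 v hv
    rw [hi]
    obtain ⟨r, hr, -⟩ := h4 i
    have : Nat.card (MulAction.orbit (⊥ : Subgroup SL(2, ℤ)) i) = 1 :=
      Nat.eq_one_of_mul_eq_one_left hr
    rw [this]
    rfl
  · obtain ⟨w, h2, h3, h4, h5⟩ := hD.at_zero.exists_w
    have := (hC (jBar N) hD.transc hD.findim 0 (X N)
      (Subgroup.zpowers (ModularGroup.S * ModularGroup.T)) 3 w hcard (by norm_num)
      (by simpa using h2) h3 (by simpa using h4) h5).1
    exact this
  · obtain ⟨w, h2, h3, h4, h5⟩ := hD.at_1728.exists_w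
    have := (hC (jBar N) hD.transc hD.findim 1728 (X N)
      (Subgroup.zpowers ModularGroup.S) 2 w hcard (by norm_num)
      (by simpa using h2) h3 (by simpa using h4) h5).1
    exact this
  · obtain ⟨w, h2, h3, h4, h5⟩ := hD.at_inf.exists_w
    have hfd : FiniteDimensional Kbar⟮(jBar N)⁻¹⟯ (FN N) :=
      finiteDimensional_congr_intermediateField (adjoin_simple_inv_eq (K := Kbar) (jBar N)).symm
        hD.findim
    have hcard' : Nat.card (X N) = Module.finrank Kbar⟮(jBar N)⁻¹⟯ (FN N) := by
      rw [hcard]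
      exact finrank_congr_intermediateField (adjoin_simple_inv_eq (K := Kbar) (jBar N)).symm
    have := (hC (jBar N)⁻¹ (transcendental_inv hD.transc) hfd 0 (X N)
      (Subgroup.zpowers ModularGroup.T) N w hcard' (Nat.pos_of_ne_zero (NeZero.ne N))
      (by simpa using h2) h3 (by simpa using h4) h5).1
    rw [placesOverInf_eq]
    exact this

end Modular

end Fermat.Agent.FF
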