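import Mathlib
import Fermat.Agent.FF.Interface2
import Fermat.Agent.FF.APlaces

/-!
# WP-A (item 66): instance-free fibre theorems

For `K` algebraically closed of characteristic zero, `x : F` transcendental over `K` with
`F / K(x)` finite:
* `placesOver_finite`, `placesOver_nonempty`, `sum_ord_placesOver`;
* `placesOverInf_finite`, `placesOverInf_nonempty`, `sum_ord_placesOverInf`;
* `place_deg_eq_one`, `mem_placesOverInf_or_exists`.
-/

set_option autoImplicit false
set_option linter.unusedSectionVars false
set_option linter.style.haveILetI false

open AlgebraicCurve Polynomial IsDedekindDomain IntermediateField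

noncomputable section

namespace Fermat.Agent.FF

variable {K F : Type*} [Field K] [Field F] [Algebra K F] [IsAlgClosed K] [CharZero K]

section Finite

variable (x : F) (hx : Transcendental K x) [FiniteDimensional K⟮x⟯ F]

include hx

theorem placesOver_finite (a : K) : (placesOver x a).Finite :=
  ctx_elim x hx fun hgen _ => by
    have := fibre_finite_ctx (K := K) (F := F) a
    rwa [hgen] at this

theorem placesOver_nonempty (a : K) : (placesOver x a).Nonempty :=
  ctx_elim x hx fun hgen _ => by
    have := fibre_nonempty_ctx (K := K) (F := F) a
    rwa [hgen] at this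

theorem sum_ord_placesOver (a : K) :
    ∑ v ∈ (placesOver_finite x hx a).toFinset, v.ord (x - algebraMap K F a) =
      (Module.finrank K⟮x⟯ F : ℤ) :=
  ctx_elim x hx fun hgen hrank => by
    have h := sum_ord_fibre_ctx (K := K) (F := F) a
    rw [hrank] at h
    rw [← h]
    refine Finset.sum_congr ?_ fun v _ => by rw [hgen]
    ext v
    simp only [Set.Finite.mem_toFinset, placesOver, Set.mem_ofPred_eq, hgen]

/-- Every place containing `x` in its valuation ring lies over some `a : K`. -/
theorem exists_mem_placesOver_of_mem (v : Place K F) (hv : x ∈ v.toValuationSubring) :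
    ∃ a : K, v ∈ placesOver x a :=
  ctx_elim x hx fun hgen _ => by
    have := exists_ord_genX_sub_pos (K := K) (F := F) v (hgen ▸ hv)
    rwa [hgen] at this

theorem deg_eq_one_of_mem (v : Place K F) (hv : x ∈ v.toValuationSubring) : v.deg = 1 :=
  ctx_elim x hx fun hgen _ => deg_eq_one_ctx (K := K) (F := F) v (hgen ▸ hv)

end Finite

section Infinity

variable (x : F) (hx : Transcendental K x) [FiniteDimensional K⟮x⟯ F]

include hx

theorem ne_zero_of_transcendental : x ≠ 0 := by
  rintro rfl
  exact hx (isAlgebraic_zero)

theorem placesOverInf_finite : (placesOverInf (K := K) x).Finite := by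
  haveI := finiteDimensional_congr_intermediateField (adjoin_simple_inv_eq (K := K) x).symm inferInstance
  rw [placesOverInf_eq (K := K) x]
  exact placesOver_finite x⁻¹ (transcendental_inv hx) 0

theorem placesOverInf_nonempty : (placesOverInf (K := K) x).Nonempty := by
  haveI := finiteDimensional_congr_intermediateField (adjoin_simple_inv_eq (K := K) x).symm inferInstance
  rw [placesOverInf_eq (K := K) x]
  exact placesOver_nonempty x⁻¹ (transcendental_inv hx) 0

theorem sum_ord_placesOverInf :
    ∑ v ∈ (placesOverInf_finite x hx).toFinset, (-v.ord x) = (Module.finrank K⟮x⟯ F : ℤ) := by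
  haveI := finiteDimensional_congr_intermediateField (adjoin_simple_inv_eq (K := K) x).symm inferInstance
  have h := sum_ord_placesOver x⁻¹ (transcendental_inv hx) (0 : K)
  rw [finrank_congr_intermediateField (adjoin_simple_inv_eq (K := K) x)] at h
  rw [← h]
  refine Finset.sum_congr ?_ fun v _ => by rw [map_zero, sub_zero, v.ord_inv]
  ext v
  simp only [Set.Finite.mem_toFinset, placesOverInf_eq (K := K) x]

theorem place_deg_eq_one (v : Place K F) : v.deg = 1 := by
  rcases v.toValuationSubring.mem_or_inv_mem x with h | h
  · exact deg_eq_one_of_mem x hx v h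
  · haveI := finiteDimensional_congr_intermediateField (adjoin_simple_inv_eq (K := K) x).symm inferInstance
    exact deg_eq_one_of_mem x⁻¹ (transcendental_inv hx) v h

theorem mem_placesOverInf_or_exists (v : Place K F) :
    v ∈ placesOverInf (K := K) x ∨ ∃ a : K, v ∈ placesOver x a := by
  by_cases h : v.ord x < 0
  · exact Or.inl h
  · right
    exact exists_mem_placesOver_of_mem x hx v
      (mem_of_ord_nonneg v (ne_zero_of_transcendental x hx) (not_lt.mp h))

end Infinity

end Fermat.Agent.FF
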