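import Mathlib
import Fermat.Prelude.Def_ModularCurve_CanonicalDivisor
import Fermat.Agent.FF.Interface2
import Fermat.Agent.FF.AFibres

/-!
# WP-A (item 66), part A4: Kähler differentials of a function field in one variable

For `K` of characteristic zero and `x : F` transcendental over `K` with `F / K(x)` finite,
`Ω[F⁄K]` is one-dimensional over `F`, generated by `D x`.
-/

set_option autoImplicit false
set_option linter.unusedSectionVars false
set_option linter.style.haveILetI false

open AlgebraicCurve Polynomial IsDedekindDomain IntermediateField KaehlerDifferential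
open scoped TensorProduct

noncomputable section

namespace Fermat.Agent.FF

section Ctx

variable {K F : Type*} [Field K] [Field F] [Algebra K F] [CharZero K]
variable [Algebra K[X] F] [IsScalarTower K K[X] F]
variable [Algebra (RatFunc K) F] [IsScalarTower K[X] (RatFunc K) F]
variable [FiniteDimensional (RatFunc K) F]

theorem formallyEtale_poly : Algebra.FormallyEtale K[X] F := by
  haveI : Algebra.FormallyEtale K[X] (RatFunc K) :=
    Algebra.FormallyEtale.of_isLocalization (nonZeroDivisors K[X])
  haveI : Algebra.FormallyEtale (RatFunc K) F := Algebra.FormallyEtale.of_isSeparable _ _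
  exact Algebra.FormallyEtale.comp K[X] (RatFunc K) F

/-- `Ω[F⁄K] ≃ F`, sending `D x` to `1`. -/
def kaehlerEquivCtx : Ω[F⁄K] ≃ₗ[F] F :=
  haveI := formallyEtale_poly (K := K) (F := F)
  (tensorKaehlerEquivOfFormallyEtale K K[X] F).symm ≪≫ₗ
    (LinearEquiv.baseChange K[X] F _ _ (polynomialEquiv K)) ≪≫ₗ
    (TensorProduct.AlgebraTensorModule.rid K[X] F F)

theorem kaehlerEquivCtx_D_genX : kaehlerEquivCtx (K := K) (F := F) (D K F (genX K F)) = 1 := by
  haveI := formallyEtale_poly (K := K) (F := F)
  unfold kaehlerEquivCtx genX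
  simp only [LinearEquiv.trans_apply]
  rw [tensorKaehlerEquivOfFormallyEtale_symm_D_algebraMap]
  simp

theorem D_genX_ne_zero : D K F (genX K F) ≠ 0 := by
  intro h
  have := kaehlerEquivCtx_D_genX (K := K) (F := F)
  rw [h, map_zero] at this
  exact zero_ne_one this

theorem span_D_genX : Submodule.span F {D K F (genX K F)} = ⊤ := by
  rw [eq_top_iff]
  rintro ω -
  rw [Submodule.mem_span_singleton]
  refine ⟨kaehlerEquivCtx ω, ?_⟩
  apply (kaehlerEquivCtx (K := K) (F := F)).injective
  rw [map_smul, kaehlerEquivCtx_D_genX, smul_eq_mul, mul_one]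

end Ctx

section Wrapper

variable {K F : Type*} [Field K] [Field F] [Algebra K F] [CharZero K]

theorem D_ne_zero_of_transcendental (x : F) (hx : Transcendental K x)
    [FiniteDimensional K⟮x⟯ F] : D K F x ≠ 0 :=
  ctx_elim x hx fun hgen _ => hgen ▸ D_genX_ne_zero (K := K) (F := F)

theorem span_D_eq_top (x : F) (hx : Transcendental K x) [FiniteDimensional K⟮x⟯ F] :
    Submodule.span F {D K F x} = ⊤ :=
  ctx_elim x hx fun hgen _ => hgen ▸ span_D_genX (K := K) (F := F)

end Wrapper

end Fermat.Agent.FF
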