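import Mathlib
import Fermat.Prelude.Def_ModularCurve_CanonicalDivisor
import Fermat.Agent.FF.Interface2
import Fermat.Agent.FF.AFibres
import Fermat.Agent.FF.ASeparation
import Fermat.Agent.FF.AKaehler

/-!
# WP-A (item 66), part A5: the derivation lemma

For a place `v` of a function field `F / K` in one variable (`K` algebraically closed of
characteristic zero) and a uniformizer `t` at `v`: `D t` generates `Ω[F⁄K]` and
`D f ∈ O_v • D t` for every `f ∈ O_v`.
-/

set_option autoImplicit false
set_option linter.unusedSectionVars false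
set_option linter.style.haveILetI false

open AlgebraicCurve Polynomial IsDedekindDomain IntermediateField KaehlerDifferential

noncomputable section

namespace Fermat.Agent.FF

section Uniformizer

variable {K F : Type*} [Field K] [Field F] [Algebra K F]

/-- An element of order one is (the image of) an irreducible element of `O_v`. -/
theorem exists_irreducible_of_ord_eq_one (v : Place K F) {t : F} (ht : v.ord t = 1) :
    ∃ t' : v.toValuationSubring, Irreducible t' ∧ (t' : F) = t := by
  have ht0 : t ≠ 0 := by
    rintro rfl
    rw [v.ord_zero] at ht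
    omega
  obtain ⟨π, hπ⟩ := IsDiscreteValuationRing.exists_irreducible v.toValuationSubring
  obtain ⟨u, hu⟩ := v.exists_unit_mul_zpow ht0 hπ
  rw [ht, zpow_one] at hu
  refine ⟨(u : v.toValuationSubring) * π, ?_, ?_⟩
  · exact (irreducible_units_mul u).mpr hπ
  · rw [hu]; rfl

/-- The prelude's `dCoord` is the differential of an irreducible element of `O_v`. -/
theorem exists_irreducible_dCoord_eq (v : Place K F) :
    ∃ π : v.toValuationSubring, Irreducible π ∧ v.dCoord = D K F (π : F) :=
  ⟨_, (IsDiscreteValuationRing.exists_irreducible v.toValuationSubring).choose_spec, rfl⟩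

/-- The prelude's `dCoord` is the differential of a uniformizer. -/
theorem exists_dCoord_eq (v : Place K F) : ∃ t : F, v.ord t = 1 ∧ v.dCoord = D K F t := by
  obtain ⟨π, hπ, h⟩ := exists_irreducible_dCoord_eq v
  exact ⟨π, v.ord_coe_irreducible hπ, h⟩

/-- Leibniz rule for integer powers. -/
theorem D_zpow (z : F) (hz : z ≠ 0) (k : ℤ) :
    D K F (z ^ k) = ((k : F) * z ^ (k - 1)) • D K F z := by
  induction k using Int.induction_on with
  | zero => simp
  | succ n ih =>
    have e1 : z ^ ((n : ℤ) + 1 - 1) = z ^ (n : ℤ) := by rw [add_sub_cancel_right]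
    have e2 : z ^ ((n : ℤ) - 1) = z ^ (n : ℤ) * z⁻¹ := zpow_sub_one₀ hz _
    rw [zpow_add_one₀ hz, Derivation.leibniz, ih, smul_smul, ← add_smul, e1, e2]
    congr 1
    push_cast
    field_simp
    ring
  | pred n ih =>
    have e1 : z ^ (-(n : ℤ) - 1) = z ^ (-(n : ℤ)) * z⁻¹ := zpow_sub_one₀ hz _
    have e2 : z ^ (-(n : ℤ) - 1 - 1) = z ^ (-(n : ℤ)) * z⁻¹ * z⁻¹ := by
      rw [zpow_sub_one₀ hz, zpow_sub_one₀ hz]
    rw [e2, e1, Derivation.leibniz, ih, e1, Derivation.leibniz_inv, smul_smul, smul_smul,
      ← add_smul]
    congr 1
    push_cast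
    field_simp
    ring

end Uniformizer

section DerivCtx

variable {K F : Type*} [Field K] [Field F] [Algebra K F] [CharZero K] [IsAlgClosed K]
variable [Algebra K[X] F] [IsScalarTower K K[X] F]
variable [Algebra (RatFunc K) F] [IsScalarTower K[X] (RatFunc K) F]
variable [FiniteDimensional (RatFunc K) F]

instance intB_finiteType : Algebra.FiniteType K (intB K F) :=
  Algebra.FiniteType.trans (S := K[X]) inferInstance inferInstance

/-- The valuation ring of a place containing `x` is essentially of finite type over `K`. -/
theorem essFiniteType_valuationSubring (v : Place K F) (hx : genX K F ∈ v.toValuationSubring) :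
    Algebra.EssFiniteType K v.toValuationSubring := by
  letI : Algebra (intB K F) v.toValuationSubring := (inclB v hx).toAlgebra
  haveI : IsScalarTower K (intB K F) v.toValuationSubring :=
    IsScalarTower.of_algebraMap_eq fun c => Subtype.ext (by
      show algebraMap K F c = ((inclB v hx (algebraMap K (intB K F) c) : v.toValuationSubring) : F)
      rw [coe_inclB]
      exact IsScalarTower.algebraMap_apply K (intB K F) F c)
  haveI : IsLocalization (center v hx).asIdeal.primeCompl v.toValuationSubring := by
    refine ⟨⟨?_, ?_, ?_⟩⟩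
    · rintro ⟨d, hd⟩
      by_contra hnu
      exact hd ((IsLocalRing.mem_maximalIdeal _).mpr hnu)
    · intro y
      have hy : (center v hx).valuation F (y : F) ≤ 1 := by
        have : (y : F) ∈ ((center v hx).valuation F).valuationSubring := by
          rw [valuationSubring_center]; exact y.2
        exact (Valuation.mem_valuationSubring_iff _ _).mp this
      obtain ⟨n, d, hnd⟩ :=
        HeightOneSpectrum.exists_primeCompl_mul_eq_of_integer (center v hx) (y : F) hy
      exact ⟨(n, d), Subtype.ext hnd⟩
    · intro a b hab
      refine ⟨1, ?_⟩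
      have : ((inclB v hx a : v.toValuationSubring) : F) = inclB v hx b := congrArg Subtype.val hab
      rw [coe_inclB, coe_inclB] at this
      simp only [OneMemClass.coe_one, one_mul]
      exact Subtype.ext this
  haveI : Algebra.EssFiniteType (intB K F) v.toValuationSubring :=
    Algebra.EssFiniteType.of_isLocalization _ (center v hx).asIdeal.primeCompl
  exact Algebra.EssFiniteType.comp K (intB K F) v.toValuationSubring

/-- Every element of `O_v` is a constant plus a multiple of the uniformizer. -/
theorem exists_eq_const_add_mul (v : Place K F) (hx : genX K F ∈ v.toValuationSubring)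
    (t : v.toValuationSubring) (ht : Irreducible t) (f : v.toValuationSubring) :
    ∃ (c : K) (f₁ : v.toValuationSubring), f = algebraMap K v.toValuationSubring c + t * f₁ := by
  obtain ⟨c, hc⟩ := residue_surjective_ctx v hx (IsLocalRing.residue _ f)
  have h1 : f - algebraMap K v.toValuationSubring c ∈
      IsLocalRing.maximalIdeal v.toValuationSubring := by
    rw [← IsLocalRing.residue_eq_zero_iff, map_sub, ← hc, sub_eq_zero]
    rfl
  rw [ht.maximalIdeal_eq, Ideal.mem_span_singleton'] at h1
  obtain ⟨f₁, hf₁⟩ := h1
  exact ⟨c, f₁, by rw [mul_comm, hf₁]; ring⟩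

/-- Nakayama: `Ω[O_v⁄K]` is generated by `D t` for a uniformizer `t`. -/
theorem span_D_uniformizer_ctx (v : Place K F) (hx : genX K F ∈ v.toValuationSubring)
    (t : v.toValuationSubring) (ht : Irreducible t) :
    Submodule.span v.toValuationSubring {D K v.toValuationSubring t} = ⊤ := by
  haveI := essFiniteType_valuationSubring v hx
  rw [eq_top_iff]
  refine Submodule.le_of_le_smul_of_le_jacobson_bot
    (I := IsLocalRing.maximalIdeal v.toValuationSubring)
    (Module.finite_def.mp inferInstance) ?_ ?_
  · exact (IsLocalRing.jacobson_eq_maximalIdeal ⊥ bot_ne_top).ge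
  · have h : ∀ f : v.toValuationSubring, D K v.toValuationSubring f ∈
        Submodule.span v.toValuationSubring {D K v.toValuationSubring t} ⊔
          IsLocalRing.maximalIdeal v.toValuationSubring •
            (⊤ : Submodule v.toValuationSubring Ω[v.toValuationSubring⁄K]) := by
      intro f
      obtain ⟨c, f₁, rfl⟩ := exists_eq_const_add_mul v hx t ht f
      rw [map_add, Derivation.map_algebraMap, zero_add, Derivation.leibniz]
      refine Submodule.add_mem_sup ?_ ?_ |> fun h => by rw [add_comm]; exact h
      · exact Submodule.smul_mem _ _ (Submodule.mem_span_singleton_self _)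
      · refine Submodule.smul_mem_smul ?_ Submodule.mem_top
        rw [ht.maximalIdeal_eq]
        exact Ideal.mem_span_singleton_self t
    intro ω _
    have hω : ω ∈ Submodule.span v.toValuationSubring
        (Set.range (D K v.toValuationSubring)) := by
      rw [span_range_derivation]; trivial
    exact Submodule.span_le.mpr (by rintro _ ⟨f, rfl⟩; exact h f) hω

/-- The derivation lemma, in context: `D f ∈ O_v • D t` for `f ∈ O_v`. -/
theorem exists_D_eq_smul_ctx (v : Place K F) (hx : genX K F ∈ v.toValuationSubring)
    (t : F) (ht : v.ord t = 1) (f : F) (hf : f ∈ v.toValuationSubring) :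
    ∃ g ∈ v.toValuationSubring, D K F f = g • D K F t := by
  obtain ⟨t', ht'irr, ht'⟩ := exists_irreducible_of_ord_eq_one v ht
  have h := span_D_uniformizer_ctx v hx t' ht'irr
  have hf' : D K v.toValuationSubring ⟨f, hf⟩ ∈
      Submodule.span v.toValuationSubring {D K v.toValuationSubring t'} := by
    rw [h]; trivial
  obtain ⟨g, hg⟩ := Submodule.mem_span_singleton.mp hf'
  refine ⟨g, g.2, ?_⟩
  have := congrArg (KaehlerDifferential.map K K v.toValuationSubring F) hg
  rw [map_smul, KaehlerDifferential.map_D, KaehlerDifferential.map_D] at this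
  rw [← ht']
  exact this.symm

end DerivCtx

section DerivWrapper

variable {K F : Type*} [Field K] [Field F] [Algebra K F] [CharZero K] [IsAlgClosed K]
variable (x : F) (hx : Transcendental K x) [FiniteDimensional K⟮x⟯ F]

include hx

/-- The derivation lemma for places containing `x`. -/
theorem exists_D_eq_smul_of_mem (v : Place K F) (hv : x ∈ v.toValuationSubring)
    (t : F) (ht : v.ord t = 1) (f : F) (hf : f ∈ v.toValuationSubring) :
    ∃ g ∈ v.toValuationSubring, D K F f = g • D K F t :=
  ctx_elim x hx fun hgen _ => exists_D_eq_smul_ctx (K := K) (F := F) v (hgen ▸ hv) t ht f hf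

/-- **Derivation lemma**: `D f ∈ O_v • D t` for `f ∈ O_v` and `t` a uniformizer at `v`. -/
theorem exists_D_eq_smul (v : Place K F) (t : F) (ht : v.ord t = 1) (f : F)
    (hf : f ∈ v.toValuationSubring) : ∃ g ∈ v.toValuationSubring, D K F f = g • D K F t := by
  rcases v.toValuationSubring.mem_or_inv_mem x with h | h
  · exact exists_D_eq_smul_of_mem x hx v h t ht f hf
  · haveI := finiteDimensional_congr_intermediateField
      (adjoin_simple_inv_eq (K := K) x).symm inferInstance
    exact exists_D_eq_smul_of_mem x⁻¹ (transcendental_inv hx) v h t ht f hf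

/-- The differential of a uniformizer is nonzero. -/
theorem D_uniformizer_ne_zero (v : Place K F) (t : F) (ht : v.ord t = 1) : D K F t ≠ 0 := by
  intro h0
  rcases v.toValuationSubring.mem_or_inv_mem x with h | h
  · obtain ⟨g, -, hg⟩ := exists_D_eq_smul x hx v t ht x h
    rw [h0, smul_zero] at hg
    exact D_ne_zero_of_transcendental x hx hg
  · haveI := finiteDimensional_congr_intermediateField
      (adjoin_simple_inv_eq (K := K) x).symm inferInstance
    obtain ⟨g, -, hg⟩ := exists_D_eq_smul x hx v t ht x⁻¹ h
    rw [h0, smul_zero] at hg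
    exact D_ne_zero_of_transcendental x⁻¹ (transcendental_inv hx) hg

/-- The differential of a uniformizer generates `Ω[F⁄K]`. -/
theorem span_D_uniformizer (v : Place K F) (t : F) (ht : v.ord t = 1) :
    Submodule.span F {D K F t} = ⊤ := by
  have h1 := span_D_eq_top (K := K) x hx
  have h2 : D K F x ∈ Submodule.span F {D K F t} := by
    have : D K F t ∈ Submodule.span F {D K F x} := by rw [h1]; trivial
    obtain ⟨c, hc⟩ := Submodule.mem_span_singleton.mp this
    have hc0 : c ≠ 0 := by
      rintro rfl
      rw [zero_smul] at hc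
      exact D_uniformizer_ne_zero x hx v t ht hc.symm
    rw [Submodule.mem_span_singleton]
    exact ⟨c⁻¹, by rw [← hc, smul_smul, inv_mul_cancel₀ hc0, one_smul]⟩
  rw [eq_top_iff, ← h1, Submodule.span_le, Set.singleton_subset_iff]
  exact h2

theorem nontrivial_kaehler : Nontrivial Ω[F⁄K] :=
  ⟨⟨D K F x, 0, D_ne_zero_of_transcendental x hx⟩⟩

/-- the prelude's local coordinate differential generates, at every place -/
theorem dCoordGenerates (v : Place K F) : v.DCoordGenerates := by
  obtain ⟨t, ht, hd⟩ := exists_dCoord_eq v
  exact ⟨by rw [hd]; exact span_D_uniformizer x hx v t ht⟩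

/-- **Local computation**: for `z` with `ord_v z ≠ 0`, the order of `D z` at `v` is
`ord_v z - 1` (characteristic zero). -/
theorem ordDifferential_D (v : Place K F) (z : F) (hz : v.ord z ≠ 0) :
    v.ordDifferential (D K F z) = v.ord z - 1 := by
  haveI := dCoordGenerates x hx v
  haveI := nontrivial_kaehler x hx
  have hz0 : z ≠ 0 := by
    rintro rfl
    exact hz v.ord_zero
  obtain ⟨π, hπ, hd⟩ := exists_irreducible_dCoord_eq v
  have hπ0 : (π : F) ≠ 0 := by
    intro h
    have := v.ord_coe_irreducible hπ
    rw [h, v.ord_zero] at this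
    omega
  obtain ⟨u, hu⟩ := v.exists_unit_mul_zpow hz0 hπ
  obtain ⟨g, hg, hDu⟩ := exists_D_eq_smul x hx v (π : F) (v.ord_coe_irreducible hπ)
    ((u : v.toValuationSubring) : F) (u : v.toValuationSubring).2
  set k : ℤ := v.ord z with hk
  -- the unit `k u + π g`
  have hkK : ((k : K)) ≠ 0 := by exact_mod_cast hz
  have hunit1 : IsUnit (algebraMap K v.toValuationSubring (k : K) * (u : v.toValuationSubring)) :=
    ((IsUnit.mk0 _ hkK).map (algebraMap K v.toValuationSubring)).mul u.isUnit
  have hunit : IsUnit (algebraMap K v.toValuationSubring (k : K) * (u : v.toValuationSubring)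
      + π * ⟨g, hg⟩) := by
    by_contra hnu
    have h1 : algebraMap K v.toValuationSubring (k : K) * (u : v.toValuationSubring)
        + π * ⟨g, hg⟩ ∈ IsLocalRing.maximalIdeal v.toValuationSubring :=
      (IsLocalRing.mem_maximalIdeal _).mpr hnu
    have h2 : π * ⟨g, hg⟩ ∈ IsLocalRing.maximalIdeal v.toValuationSubring := by
      rw [hπ.maximalIdeal_eq]
      exact Ideal.mul_mem_right _ _ (Ideal.mem_span_singleton_self π)
    have h3 := Ideal.sub_mem _ h1 h2
    rw [add_sub_cancel_right] at h3
    exact (IsLocalRing.mem_maximalIdeal _).mp h3 hunit1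
  obtain ⟨w, hw⟩ := hunit
  have hwF : ((w : v.toValuationSubring) : F) = (k : F) * (u : v.toValuationSubring) + π * g := by
    rw [hw]
    push_cast
    rw [Place.coe_algebraMap]
    simp
  have hcoef : D K F z = (((w : v.toValuationSubring) : F) * (π : F) ^ (k - 1)) • v.dCoord := by
    rw [hd, hwF]
    conv_lhs => rw [hu]
    rw [Derivation.leibniz, D_zpow (π : F) hπ0, hDu, smul_smul, smul_smul, ← add_smul]
    congr 1
    have e : (π : F) ^ k = (π : F) ^ (k - 1) * π := by
      rw [← zpow_add_one₀ hπ0, sub_add_cancel]
    rw [e]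
    ring
  rw [Place.ordDifferential, v.differentialCoeff_unique hcoef]
  exact v.ord_unit_smul_zpow w hπ (k - 1)

end DerivWrapper

end Fermat.Agent.FF
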