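import Mathlib
import Fermat.Agent.FF.Interface2
import Fermat.Agent.FF.AFibres

/-!
# WP-A (item 66): `F / K(h)` is finite for every transcendental `h`

If `F / K(x)` is finite for one transcendental `x`, then it is finite for every transcendental
`h : F` (transcendence degree one + finite generation).
-/

set_option autoImplicit false
set_option linter.unusedSectionVars false
set_option linter.style.haveILetI false

open AlgebraicCurve Polynomial IsDedekindDomain IntermediateField

noncomputable section

namespace Fermat.Agent.FF

section Ctx

universe u v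

variable {K : Type u} {F : Type v} [Field K] [Field F] [Algebra K F] [CharZero K]
variable [Algebra K[X] F] [IsScalarTower K K[X] F]
variable [Algebra (RatFunc K) F] [IsScalarTower K[X] (RatFunc K) F]
variable [FiniteDimensional (RatFunc K) F]

theorem essFiniteType_ctx : Algebra.EssFiniteType K F := by
  haveI : Algebra.EssFiniteType K[X] (RatFunc K) :=
    Algebra.EssFiniteType.of_isLocalization _ (nonZeroDivisors K[X])
  haveI : Algebra.EssFiniteType K[X] F := Algebra.EssFiniteType.comp K[X] (RatFunc K) F
  exact Algebra.EssFiniteType.comp K K[X] F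

theorem trdeg_le_one_ctx : Algebra.trdeg K F ≤ 1 := by
  haveI : Algebra.IsAlgebraic K[X] F :=
    (IsFractionRing.comap_isAlgebraic_iff (A := K[X]) (K := RatFunc K) (C := F)).mpr inferInstance
  have h : Cardinal.lift.{v} (Algebra.trdeg K K[X]) + Cardinal.lift.{u} (Algebra.trdeg K[X] F) =
      Cardinal.lift.{u} (Algebra.trdeg K F) := lift_trdeg_add_eq K K[X] F
  rw [trdeg_eq_zero (R := K[X]) (A := F), Polynomial.trdeg_of_isDomain] at h
  simp only [Cardinal.lift_one, Cardinal.lift_zero, add_zero] at h
  have h' : Algebra.trdeg K F = 1 := Cardinal.lift_eq_one.mp h.symm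
  exact h'.le

theorem finiteDimensional_adjoin_ctx (h : F) (hh : Transcendental K h) :
    FiniteDimensional K⟮h⟯ F := by
  have hind : AlgebraicIndependent K (fun _ : Unit => h) :=
    (algebraicIndependent_unique_type_iff (R := K) (x := fun _ : Unit => h)).mpr hh
  have hbasis : IsTranscendenceBasis K (fun _ : Unit => h) :=
    hind.isTranscendenceBasis_of_lift_trdeg_le_of_finite (by
      rw [Cardinal.lift_uzero, Cardinal.mk_unit, Cardinal.lift_one]
      exact trdeg_le_one_ctx (K := K) (F := F))
  have halg := hbasis.isAlgebraic_field
  rw [Set.range_const] at halg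
  haveI := essFiniteType_ctx (K := K) (F := F)
  haveI : Algebra.EssFiniteType K⟮h⟯ F := Algebra.EssFiniteType.of_comp K K⟮h⟯ F
  exact Algebra.finite_of_essFiniteType_of_isAlgebraic

end Ctx

section Wrapper

variable {K F : Type*} [Field K] [Field F] [Algebra K F] [CharZero K]

/-- If `F / K(x)` is finite for one transcendental `x`, it is finite for all of them. -/
theorem finiteDimensional_of_transcendental (x : F) (hx : Transcendental K x)
    [FiniteDimensional K⟮x⟯ F] (h : F) (hh : Transcendental K h) :
    FiniteDimensional K⟮h⟯ F :=
  ctx_elim x hx fun _ _ => finiteDimensional_adjoin_ctx (K := K) (F := F) h hh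

end Wrapper

end Fermat.Agent.FF
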