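import Mathlib
import Fermat.Prelude.Def_ModularCurve_CanonicalDivisor
import Fermat.Agent.FF.Interface2
import Fermat.Agent.FF.AFibres
import Fermat.Agent.FF.ASeparation
import Fermat.Agent.FF.AKaehler
import Fermat.Agent.FF.AFinite
import Fermat.Agent.FF.ADeriv

/-!
# WP-A (item 66): principal divisors have degree zero; the Riemann–Hurwitz degree formula

`rhStatement : RHStatement K F` for `K` algebraically closed of characteristic zero.
-/

set_option autoImplicit false
set_option linter.unusedSectionVars false
set_option linter.style.haveILetI false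

open AlgebraicCurve Polynomial IsDedekindDomain IntermediateField KaehlerDifferential

noncomputable section

namespace Fermat.Agent.FF

variable {K F : Type*} [Field K] [Field F] [Algebra K F] [CharZero K] [IsAlgClosed K]

section Principal

/-- An element of `F` algebraic over the algebraically closed field `K` is a constant. -/
theorem exists_algebraMap_eq_of_isAlgebraic {h : F} (hh : IsAlgebraic K h) :
    ∃ c : K, algebraMap K F c = h := by
  have hint : IsIntegral K h := hh.isIntegral
  have hdeg := IsAlgClosed.degree_eq_one_of_irreducible K (minpoly.irreducible hint)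
  exact minpoly.mem_range_of_degree_eq_one K h hdeg

variable (x : F) (hx : Transcendental K x) [FiniteDimensional K⟮x⟯ F]

include hx

/-- The support of the divisor of `h` is finite. -/
theorem ord_support_finite (h : F) : {v : Place K F | v.ord h ≠ 0}.Finite := by
  by_cases hh : IsAlgebraic K h
  · obtain ⟨c, rfl⟩ := exists_algebraMap_eq_of_isAlgebraic hh
    convert Set.finite_empty
    ext v
    simp [ord_algebraMap]
  · haveI := finiteDimensional_of_transcendental x hx h hh
    refine ((placesOver_finite h hh 0).union (placesOverInf_finite (K := K) h hh)).subset ?_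
    intro v hv
    simp only [Set.mem_ofPred_eq] at hv
    rcases lt_or_gt_of_ne hv with h1 | h1
    · exact Or.inr h1
    · left
      show 0 < v.ord (h - algebraMap K F 0)
      rwa [map_zero, sub_zero]

/-- **Principal divisors have degree zero.** -/
theorem sum_ord_eq_zero (h : F) (T : Finset (Place K F)) (hT : ∀ v, v.ord h ≠ 0 → v ∈ T) :
    ∑ v ∈ T, v.ord h = 0 := by
  classical
  by_cases hh : IsAlgebraic K h
  · obtain ⟨c, rfl⟩ := exists_algebraMap_eq_of_isAlgebraic hh
    exact Finset.sum_eq_zero fun v _ => ord_algebraMap v c
  · haveI := finiteDimensional_of_transcendental x hx h hh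
    have hP := sum_ord_placesOver h hh (0 : K)
    have hN := sum_ord_placesOverInf (K := K) h hh
    set P := (placesOver_finite h hh (0 : K)).toFinset with hPdef
    set N := (placesOverInf_finite (K := K) h hh).toFinset with hNdef
    have hmemP : ∀ v, v ∈ P ↔ 0 < v.ord h := by
      intro v
      rw [hPdef, Set.Finite.mem_toFinset]
      show 0 < v.ord (h - algebraMap K F 0) ↔ _
      rw [map_zero, sub_zero]
    have hmemN : ∀ v, v ∈ N ↔ v.ord h < 0 := by
      intro v
      rw [hNdef, Set.Finite.mem_toFinset]
      rfl
    have hdisj : Disjoint P N := by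
      rw [Finset.disjoint_left]
      intro v h1 h2
      have := (hmemP v).mp h1
      have := (hmemN v).mp h2
      omega
    have hsub : P ∪ N ⊆ T := by
      intro v hv
      rcases Finset.mem_union.mp hv with h1 | h1
      · exact hT v (by have := (hmemP v).mp h1; omega)
      · exact hT v (by have := (hmemN v).mp h1; omega)
    rw [← Finset.sum_subset hsub (fun v _ hv => by
      by_contra h0
      apply hv
      rcases lt_or_gt_of_ne h0 with h1 | h1
      · exact Finset.mem_union_right _ ((hmemN v).mpr h1)
      · exact Finset.mem_union_left _ ((hmemP v).mpr h1)), Finset.sum_union hdisj]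
    have hP' : ∑ v ∈ P, v.ord h = (Module.finrank K⟮h⟯ F : ℤ) := by
      rw [← hP]
      refine Finset.sum_congr rfl fun v _ => by rw [map_zero, sub_zero]
    have hN' : ∑ v ∈ N, v.ord h = -(Module.finrank K⟮h⟯ F : ℤ) := by
      rw [← hN, ← Finset.sum_neg_distrib]
      refine Finset.sum_congr rfl fun v _ => by ring
    rw [hP', hN']
    ring

end Principal

section RH

variable (x : F) (hx : Transcendental K x) [FiniteDimensional K⟮x⟯ F]

include hx

theorem differentialCoeff_D_ne_zero (v : Place K F) : v.differentialCoeff (D K F x) ≠ 0 := by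
  haveI := dCoordGenerates x hx v
  intro h0
  have := v.differentialCoeff_smul_dCoord (D K F x)
  rw [h0, zero_smul] at this
  exact D_ne_zero_of_transcendental x hx this.symm

theorem ordDifferential_D_of_mem_placesOver (a : K) (v : Place K F) (hv : v ∈ placesOver x a) :
    v.ordDifferential (D K F x) = v.ord (x - algebraMap K F a) - 1 := by
  have hv' : 0 < v.ord (x - algebraMap K F a) := hv
  have h := ordDifferential_D x hx v (x - algebraMap K F a) (ne_of_gt hv')
  rwa [map_sub, Derivation.map_algebraMap, sub_zero] at h

theorem ordDifferential_D_of_mem_placesOverInf (v : Place K F)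
    (hv : v ∈ placesOverInf (K := K) x) :
    v.ordDifferential (D K F x) = v.ord x - 1 := by
  have hv' : v.ord x < 0 := hv
  exact ordDifferential_D x hx v x (ne_of_lt hv')

theorem sum_ordDifferential_placesOver (a : K) :
    ∑ v ∈ (placesOver_finite x hx a).toFinset, v.ordDifferential (D K F x) =
      (Module.finrank K⟮x⟯ F : ℤ) - (Nat.card (placesOver x a) : ℤ) := by
  rw [← sum_ord_placesOver x hx a, Nat.card_coe_set_eq,
    Set.ncard_eq_toFinset_card _ (placesOver_finite x hx a), Finset.card_eq_sum_ones,
    Nat.cast_sum, ← Finset.sum_sub_distrib]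
  refine Finset.sum_congr rfl fun v hv => ?_
  rw [ordDifferential_D_of_mem_placesOver x hx a v ((Set.Finite.mem_toFinset _).mp hv)]
  simp

theorem sum_ordDifferential_placesOverInf :
    ∑ v ∈ (placesOverInf_finite (K := K) x hx).toFinset, v.ordDifferential (D K F x) =
      -(Module.finrank K⟮x⟯ F : ℤ) - (Nat.card (placesOverInf (K := K) x) : ℤ) := by
  rw [← sum_ord_placesOverInf x hx, Nat.card_coe_set_eq,
    Set.ncard_eq_toFinset_card _ (placesOverInf_finite (K := K) x hx), Finset.card_eq_sum_ones,
    Nat.cast_sum, ← Finset.sum_neg_distrib, ← Finset.sum_sub_distrib]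
  refine Finset.sum_congr rfl fun v hv => ?_
  rw [ordDifferential_D_of_mem_placesOverInf x hx v ((Set.Finite.mem_toFinset _).mp hv)]
  simp

/-- **Riemann–Hurwitz degree formula.** -/
theorem rh_degree (B : Finset K)
    (hB : ∀ a, a ∉ B → ∀ v : Place K F, 0 < v.ord (x - algebraMap K F a) →
      v.ord (x - algebraMap K F a) = 1)
    (ω : Ω[F⁄K]) (hω : ω ≠ 0) (D' : Divisor K F) (hD : ∀ v, D' v = v.ordDifferential ω) :
    Divisor.degree D'
      = -(Module.finrank K⟮x⟯ F : ℤ) - (Nat.card (placesOverInf (K := K) x) : ℤ)
        + ∑ a ∈ B, ((Module.finrank K⟮x⟯ F : ℤ) - (Nat.card (placesOver x a) : ℤ)) := by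
  classical
  haveI := nontrivial_kaehler x hx
  -- ω = h • D x
  have hmem : ω ∈ Submodule.span F {D K F x} := by
    rw [span_D_eq_top (K := K) x hx]; trivial
  obtain ⟨h, rfl⟩ := Submodule.mem_span_singleton.mp hmem
  have hh : h ≠ 0 := by
    rintro rfl
    exact hω (zero_smul _ _)
  have key : ∀ v : Place K F, D' v = v.ord h + v.ordDifferential (D K F x) := by
    intro v
    haveI := dCoordGenerates x hx v
    rw [hD v, v.ordDifferential_smul hh (differentialCoeff_D_ne_zero x hx v)]
  -- the finite sets
  set fib : K → Finset (Place K F) := fun a => (placesOver_finite x hx a).toFinset with hfib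
  set fibInf : Finset (Place K F) := (placesOverInf_finite (K := K) x hx).toFinset with hfibInf
  set T' : Finset (Place K F) := (B.biUnion fib) ∪ fibInf with hT'
  set Sh : Finset (Place K F) := (ord_support_finite x hx h).toFinset with hSh
  set T : Finset (Place K F) := D'.support ∪ Sh ∪ T' with hT
  have hdeg : Divisor.degree D' = ∑ v ∈ D'.support, D' v := by
    unfold Divisor.degree
    rw [Finsupp.liftAddHom_apply, Finsupp.sum]
    refine Finset.sum_congr rfl fun v _ => ?_
    rw [AddMonoidHom.coe_mulRight, place_deg_eq_one x hx v]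
    simp
  have h1 : ∑ v ∈ D'.support, D' v = ∑ v ∈ T, D' v := by
    refine Finset.sum_subset ?_ ?_
    · intro v hv
      exact Finset.mem_union_left _ (Finset.mem_union_left _ hv)
    · intro v _ hv
      exact Finsupp.notMem_support_iff.mp hv
  have h2 : ∑ v ∈ T, v.ord h = 0 := by
    refine sum_ord_eq_zero x hx h T fun v hv => ?_
    exact Finset.mem_union_left _ (Finset.mem_union_right _
      ((Set.Finite.mem_toFinset _).mpr hv))
  have h3 : ∑ v ∈ T, v.ordDifferential (D K F x) = ∑ v ∈ T', v.ordDifferential (D K F x) := by
    symm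
    refine Finset.sum_subset (Finset.subset_union_right) ?_
    intro v _ hv
    rcases mem_placesOverInf_or_exists x hx v with hinf | ⟨a, ha⟩
    · exact absurd (Finset.mem_union_right _ ((Set.Finite.mem_toFinset _).mpr hinf)) hv
    · have haB : a ∉ B := by
        intro haB
        apply hv
        refine Finset.mem_union_left _ (Finset.mem_biUnion.mpr ⟨a, haB, ?_⟩)
        exact (Set.Finite.mem_toFinset _).mpr ha
      rw [ordDifferential_D_of_mem_placesOver x hx a v ha, hB a haB v ha]
      ring
  have h4 : ∑ v ∈ T', v.ordDifferential (D K F x) =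
      ∑ a ∈ B, ∑ v ∈ fib a, v.ordDifferential (D K F x) +
        ∑ v ∈ fibInf, v.ordDifferential (D K F x) := by
    rw [hT', Finset.sum_union, Finset.sum_biUnion]
    · intro a _ b _ hab
      show Disjoint (fib a) (fib b)
      rw [Finset.disjoint_left]
      intro v hva hvb
      exact hab (placesOver_disjoint x v ((Set.Finite.mem_toFinset _).mp hva)
        ((Set.Finite.mem_toFinset _).mp hvb))
    · rw [Finset.disjoint_left]
      intro v hv hvinf
      obtain ⟨a, -, hva⟩ := Finset.mem_biUnion.mp hv
      exact placesOver_inf_disjoint x v ((Set.Finite.mem_toFinset _).mp hva)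
        ((Set.Finite.mem_toFinset _).mp hvinf)
  rw [hdeg, h1, Finset.sum_congr rfl (fun v _ => key v), Finset.sum_add_distrib, h2, zero_add,
    h3, h4, sum_ordDifferential_placesOverInf x hx,
    Finset.sum_congr rfl (fun a _ => sum_ordDifferential_placesOver x hx a)]
  ring

end RH

section Final

variable (K F)

/-- **WP-A deliverable**: the Riemann–Hurwitz statement of the S24 interface. -/
theorem rhStatement : RHStatement K F := by
  intro x hx hfin
  haveI := hfin
  exact ⟨⟨D K F x, D_ne_zero_of_transcendental x hx⟩,
    fun B hB ω hω D' hD => rh_degree x hx B hB ω hω D' hD⟩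

end Final

end Fermat.Agent.FF
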