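import Mathlib

/-!
# S24 WP-C (item 68), part 1: the analytic `j`-function

`jFun τ = E₄ τ ^ 3 / Δ τ` on the upper half plane: holomorphic, `SL(2,ℤ)`-invariant,
`jFun - 1728 = E₆ ^ 2 / Δ`, `‖jFun‖ → ∞` at `i∞`, and `jFun` is surjective.
-/

set_option autoImplicit false

open UpperHalfPlane ModularForm EisensteinSeries Filter Topology Complex
open scoped MatrixGroups Manifold Modular

namespace Fermat.Agent.FF

local notation "Δ" => ModularForm.discriminant

/-- The analytic `j`-invariant `E₄³/Δ` on the upper half plane. -/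
noncomputable def jFun (τ : ℍ) : ℂ := E₄ τ ^ 3 / Δ τ

theorem jFun_def (τ : ℍ) : jFun τ = E₄ τ ^ 3 / Δ τ := rfl

theorem jFun_mul_discriminant (τ : ℍ) : jFun τ * Δ τ = E₄ τ ^ 3 := by
  rw [jFun, div_mul_cancel₀ _ (discriminant_ne_zero τ)]

theorem jFun_sub_1728 (τ : ℍ) : jFun τ - 1728 = E₆ τ ^ 2 / Δ τ := by
  have h := discriminant_eq_E₄_cube_sub_E₆_sq τ
  have hΔ := discriminant_ne_zero τ
  rw [jFun]
  field_simp
  rw [h]
  ring

theorem jFun_eq_zero_iff (τ : ℍ) : jFun τ = 0 ↔ E₄ τ = 0 := by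
  rw [jFun, div_eq_zero_iff]
  simp [discriminant_ne_zero τ]

theorem jFun_eq_1728_iff (τ : ℍ) : jFun τ = 1728 ↔ E₆ τ = 0 := by
  rw [← sub_eq_zero, jFun_sub_1728, div_eq_zero_iff]
  simp [discriminant_ne_zero τ]

theorem mdiff_discriminant : MDiff (Δ : ℍ → ℂ) := ModularFormClass.holo CuspForm.discriminant

theorem mdiff_jFun : MDiff jFun := by
  rw [UpperHalfPlane.mdifferentiable_iff]
  have h4 := UpperHalfPlane.mdifferentiable_iff.mp (ModularFormClass.holo E₄)
  have hΔ := UpperHalfPlane.mdifferentiable_iff.mp mdiff_discriminant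
  have : (jFun ∘ ofComplex) = fun z => (E₄ ∘ ofComplex) z ^ 3 / ((Δ : ℍ → ℂ) ∘ ofComplex) z := rfl
  rw [this]
  exact (h4.pow 3).div hΔ (fun z _ => discriminant_ne_zero _)

theorem jFun_smul (γ : SL(2, ℤ)) (τ : ℍ) : jFun (γ • τ) = jFun τ := by
  have hγ : (Matrix.SpecialLinearGroup.mapGL ℝ γ) ∈ 𝒮ℒ := ⟨γ, rfl⟩
  have h4 := SlashInvariantForm.slash_action_eqn'' E₄ hγ τ
  have hΔ := SlashInvariantForm.slash_action_eqn'' CuspForm.discriminant hγ τ
  have hd : denom (Matrix.SpecialLinearGroup.mapGL ℝ γ) τ ≠ 0 := denom_ne_zero _ _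
  have e : (Matrix.SpecialLinearGroup.mapGL ℝ γ) • τ = γ • τ := rfl
  rw [e] at h4 hΔ
  rw [jFun, jFun, h4]
  have hΔ' : Δ (γ • τ) = denom (Matrix.SpecialLinearGroup.mapGL ℝ γ) τ ^ (12:ℤ) * Δ τ := hΔ
  rw [hΔ']
  have hΔ0 := discriminant_ne_zero τ
  field_simp

/-- A level-one modular form tends to its constant `q`-coefficient at `i∞`. -/
theorem tendsto_atImInfty_levelOne {k : ℤ} (f : ModularForm 𝒮ℒ k) :
    Tendsto (f : ℍ → ℂ) atImInfty (𝓝 ((qExpansion 1 f).coeff 0)) := by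
  have han := ModularFormClass.analyticAt_cuspFunction_zero f one_pos one_mem_strictPeriods_SL
  have h0 : (qExpansion 1 f).coeff 0 = cuspFunction 1 f 0 := by
    simp [qExpansion_coeff]
  rw [h0]
  have h1 := han.continuousAt.tendsto.comp (qParam_tendsto_atImInfty one_pos)
  refine h1.congr fun τ => ?_
  exact SlashInvariantFormClass.eq_cuspFunction f τ one_mem_strictPeriods_SL one_ne_zero

theorem tendsto_E₄_atImInfty : Tendsto (E₄ : ℍ → ℂ) atImInfty (𝓝 1) := by
  have := tendsto_atImInfty_levelOne E₄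
  rwa [E_qExpansion_coeff_zero _ ⟨2, rfl⟩] at this

theorem tendsto_E₆_atImInfty : Tendsto (E₆ : ℍ → ℂ) atImInfty (𝓝 1) := by
  have := tendsto_atImInfty_levelOne E₆
  rwa [E_qExpansion_coeff_zero _ ⟨3, rfl⟩] at this

theorem tendsto_norm_jFun_atImInfty : Tendsto (fun τ => ‖jFun τ‖) atImInfty atTop := by
  have h1 : Tendsto (fun τ : ℍ => ‖E₄ τ ^ 3‖) atImInfty (𝓝 1) := by
    have := (tendsto_E₄_atImInfty.pow 3).norm
    simpa using this
  have h2 : Tendsto (fun τ : ℍ => ‖Δ τ‖⁻¹) atImInfty atTop := by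
    have hΔ : Tendsto (fun τ : ℍ => ‖Δ τ‖) atImInfty (𝓝[>] 0) := by
      rw [tendsto_nhdsWithin_iff]
      refine ⟨?_, Eventually.of_forall fun τ => norm_pos_iff.mpr (discriminant_ne_zero τ)⟩
      have := (discriminant_isZeroAtImInfty : Tendsto _ _ _).norm
      simpa using this
    exact tendsto_inv_nhdsGT_zero.comp hΔ
  have h3 := h2.atTop_mul_pos one_pos h1
  refine h3.congr fun τ => ?_
  rw [jFun, norm_div, div_eq_inv_mul]

theorem isOpen_range_jFun : IsOpen (Set.range jFun) := by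
  have hd : DifferentiableOn ℂ (jFun ∘ ofComplex) upperHalfPlaneSet :=
    UpperHalfPlane.mdifferentiable_iff.mp mdiff_jFun
  have han : AnalyticOnNhd ℂ (jFun ∘ ofComplex) upperHalfPlaneSet :=
    hd.analyticOnNhd isOpen_upperHalfPlaneSet
  have hpre : IsPreconnected upperHalfPlaneSet := (convex_halfSpace_im_gt 0).isPreconnected
  have hrange : Set.range jFun = (jFun ∘ ofComplex) '' upperHalfPlaneSet := by
    ext w
    constructor
    · rintro ⟨τ, rfl⟩
      exact ⟨(τ : ℂ), τ.im_pos, by simp⟩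
    · rintro ⟨z, hz, rfl⟩
      exact ⟨ofComplex z, rfl⟩
  rcases han.is_constant_or_isOpen hpre with ⟨w, hw⟩ | hopen
  · exfalso
    have h1 : ∀ τ : ℍ, jFun τ = w := fun τ => by
      have := hw (τ : ℂ) τ.im_pos
      simpa using this
    have h2 := tendsto_norm_jFun_atImInfty
    have h3 : Tendsto (fun τ : ℍ => ‖jFun τ‖) atImInfty (𝓝 ‖w‖) := by
      simp only [h1]
      exact tendsto_const_nhds
    exact not_tendsto_nhds_of_tendsto_atTop h2 _ h3
  · rw [hrange]
    exact hopen _ subset_rfl isOpen_upperHalfPlaneSet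

/-- the truncated fundamental domain, as a compact subset of `ℂ` -/
def fdBox (A : ℝ) : Set ℂ := {z | |z.re| ≤ 1 / 2 ∧ 1 / 2 ≤ z.im ∧ z.im ≤ A}

theorem isCompact_fdBox (A : ℝ) : IsCompact (fdBox A) := by
  have h : fdBox A = (Set.Icc (-(1/2) : ℝ) (1/2)) ×ℂ (Set.Icc (1/2 : ℝ) A) := by
    ext z
    simp only [fdBox, Set.mem_ofPred_eq, Complex.mem_reProdIm, Set.mem_Icc, abs_le]
  rw [h]
  exact isCompact_Icc.reProdIm isCompact_Icc

theorem fdBox_subset (A : ℝ) : fdBox A ⊆ upperHalfPlaneSet := by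
  intro z hz
  have : (0:ℝ) < z.im := lt_of_lt_of_le (by norm_num) hz.2.1
  exact this

theorem isClosed_range_jFun : IsClosed (Set.range jFun) := by
  have hd : DifferentiableOn ℂ (jFun ∘ ofComplex) upperHalfPlaneSet :=
    UpperHalfPlane.mdifferentiable_iff.mp mdiff_jFun
  rw [← closure_subset_iff_isClosed]
  intro w hw
  -- a bound beyond which `‖j‖ > ‖w‖ + 1`
  have hev := tendsto_norm_jFun_atImInfty.eventually (eventually_gt_atTop (‖w‖ + 1))
  rw [Filter.Eventually, atImInfty_mem] at hev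
  obtain ⟨A, hA⟩ := hev
  have hcomp : IsCompact ((jFun ∘ ofComplex) '' fdBox A) :=
    (isCompact_fdBox A).image_of_continuousOn (hd.continuousOn.mono (fdBox_subset A))
  have hsub : Set.range jFun ∩ Metric.ball w 1 ⊆ (jFun ∘ ofComplex) '' fdBox A := by
    rintro _ ⟨⟨τ, rfl⟩, hτ⟩
    obtain ⟨γ, hγ⟩ := ModularGroup.exists_smul_mem_fd τ
    have hj : jFun (γ • τ) = jFun τ := jFun_smul γ τ
    have hnorm : ‖jFun τ‖ < ‖w‖ + 1 := by
      have h1 : ‖jFun τ - w‖ < 1 := by simpa [dist_eq_norm] using hτ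
      have h2 : ‖jFun τ‖ ≤ ‖jFun τ - w‖ + ‖w‖ := by
        simpa using norm_add_le (jFun τ - w) w
      linarith
    have him : (γ • τ).im < A := by
      by_contra hcon
      have := hA (γ • τ) (not_lt.mp hcon)
      simp only [Set.mem_ofPred_eq] at this
      rw [hj] at this
      linarith
    refine ⟨((γ • τ : ℍ) : ℂ), ⟨hγ.2, ?_, him.le⟩, ?_⟩
    · have h3 := ModularGroup.three_le_four_mul_im_sq_of_mem_fd hγ
      have hpos := (γ • τ).im_pos
      show 1 / 2 ≤ (γ • τ).im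
      nlinarith
    · show jFun (ofComplex ((γ • τ : ℍ) : ℂ)) = jFun τ
      rw [ofComplex_apply, hj]
  have hw' : w ∈ closure (Set.range jFun ∩ Metric.ball w 1) := by
    rw [mem_closure_iff_nhds] at hw ⊢
    intro t ht
    have := hw (t ∩ Metric.ball w 1) (Filter.inter_mem ht (Metric.ball_mem_nhds w one_pos))
    obtain ⟨x, hx⟩ := this
    exact ⟨x, hx.1.1, hx.2, hx.1.2⟩
  have := closure_mono hsub hw'
  rw [hcomp.isClosed.closure_eq] at this
  obtain ⟨z, hz, rfl⟩ := this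
  exact ⟨ofComplex z, rfl⟩

theorem jFun_surjective : Function.Surjective jFun := by
  rw [← Set.range_eq_univ]
  exact IsClopen.eq_univ ⟨isClosed_range_jFun, isOpen_range_jFun⟩ (Set.range_nonempty _)

end Fermat.Agent.FF
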