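import Fermat.Agent.FF.AnalyticJDeriv

/-!
# S24 WP-C (item 68), part 4: packaged multiplicities of `j` (contract C3 of item 69)

* `jFun_order_generic`: `j - a` has a simple zero at every `τ₀` with `j τ₀ = a ∉ {0, 1728}`;
* `exists_ST_fixed_order_three`: there is a fixed point `τ₀` of `S T` with `j τ₀ = 0`, where `j`
  vanishes to order `3` (`τ₀ = ρ`);
* `exists_S_fixed_order_two`: there is a fixed point `τ₀` of `S` with `j τ₀ = 1728`, where
  `j - 1728` vanishes to order `2` (`τ₀ = i`).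
-/

set_option autoImplicit false

open UpperHalfPlane hiding I
open ModularForm EisensteinSeries Filter Topology Complex Function
open scoped MatrixGroups Manifold Modular Real

namespace Fermat.Agent.FF

/-- **C3 (i)**: away from `0` and `1728` the function `j` is unramified. -/
theorem jFun_order_generic {τ0 : ℍ} {a : ℂ} (h : jFun τ0 = a) (h0 : a ≠ 0) (h1 : a ≠ 1728) :
    analyticOrderAt (fun z => jFun (ofComplex z) - a) (τ0 : ℂ) = 1 := by
  subst h
  exact analyticOrderAt_jFun_sub h0 h1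

/-- **C3 (ii)**: `j` has a triple zero at a fixed point of `S T`. -/
theorem exists_ST_fixed_order_three :
    ∃ τ0 : ℍ, (ModularGroup.S * ModularGroup.T) • τ0 = τ0 ∧ jFun τ0 = 0 ∧
      analyticOrderAt (fun z => jFun (ofComplex z)) (τ0 : ℂ) = 3 :=
  ⟨UpperHalfPlane.ρ, ModularGroup.stabilizer_ρ.mpr (by simp), jFun_ρ,
    analyticOrderAt_jFun_of_eq_zero jFun_ρ⟩

/-- **C3 (iii)**: `j - 1728` has a double zero at a fixed point of `S`. -/
theorem exists_S_fixed_order_two :
    ∃ τ0 : ℍ, ModularGroup.S • τ0 = τ0 ∧ jFun τ0 = 1728 ∧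
      analyticOrderAt (fun z => jFun (ofComplex z) - 1728) (τ0 : ℂ) = 2 :=
  ⟨UpperHalfPlane.I, ModularGroup.stabilizer_I.mpr (by simp), jFun_I,
    analyticOrderAt_jFun_of_eq_1728 jFun_I⟩

/-- Every `τ₀` with `j τ₀ = 0` has order `3`; every `τ₀` with `j τ₀ = 1728` has order `2`
(restatement in the `fun z => …` form). -/
theorem jFun_order_zero {τ0 : ℍ} (h : jFun τ0 = 0) :
    analyticOrderAt (fun z => jFun (ofComplex z)) (τ0 : ℂ) = 3 :=
  analyticOrderAt_jFun_of_eq_zero h

theorem jFun_order_1728 {τ0 : ℍ} (h : jFun τ0 = 1728) :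
    analyticOrderAt (fun z => jFun (ofComplex z) - 1728) (τ0 : ℂ) = 2 :=
  analyticOrderAt_jFun_of_eq_1728 h

/-- Uniform statement: the order of `j - j(τ₀)` at `τ₀` is `3`, `2` or `1` according to
`j τ₀ = 0`, `j τ₀ = 1728`, or neither. -/
theorem jFun_order_eq (τ0 : ℍ) :
    analyticOrderAt (fun z => jFun (ofComplex z) - jFun τ0) (τ0 : ℂ) =
      if jFun τ0 = 0 then 3 else if jFun τ0 = 1728 then 2 else 1 := by
  split_ifs with h0 h1
  · rw [h0]
    simp only [sub_zero]
    exact analyticOrderAt_jFun_of_eq_zero h0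
  · rw [h1]
    exact analyticOrderAt_jFun_of_eq_1728 h1
  · exact analyticOrderAt_jFun_sub h0 h1

end Fermat.Agent.FF
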