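import Fermat.Agent.FF.AnalyticJ

/-!
# S24 WP-C (item 68), part 2: derivative of `j`, Ramanujan identities, multiplicities

* `ramanujan_E₄`, `ramanujan_E₆`: `D E₄ = (E₂E₄ - E₆)/3`, `D E₆ = (E₂E₆ - E₄²)/2`
  (`D = (2πi)⁻¹ d/dτ`), via the Serre derivative and `dim M₆ = dim M₈ = 1`.
* `D_jFun`: `D j = -E₄² E₆ / Δ`.
* `analyticOrderAt_jFun_of_eq_zero` (order 3), `analyticOrderAt_jFun_of_eq_1728` (order 2),
  `analyticOrderAt_jFun_sub` (order 1 elsewhere).
* `jFun_I : j(i) = 1728`, `jFun_ρ : j(ρ) = 0`.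
-/

set_option autoImplicit false

open UpperHalfPlane hiding I
open ModularForm EisensteinSeries Filter Topology Complex Function
open scoped MatrixGroups Manifold Modular Derivative Real

namespace Fermat.Agent.FF

local notation "Δ" => ModularForm.discriminant
local notation "𝕢" => Periodic.qParam


/-- If `f` has period one, is holomorphic and bounded at `i∞`, then `f` tends to the value of its
cusp function at `0`. -/
theorem tendsto_cuspFunction_zero {f : ℍ → ℂ} (hper : Periodic (f ∘ ofComplex) ((1 : ℝ) : ℂ))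
    (hhol : MDiff f) (hbdd : IsBoundedAtImInfty f) :
    Tendsto f atImInfty (𝓝 (cuspFunction 1 f 0)) := by
  have han := UpperHalfPlane.analyticAt_cuspFunction_zero one_pos hper hhol hbdd
  have h1 := han.continuousAt.tendsto.comp (qParam_tendsto_atImInfty one_pos)
  refine h1.congr fun τ => ?_
  exact UpperHalfPlane.eq_cuspFunction τ one_ne_zero hper

/-- `D f = q · G'(q)` where `G` is the cusp function. -/
theorem normalizedDeriv_eq_qParam_mul {f : ℍ → ℂ} (hper : Periodic (f ∘ ofComplex) ((1 : ℝ) : ℂ))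
    (hhol : MDiff f) (hbdd : IsBoundedAtImInfty f) (τ : ℍ) :
    D f τ = 𝕢 1 τ * deriv (cuspFunction 1 f) (𝕢 1 τ) := by
  have hq : ‖𝕢 1 (τ : ℂ)‖ < 1 := Periodic.norm_qParam_lt_one one_pos τ.im_pos
  have hG : HasDerivAt (cuspFunction 1 f) (deriv (cuspFunction 1 f) (𝕢 1 τ)) (𝕢 1 (τ : ℂ)) :=
    (UpperHalfPlane.differentiableAt_cuspFunction one_pos hper hhol hbdd hq).hasDerivAt
  have hqd : HasDerivAt (𝕢 1) (2 * π * I * 𝕢 1 (τ : ℂ)) (τ : ℂ) := by
    unfold Periodic.qParam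
    have h1 : HasDerivAt (fun w : ℂ => 2 * π * I * w / (1 : ℝ)) (2 * π * I) (τ : ℂ) := by
      have := ((hasDerivAt_id (τ : ℂ)).const_mul (2 * π * I))
      simpa using this
    have := h1.cexp
    simpa [mul_comm] using this
  have hcomp := hG.comp (τ : ℂ) hqd
  have heq : (f ∘ ofComplex) =ᶠ[𝓝 (τ : ℂ)] (cuspFunction 1 f ∘ 𝕢 1) := by
    filter_upwards [isOpen_upperHalfPlaneSet.mem_nhds τ.im_pos] with z hz
    have := UpperHalfPlane.eq_cuspFunction ⟨z, hz⟩ one_ne_zero hper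
    simp only [Function.comp_apply, ofComplex_apply_of_im_pos hz]
    exact this.symm
  have hd : deriv (f ∘ ofComplex) (τ : ℂ) = deriv (cuspFunction 1 f) (𝕢 1 τ) * (2 * π * I * 𝕢 1 τ) := by
    rw [heq.deriv_eq]
    exact hcomp.deriv
  rw [Derivative.normalizedDerivOfComplex, hd]
  have h2 : (2 * (π : ℂ) * I) ≠ 0 := by simp [Real.pi_ne_zero]
  field_simp

theorem isZeroAtImInfty_normalizedDeriv {f : ℍ → ℂ} (hper : Periodic (f ∘ ofComplex) ((1 : ℝ) : ℂ))
    (hhol : MDiff f) (hbdd : IsBoundedAtImInfty f) : IsZeroAtImInfty (D f) := by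
  have han := UpperHalfPlane.analyticAt_cuspFunction_zero one_pos hper hhol hbdd
  have hcont : ContinuousAt (deriv (cuspFunction 1 f)) 0 := han.deriv.continuousAt
  have h1 := hcont.tendsto.comp (qParam_tendsto_atImInfty one_pos)
  have h2 := (qParam_tendsto_atImInfty one_pos).mul h1
  rw [zero_mul] at h2
  refine h2.congr fun τ => ?_
  exact (normalizedDeriv_eq_qParam_mul hper hhol hbdd τ).symm

theorem periodic_E2 : Periodic (E2 ∘ ofComplex) ((1 : ℝ) : ℂ) := by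
  intro w
  by_cases hw : 0 < im w
  · have hw2 : 0 < im (w + ((1 : ℝ) : ℂ)) := by simp [hw]
    simp only [Function.comp_apply, ofComplex_apply_of_im_pos hw2,
      ofComplex_apply_of_im_pos hw]
    rw [E2_eq_tsum_cexp, E2_eq_tsum_cexp]
    have : cexp (2 * π * I * (w + ((1 : ℝ) : ℂ))) = cexp (2 * π * I * w) := by
      rw [mul_add, Complex.exp_add]
      simp
    simp only [this]
  · have hw' : im w ≤ 0 := not_lt.mp hw
    have hw2 : im (w + ((1 : ℝ) : ℂ)) ≤ 0 := by simpa using hw'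
    simp only [Function.comp_apply, ofComplex_apply_of_im_nonpos hw2,
      ofComplex_apply_of_im_nonpos hw']

/-- the `q`-coefficients of `E2` -/
noncomputable def e2Coeff (m : ℕ) : ℂ := if m = 0 then 1 else -24 * ArithmeticFunction.sigma 1 m

theorem hasSum_e2Coeff (τ : ℍ) : HasSum (fun m : ℕ ↦ e2Coeff m • 𝕢 1 τ ^ m) (E2 τ) := by
  simpa only [Function.Periodic.qParam, ofReal_one, div_one, e2Coeff] using
    hasSum_qExpansion_E2 (z := τ)

theorem analyticAt_cuspFunction_E2 : AnalyticAt ℂ (cuspFunction 1 E2) 0 :=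
  UpperHalfPlane.analyticAt_cuspFunction_zero one_pos periodic_E2 E2_mdifferentiable
    isBoundedAtImInfty_E2

theorem cuspFunction_E2_zero : cuspFunction 1 E2 0 = 1 := by
  have h := UpperHalfPlane.hasFPowerSeriesOnBall_cuspFunction one_pos analyticAt_cuspFunction_E2
    hasSum_e2Coeff
  have h2 := h.coeff_zero (fun _ => 0)
  rw [← h2]
  simp [FormalMultilinearSeries.ofScalars, e2Coeff]

theorem tendsto_E2_atImInfty : Tendsto E2 atImInfty (𝓝 1) := by
  have h := tendsto_cuspFunction_zero periodic_E2 E2_mdifferentiable isBoundedAtImInfty_E2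
  rwa [cuspFunction_E2_zero] at h

theorem periodic_levelOne {k : ℤ} (f : ModularForm 𝒮ℒ k) :
    Periodic ((f : ℍ → ℂ) ∘ ofComplex) ((1 : ℝ) : ℂ) :=
  SlashInvariantFormClass.periodic_comp_ofComplex f one_mem_strictPeriods_SL

theorem bdd_levelOne {k : ℤ} (f : ModularForm 𝒮ℒ k) : IsBoundedAtImInfty (f : ℍ → ℂ) :=
  ModularFormClass.bdd_at_infty f

theorem isBoundedAtImInfty_serreDerivative {k : ℤ} (f : ModularForm 𝒮ℒ k) :
    IsBoundedAtImInfty (Derivative.serreDerivative k f) := by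
  have h1 : IsBoundedAtImInfty (D (f : ℍ → ℂ)) :=
    (isZeroAtImInfty_normalizedDeriv (periodic_levelOne f) (ModularFormClass.holo f)
      (bdd_levelOne f)).boundedAtFilter
  have h2 : IsBoundedAtImInfty (fun z => (k : ℂ) * 12⁻¹ * E2 z * f z) := by
    have := ((const_boundedAtFilter atImInfty ((k : ℂ) * 12⁻¹)).mul isBoundedAtImInfty_E2).mul
      (bdd_levelOne f)
    exact this
  have := h1.sub h2
  exact this

/-- The Serre derivative of a level-one modular form of weight `k` is a modular form of weight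
`k + 2`. -/
noncomputable def serreDerivMF {k : ℤ} (f : ModularForm 𝒮ℒ k) : ModularForm 𝒮ℒ (k + 2) where
  toFun := Derivative.serreDerivative k f
  slash_action_eq' := by
    rintro _ ⟨γ, rfl⟩
    have h : (f : ℍ → ℂ) ∣[k] γ = f := by
      rw [ModularForm.SL_slash]
      exact SlashInvariantForm.slash_action_eqn f _ ⟨γ, rfl⟩
    have := Derivative.serreDerivative_slash_invariant (ModularFormClass.holo f) h
    rw [ModularForm.SL_slash] at this
    exact this
  holo' := Derivative.serreDerivative_mdifferentiable k (ModularFormClass.holo f)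
  bdd_at_cusps' {c} hc := by
    rw [Subgroup.IsArithmetic.isCusp_iff_isCusp_SL2Z] at hc
    rw [OnePoint.isBoundedAt_iff_forall_SL2Z hc]
    intro γ _
    have h : (f : ℍ → ℂ) ∣[k] γ = f := by
      rw [ModularForm.SL_slash]
      exact SlashInvariantForm.slash_action_eqn f _ ⟨γ, rfl⟩
    have := Derivative.serreDerivative_slash_invariant (ModularFormClass.holo f) h
    rw [this]
    exact isBoundedAtImInfty_serreDerivative f

theorem serreDerivMF_apply {k : ℤ} (f : ModularForm 𝒮ℒ k) (z : ℍ) :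
    serreDerivMF f z = D f z - k * 12⁻¹ * E2 z * f z := rfl

theorem levelOne_eq_zero_of_tendsto_zero {k : ℤ} (hk : k < 12) (f : ModularForm 𝒮ℒ k)
    (h0 : Tendsto (f : ℍ → ℂ) atImInfty (𝓝 0)) (z : ℍ) : f z = 0 := by
  have hc0 : (qExpansion 1 f).coeff 0 = 0 :=
    tendsto_nhds_unique (tendsto_atImInfty_levelOne f) h0
  have hg : toCuspForm f hc0 = 0 :=
    rank_zero_iff_forall_zero.mp (CuspForm.rank_eq_zero_of_weight_lt_twelve hk) _
  have : toCuspForm f hc0 z = 0 := by rw [hg]; rfl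
  simpa using this

theorem tendsto_normalizedDeriv_levelOne {k : ℤ} (f : ModularForm 𝒮ℒ k) :
    Tendsto (D (f : ℍ → ℂ)) atImInfty (𝓝 0) :=
  isZeroAtImInfty_normalizedDeriv (periodic_levelOne f) (ModularFormClass.holo f) (bdd_levelOne f)

/-- Ramanujan's identity for `E₄`. -/
theorem ramanujan_E₄ (z : ℍ) : D E₄ z = (E2 z * E₄ z - E₆ z) / 3 := by
  let f : ModularForm 𝒮ℒ (4 + 2) :=
    serreDerivMF E₄ + (3⁻¹ : ℂ) • ModularForm.mcast (by norm_num : (6 : ℤ) = 4 + 2) E₆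
  have hf : ∀ w, f w = D E₄ w - 4 * 12⁻¹ * E2 w * E₄ w + 3⁻¹ * E₆ w := fun w => by
    show serreDerivMF E₄ w + (3⁻¹ : ℂ) • E₆ w = _
    rw [serreDerivMF_apply]
    simp
  have hlim : Tendsto (f : ℍ → ℂ) atImInfty (𝓝 0) := by
    have h1 := ((tendsto_normalizedDeriv_levelOne E₄).sub
      (((tendsto_const_nhds (x := (4 * 12⁻¹ : ℂ))).mul tendsto_E2_atImInfty).mul
        tendsto_E₄_atImInfty)).add ((tendsto_const_nhds (x := (3⁻¹ : ℂ))).mul tendsto_E₆_atImInfty)
    have h2 : (0 - 4 * 12⁻¹ * 1 * 1 + 3⁻¹ * 1 : ℂ) = 0 := by norm_num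
    rw [h2] at h1
    refine h1.congr fun w => ?_
    rw [hf]
  have := levelOne_eq_zero_of_tendsto_zero (by norm_num) f hlim z
  rw [hf] at this
  linear_combination this

/-- Ramanujan's identity for `E₆`. -/
theorem ramanujan_E₆ (z : ℍ) : D E₆ z = (E2 z * E₆ z - E₄ z ^ 2) / 2 := by
  let f : ModularForm 𝒮ℒ (6 + 2) :=
    serreDerivMF E₆ + (2⁻¹ : ℂ) • ModularForm.mcast (by norm_num : (4 + 4 : ℤ) = 6 + 2) (E₄.mul E₄)
  have hf : ∀ w, f w = D E₆ w - 6 * 12⁻¹ * E2 w * E₆ w + 2⁻¹ * (E₄ w * E₄ w) := fun w => by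
    show serreDerivMF E₆ w + (2⁻¹ : ℂ) • (E₄ w * E₄ w) = _
    rw [serreDerivMF_apply]
    simp
  have hlim : Tendsto (f : ℍ → ℂ) atImInfty (𝓝 0) := by
    have h1 := ((tendsto_normalizedDeriv_levelOne E₆).sub
      (((tendsto_const_nhds (x := (6 * 12⁻¹ : ℂ))).mul tendsto_E2_atImInfty).mul
        tendsto_E₆_atImInfty)).add ((tendsto_const_nhds (x := (2⁻¹ : ℂ))).mul
          (tendsto_E₄_atImInfty.mul tendsto_E₄_atImInfty))
    have h2 : (0 - 6 * 12⁻¹ * 1 * 1 + 2⁻¹ * (1 * 1) : ℂ) = 0 := by norm_num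
    rw [h2] at h1
    refine h1.congr fun w => ?_
    rw [hf]
  have := levelOne_eq_zero_of_tendsto_zero (by norm_num) f hlim z
  rw [hf] at this
  linear_combination this

theorem two_pi_I_ne_zero' : (2 * (π : ℂ) * I) ≠ 0 := by simp [Real.pi_ne_zero]

/-- `F ∘ ofComplex` has derivative `2πi · D F τ` at `τ`. -/
theorem hasDerivAt_of_mdiff {F : ℍ → ℂ} (hF : MDiff F) (τ : ℍ) :
    HasDerivAt (F ∘ ofComplex) (2 * π * I * D F τ) (τ : ℂ) := by
  have h1 : DifferentiableAt ℂ (F ∘ ofComplex) (τ : ℂ) :=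
    (UpperHalfPlane.mdifferentiable_iff.mp hF).differentiableAt
      (isOpen_upperHalfPlaneSet.mem_nhds τ.im_pos)
  have h2 := h1.hasDerivAt
  have e : 2 * π * I * D F τ = deriv (F ∘ ofComplex) (τ : ℂ) := by
    rw [Derivative.normalizedDerivOfComplex]
    have := two_pi_I_ne_zero'
    field_simp
  rw [e]
  exact h2

theorem analyticAt_of_mdiff {F : ℍ → ℂ} (hF : MDiff F) (τ : ℍ) :
    AnalyticAt ℂ (F ∘ ofComplex) (τ : ℂ) :=
  (UpperHalfPlane.mdifferentiable_iff.mp hF).analyticAt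
    (isOpen_upperHalfPlaneSet.mem_nhds τ.im_pos)

theorem D_jFun (z : ℍ) : D jFun z = - (E₄ z ^ 2 * E₆ z) / Δ z := by
  have h4 : MDiff (E₄ : ℍ → ℂ) := ModularFormClass.holo E₄
  have h6 : MDiff (E₆ : ℍ → ℂ) := ModularFormClass.holo E₆
  have hΔ0 := discriminant_ne_zero z
  -- derivative of `Δ`
  have hΔfun : (Δ : ℍ → ℂ) = (1728⁻¹ : ℂ) • ((E₄ : ℍ → ℂ) ^ 3 - (E₆ : ℍ → ℂ) ^ 2) := by
    funext w
    rw [discriminant_eq_E₄_cube_sub_E₆_sq w]
    simp only [Pi.smul_apply, Pi.sub_apply, Pi.pow_apply, smul_eq_mul]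
    ring
  have hDΔ : D (Δ : ℍ → ℂ) z = E2 z * Δ z := by
    rw [hΔfun, Derivative.normalizedDerivOfComplex_smul _ _ ((h4.pow 3).sub (h6.pow 2)),
      Derivative.normalizedDerivOfComplex_sub _ _ (h4.pow 3) (h6.pow 2),
      Derivative.normalizedDerivOfComplex_pow _ _ h4, Derivative.normalizedDerivOfComplex_pow _ _ h6]
    simp only [Pi.smul_apply, Pi.sub_apply, Pi.mul_apply, Pi.pow_apply, smul_eq_mul,
      ramanujan_E₄, ramanujan_E₆]
    norm_num
    ring
  -- product rule for `j Δ = E₄³`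
  have hprod : jFun * (Δ : ℍ → ℂ) = (E₄ : ℍ → ℂ) ^ 3 := by
    funext w
    exact jFun_mul_discriminant w
  have h1 := congrFun (Derivative.normalizedDerivOfComplex_mul jFun Δ mdiff_jFun mdiff_discriminant) z
  rw [hprod, Derivative.normalizedDerivOfComplex_pow _ _ h4] at h1
  simp only [Pi.mul_apply, Pi.pow_apply, Pi.add_apply, ramanujan_E₄, hDΔ] at h1
  have hj := jFun_mul_discriminant z
  field_simp
  norm_num at h1
  linear_combination -h1 - E2 z * hj

theorem E₆_ne_zero_of_E₄_eq_zero {τ : ℍ} (h : E₄ τ = 0) : E₆ τ ≠ 0 := by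
  intro h6
  have := discriminant_eq_E₄_cube_sub_E₆_sq τ
  rw [h, h6] at this
  exact discriminant_ne_zero τ (by rw [this]; norm_num)

theorem E₄_ne_zero_of_E₆_eq_zero {τ : ℍ} (h : E₆ τ = 0) : E₄ τ ≠ 0 := by
  intro h4
  have := discriminant_eq_E₄_cube_sub_E₆_sq τ
  rw [h, h4] at this
  exact discriminant_ne_zero τ (by rw [this]; norm_num)

/-- The zeros of `E₄` are simple. -/
theorem analyticOrderAt_E₄ {τ : ℍ} (h : E₄ τ = 0) :
    analyticOrderAt ((E₄ : ℍ → ℂ) ∘ ofComplex) (τ : ℂ) = 1 := by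
  have hd := hasDerivAt_of_mdiff (ModularFormClass.holo E₄) τ
  refine (analyticAt_of_mdiff (ModularFormClass.holo E₄) τ).analyticOrderAt_eq_one_of_zero_deriv_ne_zero
    (by simpa using h) ?_
  rw [hd.deriv, ramanujan_E₄, h]
  have := E₆_ne_zero_of_E₄_eq_zero h
  have := two_pi_I_ne_zero'
  simp only [mul_zero, zero_sub]
  field_simp
  simp [*]

/-- The zeros of `E₆` are simple. -/
theorem analyticOrderAt_E₆ {τ : ℍ} (h : E₆ τ = 0) :
    analyticOrderAt ((E₆ : ℍ → ℂ) ∘ ofComplex) (τ : ℂ) = 1 := by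
  have hd := hasDerivAt_of_mdiff (ModularFormClass.holo E₆) τ
  refine (analyticAt_of_mdiff (ModularFormClass.holo E₆) τ).analyticOrderAt_eq_one_of_zero_deriv_ne_zero
    (by simpa using h) ?_
  rw [hd.deriv, ramanujan_E₆, h]
  have := E₄_ne_zero_of_E₆_eq_zero h
  have := two_pi_I_ne_zero'
  simp only [mul_zero, zero_sub]
  field_simp
  simp [*]

theorem analyticAt_inv_discriminant (τ : ℍ) :
    AnalyticAt ℂ (fun z => ((Δ : ℍ → ℂ) (ofComplex z))⁻¹) (τ : ℂ) :=
  (analyticAt_of_mdiff mdiff_discriminant τ).inv (by simpa using discriminant_ne_zero τ)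

theorem analyticOrderAt_inv_discriminant (τ : ℍ) :
    analyticOrderAt (fun z => ((Δ : ℍ → ℂ) (ofComplex z))⁻¹) (τ : ℂ) = 0 := by
  rw [(analyticAt_inv_discriminant τ).analyticOrderAt_eq_zero]
  simpa using discriminant_ne_zero τ

/-- `j` vanishes to order exactly `3` at its zeros. -/
theorem analyticOrderAt_jFun_of_eq_zero {τ : ℍ} (h : jFun τ = 0) :
    analyticOrderAt (jFun ∘ ofComplex) (τ : ℂ) = 3 := by
  have h4 : E₄ τ = 0 := (jFun_eq_zero_iff τ).mp h
  have hfun : (jFun ∘ ofComplex) =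
      (((E₄ : ℍ → ℂ) ∘ ofComplex) ^ 3) * (fun z => ((Δ : ℍ → ℂ) (ofComplex z))⁻¹) := by
    funext z
    simp [jFun, div_eq_mul_inv]
  rw [hfun, analyticOrderAt_mul ((analyticAt_of_mdiff (ModularFormClass.holo E₄) τ).pow 3)
    (analyticAt_inv_discriminant τ), analyticOrderAt_pow (analyticAt_of_mdiff (ModularFormClass.holo E₄) τ),
    analyticOrderAt_E₄ h4, analyticOrderAt_inv_discriminant]
  rfl

/-- `j - 1728` vanishes to order exactly `2` at its zeros. -/
theorem analyticOrderAt_jFun_of_eq_1728 {τ : ℍ} (h : jFun τ = 1728) :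
    analyticOrderAt (fun z => jFun (ofComplex z) - 1728) (τ : ℂ) = 2 := by
  have h6 : E₆ τ = 0 := (jFun_eq_1728_iff τ).mp h
  have hfun : (fun z => jFun (ofComplex z) - 1728) =
      (((E₆ : ℍ → ℂ) ∘ ofComplex) ^ 2) * (fun z => ((Δ : ℍ → ℂ) (ofComplex z))⁻¹) := by
    funext z
    simp [jFun_sub_1728, div_eq_mul_inv]
  rw [hfun, analyticOrderAt_mul ((analyticAt_of_mdiff (ModularFormClass.holo E₆) τ).pow 2)
    (analyticAt_inv_discriminant τ), analyticOrderAt_pow (analyticAt_of_mdiff (ModularFormClass.holo E₆) τ),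
    analyticOrderAt_E₆ h6, analyticOrderAt_inv_discriminant]
  rfl

/-- Away from `0` and `1728`, `j` is unramified. -/
theorem deriv_jFun_ne_zero {τ : ℍ} (h0 : jFun τ ≠ 0) (h1 : jFun τ ≠ 1728) :
    deriv (jFun ∘ ofComplex) (τ : ℂ) ≠ 0 := by
  rw [(hasDerivAt_of_mdiff mdiff_jFun τ).deriv, D_jFun]
  have h4 : E₄ τ ≠ 0 := fun h => h0 ((jFun_eq_zero_iff τ).mpr h)
  have h6 : E₆ τ ≠ 0 := fun h => h1 ((jFun_eq_1728_iff τ).mpr h)
  have hΔ := discriminant_ne_zero τ
  have := two_pi_I_ne_zero'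
  simp only [ne_eq, mul_eq_zero, div_eq_zero_iff, neg_eq_zero, not_or]
  simp_all

theorem analyticOrderAt_jFun_sub {τ : ℍ} (h0 : jFun τ ≠ 0) (h1 : jFun τ ≠ 1728) :
    analyticOrderAt (fun z => jFun (ofComplex z) - jFun τ) (τ : ℂ) = 1 := by
  have := (analyticAt_of_mdiff mdiff_jFun τ).analyticOrderAt_sub_eq_one_of_deriv_ne_zero
    (deriv_jFun_ne_zero h0 h1)
  simpa using this

theorem levelOne_smul_apply {k : ℤ} (f : ModularForm 𝒮ℒ k) (γ : SL(2, ℤ)) (τ : ℍ) :
    f (γ • τ) = denom (Matrix.SpecialLinearGroup.mapGL ℝ γ) τ ^ k * f τ :=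
  have hγ : (Matrix.SpecialLinearGroup.mapGL ℝ γ) ∈ 𝒮ℒ := ⟨γ, rfl⟩
  SlashInvariantForm.slash_action_eqn'' f hγ τ

theorem E₆_eq_zero_of_S_smul_eq {τ : ℍ} (h : ModularGroup.S • τ = τ) : E₆ τ = 0 := by
  have h1 := levelOne_smul_apply E₆ ModularGroup.S τ
  rw [h] at h1
  have hd : denom (Matrix.SpecialLinearGroup.mapGL ℝ ModularGroup.S) τ = (τ : ℂ) := by
    exact ModularGroup.denom_S τ
  rw [hd] at h1
  -- `τ² = -1`
  have h2 : ((ModularGroup.S • τ : ℍ) : ℂ) = (τ : ℂ) := by rw [h]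
  rw [modular_S_smul] at h2
  have hτ : (τ : ℂ) ≠ 0 := τ.ne_zero
  have hsq : (τ : ℂ) ^ 2 = -1 := by
    have : (-(τ : ℂ))⁻¹ = τ := by simpa using h2
    field_simp at this
    linear_combination -this
  have h6 : (τ : ℂ) ^ (6 : ℤ) = -1 := by
    have : (τ : ℂ) ^ (6 : ℤ) = ((τ : ℂ) ^ 2) ^ 3 := by
      norm_cast
      ring
    rw [this, hsq]
    norm_num
  rw [h6] at h1
  have : (2 : ℂ) * E₆ τ = 0 := by linear_combination h1
  simpa using this

theorem E₄_eq_zero_of_ST_smul_eq {τ : ℍ} (h : (ModularGroup.S * ModularGroup.T) • τ = τ) :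
    E₄ τ = 0 := by
  have h1 := levelOne_smul_apply E₄ (ModularGroup.S * ModularGroup.T) τ
  rw [h] at h1
  have hd : denom (Matrix.SpecialLinearGroup.mapGL ℝ (ModularGroup.S * ModularGroup.T)) τ
      = (τ : ℂ) + 1 := by
    have := ModularGroup.denom_apply (ModularGroup.S * ModularGroup.T) τ
    refine this.trans ?_
    have e10 : ((ModularGroup.S * ModularGroup.T : SL(2, ℤ)) : Matrix (Fin 2) (Fin 2) ℤ) 1 0 = 1 := by
      rw [Matrix.SpecialLinearGroup.coe_mul, ModularGroup.coe_S, ModularGroup.coe_T]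
      simp [Matrix.mul_apply, Fin.sum_univ_two]
    have e11 : ((ModularGroup.S * ModularGroup.T : SL(2, ℤ)) : Matrix (Fin 2) (Fin 2) ℤ) 1 1 = 1 := by
      rw [Matrix.SpecialLinearGroup.coe_mul, ModularGroup.coe_S, ModularGroup.coe_T]
      simp [Matrix.mul_apply, Fin.sum_univ_two]
    rw [e10, e11]
    simp
  rw [hd] at h1
  have h2 : (((ModularGroup.S * ModularGroup.T) • τ : ℍ) : ℂ) = (τ : ℂ) := by rw [h]
  rw [mul_smul, modular_S_smul, modular_T_smul] at h2
  have hne : ((1 : ℝ) +ᵥ τ : ℍ).1 ≠ 0 := ((1 : ℝ) +ᵥ τ : ℍ).ne_zero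
  have hT : (((1 : ℝ) +ᵥ τ : ℍ) : ℂ) = 1 + τ := by simp [coe_vadd]
  have hne' : (1 + (τ : ℂ)) ≠ 0 := by rw [← hT]; exact hne
  have hq : (τ : ℂ) ^ 2 + τ + 1 = 0 := by
    have : (-(1 + (τ : ℂ)))⁻¹ = τ := by
      have h3 : (-(((1 : ℝ) +ᵥ τ : ℍ) : ℂ))⁻¹ = τ := h2
      rw [hT] at h3
      exact h3
    field_simp at this
    linear_combination -this
  have h4 : ((τ : ℂ) + 1) ^ (4 : ℤ) = -((τ : ℂ) + 1) := by
    have : ((τ : ℂ) + 1) ^ (4 : ℤ) = ((τ : ℂ) + 1) ^ 4 := by norm_cast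
    rw [this]
    linear_combination ((τ : ℂ) ^ 2 + 3 * τ + 2) * hq
  rw [h4] at h1
  have h5 : ((τ : ℂ) + 2) * E₄ τ = 0 := by linear_combination h1
  rcases mul_eq_zero.mp h5 with h6 | h6
  · exfalso
    have := congrArg Complex.im h6
    simp at this
    exact τ.im_pos.ne' this
  · exact h6

theorem jFun_I : jFun UpperHalfPlane.I = 1728 := by
  rw [jFun_eq_1728_iff]
  exact E₆_eq_zero_of_S_smul_eq (ModularGroup.stabilizer_I.mpr (by simp))

theorem jFun_ρ : jFun UpperHalfPlane.ρ = 0 := by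
  rw [jFun_eq_zero_iff]
  exact E₄_eq_zero_of_ST_smul_eq (ModularGroup.stabilizer_ρ.mpr (by simp))



end Fermat.Agent.FF
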