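import Mathlib
import Fermat.Agent.FF.Interface

/-!
# Fixed points of `S` and `S * T` on `SL(2,ℤ) ⧸ Γ₀(N)` (item 70c, lead)
-/

set_option autoImplicit false

open CongruenceSubgroup MulAction
open scoped MatrixGroups

namespace Fermat.Agent.FF

variable (N : ℕ)

/-- coset equality in terms of first columns -/
theorem coset_eq_iff (g₁ g₂ : SL(2, ℤ)) :
    ((g₁ : X N) = (g₂ : X N)) ↔
      ((g₁ 0 0 : ℤ) : ZMod N) * ((g₂ 1 0 : ℤ) : ZMod N)
        - ((g₁ 1 0 : ℤ) : ZMod N) * ((g₂ 0 0 : ℤ) : ZMod N) = 0 := by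
  rw [QuotientGroup.eq, Gamma0_mem]
  have : ((g₁⁻¹ * g₂ : SL(2, ℤ)) 1 0 : ℤ) = g₁ 0 0 * g₂ 1 0 - g₁ 1 0 * g₂ 0 0 := by
    rw [Matrix.SpecialLinearGroup.coe_mul, Matrix.SpecialLinearGroup.coe_inv,
      Matrix.adjugate_fin_two, Matrix.mul_apply, Fin.sum_univ_two]
    simp
    ring
  rw [this]
  push_cast
  rfl

/-- the matrix `[[l, -1], [1, 0]]` -/
def rootMat (l : ℤ) : SL(2, ℤ) :=
  ⟨!![l, -1; 1, 0], by simp [Matrix.det_fin_two]⟩

@[simp] theorem rootMat_00 (l : ℤ) : (rootMat l) 0 0 = l := rfl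
@[simp] theorem rootMat_10 (l : ℤ) : (rootMat l) 1 0 = 1 := rfl

variable [NeZero N]

theorem intCast_val_eq (x : ZMod N) : (((ZMod.val x : ℕ) : ℤ) : ZMod N) = x := by
  rw [Int.cast_natCast, ZMod.natCast_zmod_val]

/-- For `h ∈ SL(2,ℤ)` with lower-left entry `1`, the cosets fixed by `h` correspond to the roots
of `x² + (h₁₁ - h₀₀) x - h₀₁` in `ℤ/N`. -/
theorem card_fixedBy_of_lowerLeft_one (h : SL(2, ℤ)) (h10 : h 1 0 = 1) :
    Nat.card (fixedBy (X N) h)
      = Nat.card {x : ZMod N // x ^ 2 + (((h 1 1 - h 0 0 : ℤ)) : ZMod N) * x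
          - ((h 0 1 : ℤ) : ZMod N) = 0} := by
  symm
  -- fixed-point criterion for a coset
  have hfix : ∀ g : SL(2, ℤ), (h • (g : X N) = (g : X N)) ↔
      ((g 0 0 : ℤ) : ZMod N) ^ 2 + (((h 1 1 - h 0 0 : ℤ)) : ZMod N) * ((g 0 0 : ℤ) : ZMod N)
          * ((g 1 0 : ℤ) : ZMod N) - ((h 0 1 : ℤ) : ZMod N) * ((g 1 0 : ℤ) : ZMod N) ^ 2 = 0 := by
    intro g
    have h1 : h • (g : X N) = ((h * g : SL(2, ℤ)) : X N) := rfl
    rw [h1, eq_comm, coset_eq_iff]
    have e00 : ((h * g : SL(2, ℤ)) 0 0 : ℤ) = h 0 0 * g 0 0 + h 0 1 * g 1 0 := by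
      rw [Matrix.SpecialLinearGroup.coe_mul, Matrix.mul_apply, Fin.sum_univ_two]
    have e10 : ((h * g : SL(2, ℤ)) 1 0 : ℤ) = g 0 0 + h 1 1 * g 1 0 := by
      rw [Matrix.SpecialLinearGroup.coe_mul, Matrix.mul_apply, Fin.sum_univ_two, h10, one_mul]
    rw [e00, e10]
    push_cast
    constructor <;> intro hh <;> linear_combination hh
  refine Nat.card_congr (Equiv.ofBijective
    (fun x => ⟨((rootMat (ZMod.val x.1 : ℤ) : SL(2, ℤ)) : X N), ?_⟩) ⟨?_, ?_⟩)
  · rw [mem_fixedBy, hfix]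
    simp only [rootMat_00, rootMat_10, intCast_val_eq, Int.cast_one, mul_one, one_pow]
    exact x.2
  · rintro ⟨x, hx⟩ ⟨y, hy⟩ hxy
    have := congrArg Subtype.val hxy
    simp only at this
    rw [coset_eq_iff] at this
    simp only [rootMat_00, rootMat_10, intCast_val_eq, Int.cast_one, mul_one, one_mul] at this
    exact Subtype.ext (sub_eq_zero.mp this)
  · rintro ⟨q, hq⟩
    induction q using QuotientGroup.induction_on with
    | H g =>
      rw [mem_fixedBy, hfix] at hq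
      set a : ZMod N := ((g 0 0 : ℤ) : ZMod N) with ha
      set c : ZMod N := ((g 1 0 : ℤ) : ZMod N) with hc
      set b : ZMod N := ((g 0 1 : ℤ) : ZMod N) with hb
      set d : ZMod N := ((g 1 1 : ℤ) : ZMod N) with hd
      set t : ZMod N := (((h 1 1 - h 0 0 : ℤ)) : ZMod N) with ht
      set β : ZMod N := ((h 0 1 : ℤ) : ZMod N) with hβ
      have hdet : a * d - b * c = 1 := by
        have := g.det_coe
        rw [Matrix.det_fin_two] at this
        have := congrArg (Int.cast : ℤ → ZMod N) this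
        push_cast at this
        exact this
      -- `c` is a unit
      obtain ⟨ci, hci⟩ : ∃ ci : ZMod N, c * ci = 1 := by
        refine ⟨-(t * a - β * c) * d ^ 2 - 2 * a * b * d + b ^ 2 * c, ?_⟩
        have h2 : (a * d - b * c) ^ 2 = 1 := by rw [hdet, one_pow]
        linear_combination h2 - d ^ 2 * hq
      refine ⟨⟨a * ci, ?_⟩, ?_⟩
      · linear_combination ci ^ 2 * hq + (-t * a * ci + β * (c * ci + 1)) * hci
      · apply Subtype.ext
        show ((rootMat (ZMod.val (a * ci) : ℤ) : SL(2, ℤ)) : X N) = (g : X N)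
        rw [coset_eq_iff]
        simp only [rootMat_00, rootMat_10, intCast_val_eq, Int.cast_one, one_mul]
        linear_combination a * hci

theorem card_fixedBy_S :
    Nat.card (fixedBy (X N) ModularGroup.S) = ModularCurve.nuTwo N := by
  have h10 : (ModularGroup.S : SL(2, ℤ)) 1 0 = 1 := by
    simp [ModularGroup.S]
  rw [card_fixedBy_of_lowerLeft_one N ModularGroup.S h10, ModularCurve.nuTwo]
  refine Nat.card_congr (Equiv.subtypeEquivRight ?_)
  intro x
  have h11 : (ModularGroup.S : SL(2, ℤ)) 1 1 = 0 := by simp [ModularGroup.S]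
  have h00 : (ModularGroup.S : SL(2, ℤ)) 0 0 = 0 := by simp [ModularGroup.S]
  have h01 : (ModularGroup.S : SL(2, ℤ)) 0 1 = -1 := by simp [ModularGroup.S]
  rw [h11, h00, h01]
  simp

theorem card_fixedBy_ST :
    Nat.card (fixedBy (X N) (ModularGroup.S * ModularGroup.T)) = ModularCurve.nuThree N := by
  have h10 : (ModularGroup.S * ModularGroup.T : SL(2, ℤ)) 1 0 = 1 := by
    rw [Matrix.SpecialLinearGroup.coe_mul, Matrix.mul_apply, Fin.sum_univ_two]
    simp [ModularGroup.S, ModularGroup.T]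
  rw [card_fixedBy_of_lowerLeft_one N _ h10, ModularCurve.nuThree]
  refine Nat.card_congr (Equiv.subtypeEquivRight ?_)
  intro x
  have h11 : (ModularGroup.S * ModularGroup.T : SL(2, ℤ)) 1 1 = 1 := by
    rw [Matrix.SpecialLinearGroup.coe_mul, Matrix.mul_apply, Fin.sum_univ_two]
    simp [ModularGroup.S, ModularGroup.T]
  have h00 : (ModularGroup.S * ModularGroup.T : SL(2, ℤ)) 0 0 = 0 := by
    rw [Matrix.SpecialLinearGroup.coe_mul, Matrix.mul_apply, Fin.sum_univ_two]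
    simp [ModularGroup.S, ModularGroup.T]
  have h01 : (ModularGroup.S * ModularGroup.T : SL(2, ℤ)) 0 1 = -1 := by
    rw [Matrix.SpecialLinearGroup.coe_mul, Matrix.mul_apply, Fin.sum_univ_two]
    simp [ModularGroup.S, ModularGroup.T]
  rw [h11, h00, h01]
  simp

end Fermat.Agent.FF
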