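import Mathlib
import Fermat.Agent.FF.Interface

/-!
# The index of `Γ₀(N)` in `SL(2,ℤ)` is the Dedekind psi function (item 70a, lead)

Induction on the prime factorisation of `N`, via `[Γ₀(N) : Γ₀(N p)] = p` or `p + 1`.
-/

set_option autoImplicit false

open CongruenceSubgroup MulAction
open scoped MatrixGroups

namespace Fermat.Agent.FF

theorem inv_mul_mem_Gamma0_iff (M : ℕ) (g₁ g₂ : SL(2, ℤ)) :
    g₁⁻¹ * g₂ ∈ Gamma0 M ↔ (M : ℤ) ∣ g₁ 0 0 * g₂ 1 0 - g₁ 1 0 * g₂ 0 0 := by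
  rw [Gamma0_mem]
  have : ((g₁⁻¹ * g₂ : SL(2, ℤ)) 1 0 : ℤ) = g₁ 0 0 * g₂ 1 0 - g₁ 1 0 * g₂ 0 0 := by
    rw [Matrix.SpecialLinearGroup.coe_mul, Matrix.SpecialLinearGroup.coe_inv,
      Matrix.adjugate_fin_two, Matrix.mul_apply, Fin.sum_univ_two]
    simp
    ring
  rw [this, ZMod.intCast_zmod_eq_zero_iff_dvd]

theorem mem_Gamma0_iff_dvd (M : ℕ) (g : SL(2, ℤ)) :
    g ∈ Gamma0 M ↔ (M : ℤ) ∣ g 1 0 := by
  rw [Gamma0_mem, ZMod.intCast_zmod_eq_zero_iff_dvd]

theorem Gamma0_mul_le (N p : ℕ) : Gamma0 (N * p) ≤ Gamma0 N := by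
  intro g hg
  rw [mem_Gamma0_iff_dvd] at hg ⊢
  exact dvd_trans ⟨(p : ℤ), by push_cast; ring⟩ hg

/-- the matrix `[[1, 0], [N t, 1]]` -/
def repFin (N : ℕ) (t : ℤ) : SL(2, ℤ) :=
  ⟨!![1, 0; N * t, 1], by simp [Matrix.det_fin_two]⟩

@[simp] theorem repFin_00 (N : ℕ) (t : ℤ) : (repFin N t) 0 0 = 1 := rfl
@[simp] theorem repFin_10 (N : ℕ) (t : ℤ) : (repFin N t) 1 0 = N * t := rfl

theorem repFin_mem (N : ℕ) (t : ℤ) : repFin N t ∈ Gamma0 N := by
  rw [mem_Gamma0_iff_dvd, repFin_10]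
  exact dvd_mul_right _ _

/-- equality of cosets in `Γ₀(N) ⧸ Γ₀(N p)` -/
theorem quot_eq_iff (N p : ℕ) (g₁ g₂ : Gamma0 N) :
    ((g₁ : Gamma0 N ⧸ (Gamma0 (N * p)).subgroupOf (Gamma0 N)) = g₂) ↔
      ((N * p : ℕ) : ℤ) ∣ (g₁ : SL(2, ℤ)) 0 0 * (g₂ : SL(2, ℤ)) 1 0
        - (g₁ : SL(2, ℤ)) 1 0 * (g₂ : SL(2, ℤ)) 0 0 := by
  rw [QuotientGroup.eq, Subgroup.mem_subgroupOf, ← inv_mul_mem_Gamma0_iff]
  rfl

theorem relIndex_of_dvd (N p : ℕ) [NeZero N] (hp : p.Prime) (hpN : p ∣ N) :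
    (Gamma0 (N * p)).relIndex (Gamma0 N) = p := by
  have : Fact p.Prime := ⟨hp⟩
  have hN0 : (N : ℤ) ≠ 0 := by exact_mod_cast NeZero.ne N
  rw [Subgroup.relIndex, Subgroup.index]
  have key : Nat.card (ZMod p) = p := by simp
  refine Eq.trans (Eq.symm ?_) key
  refine Nat.card_congr (Equiv.ofBijective
    (fun t : ZMod p => ((⟨repFin N (ZMod.val t : ℤ), repFin_mem N _⟩ : Gamma0 N) :
      Gamma0 N ⧸ (Gamma0 (N * p)).subgroupOf (Gamma0 N))) ⟨?_, ?_⟩)
  · intro s t hst
    simp only at hst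
    rw [quot_eq_iff] at hst
    simp only [repFin_00, repFin_10, one_mul, mul_one] at hst
    have h1 : ((N * p : ℕ) : ℤ) ∣ (N : ℤ) * ((ZMod.val t : ℤ) - (ZMod.val s : ℤ)) := by
      convert hst using 1; ring
    push_cast at h1
    have h2 : (p : ℤ) ∣ (ZMod.val t : ℤ) - (ZMod.val s : ℤ) :=
      (mul_dvd_mul_iff_left hN0).mp h1
    have h3 := (ZMod.intCast_zmod_eq_zero_iff_dvd _ p).mpr h2
    push_cast at h3
    rw [ZMod.natCast_zmod_val, ZMod.natCast_zmod_val, sub_eq_zero] at h3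
    exact h3.symm
  · intro q
    induction q using QuotientGroup.induction_on with
    | H g =>
      obtain ⟨c', hc'⟩ := (mem_Gamma0_iff_dvd N g.1).mp g.2
      set a : ℤ := (g : SL(2, ℤ)) 0 0 with ha
      have hdet : a * (g : SL(2, ℤ)) 1 1 - (g : SL(2, ℤ)) 0 1 * (g : SL(2, ℤ)) 1 0 = 1 := by
        have := (g : SL(2, ℤ)).det_coe
        rw [Matrix.det_fin_two] at this
        exact this
      -- `a` is a unit mod `p`
      have hap : ((a : ℤ) : ZMod p) ≠ 0 := by
        intro h0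
        rw [ZMod.intCast_zmod_eq_zero_iff_dvd] at h0
        have hpN' : (p : ℤ) ∣ (N : ℤ) := by exact_mod_cast hpN
        have : (p : ℤ) ∣ 1 := by
          rw [← hdet, hc']
          exact dvd_sub (dvd_mul_of_dvd_left h0 _)
            (dvd_mul_of_dvd_right (dvd_mul_of_dvd_left hpN' _) _)
        exact hp.one_lt.ne' (by exact_mod_cast Int.eq_one_of_dvd_one (by positivity) this)
      refine ⟨((c' : ℤ) : ZMod p) / ((a : ℤ) : ZMod p), ?_⟩
      simp only
      rw [quot_eq_iff]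
      simp only [repFin_00, repFin_10, one_mul]
      rw [hc']
      have h1 : (N : ℤ) * c' - (N : ℤ) * (ZMod.val (((c' : ℤ) : ZMod p) / ((a : ℤ) : ZMod p)) : ℤ)
          * (g : SL(2, ℤ)) 0 0
          = (N : ℤ) * (c' - (ZMod.val (((c' : ℤ) : ZMod p) / ((a : ℤ) : ZMod p)) : ℤ) * a) := by
        rw [ha]; ring
      rw [h1]
      push_cast
      refine mul_dvd_mul_left _ ?_
      rw [← ZMod.intCast_zmod_eq_zero_iff_dvd]
      push_cast
      rw [ZMod.natCast_zmod_val, div_mul_cancel₀ _ hap, sub_self]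

theorem relIndex_of_not_dvd (N p : ℕ) [NeZero N] (hp : p.Prime) (hpN : ¬ p ∣ N) :
    (Gamma0 (N * p)).relIndex (Gamma0 N) = p + 1 := by
  have : Fact p.Prime := ⟨hp⟩
  have hN0 : (N : ℤ) ≠ 0 := by exact_mod_cast NeZero.ne N
  -- the extra representative
  have hcop : IsCoprime (p : ℤ) (N : ℤ) := by
    rw [Int.isCoprime_iff_gcd_eq_one]
    simpa using (Nat.Prime.coprime_iff_not_dvd hp).mpr hpN
  obtain ⟨u, v, huv⟩ := hcop
  let rInf : SL(2, ℤ) := ⟨!![(p : ℤ), -v; (N : ℤ), u], by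
    rw [Matrix.det_fin_two]; simp; linarith⟩
  have rInf00 : rInf 0 0 = (p : ℤ) := rfl
  have rInf10 : rInf 1 0 = (N : ℤ) := rfl
  have rInf_mem : rInf ∈ Gamma0 N := by
    rw [mem_Gamma0_iff_dvd, rInf10]
  rw [Subgroup.relIndex, Subgroup.index]
  have key : Nat.card (Option (ZMod p)) = p + 1 := by
    rw [Nat.card_eq_fintype_card, Fintype.card_option, ZMod.card]
  refine Eq.trans (Eq.symm ?_) key
  let f : Option (ZMod p) → Gamma0 N := fun o =>
    match o with
    | none => ⟨rInf, rInf_mem⟩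
    | some t => ⟨repFin N (ZMod.val t : ℤ), repFin_mem N _⟩
  refine Nat.card_congr (Equiv.ofBijective
    (fun o : Option (ZMod p) => ((f o : Gamma0 N) :
      Gamma0 N ⧸ (Gamma0 (N * p)).subgroupOf (Gamma0 N))) ⟨?_, ?_⟩)
  · intro s t hst
    simp only at hst
    rw [quot_eq_iff] at hst
    rcases s with _ | s <;> rcases t with _ | t
    · rfl
    · exfalso
      simp only [f, rInf00, rInf10, repFin_00, repFin_10, mul_one] at hst
      have h1 : ((N * p : ℕ) : ℤ) ∣ (N : ℤ) * ((p : ℤ) * (ZMod.val t : ℤ) - 1) := by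
        convert hst using 1; ring
      push_cast at h1
      have h2 : (p : ℤ) ∣ (p : ℤ) * (ZMod.val t : ℤ) - 1 :=
        (mul_dvd_mul_iff_left hN0).mp h1
      have h3 : (p : ℤ) ∣ 1 := by
        have := dvd_sub (dvd_mul_right (p : ℤ) (ZMod.val t : ℤ)) h2
        simpa using this
      exact hp.one_lt.ne' (by exact_mod_cast Int.eq_one_of_dvd_one (by positivity) h3)
    · exfalso
      simp only [f, rInf00, rInf10, repFin_00, repFin_10, one_mul] at hst
      have h1 : ((N * p : ℕ) : ℤ) ∣ (N : ℤ) * (1 - (ZMod.val s : ℤ) * (p : ℤ)) := by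
        convert hst using 1; ring
      push_cast at h1
      have h2 : (p : ℤ) ∣ 1 - (ZMod.val s : ℤ) * (p : ℤ) :=
        (mul_dvd_mul_iff_left hN0).mp h1
      have h3 : (p : ℤ) ∣ 1 := by
        have := dvd_add h2 (dvd_mul_left (p : ℤ) (ZMod.val s : ℤ))
        simpa using this
      exact hp.one_lt.ne' (by exact_mod_cast Int.eq_one_of_dvd_one (by positivity) h3)
    · simp only [f, repFin_00, repFin_10, one_mul, mul_one] at hst
      have h1 : ((N * p : ℕ) : ℤ) ∣ (N : ℤ) * ((ZMod.val t : ℤ) - (ZMod.val s : ℤ)) := by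
        convert hst using 1; ring
      push_cast at h1
      have h2 : (p : ℤ) ∣ (ZMod.val t : ℤ) - (ZMod.val s : ℤ) :=
        (mul_dvd_mul_iff_left hN0).mp h1
      have h3 := (ZMod.intCast_zmod_eq_zero_iff_dvd _ p).mpr h2
      push_cast at h3
      rw [ZMod.natCast_zmod_val, ZMod.natCast_zmod_val, sub_eq_zero] at h3
      exact congrArg some h3.symm
  · intro q
    induction q using QuotientGroup.induction_on with
    | H g =>
      obtain ⟨c', hc'⟩ := (mem_Gamma0_iff_dvd N g.1).mp g.2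
      set a : ℤ := (g : SL(2, ℤ)) 0 0 with ha
      by_cases hap : ((a : ℤ) : ZMod p) = 0
      · refine ⟨none, ?_⟩
        simp only
        rw [quot_eq_iff]
        simp only [f, rInf00, rInf10]
        rw [hc']
        have h1 : (p : ℤ) * ((N : ℤ) * c') - (N : ℤ) * (g : SL(2, ℤ)) 0 0
            = (N : ℤ) * ((p : ℤ) * c' - a) := by
          rw [ha]; ring
        rw [h1]
        push_cast
        refine mul_dvd_mul_left _ ?_
        rw [ZMod.intCast_zmod_eq_zero_iff_dvd] at hap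
        exact dvd_sub (dvd_mul_right _ _) hap
      · refine ⟨some (((c' : ℤ) : ZMod p) / ((a : ℤ) : ZMod p)), ?_⟩
        simp only
        rw [quot_eq_iff]
        simp only [f, repFin_00, repFin_10, one_mul]
        rw [hc']
        have h1 : (N : ℤ) * c' - (N : ℤ)
            * (ZMod.val (((c' : ℤ) : ZMod p) / ((a : ℤ) : ZMod p)) : ℤ) * (g : SL(2, ℤ)) 0 0
            = (N : ℤ) * (c' - (ZMod.val (((c' : ℤ) : ZMod p) / ((a : ℤ) : ZMod p)) : ℤ) * a) := by
          rw [ha]; ring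
        rw [h1]
        push_cast
        refine mul_dvd_mul_left _ ?_
        rw [← ZMod.intCast_zmod_eq_zero_iff_dvd]
        push_cast
        rw [ZMod.natCast_zmod_val, div_mul_cancel₀ _ hap, sub_self]

end Fermat.Agent.FF

namespace Fermat.Agent.FF

theorem dedekindPsi_mul_of_dvd (N p : ℕ) (hN : N ≠ 0) (hp : p.Prime) (hpN : p ∣ N) :
    ModularCurve.dedekindPsi (N * p) = p * ModularCurve.dedekindPsi N := by
  unfold ModularCurve.dedekindPsi
  have hset : (N * p).divisors.filter Squarefree = N.divisors.filter Squarefree := by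
    ext d
    simp only [Finset.mem_filter, Nat.mem_divisors]
    constructor
    · rintro ⟨⟨hd, _⟩, hsq⟩
      refine ⟨⟨?_, hN⟩, hsq⟩
      have : d ∣ N ^ 2 := by
        rw [pow_two]; exact dvd_trans hd (mul_dvd_mul_left N hpN)
      exact (hsq.dvd_pow_iff_dvd two_ne_zero).mp this
    · rintro ⟨⟨hd, _⟩, hsq⟩
      exact ⟨⟨dvd_mul_of_dvd_left hd p, mul_ne_zero hN hp.ne_zero⟩, hsq⟩
  rw [hset, Finset.mul_sum]
  refine Finset.sum_congr rfl ?_
  intro d hd
  simp only [Finset.mem_filter, Nat.mem_divisors] at hd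
  obtain ⟨k, hk⟩ := hd.1.1
  have hd0 : 0 < d := Nat.pos_of_ne_zero (by rintro rfl; simp at hk; exact hN hk)
  rw [hk, mul_assoc, Nat.mul_div_cancel_left _ hd0, Nat.mul_div_cancel_left _ hd0, mul_comm]

theorem dedekindPsi_mul_of_not_dvd (N p : ℕ) (hN : N ≠ 0) (hp : p.Prime) (hpN : ¬ p ∣ N) :
    ModularCurve.dedekindPsi (N * p) = (p + 1) * ModularCurve.dedekindPsi N := by
  unfold ModularCurve.dedekindPsi
  have hset : (N * p).divisors.filter Squarefree
      = N.divisors.filter Squarefree ∪ (N.divisors.filter Squarefree).image (fun d => p * d) := by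
    ext d
    simp only [Finset.mem_filter, Nat.mem_divisors, Finset.mem_union, Finset.mem_image]
    constructor
    · rintro ⟨⟨hd, _⟩, hsq⟩
      by_cases hpd : p ∣ d
      · right
        obtain ⟨e, rfl⟩ := hpd
        have he : e ∣ N := by
          have := hd; rw [mul_comm N p] at this
          exact (Nat.mul_dvd_mul_iff_left hp.pos).mp this
        exact ⟨e, ⟨⟨he, hN⟩, hsq.of_mul_right⟩, rfl⟩
      · left
        have hcop : Nat.Coprime d p :=
          (Nat.Coprime.symm ((Nat.Prime.coprime_iff_not_dvd hp).mpr hpd))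
        exact ⟨⟨hcop.dvd_of_dvd_mul_right hd, hN⟩, hsq⟩
    · rintro (⟨⟨hd, _⟩, hsq⟩ | ⟨e, ⟨⟨he, _⟩, hsq⟩, rfl⟩)
      · exact ⟨⟨dvd_mul_of_dvd_left hd p, mul_ne_zero hN hp.ne_zero⟩, hsq⟩
      · refine ⟨⟨by rw [mul_comm N p]; exact mul_dvd_mul_left p he,
          mul_ne_zero hN hp.ne_zero⟩, ?_⟩
        have hcop : Nat.Coprime p e :=
          (Nat.Prime.coprime_iff_not_dvd hp).mpr (fun h => hpN (dvd_trans h he))
        exact (Nat.squarefree_mul hcop).mpr ⟨hp.squarefree, hsq⟩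
  have hdisj : Disjoint (N.divisors.filter Squarefree)
      ((N.divisors.filter Squarefree).image (fun d => p * d)) := by
    rw [Finset.disjoint_left]
    intro d hd hd'
    simp only [Finset.mem_image, Finset.mem_filter, Nat.mem_divisors] at hd hd'
    obtain ⟨e, _, rfl⟩ := hd'
    exact hpN (dvd_trans (dvd_mul_right p e) hd.1.1)
  rw [hset, Finset.sum_union hdisj,
    Finset.sum_image (by intro a _ b _ h; exact Nat.eq_of_mul_eq_mul_left hp.pos h),
    add_mul, one_mul, Finset.mul_sum]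
  congr 1
  · refine Finset.sum_congr rfl ?_
    intro d hd
    simp only [Finset.mem_filter, Nat.mem_divisors] at hd
    obtain ⟨k, hk⟩ := hd.1.1
    have hd0 : 0 < d := Nat.pos_of_ne_zero (by rintro rfl; simp at hk; exact hN hk)
    rw [hk, mul_assoc, Nat.mul_div_cancel_left _ hd0, Nat.mul_div_cancel_left _ hd0, mul_comm]
  · refine Finset.sum_congr rfl ?_
    intro d hd
    rw [mul_comm N p, Nat.mul_div_mul_left _ _ hp.pos]

variable (N : ℕ)

theorem card_X_eq_index : Nat.card (X N) = (Gamma0 N).index := rfl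

theorem index_Gamma0_eq : ∀ N : ℕ, N ≠ 0 → (Gamma0 N).index = ModularCurve.dedekindPsi N := by
  intro N
  induction N using induction_on_primes with
  | zero => intro h; exact absurd rfl h
  | one =>
    intro _
    rw [ModularCurve.dedekindPsi_one]
    have : Gamma0 1 = ⊤ := by
      ext g
      simp only [Subgroup.mem_top, iff_true]
      rw [mem_Gamma0_iff_dvd]
      simp
    rw [this, Subgroup.index_top]
  | prime_mul p a hp ih =>
    intro hpa
    have ha : a ≠ 0 := fun h => hpa (by rw [h, mul_zero])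
    have : NeZero a := ⟨ha⟩
    have hidx := Subgroup.relIndex_mul_index (Gamma0_mul_le a p)
    rw [mul_comm p a, ← hidx, ih ha]
    by_cases hpa' : p ∣ a
    · rw [relIndex_of_dvd a p hp hpa', dedekindPsi_mul_of_dvd a p ha hp hpa']
    · rw [relIndex_of_not_dvd a p hp hpa', dedekindPsi_mul_of_not_dvd a p ha hp hpa']

theorem card_X_eq [NeZero N] : Nat.card (X N) = ModularCurve.dedekindPsi N :=
  index_Gamma0_eq N (NeZero.ne N)

end Fermat.Agent.FF
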