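import Mathlib

/-!
# Orbits of a permutation and its sign (item 70e, lead)

`sign σ = (-1) ^ (|X| - #orbits of ⟨σ⟩)`; consequently, for a group action,
`|X| + orb s + orb t + orb (s * t)` is even.
-/

set_option autoImplicit false

namespace Fermat.Agent.FF.OrbitSign

open Equiv Equiv.Perm MulAction

variable {X : Type*} [Fintype X] [DecidableEq X]

/-- the classifying map: a point goes to itself if fixed, else to its cycle -/
noncomputable def classify (σ : Perm X) (x : X) :
    {x : X // σ x = x} ⊕ {c : Perm X // c ∈ σ.cycleFactorsFinset} :=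
  if hx : σ x = x then Sum.inl ⟨x, hx⟩
  else Sum.inr ⟨σ.cycleOf x, cycleOf_mem_cycleFactorsFinset_iff.mpr (mem_support.mpr hx)⟩

theorem classify_eq_iff (σ : Perm X) (x y : X) :
    classify σ x = classify σ y ↔ σ.SameCycle x y := by
  unfold classify
  by_cases hx : σ x = x
  · by_cases hy : σ y = y
    · rw [dif_pos hx, dif_pos hy]
      simp only [Sum.inl.injEq, Subtype.mk.injEq]
      constructor
      · rintro rfl; exact SameCycle.refl _ _
      · rintro ⟨k, hk⟩
        have : (σ ^ k) x = x := by
          exact (zpow_apply_eq_self_of_apply_eq_self hx k)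
        rw [this] at hk; exact hk
    · rw [dif_pos hx, dif_neg hy]
      simp only [reduceCtorEq, false_iff]
      rintro ⟨k, hk⟩
      have : (σ ^ k) x = x := zpow_apply_eq_self_of_apply_eq_self hx k
      rw [this] at hk
      subst hk
      exact hy hx
  · by_cases hy : σ y = y
    · rw [dif_neg hx, dif_pos hy]
      simp only [reduceCtorEq, false_iff]
      intro h
      obtain ⟨k, hk⟩ := h.symm
      have : (σ ^ k) y = y := zpow_apply_eq_self_of_apply_eq_self hy k
      rw [this] at hk
      subst hk
      exact hx hy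
    · rw [dif_neg hx, dif_neg hy]
      simp only [Sum.inr.injEq, Subtype.mk.injEq]
      exact (sameCycle_iff_cycleOf_eq_of_mem_support (mem_support.mpr hx)
        (mem_support.mpr hy)).symm

theorem classify_surjective (σ : Perm X) : Function.Surjective (classify σ) := by
  rintro (⟨x, hx⟩ | ⟨c, hc⟩)
  · exact ⟨x, by simp [classify, hx]⟩
  · have hcyc := (mem_cycleFactorsFinset_iff.mp hc).1
    obtain ⟨a, ha⟩ := hcyc.nonempty_support
    have hca := cycle_is_cycleOf ha hc
    have hsa : σ a ≠ a := by
      have := (mem_cycleFactorsFinset_iff.mp hc).2 a ha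
      rw [← this]
      exact mem_support.mp ha
    refine ⟨a, ?_⟩
    simp only [classify, dif_neg hsa]
    congr 1
    exact Subtype.ext hca.symm

/-- orbits of `⟨σ⟩` ↔ fixed points ⊔ cycles -/
noncomputable def quotEquiv (σ : Perm X) :
    Quotient (SameCycle.setoid σ) ≃
      {x : X // σ x = x} ⊕ {c : Perm X // c ∈ σ.cycleFactorsFinset} :=
  Equiv.ofBijective
    (Quotient.lift (classify σ) (fun a b h => (classify_eq_iff σ a b).mpr h))
    ⟨by
      rintro ⟨a⟩ ⟨b⟩ h
      exact Quotient.sound ((classify_eq_iff σ a b).mp h),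
     by
      intro y
      obtain ⟨x, rfl⟩ := classify_surjective σ y
      exact ⟨Quotient.mk _ x, rfl⟩⟩

theorem card_quot_add (σ : Perm X) :
    Nat.card (Quotient (SameCycle.setoid σ)) + σ.cycleType.sum
      = Fintype.card X + Multiset.card σ.cycleType := by
  classical
  rw [Nat.card_congr (quotEquiv σ), Nat.card_eq_fintype_card, Fintype.card_sum]
  have h1 : Fintype.card {x : X // σ x = x} = Fintype.card X - σ.cycleType.sum := by
    rw [← card_fixedPoints]
    exact Fintype.card_congr (Equiv.refl _)
  have h2 : Fintype.card {c : Perm X // c ∈ σ.cycleFactorsFinset}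
      = Multiset.card σ.cycleType := by
    rw [Fintype.card_coe, cycleType_def, Multiset.card_map]
    rfl
  have h3 := σ.sum_cycleType_le
  rw [h1, h2]
  omega

/-- `sign σ = (-1) ^ (|X| + #orbits)` -/
theorem sign_eq (σ : Perm X) :
    Perm.sign σ = (-1 : ℤˣ) ^ (Fintype.card X + Nat.card (Quotient (SameCycle.setoid σ))) := by
  rw [sign_of_cycleType]
  have h := card_quot_add σ
  have h3 := σ.sum_cycleType_le
  have : Fintype.card X + Nat.card (Quotient (SameCycle.setoid σ))
      = σ.cycleType.sum + Multiset.card σ.cycleType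
        + 2 * (Fintype.card X - σ.cycleType.sum) := by omega
  rw [this, pow_add _ (σ.cycleType.sum + Multiset.card σ.cycleType), pow_mul]
  simp


section Action

variable {G : Type*} [Group G] [MulAction G X]

theorem orbitRel_zpowers_iff (g : G) (x y : X) :
    orbitRel (Subgroup.zpowers g) X x y ↔ (MulAction.toPerm g : Perm X).SameCycle y x := by
  have hz : ∀ k : ℤ, (MulAction.toPerm g : Perm X) ^ k = MulAction.toPerm (g ^ k) := fun k =>
    (map_zpow (MulAction.toPermHom G X) g k).symm
  rw [orbitRel_apply]
  constructor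
  · rintro ⟨⟨h, k, rfl⟩, hk⟩
    refine ⟨k, ?_⟩
    rw [hz]
    exact hk
  · rintro ⟨k, hk⟩
    refine ⟨⟨g ^ k, k, rfl⟩, ?_⟩
    rw [hz] at hk
    exact hk

theorem card_orbits_eq (g : G) :
    Nat.card (orbitRel.Quotient (Subgroup.zpowers g) X)
      = Nat.card (Quotient (SameCycle.setoid (MulAction.toPerm g : Perm X))) := by
  apply Nat.card_congr
  refine Quotient.congr (Equiv.refl X) ?_
  intro a b
  rw [orbitRel_zpowers_iff]
  exact sameCycle_comm

/-- parity: `|X| + orb s + orb t + orb (s * t)` is even -/
theorem even_card_add_orbits (s t : G) :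
    Even (Fintype.card X + Nat.card (orbitRel.Quotient (Subgroup.zpowers s) X)
      + Nat.card (orbitRel.Quotient (Subgroup.zpowers t) X)
      + Nat.card (orbitRel.Quotient (Subgroup.zpowers (s * t)) X)) := by
  have hs := sign_eq (MulAction.toPerm s : Perm X)
  have ht := sign_eq (MulAction.toPerm t : Perm X)
  have hst := sign_eq (MulAction.toPerm (s * t) : Perm X)
  rw [← card_orbits_eq] at hs ht hst
  have hmul : (MulAction.toPerm (s * t) : Perm X) = MulAction.toPerm s * MulAction.toPerm t := by
    ext x; simp [mul_smul]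
  rw [hmul, map_mul, hs, ht, ← pow_add] at hst
  set n := Fintype.card X
  set a := Nat.card (orbitRel.Quotient (Subgroup.zpowers s) X)
  set b := Nat.card (orbitRel.Quotient (Subgroup.zpowers t) X)
  set c := Nat.card (orbitRel.Quotient (Subgroup.zpowers (s * t)) X)
  have key : Even (n + a + (n + b) + (n + c)) := by
    have h1 : ((-1 : ℤˣ)) ^ (n + a + (n + b) + (n + c)) = 1 := by
      rw [pow_add _ (n + a + (n + b)), hst, ← pow_add, ← two_mul, pow_mul]
      simp
    by_contra hodd
    rw [Nat.not_even_iff_odd] at hodd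
    rw [hodd.neg_one_pow] at h1
    exact absurd h1 (by decide)
  have : n + a + (n + b) + (n + c) = (n + a + b + c) + 2 * n := by ring
  rw [this] at key
  exact (Nat.even_add.mp key).mpr (even_two_mul n)

end Action

end Fermat.Agent.FF.OrbitSign
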