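import Mathlib

/-!
# Scott's lemma for permutation actions (item 70e, lead)

For a group `G` generated by `s, t` acting transitively on a finite set `X`:
`orb s + orb t + orb (s * t) ≤ |X| + 2`, where `orb g` is the number of orbits of `⟨g⟩` on `X`.
-/

set_option autoImplicit false

namespace Fermat.Agent.FF.Scott

open MulAction

variable {G X : Type*} [Group G] [MulAction G X]

/-- the operator `L_g` on functions `X → ℚ`: `(L_g f) x = f (g⁻¹ • x)` -/
noncomputable def L (g : G) : (X → ℚ) →ₗ[ℚ] (X → ℚ) :=
  LinearMap.funLeft ℚ ℚ (fun x => g⁻¹ • x)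

@[simp] theorem L_apply (g : G) (f : X → ℚ) (x : X) : L g f x = f (g⁻¹ • x) := rfl

theorem L_mul (g h : G) : L (X := X) (g * h) = L g ∘ₗ L h := by
  ext f x
  simp [L_apply, mul_inv_rev, mul_smul]

theorem L_one : L (X := X) (1 : G) = LinearMap.id := by
  ext f x
  simp [L_apply]

/-- the fixed space of `L_g` -/
noncomputable def fixL (g : G) : Submodule ℚ (X → ℚ) := LinearMap.ker (LinearMap.id - L (X := X) g)

theorem mem_fixL {g : G} {f : X → ℚ} : f ∈ fixL g ↔ ∀ x, f (g • x) = f x := by
  simp only [fixL, LinearMap.mem_ker, LinearMap.sub_apply, LinearMap.id_apply, sub_eq_zero]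
  constructor
  · intro h x
    have := congrFun h (g • x)
    simp only [L_apply, inv_smul_smul] at this
    exact this
  · intro h
    funext x
    have := h (g⁻¹ • x)
    simp only [smul_inv_smul] at this
    simp [L_apply, this]

theorem fixL_zpow {g : G} {f : X → ℚ} (hf : f ∈ fixL g) (k : ℤ) (x : X) :
    f (g ^ k • x) = f x := by
  have h1 := mem_fixL.mp hf
  have h2 : ∀ x, f (g⁻¹ • x) = f x := fun x => by
    have := h1 (g⁻¹ • x)
    rw [smul_inv_smul] at this
    exact this.symm
  induction k using Int.induction_on generalizing x with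
  | zero => simp
  | succ n ih =>
    rw [zpow_add_one, mul_smul, ih, h1]
  | pred n ih =>
    rw [zpow_sub_one, mul_smul, ih, h2]

theorem mem_fixL_zpowers {g : G} {f : X → ℚ} (hf : f ∈ fixL g) (h : Subgroup.zpowers g) (x : X) :
    f (h • x) = f x := by
  obtain ⟨h, k, rfl⟩ := h
  exact fixL_zpow hf k x

/-- The fixed space of `L_g` is the space of functions on the orbit space of `⟨g⟩`. -/
noncomputable def fixLEquiv (g : G) :
    fixL (X := X) g ≃ₗ[ℚ] (orbitRel.Quotient (Subgroup.zpowers g) X → ℚ) where
  toFun f := fun q => Quotient.liftOn' q (f : X → ℚ) (by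
    intro a b hab
    rw [orbitRel_apply] at hab
    obtain ⟨h, rfl⟩ := hab
    exact mem_fixL_zpowers f.2 h b)
  invFun φ := ⟨fun x => φ (Quotient.mk'' x), by
    rw [mem_fixL]
    intro x
    congr 1
    apply Quotient.sound'
    rw [orbitRel_apply]
    exact ⟨⟨g, Subgroup.mem_zpowers g⟩, rfl⟩⟩
  map_add' f₁ f₂ := by
    funext q
    induction q using Quotient.inductionOn' with
    | h x => rfl
  map_smul' c f := by
    funext q
    induction q using Quotient.inductionOn' with
    | h x => rfl
  left_inv f := by
    ext x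
    rfl
  right_inv φ := by
    funext q
    induction q using Quotient.inductionOn' with
    | h x => rfl

theorem finrank_fixL [Finite X] (g : G) :
    Module.finrank ℚ (fixL (X := X) g) = Nat.card (orbitRel.Quotient (Subgroup.zpowers g) X) := by
  classical
  have _inst : Fintype (orbitRel.Quotient (Subgroup.zpowers g) X) := Fintype.ofFinite _
  rw [(fixLEquiv g).finrank_eq, Module.finrank_fintype_fun_eq_card, Nat.card_eq_fintype_card]


section Main

variable [Fintype X] [DecidableEq X]

set_option linter.unusedSectionVars false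

theorem L_single (g : G) (y : X) : L g (Pi.single y (1 : ℚ)) = Pi.single (g • y) 1 := by
  funext x
  simp only [L_apply, Pi.single_apply]
  by_cases h : x = g • y
  · subst h; simp
  · rw [if_neg h, if_neg]
    intro h'
    apply h
    rw [← h', smul_inv_smul]

/-- differences of basis vectors along the action of `g` lie in the range of `1 - L_g` -/
theorem single_sub_single_mem_range (g : G) (x : X) :
    (Pi.single x (1 : ℚ) - Pi.single (g • x) 1 : X → ℚ) ∈
      LinearMap.range (LinearMap.id - L (X := X) g) :=
  ⟨Pi.single x 1, by simp [L_single]⟩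

theorem finrank_range_one_sub_L (g : G) :
    Module.finrank ℚ (LinearMap.range (LinearMap.id - L (X := X) g))
      + Nat.card (orbitRel.Quotient (Subgroup.zpowers g) X) = Fintype.card X := by
  have h := LinearMap.finrank_range_add_finrank_ker (LinearMap.id - L (X := X) g)
  rw [Module.finrank_fintype_fun_eq_card] at h
  rw [← finrank_fixL g]
  exact h

variable (s t : G)

/-- functions fixed by `s` and `t` are fixed by the group they generate -/
theorem fixed_of_closure {f : X → ℚ} (hs : f ∈ fixL s) (ht : f ∈ fixL t)
    (g : G) (hg : g ∈ Subgroup.closure ({s, t} : Set G)) (x : X) : f (g • x) = f x := by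
  induction hg using Subgroup.closure_induction generalizing x with
  | mem y hy =>
    rcases hy with rfl | rfl
    · exact mem_fixL.mp hs x
    · exact mem_fixL.mp ht x
  | one => simp
  | mul a b _ _ iha ihb => rw [mul_smul, iha, ihb]
  | inv a _ iha =>
    have := iha (a⁻¹ • x)
    rw [smul_inv_smul] at this
    exact this.symm

theorem single_sub_mem_of_closure (Z : Submodule ℚ (X → ℚ))
    (hs : ∀ x, (Pi.single x (1 : ℚ) - Pi.single (s • x) 1 : X → ℚ) ∈ Z)
    (ht : ∀ x, (Pi.single x (1 : ℚ) - Pi.single (t • x) 1 : X → ℚ) ∈ Z)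
    (g : G) (hg : g ∈ Subgroup.closure ({s, t} : Set G)) (x : X) :
    (Pi.single x (1 : ℚ) - Pi.single (g • x) 1 : X → ℚ) ∈ Z := by
  induction hg using Subgroup.closure_induction generalizing x with
  | mem y hy =>
    rcases hy with rfl | rfl
    · exact hs x
    · exact ht x
  | one => simp
  | mul a b _ _ iha ihb =>
    have h1 := ihb x
    have h2 := iha (b • x)
    have := Z.add_mem h1 h2
    rw [mul_smul]
    convert this using 1
    abel
  | inv a _ iha =>
    have := Z.neg_mem (iha (a⁻¹ • x))
    rw [smul_inv_smul] at this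
    convert this using 1
    abel


/-- the sum functional -/
noncomputable def sumL : (X → ℚ) →ₗ[ℚ] ℚ where
  toFun f := ∑ x, f x
  map_add' f g := by simp [Finset.sum_add_distrib]
  map_smul' c f := by simp [Finset.mul_sum]

theorem finrank_ker_sumL [Nonempty X] :
    Module.finrank ℚ (LinearMap.ker (sumL (X := X))) + 1 = Fintype.card X := by
  have h := LinearMap.finrank_range_add_finrank_ker (sumL (X := X))
  rw [Module.finrank_fintype_fun_eq_card] at h
  have hsurj : LinearMap.range (sumL (X := X)) = ⊤ := by
    rw [LinearMap.range_eq_top]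
    intro c
    obtain ⟨x₀⟩ := ‹Nonempty X›
    refine ⟨Pi.single x₀ c, ?_⟩
    simp [sumL]
  rw [hsurj, finrank_top, Module.finrank_self] at h
  omega

/-- the sum-zero hyperplane is spanned by differences of basis vectors -/
theorem ker_sumL_le (Z : Submodule ℚ (X → ℚ))
    (hZ : ∀ x y : X, (Pi.single x (1 : ℚ) - Pi.single y 1 : X → ℚ) ∈ Z) [Nonempty X] :
    LinearMap.ker (sumL (X := X)) ≤ Z := by
  intro f hf
  obtain ⟨x₀⟩ := ‹Nonempty X›
  have hf0 : ∑ x, f x = 0 := hf
  have : f = ∑ x, f x • (Pi.single x (1 : ℚ) - Pi.single x₀ 1 : X → ℚ) := by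
    funext y
    simp only [Finset.sum_apply, Pi.smul_apply, Pi.sub_apply, Pi.single_apply, smul_eq_mul,
      mul_sub, mul_ite, mul_one, mul_zero, Finset.sum_sub_distrib]
    rw [Finset.sum_ite_eq Finset.univ y f, if_pos (Finset.mem_univ _)]
    by_cases hy : y = x₀
    · simp [hy, hf0]
    · simp [hy]
  rw [this]
  exact Z.sum_mem fun x _ => Z.smul_mem _ (hZ x x₀)

theorem L_injective (g : G) : Function.Injective (L (X := X) g) := by
  intro f₁ f₂ h
  funext x
  have := congrFun h (g • x)
  simpa [L_apply] using this

theorem fixL_mul_eq (g h : G) :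
    fixL (X := X) (g * h) = LinearMap.ker (LinearMap.id - L (X := X) g ∘ₗ L h) := by
  rw [fixL, L_mul]

/-- **Scott's lemma** for a transitive permutation action of a group generated by `s`, `t`. -/
theorem orbits_le [Nonempty X] [IsPretransitive G X]
    (hgen : Subgroup.closure ({s, t} : Set G) = ⊤) :
    Nat.card (orbitRel.Quotient (Subgroup.zpowers s) X)
      + Nat.card (orbitRel.Quotient (Subgroup.zpowers t) X)
      + Nat.card (orbitRel.Quotient (Subgroup.zpowers (s * t)) X) ≤ Fintype.card X + 2 := by
  set P := L (X := X) s with hP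
  set Q := L (X := X) t with hQ
  set A := LinearMap.id - P with hA
  set B := LinearMap.id - Q with hB
  set M := LinearMap.id - P ∘ₗ Q with hM
  have hMAB : ∀ v, M v = A v + P (B v) := by
    intro v
    simp only [hM, hA, hB, LinearMap.sub_apply, LinearMap.id_apply, LinearMap.comp_apply, map_sub]
    abel
  have hrA : Module.finrank ℚ (LinearMap.range A)
      + Nat.card (orbitRel.Quotient (Subgroup.zpowers s) X) = Fintype.card X :=
    finrank_range_one_sub_L (X := X) s
  have hrB : Module.finrank ℚ (LinearMap.range B)
      + Nat.card (orbitRel.Quotient (Subgroup.zpowers t) X) = Fintype.card X :=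
    finrank_range_one_sub_L (X := X) t
  have hkM : Module.finrank ℚ (LinearMap.ker M)
      = Nat.card (orbitRel.Quotient (Subgroup.zpowers (s * t)) X) := by
    rw [← finrank_fixL (s * t), fixL_mul_eq]
  -- (1) common fixed vectors are constant
  have h1 : Module.finrank ℚ ↥(LinearMap.ker A ⊓ LinearMap.ker B) ≤ 1 := by
    have hle : LinearMap.ker A ⊓ LinearMap.ker B ≤ Submodule.span ℚ {(fun _ => (1 : ℚ) : X → ℚ)} := by
      intro f hf
      obtain ⟨x₀⟩ := ‹Nonempty X›
      have hconst : ∀ x, f x = f x₀ := by
        intro x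
        obtain ⟨g, rfl⟩ := MulAction.exists_smul_eq G x₀ x
        exact fixed_of_closure s t hf.1 hf.2 g (by rw [hgen]; trivial) x₀
      rw [Submodule.mem_span_singleton]
      refine ⟨f x₀, ?_⟩
      funext x
      simp [hconst x]
    refine (Submodule.finrank_mono hle).trans ?_
    have := finrank_span_le_card (R := ℚ) ({(fun _ => (1 : ℚ) : X → ℚ)} : Set (X → ℚ))
    simpa using this
  -- (2) the sum contains the hyperplane
  set Z := LinearMap.range A ⊔ (LinearMap.range B).map P with hZ
  have hBZ : LinearMap.range B ≤ Z := by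
    rintro _ ⟨v, rfl⟩
    have : B v = A (B v) + P (B v) := by
      simp only [hA, LinearMap.sub_apply, LinearMap.id_apply]; abel
    rw [this]
    exact Z.add_mem (Submodule.mem_sup_left ⟨_, rfl⟩)
      (Submodule.mem_sup_right (Submodule.mem_map_of_mem ⟨v, rfl⟩))
  have hAZ : LinearMap.range A ≤ Z := le_sup_left
  have h2 : Fintype.card X ≤ Module.finrank ℚ Z + 1 := by
    have hker : LinearMap.ker (sumL (X := X)) ≤ Z := by
      apply ker_sumL_le
      intro x y
      obtain ⟨g, rfl⟩ := MulAction.exists_smul_eq G x y
      exact single_sub_mem_of_closure s t Z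
        (fun x => hAZ (single_sub_single_mem_range s x))
        (fun x => hBZ (single_sub_single_mem_range t x)) g (by rw [hgen]; trivial) x
    have := Submodule.finrank_mono hker
    have h' := finrank_ker_sumL (X := X)
    omega
  -- (3) sup/inf formula
  have h3 : Module.finrank ℚ Z + Module.finrank ℚ ↥(LinearMap.range A ⊓ (LinearMap.range B).map P)
      = Module.finrank ℚ (LinearMap.range A) + Module.finrank ℚ ((LinearMap.range B).map P) :=
    Submodule.finrank_sup_add_finrank_inf_eq (LinearMap.range A) ((LinearMap.range B).map P)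
  have h3' : Module.finrank ℚ ((LinearMap.range B).map P) = Module.finrank ℚ (LinearMap.range B) :=
    LinearEquiv.finrank_eq (Submodule.equivMapOfInjective P (L_injective s) _).symm
  -- (4) the restricted map `ker M → V`, `v ↦ A v`
  let Ar : LinearMap.ker M →ₗ[ℚ] (X → ℚ) := A.domRestrict (LinearMap.ker M)
  have h4 : Module.finrank ℚ (LinearMap.range Ar) + Module.finrank ℚ (LinearMap.ker Ar)
      = Module.finrank ℚ (LinearMap.ker M) := LinearMap.finrank_range_add_finrank_ker Ar
  have h4r : LinearMap.range Ar ≤ LinearMap.range A ⊓ (LinearMap.range B).map P := by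
    rintro _ ⟨⟨v, hv⟩, rfl⟩
    refine ⟨⟨v, rfl⟩, ?_⟩
    have hv' : A v + P (B v) = 0 := by rw [← hMAB]; exact hv
    have : A v = P (B (-v)) := by
      rw [map_neg, map_neg]
      exact eq_neg_of_add_eq_zero_left hv'
    show A v ∈ (LinearMap.range B).map P
    rw [this]
    exact Submodule.mem_map_of_mem ⟨_, rfl⟩
  have h4k : Module.finrank ℚ (LinearMap.ker Ar) ≤ 1 := by
    refine le_trans ?_ h1
    have hinj : Function.Injective ((LinearMap.ker M).subtype ∘ₗ (LinearMap.ker Ar).subtype) :=
      (Submodule.injective_subtype _).comp (Submodule.injective_subtype _)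
    have hmem : ∀ w : LinearMap.ker Ar,
        ((LinearMap.ker M).subtype ∘ₗ (LinearMap.ker Ar).subtype) w
          ∈ LinearMap.ker A ⊓ LinearMap.ker B := by
      rintro ⟨⟨v, hv⟩, hw⟩
      have hAv : A v = 0 := hw
      have hv' : A v + P (B v) = 0 := by rw [← hMAB]; exact hv
      rw [hAv, zero_add] at hv'
      have hBv : B v = 0 := by
        apply L_injective (X := X) s
        rw [map_zero]; exact hv'
      exact ⟨hAv, hBv⟩
    exact LinearMap.finrank_le_finrank_of_injective
      (f := LinearMap.codRestrict (LinearMap.ker A ⊓ LinearMap.ker B)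
        ((LinearMap.ker M).subtype ∘ₗ (LinearMap.ker Ar).subtype) hmem)
      (fun a b hab => hinj (by simpa using congrArg Subtype.val hab))
  have h4r' : Module.finrank ℚ (LinearMap.range Ar)
      ≤ Module.finrank ℚ ↥(LinearMap.range A ⊓ (LinearMap.range B).map P) :=
    Submodule.finrank_mono h4r
  rw [h3'] at h3
  rw [hkM] at h4
  omega

end Main

end Fermat.Agent.FF.Scott
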