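import Mathlib
import Fermat.Agent.FF.Interface
import Fermat.Agent.FF.Scott
import Fermat.Agent.FF.OrbitSign

/-!
# `genus_nat` for `SL(2,ℤ) ⧸ Γ₀(N)` (item 70e, lead)
-/

set_option autoImplicit false

open CongruenceSubgroup MulAction
open scoped MatrixGroups

namespace Fermat.Agent.FF

variable (N : ℕ) [NeZero N]

instance instFiniteXCoset : Finite (X N) := by
  unfold X
  infer_instance

/-- parity + Scott: the "genus" of the coset action is a natural number -/
theorem genus_nat_card :
    ∃ g : ℕ, 2 * g + orbCount N ModularGroup.T + orbCount N ModularGroup.S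
      + orbCount N (ModularGroup.S * ModularGroup.T) = Nat.card (X N) + 2 := by
  classical
  let _i : Fintype (X N) := Fintype.ofFinite _
  have hgen : Subgroup.closure ({ModularGroup.S, ModularGroup.T} : Set SL(2, ℤ)) = ⊤ :=
    _root_.SpecialLinearGroup.SL2Z_generators
  have hle : orbCount N ModularGroup.S + orbCount N ModularGroup.T
      + orbCount N (ModularGroup.S * ModularGroup.T) ≤ Nat.card (X N) + 2 := by
    have := Scott.orbits_le (G := SL(2, ℤ)) (X := X N) ModularGroup.S ModularGroup.T hgen
    rw [← Nat.card_eq_fintype_card] at this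
    exact this
  have hev : Even (Nat.card (X N) + orbCount N ModularGroup.S + orbCount N ModularGroup.T
      + orbCount N (ModularGroup.S * ModularGroup.T)) := by
    have := OrbitSign.even_card_add_orbits (G := SL(2, ℤ)) (X := X N)
      ModularGroup.S ModularGroup.T
    rw [← Nat.card_eq_fintype_card] at this
    exact this
  obtain ⟨k, hk⟩ := hev
  refine ⟨Nat.card (X N) + 1 - k, ?_⟩
  omega

end Fermat.Agent.FF
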