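import Mathlib
import Fermat.Agent.FF.Interface
import Fermat.Agent.FF.CosetGenus
import Fermat.Agent.FF.OrbitSign

/-!
# `CosetCounts N` from four elementary counts (item 70, lead)

Remaining work for item 70 = the four fields of `CosetParts N`.
-/

set_option autoImplicit false

open CongruenceSubgroup MulAction
open scoped MatrixGroups

namespace Fermat.Agent.FF

section Orbits

variable {G X : Type*} [Group G] [MulAction G X] [Finite X]

/-- If `g ^ p` acts trivially (`p` prime) then `p * #orbits = |X| + (p - 1) * |Fix g|`. -/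
theorem prime_mul_card_orbits (g : G) (p : ℕ) (hp : p.Prime) (hg : ∀ x : X, g ^ p • x = x) :
    p * Nat.card (orbitRel.Quotient (Subgroup.zpowers g) X)
      = Nat.card X + (p - 1) * Nat.card (fixedBy X g) := by
  classical
  let _i : Fintype X := Fintype.ofFinite X
  haveI : Fact p.Prime := ⟨hp⟩
  set σ : Equiv.Perm X := MulAction.toPerm g with hσdef
  have hσp : σ ^ p = 1 := by
    ext x
    have : (MulAction.toPerm g : Equiv.Perm X) ^ p = MulAction.toPerm (g ^ p) :=
      (map_pow (MulAction.toPermHom G X) g p).symm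
    rw [hσdef, this]
    simpa using hg x
  have h1 := OrbitSign.card_quot_add σ
  have h2 : Nat.card (orbitRel.Quotient (Subgroup.zpowers g) X)
      = Nat.card (Quotient (Equiv.Perm.SameCycle.setoid σ)) := OrbitSign.card_orbits_eq g
  have h3 : σ.cycleType.sum = Multiset.card σ.cycleType * p := by
    conv_lhs => rw [Equiv.Perm.cycleType_of_pow_prime_eq_one hσp]
    simp
  have h4 : Nat.card (fixedBy X g) = Fintype.card X - σ.cycleType.sum := by
    rw [← Equiv.Perm.card_fixedPoints, Nat.card_eq_fintype_card]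
    exact Fintype.card_congr (Equiv.refl _)
  have h5 := σ.sum_cycleType_le
  have hn : Nat.card X = Fintype.card X := Nat.card_eq_fintype_card
  rw [h2, h4, hn]
  have hp1 : 1 ≤ p := hp.one_lt.le
  set n := Fintype.card X
  set c := Multiset.card σ.cycleType
  set o := Nat.card (Quotient (Equiv.Perm.SameCycle.setoid σ))
  rw [h3] at h1 h5 ⊢
  have ho : o = n + c - c * p := by omega
  rw [ho]
  have hc : c ≤ c * p := Nat.le_mul_of_pos_right c (by omega)
  zify [hp1, h5, hc, (by omega : c * p ≤ n + c)]
  ring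

end Orbits

variable (N : ℕ) [NeZero N]

/-- The four elementary counts on `SL(2,ℤ) ⧸ Γ₀(N) ≅ ℙ¹(ℤ/N)`. -/
structure CosetParts : Prop where
  card_X : Nat.card (X N) = ModularCurve.dedekindPsi N
  fix_S : Nat.card (fixedBy (X N) ModularGroup.S) = ModularCurve.nuTwo N
  fix_U : Nat.card (fixedBy (X N) (ModularGroup.S * ModularGroup.T)) = ModularCurve.nuThree N
  orb_T : orbCount N ModularGroup.T = ModularCurve.cuspCount N

omit [NeZero N] in
theorem neg_one_smul_X (x : X N) : (-1 : SL(2, ℤ)) • x = x := by
  induction x using QuotientGroup.induction_on with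
  | H g =>
    show ((((-1 : SL(2, ℤ)) * g : SL(2, ℤ)) : X N)) = (g : X N)
    rw [QuotientGroup.eq]
    have : ((-1 : SL(2, ℤ)) * g)⁻¹ * g = -1 := by
      rw [mul_inv_rev]
      have h1 : (-1 : SL(2, ℤ))⁻¹ = -1 := by
        ext i j; fin_cases i <;> fin_cases j <;> simp [Matrix.SpecialLinearGroup.coe_inv]
      rw [h1]
      have h2 : g⁻¹ * (-1 : SL(2, ℤ)) * g = -1 := by
        ext i j
        have := congrArg (fun m : SL(2, ℤ) => (m : Matrix (Fin 2) (Fin 2) ℤ) i j)
          (inv_mul_cancel g)
        simp only [Matrix.SpecialLinearGroup.coe_mul, Matrix.SpecialLinearGroup.coe_neg,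
          Matrix.SpecialLinearGroup.coe_one, Matrix.mul_neg, Matrix.mul_one, Matrix.neg_mul,
          Matrix.neg_apply] at this ⊢
        rw [this]
      exact h2
    rw [this, Gamma0_mem]
    simp

omit [NeZero N] in
theorem S_sq_smul (x : X N) : ModularGroup.S ^ 2 • x = x := by
  have : ModularGroup.S ^ 2 = (-1 : SL(2, ℤ)) := by
    apply Subtype.ext
    rw [pow_two, Matrix.SpecialLinearGroup.coe_mul, ModularGroup.S_mul_S_eq]
    rfl
  rw [this, neg_one_smul_X]

omit [NeZero N] in
theorem U_cube_smul (x : X N) : (ModularGroup.S * ModularGroup.T) ^ 3 • x = x := by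
  have : (ModularGroup.S * ModularGroup.T) ^ 3 = (-1 : SL(2, ℤ)) := by
    apply Subtype.ext
    simp only [pow_succ, pow_zero, one_mul, Matrix.SpecialLinearGroup.coe_mul,
      ModularGroup.coe_S, ModularGroup.coe_T, Matrix.SpecialLinearGroup.coe_neg,
      Matrix.SpecialLinearGroup.coe_one]
    ext i j
    fin_cases i <;> fin_cases j <;> simp [Matrix.mul_apply, Fin.sum_univ_two]
  rw [this, neg_one_smul_X]

theorem cosetCounts_of_parts (h : CosetParts N) : CosetCounts N := by
  have hS : 2 * orbCount N ModularGroup.S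
      = Nat.card (X N) + (2 - 1) * Nat.card (fixedBy (X N) ModularGroup.S) :=
    prime_mul_card_orbits (X := X N) ModularGroup.S 2 Nat.prime_two (S_sq_smul N)
  have hU : 3 * orbCount N (ModularGroup.S * ModularGroup.T)
      = Nat.card (X N) + (3 - 1) * Nat.card (fixedBy (X N) (ModularGroup.S * ModularGroup.T)) :=
    prime_mul_card_orbits (X := X N) (ModularGroup.S * ModularGroup.T) 3
      Nat.prime_three (U_cube_smul N)
  rw [h.card_X, h.fix_S] at hS
  rw [h.card_X, h.fix_U] at hU
  norm_num at hS hU
  obtain ⟨g, hg⟩ := genus_nat_card N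
  rw [h.card_X] at hg
  exact ⟨h.card_X, h.orb_T, hS, hU, ⟨g, hg⟩⟩

end Fermat.Agent.FF
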