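import Mathlib
import Fermat.Agent.FF.Interface

/-!
# S24 item 70d: the number of `T`-orbits on `SL(2,ℤ) ⧸ Γ₀(N)` is `cuspCount N`

The double coset `⟨T⟩ γ Γ₀(N)` of `γ = (a b; c d)` is classified by `d = gcd(c, N)` and the class
of `a * (c / d)⁻¹` in `(ℤ / gcd(d, N / d))ˣ`.
-/

set_option autoImplicit false
set_option linter.style.haveILetI false
set_option linter.unusedSimpArgs false

open CongruenceSubgroup MulAction
open scoped MatrixGroups

namespace Fermat.Agent.FF.CosetT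

section Arith

variable (N : ℕ) [NeZero N]

/-- The arithmetic core: two coprime columns `(a, c)`, `(a', c')` are related by
`∃ k, N ∣ (a + k c) c' - c a'` iff they have the same `gcd` with `N` and the same
class modulo `gcd(d, N / d)`. -/
theorem core_iff (a c a' c' : ℤ) (h : IsCoprime a c) (h' : IsCoprime a' c') :
    (∃ k : ℤ, (N : ℤ) ∣ (a + k * c) * c' - c * a') ↔
      Int.gcd c N = Int.gcd c' N ∧
        ((Nat.gcd (Int.gcd c N) (N / Int.gcd c N) : ℕ) : ℤ) ∣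
          a * (c' / (Int.gcd c N : ℤ)) - a' * (c / (Int.gcd c N : ℤ)) := by
  have hN : (N : ℤ) ≠ 0 := by exact_mod_cast NeZero.ne N
  obtain ⟨d, hd⟩ : ∃ d : ℕ, d = Int.gcd c N := ⟨_, rfl⟩
  obtain ⟨d', hd'⟩ : ∃ d' : ℕ, d' = Int.gcd c' N := ⟨_, rfl⟩
  rw [← hd, ← hd']
  have hdc : (d : ℤ) ∣ c := by rw [hd]; exact Int.gcd_dvd_left _ _
  have hdN : (d : ℤ) ∣ N := by rw [hd]; exact Int.gcd_dvd_right _ _
  have hd'c : (d' : ℤ) ∣ c' := by rw [hd']; exact Int.gcd_dvd_left _ _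
  have hd'N : (d' : ℤ) ∣ N := by rw [hd']; exact Int.gcd_dvd_right _ _
  have hdpos : 0 < d := by
    rw [hd]
    exact Int.gcd_pos_of_ne_zero_right _ hN
  have hd0 : (d : ℤ) ≠ 0 := by exact_mod_cast hdpos.ne'
  have hdN' : d ∣ N := by exact_mod_cast hdN
  obtain ⟨M, hM⟩ := hdN'
  have hMdiv : N / d = M := by rw [hM]; exact Nat.mul_div_cancel_left M hdpos
  rw [hMdiv]
  obtain ⟨c₁, hc₁⟩ := hdc
  have hc₁div : c / (d : ℤ) = c₁ := by rw [hc₁]; exact Int.mul_ediv_cancel_left c₁ hd0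
  rw [hc₁div]
  have heD : ((Nat.gcd d M : ℕ) : ℤ) ∣ d := by exact_mod_cast Nat.gcd_dvd_left d M
  have heM : ((Nat.gcd d M : ℕ) : ℤ) ∣ M := by exact_mod_cast Nat.gcd_dvd_right d M
  have hNM : (N : ℤ) = d * M := by exact_mod_cast hM
  constructor
  · rintro ⟨k, t, ht⟩
    -- d ∣ c'
    have h1 : (d : ℤ) ∣ c' := by
      have hcop : IsCoprime (d : ℤ) (a + k * c) := by
        have : IsCoprime (a + k * c) c := h.add_mul_right_left k
        exact (this.of_isCoprime_of_dvd_right ⟨c₁, hc₁⟩).symm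
      apply hcop.dvd_of_dvd_mul_left
      refine ⟨M * t + c₁ * a', ?_⟩
      linear_combination ht + a' * hc₁ + t * hNM
    have h2 : (d' : ℤ) ∣ c := by
      have hcop : IsCoprime (d' : ℤ) a' := (h'.of_isCoprime_of_dvd_right hd'c).symm
      apply hcop.dvd_of_dvd_mul_right
      obtain ⟨c₁', hc₁'⟩ := hd'c
      obtain ⟨M', hM'⟩ := hd'N
      refine ⟨(a + k * c) * c₁' - M' * t, ?_⟩
      linear_combination -ht + (a + k * c) * hc₁' - t * hM'
    have hdd' : d = d' := by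
      apply Nat.dvd_antisymm
      · rw [hd']
        exact Int.natCast_dvd_natCast.mp (Int.dvd_coe_gcd h1 ⟨M, hNM⟩)
      · rw [hd]
        exact Int.natCast_dvd_natCast.mp (Int.dvd_coe_gcd h2 hd'N)
    refine ⟨hdd', ?_⟩
    obtain ⟨c₁', hc₁'⟩ := h1
    have hc₁'div : c' / (d : ℤ) = c₁' := by rw [hc₁']; exact Int.mul_ediv_cancel_left c₁' hd0
    rw [hc₁'div]
    have key : (a + k * (d * c₁)) * c₁' - c₁ * a' = M * t := by
      apply mul_left_cancel₀ hd0
      linear_combination ht + t * hNM + a' * hc₁ - (a + k * c) * hc₁' - k * d * c₁' * hc₁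
    obtain ⟨p, hp⟩ := heD
    obtain ⟨q, hq⟩ := heM
    refine ⟨q * t - k * p * c₁ * c₁', ?_⟩
    linear_combination key + t * hq - k * c₁ * c₁' * hp
  · rintro ⟨hdd', s, hs⟩
    rw [← hdd'] at hd'c hd'
    obtain ⟨c₁', hc₁'⟩ := hd'c
    have hc₁'div : c' / (d : ℤ) = c₁' := by rw [hc₁']; exact Int.mul_ediv_cancel_left c₁' hd0
    rw [hc₁'div] at hs
    have hMdiv' : (N : ℤ) / (d : ℤ) = M := by rw [hNM]; exact Int.mul_ediv_cancel_left _ hd0
    have hcop₁ : IsCoprime c₁ (M : ℤ) := by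
      rw [Int.isCoprime_iff_gcd_eq_one]
      have := Int.gcd_div_gcd_div_gcd (i := c) (j := N) (by rw [← hd]; exact hdpos)
      rwa [← hd, hc₁div, hMdiv'] at this
    have hcop₁' : IsCoprime c₁' (M : ℤ) := by
      rw [Int.isCoprime_iff_gcd_eq_one]
      have := Int.gcd_div_gcd_div_gcd (i := c') (j := N) (by rw [← hd']; exact hdpos)
      rwa [← hd', hc₁'div, hMdiv'] at this
    obtain ⟨u, v, huv⟩ := hcop₁.mul_left hcop₁'
    have hbez : ((Nat.gcd d M : ℕ) : ℤ) = d * Nat.gcdA d M + M * Nat.gcdB d M :=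
      Nat.gcd_eq_gcd_ab d M
    obtain ⟨x, hx⟩ : ∃ x : ℤ, x = Nat.gcdA d M := ⟨_, rfl⟩
    obtain ⟨y, hy⟩ : ∃ y : ℤ, y = Nat.gcdB d M := ⟨_, rfl⟩
    rw [← hx, ← hy] at hbez
    refine ⟨-(x * s * u), d * x * s * v + y * s, ?_⟩
    linear_combination (d : ℤ) * hs + (d : ℤ) * s * hbez - (d : ℤ) ^ 2 * x * s * huv
      - (d * x * s * v + y * s) * hNM + (a - x * s * u * c) * hc₁' - (a' + x*s*u*c₁'*d) * hc₁

/-- the class of `a * c₁⁻¹` modulo `e`, as a natural number -/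
def rOf (e : ℕ) (a c₁ : ℤ) : ℕ := ((a : ZMod e) * (c₁ : ZMod e)⁻¹).val

omit [NeZero N] in
theorem rOf_eq_iff (e : ℕ) [NeZero e] (a c₁ a' c₁' : ℤ) (hc₁ : IsCoprime c₁ (e : ℤ))
    (hc₁' : IsCoprime c₁' (e : ℤ)) :
    rOf e a c₁ = rOf e a' c₁' ↔ (e : ℤ) ∣ a * c₁' - a' * c₁ := by
  unfold rOf
  rw [(ZMod.val_injective e).eq_iff, ← ZMod.intCast_zmod_eq_zero_iff_dvd]
  have hy : (c₁ : ZMod e) * (c₁ : ZMod e)⁻¹ = 1 :=
    ZMod.mul_inv_of_unit _ ((ZMod.coe_int_isUnit_iff_isCoprime c₁ e).mpr hc₁.symm)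
  have hy' : (c₁' : ZMod e) * (c₁' : ZMod e)⁻¹ = 1 :=
    ZMod.mul_inv_of_unit _ ((ZMod.coe_int_isUnit_iff_isCoprime c₁' e).mpr hc₁'.symm)
  push_cast
  constructor
  · intro h
    linear_combination ((c₁ : ZMod e) * (c₁' : ZMod e)) * h - (a : ZMod e) * c₁' * hy
      + (a' : ZMod e) * c₁ * hy'
  · intro g
    linear_combination ((c₁ : ZMod e)⁻¹ * (c₁' : ZMod e)⁻¹) * g
      - (a : ZMod e) * (c₁ : ZMod e)⁻¹ * hy' + (a' : ZMod e) * (c₁' : ZMod e)⁻¹ * hy

/-- the invariant of a column `(a, c)` -/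
def colInv (a c : ℤ) : (_ : ℕ) × ℕ :=
  ⟨Int.gcd c N, rOf (Nat.gcd (Int.gcd c N) (N / Int.gcd c N)) a (c / (Int.gcd c N : ℤ))⟩

/-- the set of values of the invariant -/
def invSet : Finset ((_ : ℕ) × ℕ) :=
  N.divisors.sigma fun d =>
    (Finset.range (Nat.gcd d (N / d))).filter fun r => (Nat.gcd d (N / d)).Coprime r

omit [NeZero N] in
theorem card_invSet : (invSet N).card = ModularCurve.cuspCount N := by
  unfold invSet ModularCurve.cuspCount
  rw [Finset.card_sigma]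
  refine Finset.sum_congr rfl fun d _ => ?_
  rw [Nat.totient_eq_card_coprime]

theorem gcd_pos_aux (c : ℤ) : 0 < Int.gcd c N :=
  Int.gcd_pos_of_ne_zero_right _ (by exact_mod_cast NeZero.ne N)

theorem e_pos_aux (c : ℤ) : 0 < Nat.gcd (Int.gcd c N) (N / Int.gcd c N) :=
  Nat.gcd_pos_of_pos_left _ (gcd_pos_aux N c)

/-- `c / gcd(c, N)` is coprime to `e = gcd(d, N/d)`. -/
theorem isCoprime_div_aux (c : ℤ) :
    IsCoprime (c / (Int.gcd c N : ℤ))
      ((Nat.gcd (Int.gcd c N) (N / Int.gcd c N) : ℕ) : ℤ) := by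
  have hpos := gcd_pos_aux N c
  have h1 : IsCoprime (c / (Int.gcd c N : ℤ)) ((N : ℤ) / (Int.gcd c N : ℤ)) := by
    rw [Int.isCoprime_iff_gcd_eq_one]
    exact Int.gcd_div_gcd_div_gcd hpos
  have h2 : ((Nat.gcd (Int.gcd c N) (N / Int.gcd c N) : ℕ) : ℤ) ∣ (N : ℤ) / (Int.gcd c N : ℤ) := by
    rw [← Int.natCast_div]
    exact_mod_cast Nat.gcd_dvd_right _ _
  exact h1.of_isCoprime_of_dvd_right h2

theorem colInv_eq_iff (a c a' c' : ℤ) (h : IsCoprime a c) (h' : IsCoprime a' c') :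
    colInv N a c = colInv N a' c' ↔ ∃ k : ℤ, (N : ℤ) ∣ (a + k * c) * c' - c * a' := by
  rw [core_iff N a c a' c' h h']
  unfold colInv
  rw [Sigma.mk.injEq, heq_eq_eq]
  constructor
  · rintro ⟨h1, h2⟩
    refine ⟨h1, ?_⟩
    rw [← h1] at h2
    haveI : NeZero (Nat.gcd (Int.gcd c N) (N / Int.gcd c N)) := ⟨(e_pos_aux N c).ne'⟩
    have hc' := isCoprime_div_aux N c'
    rw [← h1] at hc'
    exact (rOf_eq_iff _ a _ a' _ (isCoprime_div_aux N c) hc').mp h2
  · rintro ⟨h1, h2⟩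
    refine ⟨h1, ?_⟩
    rw [← h1]
    haveI : NeZero (Nat.gcd (Int.gcd c N) (N / Int.gcd c N)) := ⟨(e_pos_aux N c).ne'⟩
    have hc' := isCoprime_div_aux N c'
    rw [← h1] at hc'
    exact (rOf_eq_iff _ a _ a' _ (isCoprime_div_aux N c) hc').mpr h2

theorem colInv_mem (a c : ℤ) (h : IsCoprime a c) : colInv N a c ∈ invSet N := by
  unfold colInv invSet
  rw [Finset.mem_sigma]
  have hdN : (Int.gcd c N : ℕ) ∣ N := by
    have := Int.gcd_dvd_right c (N : ℤ)
    exact_mod_cast this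
  refine ⟨Nat.mem_divisors.mpr ⟨hdN, NeZero.ne N⟩, ?_⟩
  haveI : NeZero (Nat.gcd (Int.gcd c N) (N / Int.gcd c N)) := ⟨(e_pos_aux N c).ne'⟩
  rw [Finset.mem_filter, Finset.mem_range]
  refine ⟨ZMod.val_lt _, ?_⟩
  unfold rOf
  -- the class is a unit
  have he_c : ((Nat.gcd (Int.gcd c N) (N / Int.gcd c N) : ℕ) : ℤ) ∣ c :=
    dvd_trans (by exact_mod_cast Nat.gcd_dvd_left _ _) (Int.gcd_dvd_left c (N : ℤ))
  have hua : IsUnit ((a : ℤ) : ZMod (Nat.gcd (Int.gcd c N) (N / Int.gcd c N))) :=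
    (ZMod.coe_int_isUnit_iff_isCoprime a _).mpr (h.of_isCoprime_of_dvd_right he_c).symm
  have huc : IsUnit (((c / (Int.gcd c N : ℤ) : ℤ)) :
      ZMod (Nat.gcd (Int.gcd c N) (N / Int.gcd c N))) :=
    (ZMod.coe_int_isUnit_iff_isCoprime _ _).mpr (isCoprime_div_aux N c).symm
  have hu : IsUnit (((a : ℤ) : ZMod (Nat.gcd (Int.gcd c N) (N / Int.gcd c N))) *
      (((c / (Int.gcd c N : ℤ) : ℤ)) : ZMod (Nat.gcd (Int.gcd c N) (N / Int.gcd c N)))⁻¹) := by
    refine hua.mul ?_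
    obtain ⟨u, hu⟩ := huc
    rw [← hu, ZMod.inv_coe_unit]
    exact Units.isUnit _
  obtain ⟨w, hw⟩ := hu
  rw [← hw]
  exact (ZMod.val_coe_unit_coprime w).symm

theorem exists_colInv_eq (p : (_ : ℕ) × ℕ) (hp : p ∈ invSet N) :
    ∃ a c : ℤ, IsCoprime a c ∧ colInv N a c = p := by
  obtain ⟨d, r⟩ := p
  unfold invSet at hp
  rw [Finset.mem_sigma, Finset.mem_filter, Finset.mem_range] at hp
  obtain ⟨hd, hr, hcop⟩ := hp
  simp only at hd hr hcop
  have hdN : d ∣ N := Nat.dvd_of_mem_divisors hd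
  have hdpos : 0 < d := Nat.pos_of_dvd_of_pos hdN (Nat.pos_of_ne_zero (NeZero.ne N))
  haveI : NeZero d := ⟨hdpos.ne'⟩
  have hed : Nat.gcd d (N / d) ∣ d := Nat.gcd_dvd_left _ _
  obtain ⟨w, hw⟩ := ZMod.unitsMap_surjective hed (ZMod.unitOfCoprime r hcop.symm)
  refine ⟨((w : ZMod d).val : ℤ), (d : ℤ), ?_, ?_⟩
  · exact Nat.isCoprime_iff_coprime.mpr (ZMod.val_coe_unit_coprime w)
  · have hgcd : Int.gcd (d : ℤ) (N : ℤ) = d := by
      rw [Int.gcd_natCast_natCast]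
      exact Nat.gcd_eq_left hdN
    unfold colInv
    rw [hgcd, Int.ediv_self (by exact_mod_cast hdpos.ne')]
    congr 1
    unfold rOf
    have h1 : (((w : ZMod d).val : ℤ) : ZMod (Nat.gcd d (N / d))) = (r : ZMod (Nat.gcd d (N / d))) := by
      have := congrArg (fun u : (ZMod (Nat.gcd d (N / d)))ˣ => (u : ZMod (Nat.gcd d (N / d)))) hw
      simp only [ZMod.unitsMap_def, Units.coe_map, MonoidHom.coe_coe, ZMod.castHom_apply,
        ZMod.coe_unitOfCoprime] at this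
      rw [← this]
      push_cast
      rw [ZMod.natCast_val]
    rw [h1]
    have hone : (1 : ZMod (Nat.gcd d (N / d)))⁻¹ = 1 := by
      have := ZMod.mul_inv_of_unit (1 : ZMod (Nat.gcd d (N / d))) isUnit_one
      rwa [one_mul] at this
    rw [Int.cast_one, hone, mul_one]
    exact ZMod.val_cast_of_lt hr

end Arith

section Counting

/-- A counting principle: if `π : α → Q` is surjective and `F : α → B` has the same fibres as `π`
and image the finite set `A`, then `Q` has `A.card` elements. -/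
theorem card_eq_of_surjective {α Q B : Type*} (π : α → Q) (hπ : Function.Surjective π)
    (F : α → B) (hF : ∀ x y, π x = π y ↔ F x = F y) (A : Finset B)
    (hA : ∀ b, b ∈ A ↔ ∃ x, F x = b) : Nat.card Q = A.card := by
  classical
  have hmem : ∀ q : Q, F (Function.surjInv hπ q) ∈ A := fun q => (hA _).mpr ⟨_, rfl⟩
  let Φ : Q → A := fun q => ⟨F (Function.surjInv hπ q), hmem q⟩
  have hbij : Function.Bijective Φ := by
    constructor
    · intro q q' h
      have h1 : F (Function.surjInv hπ q) = F (Function.surjInv hπ q') := congrArg Subtype.val h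
      have h2 := (hF _ _).mpr h1
      rwa [Function.surjInv_eq hπ, Function.surjInv_eq hπ] at h2
    · rintro ⟨b, hb⟩
      obtain ⟨x, rfl⟩ := (hA b).mp hb
      refine ⟨π x, Subtype.ext ?_⟩
      change F (Function.surjInv hπ (π x)) = F x
      exact (hF _ _).mp (Function.surjInv_eq hπ (π x))
  rw [Nat.card_congr (Equiv.ofBijective Φ hbij), Nat.card_eq_fintype_card, Fintype.card_coe]

end Counting

section Group

variable (N : ℕ) [NeZero N]

/-- the projection from `SL(2, ℤ)` to the space of `T`-orbits on `SL(2, ℤ) ⧸ Γ₀(N)` -/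
def proj (γ : SL(2, ℤ)) : orbitRel.Quotient (Subgroup.zpowers ModularGroup.T) (X N) :=
  Quotient.mk'' (QuotientGroup.mk γ : X N)

omit [NeZero N] in
theorem proj_surjective : Function.Surjective (proj N) := by
  intro q
  induction q using Quotient.inductionOn' with
  | h x =>
    obtain ⟨γ, rfl⟩ := QuotientGroup.mk_surjective x
    exact ⟨γ, rfl⟩

omit [NeZero N] in
theorem entry_aux (k : ℤ) (γ γ' : SL(2, ℤ)) :
    ((ModularGroup.T ^ k * γ')⁻¹ * γ) 1 0 =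
      (γ' 0 0 + k * γ' 1 0) * γ 1 0 - γ' 1 0 * γ 0 0 := by
  simp [Matrix.SpecialLinearGroup.coe_inv, Matrix.adjugate_fin_two, ModularGroup.coe_T_zpow,
    Matrix.mul_apply, Fin.sum_univ_two]
  ring

omit [NeZero N] in
theorem proj_eq_iff (γ γ' : SL(2, ℤ)) :
    proj N γ = proj N γ' ↔
      ∃ k : ℤ, (N : ℤ) ∣ (γ' 0 0 + k * γ' 1 0) * γ 1 0 - γ' 1 0 * γ 0 0 := by
  unfold proj
  rw [Quotient.eq'', orbitRel_apply, mem_orbit_iff]
  constructor
  · rintro ⟨⟨g, hg⟩, h⟩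
    obtain ⟨k, rfl⟩ := Subgroup.mem_zpowers_iff.mp hg
    refine ⟨k, ?_⟩
    have h1 : (QuotientGroup.mk (ModularGroup.T ^ k * γ') : X N) = QuotientGroup.mk γ := h
    rw [QuotientGroup.eq, Gamma0_mem, ZMod.intCast_zmod_eq_zero_iff_dvd, entry_aux] at h1
    exact h1
  · rintro ⟨k, hk⟩
    refine ⟨⟨ModularGroup.T ^ k, Subgroup.zpow_mem_zpowers _ k⟩, ?_⟩
    change (QuotientGroup.mk (ModularGroup.T ^ k * γ') : X N) = QuotientGroup.mk γ
    rw [QuotientGroup.eq, Gamma0_mem, ZMod.intCast_zmod_eq_zero_iff_dvd, entry_aux]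
    exact hk

omit [NeZero N] in
theorem isCoprime_col (γ : SL(2, ℤ)) : IsCoprime (γ 0 0) (γ 1 0) := by
  have hdet : γ 0 0 * γ 1 1 - γ 0 1 * γ 1 0 = 1 := by
    have := γ.det_coe
    rwa [Matrix.det_fin_two] at this
  exact ⟨γ 1 1, -γ 0 1, by linear_combination hdet⟩

omit [NeZero N] in
theorem exists_col (a c : ℤ) (h : IsCoprime a c) : ∃ γ : SL(2, ℤ), γ 0 0 = a ∧ γ 1 0 = c := by
  obtain ⟨u, v, huv⟩ := h
  exact ⟨⟨!![a, -v; c, u], by rw [Matrix.det_fin_two_of]; linear_combination huv⟩, rfl, rfl⟩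

/-- **Item 70d**: the number of `T`-orbits on `SL(2, ℤ) ⧸ Γ₀(N)` is the number of cusps. -/
theorem orbCount_T : orbCount N ModularGroup.T = ModularCurve.cuspCount N := by
  unfold orbCount
  rw [← card_invSet N]
  refine card_eq_of_surjective (proj N) (proj_surjective N)
    (fun γ => colInv N (γ 0 0) (γ 1 0)) ?_ (invSet N) ?_
  · intro γ γ'
    rw [proj_eq_iff, ← colInv_eq_iff N _ _ _ _ (isCoprime_col γ') (isCoprime_col γ), eq_comm]
  · intro p
    constructor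
    · intro hp
      obtain ⟨a, c, hac, hinv⟩ := exists_colInv_eq N p hp
      obtain ⟨γ, h1, h2⟩ := exists_col a c hac
      exact ⟨γ, by rw [h1, h2, hinv]⟩
    · rintro ⟨γ, rfl⟩
      exact colInv_mem N _ _ (isCoprime_col γ)

end Group

end Fermat.Agent.FF.CosetT
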