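import Mathlib
import Fermat.Agent.FF.CosetParts
import Fermat.Agent.FF.CosetFix
import Fermat.Agent.FF.CosetIndex
import Fermat.Agent.FF.CosetT

/-!
# Item 70 assembled: `CosetParts N` and `CosetCounts N`
-/

set_option autoImplicit false

namespace Fermat.Agent.FF

theorem cosetParts (N : ℕ) [NeZero N] : CosetParts N :=
  ⟨card_X_eq N, card_fixedBy_S N, card_fixedBy_ST N, CosetT.orbCount_T N⟩

theorem cosetCounts (N : ℕ) [NeZero N] : CosetCounts N :=
  cosetCounts_of_parts N (cosetParts N)

end Fermat.Agent.FF
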