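import Fermat.Agent.FF.Separation

/-!
# S24 item 67 (helper6): the abstract counting lemma

`countingStatement_of : PlacesAlgebraStatement K F → CountingStatement K F`, and the variant
`countingStatement_of_fibres` which only needs finiteness of the fibres and the fundamental
identity `∑ e_v = n` (separation of places is proved in `Separation.lean`).
-/

set_option autoImplicit false

open AlgebraicCurve IntermediateField

namespace Fermat.Agent.FF.H6

variable {K F : Type*} [Field K] [Field F] [Algebra K F]

section RationalFunctions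

/-- a unit plus an element of the maximal ideal -/
theorem w_add_inMax (w : OrdFn K F) {c m : F} (hc : c ≠ 0) (hc0 : w c = 0) (hm : InMax w m) :
    c + m ≠ 0 ∧ w (c + m) = 0 := by
  by_cases hm0 : m = 0
  · rw [hm0, add_zero]; exact ⟨hc, hc0⟩
  · have hm' := hm.resolve_left hm0
    have := w_add_eq_of_lt w hc hm0 (by rw [hc0]; exact hm')
    exact ⟨this.1, by rw [this.2, hc0]⟩

/-- the order of a polynomial in `x` at the places over `a` is a fixed multiple of the
ramification index -/
theorem exists_ord_aeval (x : F) (a : K) (p : Polynomial K) (hp : p ≠ 0) :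
    ∃ k : ℕ, ∀ u : Place K F, 0 < u.ord (x - algebraMap K F a) →
      Polynomial.aeval x p ≠ 0 ∧
        u.ord (Polynomial.aeval x p) = k * u.ord (x - algebraMap K F a) := by
  obtain ⟨q, hpq, hq⟩ := Polynomial.exists_eq_pow_rootMultiplicity_mul_and_not_dvd p hp a
  have hqa : q.eval a ≠ 0 := by
    intro h
    exact hq (Polynomial.dvd_iff_isRoot.mpr h)
  obtain ⟨q₂, hq₂⟩ := Polynomial.X_sub_C_dvd_sub_C_eval (p := q) (a := a)
  have hqdec : q = Polynomial.C (q.eval a) + (Polynomial.X - Polynomial.C a) * q₂ := by
    rw [← hq₂]; ring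
  refine ⟨p.rootMultiplicity a, fun u hu => ?_⟩
  set y := x - algebraMap K F a with hy
  have hy0 : y ≠ 0 := ne_zero_of_ord_ne_zero u hu.ne'
  have hxring : InRing (ofPlace u) x := by
    have : x = y + algebraMap K F a := by rw [hy]; ring
    rw [this]
    exact inRing_add _ (Or.inr hu.le) (inRing_algebraMap _ a)
  have hq₂ring := inRing_aeval (ofPlace u) hxring q₂
  have hymax : InMax (ofPlace u) (y * Polynomial.aeval x q₂) :=
    inMax_mul _ (Or.inr hu) hq₂ring
  have hc0 : algebraMap K F (q.eval a) ≠ 0 := by
    rwa [Ne, map_eq_zero_iff _ (algebraMap K F).injective]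
  have hqx : Polynomial.aeval x q = algebraMap K F (q.eval a) + y * Polynomial.aeval x q₂ := by
    conv_lhs => rw [hqdec]
    rw [map_add, map_mul, map_sub, Polynomial.aeval_C, Polynomial.aeval_X, Polynomial.aeval_C]
  obtain ⟨h1, h2⟩ := w_add_inMax (ofPlace u) hc0 (ord_algebraMap u _) hymax
  rw [← hqx] at h1 h2
  have hpx : Polynomial.aeval x p = y ^ p.rootMultiplicity a * Polynomial.aeval x q := by
    conv_lhs => rw [hpq]
    rw [map_mul, map_pow, map_sub, Polynomial.aeval_X, Polynomial.aeval_C]
  have hyk : y ^ p.rootMultiplicity a ≠ 0 := pow_ne_zero _ hy0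
  refine ⟨by rw [hpx]; exact mul_ne_zero hyk h1, ?_⟩
  rw [hpx, u.ord_mul hyk h1, ord_pow']
  have : u.ord (Polynomial.aeval x q) = 0 := h2
  rw [this, add_zero]

/-- the order of a nonzero element of `K(x)` at the places over `a` is a fixed multiple of the
ramification index -/
theorem exists_ord_of_mem_adjoin (x : F) (a : K) (c : F) (hc : c ∈ K⟮x⟯) (hc0 : c ≠ 0) :
    ∃ k : ℤ, ∀ u : Place K F, 0 < u.ord (x - algebraMap K F a) →
      u.ord c = k * u.ord (x - algebraMap K F a) := by
  obtain ⟨r, s, hrs⟩ := (IntermediateField.mem_adjoin_simple_iff K c).mp hc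
  have hr0 : Polynomial.aeval x r ≠ 0 := by
    intro h
    rw [hrs, h, zero_div] at hc0
    exact hc0 rfl
  have hs0 : Polynomial.aeval x s ≠ 0 := by
    intro h
    rw [hrs, h, div_zero] at hc0
    exact hc0 rfl
  have hr : r ≠ 0 := by rintro rfl; exact hr0 (map_zero _)
  have hs : s ≠ 0 := by rintro rfl; exact hs0 (map_zero _)
  obtain ⟨kr, hkr⟩ := exists_ord_aeval x a r hr
  obtain ⟨ks, hks⟩ := exists_ord_aeval x a s hs
  refine ⟨(kr : ℤ) - ks, fun u hu => ?_⟩
  rw [hrs, ord_div' u hr0 hs0, (hkr u hu).2, (hks u hu).2]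
  ring

end RationalFunctions

section Combinatorics

/-- The counting argument: a surjection from `I` onto a finite set `S`, constant on orbits, with
`e (g i) ≤ |orbit i|` and `∑ e = |I|`, identifies `S` with the set of orbits. -/
theorem card_eq_of_orbit_data {I V : Type*} [Fintype I] [DecidableEq V]
    (H : Type*) [Group H] [MulAction H I]
    (S : Finset V) (e : V → ℤ) (g : I → V)
    (hgS : ∀ i, g i ∈ S) (hsurj : ∀ v ∈ S, ∃ i, g i = v)
    (hinv : ∀ (h : H) (i : I), g (h • i) = g i)
    (hle : ∀ i, e (g i) ≤ (Nat.card (MulAction.orbit H i) : ℤ))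
    (hsum : ∑ v ∈ S, e v = (Fintype.card I : ℤ)) :
    S.card = Nat.card (MulAction.orbitRel.Quotient H I) ∧
      ∀ i, e (g i) = (Nat.card (MulAction.orbit H i) : ℤ) := by
  classical
  -- fibres
  have hfib : (Fintype.card I : ℤ) = ∑ v ∈ S, ((Finset.univ.filter fun i => g i = v).card : ℤ) := by
    have := Finset.card_eq_sum_card_fiberwise (f := g) (s := Finset.univ) (t := S)
      (fun i _ => hgS i)
    rw [Finset.card_univ] at this
    rw [this]
    push_cast
    rfl
  -- the orbit is contained in the fibre
  have horb_sub : ∀ i, MulAction.orbit H i ⊆ ((Finset.univ.filter fun j => g j = g i : Finset I) : Set I) := by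
    rintro i _ ⟨h, rfl⟩
    simp only [Finset.coe_filter, Finset.mem_univ, true_and, Set.mem_ofPred_eq]
    exact hinv h i
  have horb_le : ∀ i, (Nat.card (MulAction.orbit H i) : ℤ) ≤
      ((Finset.univ.filter fun j => g j = g i).card : ℤ) := by
    intro i
    have h1 : Nat.card (MulAction.orbit H i) = (MulAction.orbit H i).ncard :=
      Nat.card_coe_set_eq _
    have h2 := Set.ncard_le_ncard (horb_sub i) (Finset.finite_toSet _)
    rw [Set.ncard_coe_finset] at h2
    rw [h1]
    exact_mod_cast h2
  have hev : ∀ v ∈ S, e v ≤ ((Finset.univ.filter fun i => g i = v).card : ℤ) := by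
    intro v hv
    obtain ⟨i, rfl⟩ := hsurj v hv
    exact (hle i).trans (horb_le i)
  have hzero : ∀ v ∈ S, ((Finset.univ.filter fun i => g i = v).card : ℤ) - e v = 0 := by
    have hs0 : ∑ v ∈ S, (((Finset.univ.filter fun i => g i = v).card : ℤ) - e v) = 0 := by
      rw [Finset.sum_sub_distrib, ← hfib, hsum, sub_self]
    exact (Finset.sum_eq_zero_iff_of_nonneg fun v hv => sub_nonneg.mpr (hev v hv)).mp hs0
  have heq : ∀ i, e (g i) = (Nat.card (MulAction.orbit H i) : ℤ) := by
    intro i
    have h1 := hzero (g i) (hgS i)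
    have h2 := horb_le i
    have h3 := hle i
    linarith
  have horb_eq : ∀ i, MulAction.orbit H i =
      ((Finset.univ.filter fun j => g j = g i : Finset I) : Set I) := by
    intro i
    apply Set.eq_of_subset_of_ncard_le (horb_sub i) _ (Finset.finite_toSet _)
    rw [Set.ncard_coe_finset]
    have h1 := hzero (g i) (hgS i)
    have h2 := heq i
    have h3 : Nat.card (MulAction.orbit H i) = (MulAction.orbit H i).ncard :=
      Nat.card_coe_set_eq _
    rw [← h3]
    have : ((Finset.univ.filter fun j => g j = g i).card : ℤ) =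
        (Nat.card (MulAction.orbit H i) : ℤ) := by linarith
    exact_mod_cast this.le
  refine ⟨?_, heq⟩
  -- the bijection between orbits and `S`
  let φ : MulAction.orbitRel.Quotient H I → {v // v ∈ S} :=
    Quotient.lift (s := MulAction.orbitRel H I) (fun i => (⟨g i, hgS i⟩ : {v // v ∈ S}))
      (by
        intro i j hij
        have hij' : i ∈ MulAction.orbit H j := hij
        obtain ⟨h, rfl⟩ := hij'
        exact Subtype.ext (hinv h j))
  have hφ : Function.Bijective φ := by
    constructor
    · intro p q
      induction p using Quotient.inductionOn with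
      | h i =>
        induction q using Quotient.inductionOn with
        | h j =>
          intro hpq
          have h1 : g i = g j := congrArg Subtype.val hpq
          apply Quotient.sound
          show i ∈ MulAction.orbit H j
          rw [horb_eq j]
          simp only [Finset.coe_filter, Finset.mem_univ, true_and, Set.mem_ofPred_eq]
          exact h1
    · rintro ⟨v, hv⟩
      obtain ⟨i, hi⟩ := hsurj v hv
      exact ⟨Quotient.mk (MulAction.orbitRel H I) i, Subtype.ext hi⟩
  rw [Nat.card_congr (Equiv.ofBijective φ hφ), Nat.card_eq_fintype_card, Fintype.card_coe]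

end Combinatorics

section Main

/-- **The abstract counting lemma**, from finiteness of the fibre and the fundamental identity
only. -/
theorem counting_core (x : F) (hx : Transcendental K x) (hfd : FiniteDimensional K⟮x⟯ F) (a : K)
    (hfin : (placesOver x a).Finite)
    (hsumA : ∑ᶠ v ∈ placesOver x a, v.ord (x - algebraMap K F a) = (Module.finrank K⟮x⟯ F : ℤ))
    (I : Type) [Fintype I] (H : Type) [Group H] [MulAction H I] (m : ℕ) (w : I → OrdFn K F)
    (hcard : Nat.card I = Module.finrank K⟮x⟯ F)
    (hm : 0 < m)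
    (hwy : ∀ i, w i (x - algebraMap K F a) = m)
    (hinv : ∀ (h : H) (i : I), w (h • i) = w i)
    (hdiv : ∀ i, ∃ r : ℕ, r * Nat.card (MulAction.orbit H i) = m ∧
      ∀ f : F, f ≠ 0 → (r : ℤ) ∣ w i f)
    (hP : ∀ f : F, f ≠ 0 → (∀ i, w i f = 0) →
      ∃ P : Polynomial ↥K⟮x⟯, P.Monic ∧ Polynomial.aeval f P = 0 ∧ P.coeff 0 ≠ 0 ∧
        (∀ i k, P.coeff k ≠ 0 → 0 ≤ w i (P.coeff k : F)) ∧ (∀ i, w i (P.coeff 0 : F) = 0)) :
    Nat.card (placesOver x a) = Nat.card (MulAction.orbitRel.Quotient H I) ∧
    ∀ v ∈ placesOver x a, ∃ i : I,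
      v.ord (x - algebraMap K F a) = (Nat.card (MulAction.orbit H i) : ℤ) := by
  classical
  set y := x - algebraMap K F a with hy
  have hy0 : y ≠ 0 := by
    intro h
    apply hx
    have : x = algebraMap K F a := sub_eq_zero.mp h
    rw [this]
    exact isAlgebraic_algebraMap a
  have hmZ : (0 : ℤ) < m := by exact_mod_cast hm
  have hw : ∀ i, ∃ f : F, f ≠ 0 ∧ 0 < w i f := fun i => ⟨y, hy0, by rw [hwy i]; exact hmZ⟩
  -- the places of the order functions
  set g : I → Place K F := fun i => toPlace (w i) (hw i) with hg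
  choose t ht0 htπ ht using fun i => exists_mul_ord (w i) (hw i)
  have hgy : ∀ i, 0 < (g i).ord y := by
    intro i
    have h1 := ht i y hy0
    rw [hwy i] at h1
    by_contra hcon
    rw [not_lt] at hcon
    have : t i * (toPlace (w i) (hw i)).ord y ≤ 0 := mul_nonpos_of_nonneg_of_nonpos (ht0 i).le hcon
    linarith
  have hgle : ∀ i, (g i).ord y ≤ (Nat.card (MulAction.orbit H i) : ℤ) := by
    intro i
    obtain ⟨r, hr, hrdvd⟩ := hdiv i
    obtain ⟨π, hπ0, hπ⟩ := htπ i
    obtain ⟨t', ht'⟩ := hrdvd π hπ0
    rw [hπ] at ht'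
    have h1 := ht i y hy0
    rw [hwy i] at h1
    have hr0 : (0 : ℤ) < r := by
      rcases Nat.eq_zero_or_pos r with h | h
      · rw [h, zero_mul] at hr
        omega
      · exact_mod_cast h
    have ht'pos : 0 < t' := by
      have := ht0 i
      rw [ht'] at this
      rcases lt_trichotomy t' 0 with h' | h' | h'
      · nlinarith
      · rw [h', mul_zero] at this; exact absurd this (lt_irrefl _)
      · exact h'
    have h2 : (r : ℤ) * (Nat.card (MulAction.orbit H i) : ℤ) = m := by exact_mod_cast hr
    have h3 : (r : ℤ) * (Nat.card (MulAction.orbit H i) : ℤ) =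
        (r : ℤ) * (t' * (toPlace (w i) (hw i)).ord y) := by
      rw [h2, h1, ht']; ring
    have h4 := mul_left_cancel₀ hr0.ne' h3
    rw [h4]
    have := hgy i
    nlinarith
  have hginv : ∀ (h : H) (i : I), g (h • i) = g i := by
    intro h i
    apply Place.ext
    show valSubring (w (h • i)) = valSubring (w i)
    rw [hinv h i]
  -- every place over `a` comes from some `i`
  have hn_pos : 0 < Module.finrank K⟮x⟯ F := Module.finrank_pos
  have : Nonempty I := by
    have : 0 < Nat.card I := by rw [hcard]; exact hn_pos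
    exact (Nat.card_pos_iff.mp this).1
  have hsurj : ∀ v ∈ placesOver x a, ∃ i, g i = v := by
    intro v hv
    by_contra hcon
    rw [not_exists] at hcon
    have hvs : v ∉ Finset.univ.image g := by
      intro h
      obtain ⟨i, -, hi⟩ := Finset.mem_image.mp h
      exact hcon i hi
    obtain ⟨f, hf0, hfv, hfs⟩ := separation v (Finset.univ.image g) hvs
    have hwf : ∀ i, w i f = 0 := by
      intro i
      rw [ht i f hf0]
      have : (toPlace (w i) (hw i)).ord f = 0 :=
        hfs (g i) (Finset.mem_image_of_mem g (Finset.mem_univ i))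
      rw [this, mul_zero]
    obtain ⟨P, -, hPf, hP0, hPk, hPc⟩ := hP f hf0 hwf
    have hvy : 0 < v.ord y := hv
    -- signs of the coefficients at `v`
    have hcoeff : ∀ k, P.coeff k ≠ 0 → 0 ≤ v.ord (P.coeff k : F) := by
      intro k hk
      have hkF : ((P.coeff k : K⟮x⟯) : F) ≠ 0 := by
        intro h
        exact hk (Subtype.ext h)
      obtain ⟨c, hc⟩ := exists_ord_of_mem_adjoin x a (P.coeff k : F) (P.coeff k).2 hkF
      obtain i := Classical.arbitrary I
      have h1 := hPk i k hk
      rw [ht i _ hkF] at h1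
      have h2 : 0 ≤ (toPlace (w i) (hw i)).ord (P.coeff k : F) := by
        by_contra hneg
        rw [not_le] at hneg
        have := mul_neg_of_pos_of_neg (ht0 i) hneg
        linarith
      have h3 := hc (g i) (hgy i)
      have hc0 : 0 ≤ c := by
        by_contra hneg
        rw [not_le] at hneg
        have := mul_neg_of_neg_of_pos hneg (hgy i)
        have h2' : 0 ≤ (g i).ord (P.coeff k : F) := h2
        linarith
      rw [hc v hvy]
      exact mul_nonneg hc0 hvy.le
    have hcoeff0 : v.ord (P.coeff 0 : F) = 0 := by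
      have hkF : ((P.coeff 0 : K⟮x⟯) : F) ≠ 0 := by
        intro h
        exact hP0 (Subtype.ext h)
      obtain ⟨c, hc⟩ := exists_ord_of_mem_adjoin x a (P.coeff 0 : F) (P.coeff 0).2 hkF
      obtain i := Classical.arbitrary I
      have h1 := hPc i
      rw [ht i _ hkF] at h1
      have h2 : (toPlace (w i) (hw i)).ord (P.coeff 0 : F) = 0 := by
        rcases mul_eq_zero.mp h1 with h | h
        · exact absurd h (ht0 i).ne'
        · exact h
      have h3 := hc (g i) (hgy i)
      have h2' : (g i).ord (P.coeff 0 : F) = 0 := h2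
      rw [h2'] at h3
      have hc0 : c = 0 := by
        rcases mul_eq_zero.mp h3.symm with h | h
        · exact h
        · exact absurd h (hgy i).ne'
      rw [hc v hvy, hc0, zero_mul]
    -- the equation `P(f) = 0` modulo the maximal ideal of `v`
    have hsumP : (P.coeff 0 : F) + ∑ k ∈ Finset.range P.natDegree,
        ((P.coeff (k + 1) : K⟮x⟯) : F) * f ^ (k + 1) = 0 := by
      have h1 : Polynomial.aeval f P = ∑ k ∈ Finset.range (P.natDegree + 1),
          ((P.coeff k : K⟮x⟯) : F) * f ^ k := by
        rw [Polynomial.aeval_eq_sum_range]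
        refine Finset.sum_congr rfl fun k _ => ?_
        rw [Algebra.smul_def]
        rfl
      rw [h1, Finset.sum_range_succ'] at hPf
      rw [← hPf]
      simp only [pow_zero, mul_one]
      ring
    have hmax : InMax (ofPlace v) (∑ k ∈ Finset.range P.natDegree,
        ((P.coeff (k + 1) : K⟮x⟯) : F) * f ^ (k + 1)) := by
      apply inMax_sum
      intro k _
      by_cases hk : P.coeff (k + 1) = 0
      · left
        rw [hk]
        simp
      · rw [mul_comm]
        apply inMax_mul
        · right
          show 0 < v.ord (f ^ (k + 1))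
          rw [ord_pow']
          have : (0 : ℤ) < ((k + 1 : ℕ) : ℤ) := by exact_mod_cast Nat.succ_pos k
          exact mul_pos this hfv
        · right
          exact hcoeff (k + 1) hk
    have hc0max : InMax (ofPlace v) (P.coeff 0 : F) := by
      have : ((P.coeff 0 : K⟮x⟯) : F) = -(∑ k ∈ Finset.range P.natDegree,
          ((P.coeff (k + 1) : K⟮x⟯) : F) * f ^ (k + 1)) := by
        linear_combination hsumP
      rw [this]
      exact inMax_neg _ hmax
    rcases hc0max with h | h
    · exact hP0 (Subtype.ext h)
    · have h' : 0 < v.ord (P.coeff 0 : F) := h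
      rw [hcoeff0] at h'
      exact lt_irrefl _ h'
  -- counting
  have hsum' : ∑ v ∈ hfin.toFinset, v.ord y = (Fintype.card I : ℤ) := by
    rw [← finsum_mem_eq_finite_toFinset_sum _ hfin, hsumA, ← hcard, Nat.card_eq_fintype_card]
  obtain ⟨hc1, hc2⟩ := card_eq_of_orbit_data H hfin.toFinset (fun v => v.ord y) g
    (fun i => hfin.mem_toFinset.mpr (hgy i))
    (fun v hv => hsurj v (hfin.mem_toFinset.mp hv)) hginv hgle hsum'
  refine ⟨?_, fun v hv => ?_⟩
  · rw [← hc1, Nat.card_coe_set_eq, Set.ncard_eq_toFinset_card _ hfin]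
  · obtain ⟨i, rfl⟩ := hsurj v hv
    exact ⟨i, hc2 i⟩

/-- **Item 67**: the abstract counting lemma from the algebra export of item 66. -/
theorem countingStatement_of (hA : PlacesAlgebraStatement K F) : CountingStatement K F := by
  intro x hx hfd a I _ H _ _ m w hcard hm hwy hinv hdiv hP
  obtain ⟨hfin, hsum, -⟩ := hA x hx hfd a
  exact counting_core x hx hfd a hfin hsum I H m w hcard hm hwy hinv hdiv hP

/-- **Item 67**, variant: only finiteness of the fibres and the fundamental identity are
needed. -/
theorem countingStatement_of_fibres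
    (h : ∀ (x : F), Transcendental K x → FiniteDimensional K⟮x⟯ F →
      ∀ a : K, (placesOver x a).Finite ∧
        (∑ᶠ v ∈ placesOver x a, v.ord (x - algebraMap K F a) = (Module.finrank K⟮x⟯ F : ℤ))) :
    CountingStatement K F := by
  intro x hx hfd a I _ H _ _ m w hcard hm hwy hinv hdiv hP
  obtain ⟨hfin, hsum⟩ := h x hx hfd a
  exact counting_core x hx hfd a hfin hsum I H m w hcard hm hwy hinv hdiv hP

end Main

end Fermat.Agent.FF.H6
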