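import Fermat.Agent.FF.Counting
import Fermat.Agent.FF.AFibres

/-!
# S24 item 67 (helper6): `CountingStatement K F` and `PlacesAlgebraStatement K F`, unconditionally
(for `K` algebraically closed of characteristic zero), combining item 66 (`AFibres.lean`,
helper9) with `Separation.lean` and `Counting.lean`.
-/

set_option autoImplicit false

open AlgebraicCurve IntermediateField

namespace Fermat.Agent.FF.H6

variable {K F : Type*} [Field K] [Field F] [Algebra K F] [IsAlgClosed K] [CharZero K]

theorem fibres_finite_sum (x : F) (hx : Transcendental K x) (hfd : FiniteDimensional K⟮x⟯ F)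
    (a : K) : (placesOver x a).Finite ∧
      (∑ᶠ v ∈ placesOver x a, v.ord (x - algebraMap K F a) = (Module.finrank K⟮x⟯ F : ℤ)) := by
  refine ⟨placesOver_finite x hx a, ?_⟩
  rw [finsum_mem_eq_finite_toFinset_sum _ (placesOver_finite x hx a)]
  exact sum_ord_placesOver x hx a

variable (K F) in
/-- the algebra export of item 66, with the separation clause from `Separation.lean` -/
theorem placesAlgebraStatement : PlacesAlgebraStatement K F :=
  placesAlgebraStatement_of fibres_finite_sum

variable (K F) in
/-- **Item 67**: the abstract counting lemma. -/
theorem countingStatement : CountingStatement K F :=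
  countingStatement_of_fibres fibres_finite_sum

end Fermat.Agent.FF.H6
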