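import Mathlib
import Fermat.Agent.FF.Interface2

/-!
# S24 item 69a / 69-VAL / 69-ELL (helper5): orders of holomorphic functions on `ℍ`

* Part V (`69-VAL`): `valuationOfOrd` (a `ℤ`-valued order function on a domain gives a
  `Valuation R ℤᵐ⁰`), `OrdFn.ofValuation`, `OrdFn.ofOrd` (order function on the fraction field),
  `OrdFn.comap`.
* Part A: the pointwise order `ordAt τ₀ h` of a holomorphic `h : ℍ → ℂ`.
* Part E (`69-ELL`): elliptic divisibility.
-/

set_option autoImplicit false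
set_option linter.unusedSectionVars false

open UpperHalfPlane Filter Topology
open scoped MatrixGroups Manifold WithZero

namespace Fermat.Agent.FF

/-! ## Part V: valuations from order functions -/

section Val

variable {R : Type*} [CommRing R] [IsDomain R]

/-- **69-VAL.** A `ℤ`-valued order function on a domain (multiplicative and ultrametric on
nonzero elements) gives a valuation `a ↦ exp (- ν a)`. -/
noncomputable def valuationOfOrd (ν : R → ℤ) (h_one : ν 1 = 0)
    (h_mul : ∀ a b, a ≠ 0 → b ≠ 0 → ν (a * b) = ν a + ν b)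
    (h_add : ∀ a b, a ≠ 0 → b ≠ 0 → a + b ≠ 0 → min (ν a) (ν b) ≤ ν (a + b)) :
    Valuation R ℤᵐ⁰ where
  toFun a := open Classical in if a = 0 then 0 else WithZero.exp (-ν a)
  map_zero' := by simp
  map_one' := by simp [h_one]
  map_mul' a b := by
    by_cases ha : a = 0
    · simp [ha]
    by_cases hb : b = 0
    · simp [hb]
    simp only [ha, hb, mul_eq_zero, or_self, if_false, h_mul a b ha hb, neg_add,
      WithZero.exp_add]
  map_add_le_max' a b := by
    by_cases ha : a = 0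
    · subst ha; rw [zero_add]; exact le_max_right _ _
    by_cases hb : b = 0
    · subst hb; rw [add_zero]; exact le_max_left _ _
    by_cases hab : a + b = 0
    · simp [hab]
    simp only [ha, hb, hab, if_false, le_max_iff, WithZero.exp_le_exp, neg_le_neg_iff]
    have := h_add a b ha hb hab
    rcases min_le_iff.mp this with h | h
    · exact Or.inl h
    · exact Or.inr h

theorem valuationOfOrd_apply (ν : R → ℤ) (h_one : ν 1 = 0)
    (h_mul : ∀ a b, a ≠ 0 → b ≠ 0 → ν (a * b) = ν a + ν b)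
    (h_add : ∀ a b, a ≠ 0 → b ≠ 0 → a + b ≠ 0 → min (ν a) (ν b) ≤ ν (a + b))
    {a : R} (ha : a ≠ 0) :
    valuationOfOrd ν h_one h_mul h_add a = WithZero.exp (-ν a) := by
  classical
  show (if a = 0 then 0 else WithZero.exp (-ν a)) = _
  rw [if_neg ha]

theorem valuationOfOrd_ne_zero (ν : R → ℤ) (h_one : ν 1 = 0)
    (h_mul : ∀ a b, a ≠ 0 → b ≠ 0 → ν (a * b) = ν a + ν b)
    (h_add : ∀ a b, a ≠ 0 → b ≠ 0 → a + b ≠ 0 → min (ν a) (ν b) ≤ ν (a + b))
    {a : R} (ha : a ≠ 0) :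
    valuationOfOrd ν h_one h_mul h_add a ≠ 0 := by
  rw [valuationOfOrd_apply ν h_one h_mul h_add ha]
  exact WithZero.exp_ne_zero

end Val

section OrdFnConstr

variable {K F : Type*} [Field K] [Field F] [Algebra K F]

/-- **69-VAL.** An order function from a `ℤᵐ⁰`-valued valuation which is trivial on `K`:
`f ↦ - log (v f)`. -/
noncomputable def OrdFn.ofValuation (v : Valuation F ℤᵐ⁰)
    (hK : ∀ c : K, c ≠ 0 → v (algebraMap K F c) = 1) : OrdFn K F where
  toFun f := - WithZero.log (v f)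
  map_mul' f g hf hg := by
    rw [_root_.map_mul, WithZero.log_mul (v.ne_zero_iff.mpr hf) (v.ne_zero_iff.mpr hg)]
    ring
  map_add' f g hf hg hfg := by
    have hf' := v.ne_zero_iff.mpr hf
    have hg' := v.ne_zero_iff.mpr hg
    have hfg' := v.ne_zero_iff.mpr hfg
    rcases le_max_iff.mp (v.map_add f g) with h | h
    · have := (WithZero.log_le_log hfg' hf').mpr h
      exact (min_le_left _ _).trans (neg_le_neg this)
    · have := (WithZero.log_le_log hfg' hg').mpr h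
      exact (min_le_right _ _).trans (neg_le_neg this)
  map_const' c hc := by simp [hK c hc]

@[simp] theorem OrdFn.ofValuation_apply (v : Valuation F ℤᵐ⁰)
    (hK : ∀ c : K, c ≠ 0 → v (algebraMap K F c) = 1) (f : F) :
    OrdFn.ofValuation v hK f = - WithZero.log (v f) := rfl

/-- Pull back an order function along a ring homomorphism of fields which is compatible with
the `K`-structures up to `w`-units. -/
def OrdFn.comapRingHom {F' : Type*} [Field F'] [Algebra K F'] (w : OrdFn K F') (φ : F →+* F')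
    (hφ : ∀ c : K, c ≠ 0 → w (φ (algebraMap K F c)) = 0) : OrdFn K F where
  toFun f := w (φ f)
  map_mul' f g hf hg := by
    rw [_root_.map_mul]
    exact w.map_mul' _ _ ((map_ne_zero φ).mpr hf) ((map_ne_zero φ).mpr hg)
  map_add' f g hf hg hfg := by
    rw [_root_.map_add]
    exact w.map_add' _ _ ((map_ne_zero φ).mpr hf) ((map_ne_zero φ).mpr hg)
      (by rw [← _root_.map_add]; exact (map_ne_zero φ).mpr hfg)
  map_const' c hc := hφ c hc

@[simp] theorem OrdFn.comapRingHom_apply {F' : Type*} [Field F'] [Algebra K F'] (w : OrdFn K F')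
    (φ : F →+* F') (hφ : ∀ c : K, c ≠ 0 → w (φ (algebraMap K F c)) = 0) (f : F) :
    w.comapRingHom φ hφ f = w (φ f) := rfl

/-- Pull back an order function along a `K`-algebra homomorphism of fields. -/
def OrdFn.comap {F' : Type*} [Field F'] [Algebra K F'] (w : OrdFn K F') (φ : F →ₐ[K] F') :
    OrdFn K F :=
  w.comapRingHom (φ : F →+* F') (fun c hc => by
    rw [RingHom.coe_coe, AlgHom.commutes]
    exact w.map_const' c hc)

@[simp] theorem OrdFn.comap_apply {F' : Type*} [Field F'] [Algebra K F'] (w : OrdFn K F')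
    (φ : F →ₐ[K] F') (f : F) : w.comap φ f = w (φ f) := rfl

theorem OrdFn.map_one (w : OrdFn K F) : w 1 = 0 := by
  have := w.map_const' 1 one_ne_zero
  rwa [_root_.map_one] at this

theorem OrdFn.map_inv (w : OrdFn K F) {f : F} (hf : f ≠ 0) : w f⁻¹ = - w f := by
  have h := w.map_mul' f f⁻¹ hf (inv_ne_zero hf)
  rw [mul_inv_cancel₀ hf] at h
  have h1 := w.map_one
  change w.toFun 1 = 0 at h1
  change w.toFun f⁻¹ = - w.toFun f
  linarith

theorem OrdFn.map_div (w : OrdFn K F) {f g : F} (hf : f ≠ 0) (hg : g ≠ 0) :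
    w (f / g) = w f - w g := by
  rw [div_eq_mul_inv]
  have := w.map_mul' f g⁻¹ hf (inv_ne_zero hg)
  have h2 := w.map_inv hg
  change w.toFun g⁻¹ = - w.toFun g at h2
  change w.toFun (f * g⁻¹) = w.toFun f - w.toFun g
  linarith

theorem OrdFn.map_pow (w : OrdFn K F) {f : F} (hf : f ≠ 0) (n : ℕ) : w (f ^ n) = n * w f := by
  induction n with
  | zero => simpa using w.map_one
  | succ n ih =>
    rw [pow_succ]
    have := w.map_mul' (f ^ n) f (pow_ne_zero n hf) hf
    change w.toFun (f ^ n * f) = _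
    change w.toFun (f ^ n) = _ at ih
    rw [this, ih]
    push_cast
    change _ = (n + 1) * w.toFun f
    ring

theorem OrdFn.map_prod (w : OrdFn K F) {ι : Type*} (s : Finset ι) (f : ι → F)
    (hf : ∀ i ∈ s, f i ≠ 0) : w (∏ i ∈ s, f i) = ∑ i ∈ s, w (f i) := by
  classical
  induction s using Finset.induction_on with
  | empty => simpa using w.map_one
  | insert a s ha ih =>
    rw [Finset.prod_insert ha, Finset.sum_insert ha]
    have h1 : f a ≠ 0 := hf a (Finset.mem_insert_self a s)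
    have h2 : ∏ i ∈ s, f i ≠ 0 :=
      Finset.prod_ne_zero_iff.mpr (fun i hi => hf i (Finset.mem_insert_of_mem hi))
    have := w.map_mul' _ _ h1 h2
    change w.toFun (f a * ∏ i ∈ s, f i) = _
    rw [this]
    congr 1
    exact ih (fun i hi => hf i (Finset.mem_insert_of_mem hi))

section Frac

variable {R : Type*} [CommRing R] [IsDomain R] [Algebra R F] [IsFractionRing R F]
  [Algebra K R] [IsScalarTower K R F]

/-- **69-VAL.** The order function on the fraction field `F` of a domain `R` induced by a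
`ℤ`-valued order function `ν` on `R` which vanishes on nonzero constants. -/
noncomputable def OrdFn.ofOrd (ν : R → ℤ) (h_one : ν 1 = 0)
    (h_mul : ∀ a b, a ≠ 0 → b ≠ 0 → ν (a * b) = ν a + ν b)
    (h_add : ∀ a b, a ≠ 0 → b ≠ 0 → a + b ≠ 0 → min (ν a) (ν b) ≤ ν (a + b))
    (hK : ∀ c : K, c ≠ 0 → ν (algebraMap K R c) = 0) : OrdFn K F :=
  OrdFn.ofValuation
    ((valuationOfOrd ν h_one h_mul h_add).extendToLocalization
      (S := nonZeroDivisors R) (fun a ha => by
        have ha0 : a ≠ 0 := nonZeroDivisors.ne_zero ha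
        show a ∉ (valuationOfOrd ν h_one h_mul h_add).supp
        rw [Valuation.mem_supp_iff]
        exact valuationOfOrd_ne_zero ν h_one h_mul h_add ha0) F)
    (fun c hc => by
      rw [IsScalarTower.algebraMap_apply K R F, Valuation.extendToLocalization_apply_map_apply,
        valuationOfOrd_apply ν h_one h_mul h_add
          (fun h => hc ((FaithfulSMul.algebraMap_injective K R) (by rw [h, map_zero]))),
        hK c hc]
      simp)

theorem OrdFn.ofOrd_algebraMap (ν : R → ℤ) (h_one : ν 1 = 0)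
    (h_mul : ∀ a b, a ≠ 0 → b ≠ 0 → ν (a * b) = ν a + ν b)
    (h_add : ∀ a b, a ≠ 0 → b ≠ 0 → a + b ≠ 0 → min (ν a) (ν b) ≤ ν (a + b))
    (hK : ∀ c : K, c ≠ 0 → ν (algebraMap K R c) = 0) {a : R} (ha : a ≠ 0) :
    OrdFn.ofOrd (F := F) ν h_one h_mul h_add hK (algebraMap R F a) = ν a := by
  show - WithZero.log (Valuation.extendToLocalization _ _ F (algebraMap R F a)) = ν a
  rw [Valuation.extendToLocalization_apply_map_apply, valuationOfOrd_apply ν h_one h_mul h_add ha]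
  simp

theorem OrdFn.ofOrd_div (ν : R → ℤ) (h_one : ν 1 = 0)
    (h_mul : ∀ a b, a ≠ 0 → b ≠ 0 → ν (a * b) = ν a + ν b)
    (h_add : ∀ a b, a ≠ 0 → b ≠ 0 → a + b ≠ 0 → min (ν a) (ν b) ≤ ν (a + b))
    (hK : ∀ c : K, c ≠ 0 → ν (algebraMap K R c) = 0) {a b : R} (ha : a ≠ 0) (hb : b ≠ 0) :
    OrdFn.ofOrd (F := F) ν h_one h_mul h_add hK (algebraMap R F a / algebraMap R F b) =
      ν a - ν b := by
  have hinj := IsFractionRing.injective R F
  rw [OrdFn.map_div _ (fun h => ha (hinj (by rw [h, map_zero])))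
    (fun h => hb (hinj (by rw [h, map_zero]))),
    OrdFn.ofOrd_algebraMap ν h_one h_mul h_add hK ha,
    OrdFn.ofOrd_algebraMap ν h_one h_mul h_add hK hb]

end Frac

end OrdFnConstr

/-! ## Part A: the order of a holomorphic function on `ℍ` at a point -/

section Pointwise

variable {f g h : ℍ → ℂ} {τ₀ : ℍ}

/-- The order of vanishing at `τ₀` of `h : ℍ → ℂ`, as an integer (junk value `0` for `h = 0`). -/
noncomputable def ordAt (τ₀ : ℍ) (h : ℍ → ℂ) : ℤ :=
  (analyticOrderNatAt (h ∘ ofComplex) (τ₀ : ℂ) : ℤ)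

theorem analyticAt_comp_ofComplex (hh : MDiff h) (τ₀ : ℍ) :
    AnalyticAt ℂ (h ∘ ofComplex) (τ₀ : ℂ) :=
  (UpperHalfPlane.mdifferentiable_iff.mp hh).analyticAt
    (isOpen_upperHalfPlaneSet.mem_nhds τ₀.im_pos)

theorem eventually_comp_ofComplex_eq_zero_iff (hh : MDiff h) (τ₀ : ℍ) :
    (∀ᶠ z in 𝓝 (τ₀ : ℂ), (h ∘ ofComplex) z = 0) ↔ h = 0 := by
  constructor
  · intro hev
    apply UpperHalfPlane.eq_zero_of_frequently hh (τ := τ₀)
    have h1 : ∀ᶠ z in 𝓝 τ₀, h z = 0 := by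
      rw [← isOpenEmbedding_coe.map_nhds_eq, eventually_map] at hev
      filter_upwards [hev] with a ha
      simpa using ha
    exact (h1.filter_mono nhdsWithin_le_nhds).frequently
  · rintro rfl
    exact Eventually.of_forall (fun z => rfl)

theorem analyticOrderAt_comp_ofComplex_eq_top_iff (hh : MDiff h) (τ₀ : ℍ) :
    analyticOrderAt (h ∘ ofComplex) (τ₀ : ℂ) = ⊤ ↔ h = 0 := by
  rw [analyticOrderAt_eq_top, eventually_comp_ofComplex_eq_zero_iff hh]

theorem analyticOrderAt_comp_ofComplex_ne_top (hh : MDiff h) (h0 : h ≠ 0) (τ₀ : ℍ) :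
    analyticOrderAt (h ∘ ofComplex) (τ₀ : ℂ) ≠ ⊤ :=
  fun H => h0 ((analyticOrderAt_comp_ofComplex_eq_top_iff hh τ₀).mp H)

theorem ordAt_cast (hh : MDiff h) (h0 : h ≠ 0) (τ₀ : ℍ) :
    ((ordAt τ₀ h).toNat : ℕ∞) = analyticOrderAt (h ∘ ofComplex) (τ₀ : ℂ) := by
  unfold ordAt analyticOrderNatAt
  rw [Int.toNat_natCast]
  exact ENat.natCast_toNat (analyticOrderAt_comp_ofComplex_ne_top hh h0 τ₀)

theorem ordAt_eq_of_analyticOrderAt {n : ℕ}
    (hn : analyticOrderAt (h ∘ ofComplex) (τ₀ : ℂ) = n) : ordAt τ₀ h = n := by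
  unfold ordAt analyticOrderNatAt
  rw [hn]
  rfl

theorem ordAt_nonneg (τ₀ : ℍ) (h : ℍ → ℂ) : 0 ≤ ordAt τ₀ h := Int.natCast_nonneg _

theorem ordAt_const {c : ℂ} (hc : c ≠ 0) (τ₀ : ℍ) : ordAt τ₀ (fun _ => c) = 0 := by
  apply ordAt_eq_of_analyticOrderAt (n := 0)
  rw [Nat.cast_zero, analyticOrderAt_eq_zero]
  exact Or.inr hc

theorem ordAt_one (τ₀ : ℍ) : ordAt τ₀ 1 = 0 := ordAt_const one_ne_zero τ₀

theorem ordAt_mul (hf : MDiff f) (hg : MDiff g) (hf0 : f ≠ 0) (hg0 : g ≠ 0) (τ₀ : ℍ) :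
    ordAt τ₀ (f * g) = ordAt τ₀ f + ordAt τ₀ g := by
  unfold ordAt
  have : (f * g) ∘ ofComplex = (f ∘ ofComplex) * (g ∘ ofComplex) := rfl
  rw [this, analyticOrderNatAt_mul (analyticAt_comp_ofComplex hf τ₀)
    (analyticAt_comp_ofComplex hg τ₀) (analyticOrderAt_comp_ofComplex_ne_top hf hf0 τ₀)
    (analyticOrderAt_comp_ofComplex_ne_top hg hg0 τ₀)]
  push_cast
  rfl

theorem ordAt_add (hf : MDiff f) (hg : MDiff g) (hf0 : f ≠ 0) (hg0 : g ≠ 0) (hfg : f + g ≠ 0)
    (τ₀ : ℍ) : min (ordAt τ₀ f) (ordAt τ₀ g) ≤ ordAt τ₀ (f + g) := by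
  have h1 := ordAt_cast hf hf0 τ₀
  have h2 := ordAt_cast hg hg0 τ₀
  have h3 := ordAt_cast (hf.add hg) hfg τ₀
  have key : min (analyticOrderAt (f ∘ ofComplex) (τ₀ : ℂ))
      (analyticOrderAt (g ∘ ofComplex) (τ₀ : ℂ)) ≤
      analyticOrderAt ((f + g) ∘ ofComplex) (τ₀ : ℂ) :=
    le_analyticOrderAt_add (f := f ∘ ofComplex) (g := g ∘ ofComplex)
  rw [← h1, ← h2, ← h3] at key
  have key' : min (ordAt τ₀ f).toNat (ordAt τ₀ g).toNat ≤ (ordAt τ₀ (f + g)).toNat := by
    rcases min_le_iff.mp key with h | h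
    · exact min_le_iff.mpr (Or.inl (by exact_mod_cast h))
    · exact min_le_iff.mpr (Or.inr (by exact_mod_cast h))
  have a1 := ordAt_nonneg τ₀ f
  have a2 := ordAt_nonneg τ₀ g
  have a3 := ordAt_nonneg τ₀ (f + g)
  omega

theorem ordAt_eq_zero_iff (hf : MDiff f) (hf0 : f ≠ 0) (τ₀ : ℍ) :
    ordAt τ₀ f = 0 ↔ f τ₀ ≠ 0 := by
  have h1 := ordAt_cast hf hf0 τ₀
  have h2 : analyticOrderAt (f ∘ ofComplex) (τ₀ : ℂ) = 0 ↔ f τ₀ ≠ 0 := by
    rw [(analyticAt_comp_ofComplex hf τ₀).analyticOrderAt_eq_zero]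
    simp
  rw [← h2, ← h1]
  have a1 := ordAt_nonneg τ₀ f
  constructor
  · intro h; rw [h]; rfl
  · intro h
    have : (ordAt τ₀ f).toNat = 0 := by exact_mod_cast h
    omega

theorem ordAt_pos_iff (hf : MDiff f) (hf0 : f ≠ 0) (τ₀ : ℍ) :
    0 < ordAt τ₀ f ↔ f τ₀ = 0 := by
  have := ordAt_eq_zero_iff hf hf0 τ₀
  have a1 := ordAt_nonneg τ₀ f
  constructor
  · intro h
    by_contra hne
    have := this.mpr hne
    omega
  · intro h
    rcases a1.lt_or_eq with h1 | h1
    · exact h1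
    · exact absurd h (this.mp h1.symm)

/-- Orders are transported by the action of `GL(2, ℝ)⁺`. -/
theorem ordAt_comp_smul {γ : GL (Fin 2) ℝ} (hγ : 0 < γ.det.val) (f : ℍ → ℂ) (τ₀ : ℍ) :
    ordAt τ₀ (fun τ => f (γ • τ)) = ordAt (γ • τ₀) f := by
  unfold ordAt analyticOrderNatAt
  have hγ' : 0 < γ.val.det := by rwa [← Matrix.GeneralLinearGroup.val_det_apply]
  have h1 : ((fun τ => f (γ • τ)) ∘ ofComplex) =
      (f ∘ ofComplex) ∘ (fun z : ℂ => ((γ • ofComplex z : ℍ) : ℂ)) := by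
    ext z
    simp
  rw [h1, analyticOrderAt_comp_of_deriv_ne_zero (τ₀.analyticAt_smul hγ')
    (τ₀.deriv_smul_ne_zero hγ')]
  simp

/-- Orders are transported by the action of `SL(2, ℤ)`. -/
theorem ordAt_comp_SL (γ : SL(2, ℤ)) (f : ℍ → ℂ) (τ₀ : ℍ) :
    ordAt τ₀ (fun τ => f (γ • τ)) = ordAt (γ • τ₀) f := by
  have := ordAt_comp_smul (γ := ((γ : SL(2, ℝ)) : GL (Fin 2) ℝ)) (by simp) f τ₀
  exact this

end Pointwise

/-! ## Part E: elliptic divisibility (69-ELL) -/

section Elliptic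

/-- Leading-term lemma: if `G` is analytic at a fixed point `x` with `G' x ≠ 0`, and
`a, b` are analytic at `x`, not locally zero, with `a (G z) b z = a z b (G z)` near `x`,
then `(G' x) ^ (ord a - ord b) = 1`. -/
theorem deriv_zpow_eq_one_of_comp_eq {a b G : ℂ → ℂ} {x : ℂ} (ha : AnalyticAt ℂ a x)
    (hb : AnalyticAt ℂ b x) (hG : AnalyticAt ℂ G x) (hGx : G x = x) (hG' : deriv G x ≠ 0)
    (ha0 : analyticOrderAt a x ≠ ⊤) (hb0 : analyticOrderAt b x ≠ ⊤)
    (hinv : ∀ᶠ z in 𝓝 x, a (G z) * b z = a z * b (G z)) :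
    deriv G x ^ ((analyticOrderNatAt a x : ℤ) - (analyticOrderNatAt b x : ℤ)) = 1 := by
  set m := analyticOrderNatAt a x with hm
  set n := analyticOrderNatAt b x with hn
  obtain ⟨a1, ha1, ha1x, hae⟩ := (ha.analyticOrderAt_eq_natCast).mp
    (ENat.natCast_toNat ha0).symm
  obtain ⟨b1, hb1, hb1x, hbe⟩ := (hb.analyticOrderAt_eq_natCast).mp
    (ENat.natCast_toNat hb0).symm
  change ∀ᶠ z in 𝓝 x, a z = (z - x) ^ m • a1 z at hae
  change ∀ᶠ z in 𝓝 x, b z = (z - x) ^ n • b1 z at hbe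
  have hGsub : AnalyticAt ℂ (fun z => G z - G x) x := hG.sub analyticAt_const
  obtain ⟨D, hD, hDx, hGe⟩ := (hGsub.analyticOrderAt_eq_natCast (n := 1)).mp
    (by simpa using hG.analyticOrderAt_sub_eq_one_of_deriv_ne_zero hG')
  -- `D x = G' x`
  have hDderiv : deriv G x = D x := by
    have h1 : deriv (fun z => G z - G x) x = deriv G x := by
      rw [deriv_sub_const]
    have h2 : deriv (fun z => G z - G x) x = deriv (fun z => (z - x) ^ 1 • D z) x :=
      EventuallyEq.deriv_eq hGe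
    have h3 : deriv (fun z => (z - x) ^ 1 • D z) x = D x := by
      have e1 : HasDerivAt (fun z : ℂ => z - x) 1 x := (hasDerivAt_id x).sub_const x
      have e2 : HasDerivAt D (deriv D x) x := hD.differentiableAt.hasDerivAt
      have hd : HasDerivAt (fun z => (z - x) * D z) (1 * D x + (x - x) * deriv D x) x :=
        e1.mul e2
      have he : (fun z => (z - x) ^ 1 • D z) = fun z => (z - x) * D z := by
        funext z
        simp
      rw [he, hd.deriv]
      simp
    rw [← h1, h2, h3]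
  have hGt : Tendsto G (𝓝 x) (𝓝 x) := by
    have := hG.continuousAt.tendsto
    rwa [hGx] at this
  have hae' : ∀ᶠ z in 𝓝 x, a (G z) = (G z - x) ^ m • a1 (G z) := hGt.eventually hae
  have hbe' : ∀ᶠ z in 𝓝 x, b (G z) = (G z - x) ^ n • b1 (G z) := hGt.eventually hbe
  have hev : ∀ᶠ z in 𝓝[≠] x, D z ^ m * a1 (G z) * b1 z = D z ^ n * a1 z * b1 (G z) := by
    have hall : ∀ᶠ z in 𝓝 x, z ≠ x → D z ^ m * a1 (G z) * b1 z = D z ^ n * a1 z * b1 (G z) := by
      filter_upwards [hae, hbe, hae', hbe', hGe, hinv] with z h1 h2 h3 h4 h5 h6 hz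
      have hzx : z - x ≠ 0 := sub_ne_zero.mpr hz
      rw [hGx] at h5
      rw [h3, h2, h1, h4, h5] at h6
      simp only [smul_eq_mul, pow_one, mul_pow] at h6
      have h7 : (z - x) ^ (m + n) * (D z ^ m * a1 (G z) * b1 z) =
          (z - x) ^ (m + n) * (D z ^ n * a1 z * b1 (G z)) := by
        rw [pow_add]
        linear_combination h6
      exact mul_left_cancel₀ (pow_ne_zero _ hzx) h7
    exact eventually_nhdsWithin_iff.mpr hall
  have hcont1 : ContinuousAt (fun z => D z ^ m * a1 (G z) * b1 z) x := by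
    have c1 : ContinuousAt (fun z => a1 (G z)) x := by
      have : ContinuousAt a1 (G x) := by rw [hGx]; exact ha1.continuousAt
      exact this.comp hG.continuousAt
    exact ((hD.continuousAt.pow m).mul c1).mul hb1.continuousAt
  have hcont2 : ContinuousAt (fun z => D z ^ n * a1 z * b1 (G z)) x := by
    have c1 : ContinuousAt (fun z => b1 (G z)) x := by
      have : ContinuousAt b1 (G x) := by rw [hGx]; exact hb1.continuousAt
      exact this.comp hG.continuousAt
    exact ((hD.continuousAt.pow n).mul ha1.continuousAt).mul c1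
  have hval : D x ^ m * a1 (G x) * b1 x = D x ^ n * a1 x * b1 (G x) := by
    have := (hcont1.eventuallyEq_nhds_iff_eventuallyEq_nhdsNE hcont2).mp hev
    exact this.eq_of_nhds
  rw [hGx] at hval
  have hpow : D x ^ m = D x ^ n := by
    have h1 : D x ^ m * (a1 x * b1 x) = D x ^ n * (a1 x * b1 x) := by
      linear_combination hval
    exact mul_right_cancel₀ (mul_ne_zero ha1x hb1x) h1
  rw [hDderiv, zpow_sub₀ hDx, zpow_natCast, zpow_natCast, hpow]
  exact div_self (pow_ne_zero _ hDx)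


/-- **69-ELL**, general form: if `γ ∈ GL(2, ℝ)⁺` fixes `τ₀` and the "fraction" `A / B` of
holomorphic functions is `γ`-invariant, then `(det γ / (c τ₀ + d) ^ 2) ^ (ord A - ord B) = 1`. -/
theorem elliptic_zpow_eq_one {A B : ℍ → ℂ} (hA : MDiff A) (hB : MDiff B) (hA0 : A ≠ 0)
    (hB0 : B ≠ 0) {γ : GL (Fin 2) ℝ} (hγ : 0 < γ.det.val) {τ₀ : ℍ} (hfix : γ • τ₀ = τ₀)
    (hinv : ∀ τ, A (γ • τ) * B τ = A τ * B (γ • τ)) :
    ((γ.val.det : ℂ) / denom γ τ₀ ^ 2) ^ (ordAt τ₀ A - ordAt τ₀ B) = 1 := by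
  have hγ' : 0 < γ.val.det := by rwa [← Matrix.GeneralLinearGroup.val_det_apply]
  have key := deriv_zpow_eq_one_of_comp_eq (a := A ∘ ofComplex) (b := B ∘ ofComplex)
    (G := fun z : ℂ => ((γ • ofComplex z : ℍ) : ℂ)) (x := (τ₀ : ℂ))
    (analyticAt_comp_ofComplex hA τ₀) (analyticAt_comp_ofComplex hB τ₀)
    (τ₀.analyticAt_smul hγ') (by simp [hfix]) (τ₀.deriv_smul_ne_zero hγ')
    (analyticOrderAt_comp_ofComplex_ne_top hA hA0 τ₀)
    (analyticOrderAt_comp_ofComplex_ne_top hB hB0 τ₀)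
    (Eventually.of_forall fun z => by simpa using hinv (ofComplex z))
  rwa [τ₀.deriv_smul hγ'] at key

/-- **69-ELL** for `SL(2, ℤ)`: `(c τ₀ + d) ^ (2 (ord A - ord B)) = 1`. -/
theorem elliptic_SL_zpow_eq_one {A B : ℍ → ℂ} (hA : MDiff A) (hB : MDiff B) (hA0 : A ≠ 0)
    (hB0 : B ≠ 0) (δ : SL(2, ℤ)) {τ₀ : ℍ} (hfix : δ • τ₀ = τ₀)
    (hinv : ∀ τ, A (δ • τ) * B τ = A τ * B (δ • τ)) :
    (denom δ τ₀ ^ 2) ^ (ordAt τ₀ A - ordAt τ₀ B) = 1 := by
  have key := elliptic_zpow_eq_one hA hB hA0 hB0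
    (γ := ((δ : SL(2, ℝ)) : GL (Fin 2) ℝ)) (by simp) (τ₀ := τ₀) hfix hinv
  have hdet : (((δ : SL(2, ℝ)) : GL (Fin 2) ℝ).val.det : ℂ) = 1 := by
    have : ((δ : SL(2, ℝ)) : GL (Fin 2) ℝ).val.det = 1 :=
      (Matrix.SpecialLinearGroup.map (Int.castRingHom ℝ) δ).det_coe
    rw [this]
    simp
  rw [hdet, one_div, inv_zpow] at key
  exact inv_eq_one.mp key

/-- **69-ELL** at a fixed point of `S`: the order of an `S`-invariant fraction is even. -/
theorem elliptic_S {A B : ℍ → ℂ} (hA : MDiff A) (hB : MDiff B) (hA0 : A ≠ 0)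
    (hB0 : B ≠ 0) {τ₀ : ℍ} (hfix : ModularGroup.S • τ₀ = τ₀)
    (hinv : ∀ τ, A (ModularGroup.S • τ) * B τ = A τ * B (ModularGroup.S • τ)) :
    (2 : ℤ) ∣ ordAt τ₀ A - ordAt τ₀ B := by
  have key := elliptic_SL_zpow_eq_one hA hB hA0 hB0 ModularGroup.S hfix hinv
  rw [ModularGroup.denom_S] at key
  have h1 : (τ₀ : ℂ) ^ 2 = -1 := by
    have h2 := congrArg (fun z : ℍ => (z : ℂ)) hfix
    simp only [UpperHalfPlane.modular_S_smul] at h2
    have h3 : (τ₀ : ℂ) ≠ 0 := τ₀.ne_zero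
    have h4 : (-(τ₀ : ℂ))⁻¹ = τ₀ := h2
    field_simp at h4
    linear_combination -h4
  rw [h1] at key
  have hprim : IsPrimitiveRoot (-1 : ℂ) 2 := IsPrimitiveRoot.neg_one 0 (by norm_num)
  exact_mod_cast (hprim.zpow_eq_one_iff_dvd _).mp key

/-- **69-ELL** at a fixed point of `S * T`: the order of an `S * T`-invariant fraction is
divisible by `3`. -/
theorem elliptic_ST {A B : ℍ → ℂ} (hA : MDiff A) (hB : MDiff B) (hA0 : A ≠ 0)
    (hB0 : B ≠ 0) {τ₀ : ℍ} (hfix : (ModularGroup.S * ModularGroup.T) • τ₀ = τ₀)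
    (hinv : ∀ τ, A ((ModularGroup.S * ModularGroup.T) • τ) * B τ =
      A τ * B ((ModularGroup.S * ModularGroup.T) • τ)) :
    (3 : ℤ) ∣ ordAt τ₀ A - ordAt τ₀ B := by
  have key := elliptic_SL_zpow_eq_one hA hB hA0 hB0 (ModularGroup.S * ModularGroup.T) hfix hinv
  have e00 : (ModularGroup.S * ModularGroup.T : SL(2, ℤ)) 0 0 = 0 := by
    rw [Matrix.SpecialLinearGroup.coe_mul, ModularGroup.coe_S, ModularGroup.coe_T]
    simp [Matrix.mul_apply, Fin.sum_univ_two]
  have e01 : (ModularGroup.S * ModularGroup.T : SL(2, ℤ)) 0 1 = -1 := by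
    rw [Matrix.SpecialLinearGroup.coe_mul, ModularGroup.coe_S, ModularGroup.coe_T]
    simp [Matrix.mul_apply, Fin.sum_univ_two]
  have e10 : (ModularGroup.S * ModularGroup.T : SL(2, ℤ)) 1 0 = 1 := by
    rw [Matrix.SpecialLinearGroup.coe_mul, ModularGroup.coe_S, ModularGroup.coe_T]
    simp [Matrix.mul_apply, Fin.sum_univ_two]
  have e11 : (ModularGroup.S * ModularGroup.T : SL(2, ℤ)) 1 1 = 1 := by
    rw [Matrix.SpecialLinearGroup.coe_mul, ModularGroup.coe_S, ModularGroup.coe_T]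
    simp [Matrix.mul_apply, Fin.sum_univ_two]
  have hden : denom ((ModularGroup.S * ModularGroup.T : SL(2, ℤ)) : GL (Fin 2) ℝ) τ₀ =
      (τ₀ : ℂ) + 1 := by
    rw [ModularGroup.denom_apply, e10, e11]
    simp
  have hτ : (τ₀ : ℂ) ^ 2 + τ₀ + 1 = 0 := by
    have h2 := congrArg (fun z : ℍ => (z : ℂ)) hfix
    simp only [UpperHalfPlane.coe_specialLinearGroup_apply, e00, e01, e10, e11] at h2
    have h3 : (τ₀ : ℂ) + 1 ≠ 0 := by
      have := UpperHalfPlane.denom_ne_zero
        ((ModularGroup.S * ModularGroup.T : SL(2, ℤ)) : GL (Fin 2) ℝ) τ₀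
      rwa [hden] at this
    simp only [algebraMap_int_eq, eq_intCast, Int.cast_zero, Complex.ofReal_zero, zero_mul,
      Int.cast_neg, Int.cast_one, Complex.ofReal_neg, Complex.ofReal_one, zero_add, one_mul]
      at h2
    field_simp at h2
    linear_combination -h2
  have hsq : ((τ₀ : ℂ) + 1) ^ 2 = τ₀ := by linear_combination hτ
  rw [hden, hsq] at key
  have hcube : (τ₀ : ℂ) ^ 3 = 1 := by linear_combination ((τ₀ : ℂ) - 1) * hτ
  have hne1 : (τ₀ : ℂ) ≠ 1 := by
    intro h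
    have := τ₀.im_pos
    have h' := congrArg Complex.im h
    simp at h'
    linarith
  have hprim : IsPrimitiveRoot (τ₀ : ℂ) 3 := by
    refine IsPrimitiveRoot.mk_of_lt _ (by norm_num) hcube ?_
    intro l hl0 hl3 hl
    have hl' : l = 1 ∨ l = 2 := by omega
    rcases hl' with rfl | rfl
    · exact hne1 (by simpa using hl)
    · apply hne1
      linear_combination hcube - (τ₀ : ℂ) * hl
  exact_mod_cast (hprim.zpow_eq_one_iff_dvd _).mp key

end Elliptic

/-! ## Part R: the order functions on the fraction field of a ring of holomorphic functions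

`R` is any commutative ring with an injective ring homomorphism `ev : R →+* (ℍ → ℂ)` whose
values are holomorphic (e.g. a subalgebra of `ℍ → ℂ`), `L` is a fraction field of `R`. -/

section Ring

theorem isDomain_of_ev {R : Type*} [CommRing R] [Nontrivial R] (ev : R →+* (ℍ → ℂ))
    (hinj : Function.Injective ev) (hmd : ∀ r, MDiff (ev r)) : IsDomain R := by
  have : NoZeroDivisors R := ⟨fun {a b} hab => by
    have h1 : ev a * ev b = 0 := by rw [← map_mul, hab, map_zero]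
    rcases (UpperHalfPlane.mul_eq_zero_iff (hmd a) (hmd b)).mp h1 with h | h
    · exact Or.inl (hinj (by rw [h, map_zero]))
    · exact Or.inr (hinj (by rw [h, map_zero]))⟩
  exact NoZeroDivisors.to_isDomain R

variable {K : Type*} [Field K] {R : Type*} [CommRing R] [IsDomain R] [Algebra K R]
  {L : Type*} [Field L] [Algebra R L] [IsFractionRing R L] [Algebra K L] [IsScalarTower K R L]
  (ev : R →+* (ℍ → ℂ)) (hinj : Function.Injective ev) (hmd : ∀ r, MDiff (ev r))
  (hconst : ∀ c : K, ∃ z : ℂ, ev (algebraMap K R c) = fun _ => z)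

include hinj in
theorem ev_ne_zero {r : R} (hr : r ≠ 0) : ev r ≠ 0 :=
  fun h => hr (hinj (by rw [h, map_zero]))

/-- The order function `ord_{τ₀}` on the fraction field `L` of `R`. -/
noncomputable def ordFrac (τ₀ : ℍ) : OrdFn K L :=
  OrdFn.ofOrd (fun r => ordAt τ₀ (ev r))
    (by rw [map_one]; exact ordAt_one τ₀)
    (fun a b ha hb => by
      rw [map_mul]
      exact ordAt_mul (hmd a) (hmd b) (ev_ne_zero ev hinj ha) (ev_ne_zero ev hinj hb) τ₀)
    (fun a b ha hb hab => by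
      rw [map_add]
      exact ordAt_add (hmd a) (hmd b) (ev_ne_zero ev hinj ha) (ev_ne_zero ev hinj hb)
        (by rw [← map_add]; exact ev_ne_zero ev hinj hab) τ₀)
    (fun c hc => by
      obtain ⟨z, hz⟩ := hconst c
      have hz0 : z ≠ 0 := by
        rintro rfl
        have h1 : algebraMap K R c = 0 := hinj (by rw [hz, map_zero]; rfl)
        exact hc ((FaithfulSMul.algebraMap_injective K R) (by rw [h1, map_zero]))
      show ordAt τ₀ (ev (algebraMap K R c)) = 0
      rw [hz]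
      exact ordAt_const hz0 τ₀)

theorem ordFrac_algebraMap (τ₀ : ℍ) {r : R} (hr : r ≠ 0) :
    ordFrac (K := K) (L := L) ev hinj hmd hconst τ₀ (algebraMap R L r) = ordAt τ₀ (ev r) :=
  OrdFn.ofOrd_algebraMap _ _ _ _ _ hr

theorem ordFrac_div (τ₀ : ℍ) {a b : R} (ha : a ≠ 0) (hb : b ≠ 0) :
    ordFrac (K := K) (L := L) ev hinj hmd hconst τ₀ (algebraMap R L a / algebraMap R L b) =
      ordAt τ₀ (ev a) - ordAt τ₀ (ev b) :=
  OrdFn.ofOrd_div _ _ _ _ _ ha hb

theorem ordFrac_zero (τ₀ : ℍ) :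
    ordFrac (K := K) (L := L) ev hinj hmd hconst τ₀ 0 = 0 := by
  show - WithZero.log (Valuation.extendToLocalization _ _ L (0 : L)) = 0
  rw [map_zero]
  simp

/-- Elements of `R` have nonnegative order. -/
theorem ordFrac_algebraMap_nonneg (τ₀ : ℍ) (r : R) :
    0 ≤ ordFrac (K := K) (L := L) ev hinj hmd hconst τ₀ (algebraMap R L r) := by
  by_cases hr : r = 0
  · rw [hr, map_zero, ordFrac_zero]
  · rw [ordFrac_algebraMap ev hinj hmd hconst τ₀ hr]
    exact ordAt_nonneg _ _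

/-- An element of `R` has order `0` at `τ₀` iff it does not vanish there. -/
theorem ordFrac_algebraMap_eq_zero_iff (τ₀ : ℍ) {r : R} (hr : r ≠ 0) :
    ordFrac (K := K) (L := L) ev hinj hmd hconst τ₀ (algebraMap R L r) = 0 ↔ ev r τ₀ ≠ 0 := by
  rw [ordFrac_algebraMap ev hinj hmd hconst τ₀ hr]
  exact ordAt_eq_zero_iff (hmd r) (ev_ne_zero ev hinj hr) τ₀

/-- Transport of orders: if the ring endomorphism `σ` of `L` induces on `R` the composition
with `γ ∈ GL(2, ℝ)⁺`, then `ord_{τ₀} (σ x) = ord_{γ τ₀} x`. -/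
theorem ordFrac_comp {γ : GL (Fin 2) ℝ} (hγ : 0 < γ.det.val) (σ : L →+* L) (σR : R → R)
    (hσ : ∀ r, σ (algebraMap R L r) = algebraMap R L (σR r))
    (hσR : ∀ r τ, ev (σR r) τ = ev r (γ • τ)) (τ₀ : ℍ) (x : L) :
    ordFrac (K := K) ev hinj hmd hconst τ₀ (σ x) =
      ordFrac (K := K) ev hinj hmd hconst (γ • τ₀) x := by
  have hinjL := IsFractionRing.injective R L
  have hσR0 : ∀ r, r ≠ 0 → σR r ≠ 0 := by
    intro r hr h0
    have h1 : σ (algebraMap R L r) = 0 := by rw [hσ, h0, map_zero]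
    have h2 : algebraMap R L r = 0 := (map_eq_zero σ).mp h1
    exact hr (hinjL (by rw [h2, map_zero]))
  have hord : ∀ r, ordAt τ₀ (ev (σR r)) = ordAt (γ • τ₀) (ev r) := by
    intro r
    have : ev (σR r) = fun τ => ev r (γ • τ) := funext (hσR r)
    rw [this]
    exact ordAt_comp_smul hγ _ _
  by_cases hx : x = 0
  · rw [hx, map_zero, ordFrac_zero, ordFrac_zero]
  obtain ⟨a, b, hb, rfl⟩ := IsFractionRing.div_surjective (A := R) x
  have hb0 : b ≠ 0 := nonZeroDivisors.ne_zero hb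
  have ha0 : a ≠ 0 := by
    rintro rfl
    exact hx (by simp)
  rw [map_div₀, hσ, hσ, ordFrac_div ev hinj hmd hconst τ₀ (hσR0 a ha0) (hσR0 b hb0),
    ordFrac_div ev hinj hmd hconst (γ • τ₀) ha0 hb0, hord, hord]

/-- Invariance of a fraction under `σ` (inducing composition with `γ` on `R`) in terms of
numerator and denominator. -/
theorem ev_invariant_of_fixed {γ : GL (Fin 2) ℝ} (σ : L →+* L) (σR : R → R)
    (hσ : ∀ r, σ (algebraMap R L r) = algebraMap R L (σR r))
    (hσR : ∀ r τ, ev (σR r) τ = ev r (γ • τ)) {a b : R} (hb : b ≠ 0)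
    (hfix : σ (algebraMap R L a / algebraMap R L b) = algebraMap R L a / algebraMap R L b)
    (τ : ℍ) : ev a (γ • τ) * ev b τ = ev a τ * ev b (γ • τ) := by
  have hinjL := IsFractionRing.injective R L
  have hbL : algebraMap R L b ≠ 0 := fun h => hb (hinjL (by rw [h, map_zero]))
  have hσb : σ (algebraMap R L b) ≠ 0 := (map_ne_zero σ).mpr hbL
  rw [map_div₀, div_eq_div_iff hσb hbL, hσ, hσ, ← map_mul, ← map_mul] at hfix
  have h1 : σR a * b = a * σR b := hinjL hfix
  have h2 := congrFun (congrArg ev h1) τ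
  rw [map_mul, map_mul] at h2
  simpa [hσR] using h2

/-- **Elliptic divisibility at a fixed point of `S`** for elements of the fraction field. -/
theorem ordFrac_elliptic_S (σ : L →+* L) (σR : R → R)
    (hσ : ∀ r, σ (algebraMap R L r) = algebraMap R L (σR r))
    (hσR : ∀ r τ, ev (σR r) τ = ev r (ModularGroup.S • τ)) {τ₀ : ℍ}
    (hτ₀ : ModularGroup.S • τ₀ = τ₀) {x : L} (hx : x ≠ 0) (hfix : σ x = x) :
    (2 : ℤ) ∣ ordFrac (K := K) ev hinj hmd hconst τ₀ x := by
  obtain ⟨a, b, hb, rfl⟩ := IsFractionRing.div_surjective (A := R) x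
  have hb0 : b ≠ 0 := nonZeroDivisors.ne_zero hb
  have ha0 : a ≠ 0 := by
    rintro rfl
    exact hx (by simp)
  rw [ordFrac_div ev hinj hmd hconst τ₀ ha0 hb0]
  exact elliptic_S (hmd a) (hmd b) (ev_ne_zero ev hinj ha0) (ev_ne_zero ev hinj hb0) hτ₀
    (ev_invariant_of_fixed (γ := ((ModularGroup.S : SL(2, ℤ)) : GL (Fin 2) ℝ)) ev σ σR hσ hσR
      hb0 hfix)

/-- **Elliptic divisibility at a fixed point of `S * T`** for elements of the fraction
field. -/
theorem ordFrac_elliptic_ST (σ : L →+* L) (σR : R → R)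
    (hσ : ∀ r, σ (algebraMap R L r) = algebraMap R L (σR r))
    (hσR : ∀ r τ, ev (σR r) τ = ev r ((ModularGroup.S * ModularGroup.T) • τ)) {τ₀ : ℍ}
    (hτ₀ : (ModularGroup.S * ModularGroup.T) • τ₀ = τ₀) {x : L} (hx : x ≠ 0)
    (hfix : σ x = x) :
    (3 : ℤ) ∣ ordFrac (K := K) ev hinj hmd hconst τ₀ x := by
  obtain ⟨a, b, hb, rfl⟩ := IsFractionRing.div_surjective (A := R) x
  have hb0 : b ≠ 0 := nonZeroDivisors.ne_zero hb
  have ha0 : a ≠ 0 := by
    rintro rfl
    exact hx (by simp)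
  rw [ordFrac_div ev hinj hmd hconst τ₀ ha0 hb0]
  exact elliptic_ST (hmd a) (hmd b) (ev_ne_zero ev hinj ha0) (ev_ne_zero ev hinj hb0) hτ₀
    (ev_invariant_of_fixed
      (γ := ((ModularGroup.S * ModularGroup.T : SL(2, ℤ)) : GL (Fin 2) ℝ)) ev σ σR hσ hσR
      hb0 hfix)

end Ring

end Fermat.Agent.FF
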