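import Mathlib
import Fermat.Prelude.Def_ModularCurve_X0
import Fermat.Prelude.Def_ModularCurve_LaurentCoeff

/-!
# S24 item 69 (WP-D), part 1: convergent Laurent expansions at the cusp `∞`

`IsExp M x h` : the function `h : ℍ → ℂ` is the sum of the Laurent series `x` in the
parameter `u = exp (2πiτ/M)`.

Main results: `IsExp.add`, `IsExp.mul` (Cauchy product), `IsExp.unique`,
`IsExp.change_level`, `IsExp.comp_affine` (substitution `τ ↦ (aτ+b)/d`),
`IsExp.dvd_of_periodic` (a `1`-periodic function has an expansion supported on multiples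
of `M`), `IsExp.isBoundedAtImInfty`.
-/

set_option autoImplicit false

open UpperHalfPlane hiding I
open Function Complex
open scoped Real

namespace Fermat.Agent.FF

/-- The parameter `u_M(τ) = exp (2πiτ/M)` on the upper half plane. -/
noncomputable def uPar (M : ℕ) (τ : ℍ) : ℂ := Periodic.qParam (M : ℝ) (τ : ℂ)

theorem uPar_def (M : ℕ) (τ : ℍ) : uPar M τ = cexp (2 * π * I * τ / (M : ℝ)) := rfl

theorem uPar_ne_zero (M : ℕ) (τ : ℍ) : uPar M τ ≠ 0 := Complex.exp_ne_zero _

/-- `h` has the convergent Laurent expansion `x` in the parameter `exp (2πiτ/M)`. -/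
def IsExp (M : ℕ) (x : LaurentSeries ℂ) (h : ℍ → ℂ) : Prop :=
  ∀ τ : ℍ, HasSum (fun n : ℤ => x.coeff n * uPar M τ ^ n) (h τ)

section basic

variable {M : ℕ} {x y : LaurentSeries ℂ} {h g : ℍ → ℂ}

theorem IsExp.congr (hx : IsExp M x h) (hg : ∀ τ, h τ = g τ) : IsExp M x g :=
  fun τ => hg τ ▸ hx τ

theorem isExp_zero (M : ℕ) : IsExp M 0 (fun _ => 0) := by
  intro τ
  simp [hasSum_zero]

theorem isExp_single (M : ℕ) (k : ℤ) (c : ℂ) :
    IsExp M (HahnSeries.single k c) (fun τ => c * uPar M τ ^ k) := by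
  intro τ
  have := hasSum_ite_eq k (c * uPar M τ ^ k)
  refine this.congr_fun ?_
  intro n
  by_cases hn : n = k
  · subst hn; simp
  · simp [hn, HahnSeries.coeff_single_of_ne hn]

theorem isExp_const (M : ℕ) (c : ℂ) : IsExp M (HahnSeries.C c) (fun _ => c) := by
  have := isExp_single M 0 c
  simpa using this

theorem isExp_one (M : ℕ) : IsExp M 1 (fun _ => 1) := by
  have := isExp_const M 1
  simpa using this

theorem IsExp.add (hx : IsExp M x h) (hy : IsExp M y g) :
    IsExp M (x + y) (fun τ => h τ + g τ) := by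
  intro τ
  have := (hx τ).add (hy τ)
  refine this.congr_fun ?_
  intro n
  simp [add_mul]

theorem IsExp.neg (hx : IsExp M x h) : IsExp M (-x) (fun τ => -h τ) := by
  intro τ
  have := (hx τ).neg
  refine this.congr_fun ?_
  intro n
  simp

theorem IsExp.sub (hx : IsExp M x h) (hy : IsExp M y g) :
    IsExp M (x - y) (fun τ => h τ - g τ) := by
  intro τ
  have := (hx τ).sub (hy τ)
  refine this.congr_fun ?_
  intro n
  simp [sub_mul]

theorem IsExp.const_mul (c : ℂ) (hx : IsExp M x h) :
    IsExp M (HahnSeries.C c * x) (fun τ => c * h τ) := by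
  intro τ
  have := (hx τ).mul_left c
  refine this.congr_fun ?_
  intro n
  simp [mul_assoc]

/-- regroup a product of two absolutely convergent `ℤ`-indexed sums along `i + j = n`. -/
theorem hasSum_int_cauchy {a b : ℤ → ℂ} {A B : ℂ} (ha : HasSum a A) (hb : HasSum b B) :
    HasSum (fun p : ℤ × ℤ => a p.2 * b (p.1 - p.2)) (A * B) := by
  have hs : Summable (fun p : ℤ × ℤ => a p.1 * b p.2) :=
    summable_mul_of_summable_norm ha.summable.norm hb.summable.norm
  have h3 : HasSum (fun p : ℤ × ℤ => a p.1 * b p.2) (A * B) := ha.mul hb hs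
  let e : ℤ × ℤ ≃ ℤ × ℤ :=
    { toFun := fun p => (p.1 + p.2, p.1)
      invFun := fun p => (p.2, p.1 - p.2)
      left_inv := fun p => by ext <;> simp
      right_inv := fun p => by ext <;> simp }
  apply (e.hasSum_iff (f := fun p : ℤ × ℤ => a p.2 * b (p.1 - p.2)) (a := A * B)).mp
  refine h3.congr_fun ?_
  intro p
  simp [e]

theorem hasSum_fiber_laurent (x y : LaurentSeries ℂ) (u : ℂ) (hu : u ≠ 0) (n : ℤ) :
    HasSum (fun i : ℤ => (x.coeff i * u ^ i) * (y.coeff (n - i) * u ^ (n - i)))
      ((x * y).coeff n * u ^ n) := by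
  classical
  have key : ∀ i : ℤ, (x.coeff i * u ^ i) * (y.coeff (n - i) * u ^ (n - i))
      = (x.coeff i * y.coeff (n - i)) * u ^ n := by
    intro i
    have : u ^ i * u ^ (n - i) = u ^ n := by
      rw [← zpow_add₀ hu]; congr 1; ring
    calc (x.coeff i * u ^ i) * (y.coeff (n - i) * u ^ (n - i))
        = (x.coeff i * y.coeff (n - i)) * (u ^ i * u ^ (n - i)) := by ring
      _ = _ := by rw [this]
  simp_rw [key]
  apply HasSum.mul_right
  rw [HahnSeries.coeff_mul]
  set s := Finset.antidiagonal x.isPWO_support y.isPWO_support n with hs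
  have himg : ∑ ij ∈ s, x.coeff ij.1 * y.coeff ij.2
      = ∑ i ∈ s.image Prod.fst, x.coeff i * y.coeff (n - i) := by
    rw [Finset.sum_image]
    · refine Finset.sum_congr rfl ?_
      intro ij hij
      rw [hs, Finset.mem_antidiagonal] at hij
      have : ij.2 = n - ij.1 := by have := hij.2.2; omega
      rw [this]
    · intro p hp q hq hpq
      rw [Finset.mem_coe, hs, Finset.mem_antidiagonal] at hp hq
      ext
      · exact hpq
      · have := hp.2.2; have := hq.2.2; omega
  rw [himg]
  apply hasSum_sum_of_ne_finset_zero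
  intro i hi
  by_contra hne
  apply hi
  rw [Finset.mem_image]
  refine ⟨(i, n - i), ?_, rfl⟩
  rw [hs, Finset.mem_antidiagonal]
  have h1 : x.coeff i ≠ 0 := fun h0 => hne (by rw [h0, zero_mul])
  have h2 : y.coeff (n - i) ≠ 0 := fun h0 => hne (by rw [h0, mul_zero])
  exact ⟨h1, h2, by simp⟩

/-- Cauchy product of two convergent Laurent series. -/
theorem IsExp.mul (hx : IsExp M x h) (hy : IsExp M y g) :
    IsExp M (x * y) (fun τ => h τ * g τ) := by
  intro τ
  have h4 := hasSum_int_cauchy (hx τ) (hy τ)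
  exact HasSum.prod_fiberwise h4 (fun n => hasSum_fiber_laurent x y _ (uPar_ne_zero M τ) n)

theorem IsExp.pow (hx : IsExp M x h) (k : ℕ) : IsExp M (x ^ k) (fun τ => h τ ^ k) := by
  induction k with
  | zero => simpa using isExp_one M
  | succ k ih =>
    have := ih.mul hx
    simpa [pow_succ] using this

/-- shift a Laurent expansion to a power series expansion -/
theorem IsExp.hasSum_nat (hx : IsExp M x h)
    (k : ℤ) (hk : ∀ n < k, x.coeff n = 0) (τ : ℍ) :
    HasSum (fun m : ℕ => x.coeff (m + k) * uPar M τ ^ m) (h τ * uPar M τ ^ (-k)) := by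
  have hu := uPar_ne_zero M τ
  have h1 := (hx τ).mul_right (uPar M τ ^ (-k))
  have h2 : HasSum (fun n : ℤ => x.coeff (n + k) * uPar M τ ^ n) (h τ * uPar M τ ^ (-k)) := by
    have h3 := (Equiv.addRight k).hasSum_iff.mpr h1
    refine h3.congr_fun ?_
    intro n
    simp only [Function.comp, Equiv.coe_addRight]
    rw [mul_assoc, ← zpow_add₀ hu]
    congr 2
    ring
  have hinj : Function.Injective (Nat.cast : ℕ → ℤ) := Nat.cast_injective
  rw [← hinj.hasSum_iff] at h2
  · refine h2.congr_fun ?_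
    intro m
    simp
  · intro n hn
    have hneg : n < 0 := by
      by_contra hcon
      push Not at hcon
      exact hn ⟨n.toNat, by simp [hcon]⟩
    rw [hk (n + k) (by omega), zero_mul]

theorem cuspFunction_zero_fun (p : ℝ) : cuspFunction p (0 : ℍ → ℂ) = 0 := by
  simpa [cuspFunction, Periodic.cuspFunction]
    using! (tendsto_const_nhds.mono_left nhdsWithin_le_nhds).limUnder_eq

/-- uniqueness of `ℕ`-indexed expansions of the zero function -/
theorem coeff_eq_zero_of_hasSum_zero {p : ℝ} (hp : 0 < p) {c : ℕ → ℂ}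
    (hc : ∀ τ : ℍ, HasSum (fun m : ℕ => c m * Periodic.qParam p (τ : ℂ) ^ m) 0) (m : ℕ) :
    c m = 0 := by
  let _i : FunLike (ℍ → ℂ) ℍ ℂ := ⟨fun f => f, fun _ _ h => h⟩
  have han : AnalyticAt ℂ (cuspFunction p (0 : ℍ → ℂ)) 0 := by
    rw [cuspFunction_zero_fun]; exact analyticAt_const
  have h3 : c m = (PowerSeries.coeff m) (qExpansion p (0 : ℍ → ℂ)) :=
    UpperHalfPlane.qExpansion_coeff_unique (F := ℍ → ℂ) (0 : ℍ → ℂ) hp han hc m
  rw [h3, qExpansion_zero]
  simp

theorem IsExp.eq_zero (hM : 0 < M) (hx : IsExp M x (fun _ => 0)) : x = 0 := by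
  by_contra hne
  have hk : ∀ n < x.order, x.coeff n = 0 := fun n hn => HahnSeries.coeff_eq_zero_of_lt_order hn
  have h1 := hx.hasSum_nat x.order hk
  have hM' : (0 : ℝ) < M := by exact_mod_cast hM
  have h2 : ∀ τ : ℍ, HasSum (fun m : ℕ => x.coeff (m + x.order) *
      Periodic.qParam (M : ℝ) (τ : ℂ) ^ m) 0 := by
    intro τ
    have := h1 τ
    simp only [zero_mul] at this
    exact this
  have h3 := coeff_eq_zero_of_hasSum_zero hM' h2 0
  simp only [Nat.cast_zero, zero_add] at h3
  exact hne (HahnSeries.coeff_order_eq_zero.mp h3)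

theorem IsExp.unique (hM : 0 < M) (hx : IsExp M x h) (hy : IsExp M y h) : x = y := by
  have : IsExp M (x - y) (fun _ => 0) := (hx.sub hy).congr (fun τ => sub_self _)
  exact sub_eq_zero.mp (this.eq_zero hM)

end basic

end Fermat.Agent.FF
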