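import Fermat.Agent.FF.TaylorPS
import Fermat.Agent.FF.AnalyticJDeriv
import Fermat.Agent.FF.ModExp

/-!
# S24 WP-C (item 68), part 3: the `q`-expansion of the analytic `j` is the prelude's `jq`

Main result: `isExp_jFun : IsExp 1 (ModularCurve.coeffEmb ℂ ModularCurve.jq) jFun`, i.e. for every
`τ` in the upper half plane, `j(τ) = ∑_{n ∈ ℤ} c(n) qⁿ` with `c(n)` the coefficients of the formal
series `jq = q⁻¹ · E₄(q)³ / ∏ (1 - qⁿ)²⁴` of the prelude and `q = exp (2πiτ)`.
-/

set_option autoImplicit false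

open UpperHalfPlane hiding I
open ModularForm EisensteinSeries Filter Topology Complex Function
open scoped MatrixGroups Manifold Modular Real PowerSeries.WithPiTopology

namespace Fermat.Agent.FF

local notation "Δ" => ModularForm.discriminant
local notation "𝕢" => Periodic.qParam

theorem etaProd_eq_pentagonalSeries : ModularCurve.etaProd = PowerSeries.pentagonalSeries ℤ :=
  PowerSeries.WithPiTopology.tprod_one_sub_X_pow ℤ

theorem map_pentagonalSeries :
    (PowerSeries.pentagonalSeries ℤ).map (Int.castRingHom ℂ) = PowerSeries.pentagonalSeries ℂ := by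
  ext m
  rw [PowerSeries.coeff_map]
  by_cases h : m ∈ Set.range pentagonal
  · obtain ⟨k, rfl⟩ := h
    simp
  · rw [PowerSeries.coeff_pentagonalSeries_eq_zero ℤ h,
      PowerSeries.coeff_pentagonalSeries_eq_zero ℂ h]
    simp

theorem qExpansion_E₄ :
    qExpansion 1 E₄ = ModularCurve.eisenstein4.map (Int.castRingHom ℂ) := by
  ext m
  rw [E_qExpansion_coeff _ ⟨2, rfl⟩, PowerSeries.coeff_map, ModularCurve.eisenstein4,
    PowerSeries.coeff_mk]
  by_cases hm : m = 0
  · simp [hm]
  · simp only [hm, if_false]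
    have hb : (bernoulli 4 : ℂ) = -1 / 30 := by
      rw [bernoulli_eq_bernoulli'_of_ne_one (by norm_num), bernoulli'_four]
      norm_num
    rw [hb, ArithmeticFunction.sigma_apply]
    push_cast
    norm_num

/-- The Euler function does not vanish on the open unit disc. -/
theorem eulerFun_ne_zero {q : ℂ} (hq : ‖q‖ < 1) : eulerFun q ≠ 0 := by
  have hs : Summable fun n : ℕ => ‖-q ^ (n + 1)‖ := by
    simpa using (summable_nat_add_iff 1).mpr (summable_geometric_of_lt_one (norm_nonneg _) hq)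
  have := tprod_one_add_ne_zero_of_summable (f := fun n : ℕ ↦ -q ^ (n + 1)) ?_ hs
  · simpa [eulerFun, sub_eq_add_neg] using this
  · intro i
    rw [← sub_eq_add_neg, sub_ne_zero]
    intro h
    have h1 : ‖q ^ (i + 1)‖ < 1 := by
      rw [norm_pow]
      exact pow_lt_one₀ (norm_nonneg _) hq (by omega)
    rw [← h] at h1
    simp at h1

/-- `E₄³ / ∏ (1 - qⁿ)²⁴` as a holomorphic function of `q` on the unit disc. -/
noncomputable def jNumFun (q : ℂ) : ℂ := cuspFunction 1 E₄ q ^ 3 / eulerFun q ^ 24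

theorem differentiableOn_cuspFunction_E₄ :
    DifferentiableOn ℂ (cuspFunction 1 E₄) (Metric.ball 0 1) :=
  UpperHalfPlane.differentiableOn_cuspFunction_ball one_pos (periodic_levelOne E₄)
    (ModularFormClass.holo E₄) (bdd_levelOne E₄)

theorem differentiableOn_jNumFun : DifferentiableOn ℂ jNumFun (Metric.ball 0 1) := by
  unfold jNumFun
  refine DifferentiableOn.div (differentiableOn_cuspFunction_E₄.pow 3)
    (differentiableOn_eulerFun.pow 24) ?_
  intro q hq
  exact pow_ne_zero _ (eulerFun_ne_zero (by simpa using hq))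

theorem analyticAt_of_differentiableOn_ball {f : ℂ → ℂ}
    (hf : DifferentiableOn ℂ f (Metric.ball 0 1)) : AnalyticAt ℂ f 0 :=
  hf.analyticAt (Metric.ball_mem_nhds 0 one_pos)

theorem taylorPS_cuspFunction (f : ℍ → ℂ) : taylorPS (cuspFunction 1 f) = qExpansion 1 f := rfl

theorem taylorPS_jNumFun :
    taylorPS jNumFun = ModularCurve.jNum.map (Int.castRingHom ℂ) := by
  have hJ := analyticAt_of_differentiableOn_ball differentiableOn_jNumFun
  have hE := analyticAt_of_differentiableOn_ball differentiableOn_cuspFunction_E₄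
  have hP := analyticAt_of_differentiableOn_ball differentiableOn_eulerFun
  -- the analytic identity
  have h1 : taylorPS (jNumFun * eulerFun ^ 24) = taylorPS (cuspFunction 1 E₄ ^ 3) := by
    apply taylorPS_congr
    filter_upwards [Metric.ball_mem_nhds (0 : ℂ) one_pos] with q hq
    have hne : eulerFun q ^ 24 ≠ 0 := pow_ne_zero _ (eulerFun_ne_zero (by simpa using hq))
    simp only [Pi.mul_apply, Pi.pow_apply, jNumFun]
    exact div_mul_cancel₀ _ hne
  rw [taylorPS_mul hJ (hP.pow 24), taylorPS_pow hP, taylorPS_pow hE, taylorPS_eulerFun,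
    taylorPS_cuspFunction, qExpansion_E₄] at h1
  -- the formal identity
  have h2 : ModularCurve.jNum * ModularCurve.etaProd ^ 24 = ModularCurve.eisenstein4 ^ 3 := by
    rw [ModularCurve.jNum, mul_assoc, mul_comm ModularCurve.dedekindEtaUnitInv,
      ← ModularCurve.dedekindEtaUnit, ModularCurve.dedekindEtaUnit_mul_inv, mul_one]
  have h3 := congr_arg (PowerSeries.map (Int.castRingHom ℂ)) h2
  rw [map_mul, map_pow, map_pow, etaProd_eq_pentagonalSeries, map_pentagonalSeries] at h3
  have hne : (PowerSeries.pentagonalSeries ℂ) ^ 24 ≠ 0 := by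
    apply pow_ne_zero
    intro h0
    have := congr_arg (PowerSeries.coeff 0) h0
    have hp : (0 : ℕ) = pentagonal 0 := by simp [pentagonal]
    rw [hp] at this
    simp at this
  exact mul_right_cancel₀ hne (h1.trans h3.symm)

theorem eulerFun_qParam (τ : ℍ) :
    eulerFun (𝕢 1 τ) ^ 24 = ∏' n : ℕ, (1 - eta_q n τ) ^ 24 := by
  have hq : ‖𝕢 1 (τ : ℂ)‖ < 1 := Periodic.norm_qParam_lt_one one_pos τ.im_pos
  rw [eulerFun, ← (ModularForm.multipliable_one_sub_pow hq).tprod_pow 24]

theorem jNumFun_qParam (τ : ℍ) : jNumFun (𝕢 1 τ) = 𝕢 1 τ * jFun τ := by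
  have hq : ‖𝕢 1 (τ : ℂ)‖ < 1 := Periodic.norm_qParam_lt_one one_pos τ.im_pos
  have hq0 : 𝕢 1 (τ : ℂ) ≠ 0 := Periodic.qParam_ne_zero _
  have hne : eulerFun (𝕢 1 τ) ^ 24 ≠ 0 := pow_ne_zero _ (eulerFun_ne_zero hq)
  have hE : cuspFunction 1 E₄ (𝕢 1 τ) = E₄ τ :=
    UpperHalfPlane.eq_cuspFunction τ one_ne_zero (periodic_levelOne E₄)
  have hΔ : Δ τ = 𝕢 1 τ * eulerFun (𝕢 1 τ) ^ 24 := by
    rw [discriminant_eq_q_prod, eulerFun_qParam]
  rw [jNumFun, jFun, hE, hΔ]
  field_simp

/-- The `ℕ`-indexed expansion of `q · j`. -/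
theorem hasSum_jNum (τ : ℍ) :
    HasSum (fun m : ℕ => ((ModularCurve.jNum.coeff m : ℤ) : ℂ) * 𝕢 1 τ ^ m) (𝕢 1 τ * jFun τ) := by
  have hq : ‖𝕢 1 (τ : ℂ)‖ < 1 := Periodic.norm_qParam_lt_one one_pos τ.im_pos
  have := hasSum_taylorPS differentiableOn_jNumFun hq
  rw [taylorPS_jNumFun, jNumFun_qParam] at this
  refine this.congr_fun ?_
  intro m
  simp

theorem coeff_coeffEmb_jq (n : ℤ) :
    (ModularCurve.coeffEmb ℂ ModularCurve.jq).coeff n =
      if 0 ≤ n + 1 then ((ModularCurve.jNum.coeff (n + 1).toNat : ℤ) : ℂ) else 0 := by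
  rw [ModularCurve.coeffEmb_coeff, ModularCurve.jq, HahnSeries.coeff_single_mul, one_mul,
    sub_neg_eq_add]
  split_ifs with h
  · obtain ⟨m, hm⟩ := Int.eq_ofNat_of_zero_le h
    rw [hm, HahnSeries.ofPowerSeries_apply_coeff, Int.toNat_natCast, ModularCurve.jNumQ,
      PowerSeries.coeff_map]
    simp
  · rw [ModularCurve.ofPowerSeries_coeff_of_neg _ (by omega)]
    simp

/-- **C1**: the analytic `j`-function has the `q`-expansion `jq` of the prelude. -/
theorem isExp_jFun : IsExp 1 (ModularCurve.coeffEmb ℂ ModularCurve.jq) jFun := by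
  intro τ
  have hu : uPar 1 τ = 𝕢 1 τ := by
    simp [uPar]
  rw [hu]
  have hq0 : 𝕢 1 (τ : ℂ) ≠ 0 := Periodic.qParam_ne_zero _
  have h1 := (hasSum_jNum τ).mul_right (𝕢 1 (τ : ℂ))⁻¹
  have h2 : 𝕢 1 (τ : ℂ) * jFun τ * (𝕢 1 (τ : ℂ))⁻¹ = jFun τ := by
    field_simp
  rw [h2] at h1
  have hinj : Function.Injective (fun m : ℕ => (m : ℤ) - 1) := by
    intro a b hab
    simp only at hab
    omega
  rw [← hinj.hasSum_iff]
  · refine h1.congr_fun ?_
    intro m
    simp only [Function.comp_apply]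
    rw [coeff_coeffEmb_jq, if_pos (by omega), zpow_sub₀ hq0, zpow_natCast, zpow_one]
    have : ((m : ℤ) - 1 + 1).toNat = m := by omega
    rw [this]
    ring
  · intro n hn
    have hneg : n + 1 < 0 := by
      by_contra hcon
      push Not at hcon
      exact hn ⟨(n + 1).toNat, by simp; omega⟩
    rw [coeff_coeffEmb_jq, if_neg (by omega), zero_mul]

end Fermat.Agent.FF
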