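import Mathlib
import Fermat.Agent.FF.ModExp

/-!
# S24 item 69 (WP-D), part 2: substitutions in convergent Laurent expansions

* `dmul c x`            : the Laurent series with coefficients `c n * x_n`
* `IsExp.change_level`  : `u_M = u_{M e} ^ e`
* `IsExp.comp_affine`   : expansion of `h ((a τ + b) / d)`
* `IsExp.comp_translate`: expansion of `h (τ + 1)`
* `IsExp.dvd_of_periodic`
* `IsExp.isBoundedAtImInfty`
-/

set_option autoImplicit false

open UpperHalfPlane hiding I
open Function Complex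
open scoped Real

namespace Fermat.Agent.FF

section dmul

variable {R : Type*} [CommRing R]

/-- coefficientwise multiplication of a Laurent series by a sequence -/
def dmul (c : ℤ → R) (x : LaurentSeries R) : LaurentSeries R where
  coeff n := c n * x.coeff n
  isPWO_support' := x.isPWO_support.mono (fun n hn => by
    simp only [Function.mem_support, ne_eq] at hn ⊢
    intro h0
    exact hn (by rw [h0, mul_zero]))

@[simp] theorem dmul_coeff (c : ℤ → R) (x : LaurentSeries R) (n : ℤ) :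
    (dmul c x).coeff n = c n * x.coeff n := rfl

theorem coeffMap_dmul {S : Type*} [CommRing S] (f : R →+* S) (c : ℤ → R) (x : LaurentSeries R) :
    ModularCurve.coeffMap f (dmul c x) = dmul (fun n => f (c n)) (ModularCurve.coeffMap f x) := by
  ext n
  simp

end dmul

section subst

variable {M : ℕ} {x : LaurentSeries ℂ} {h : ℍ → ℂ}

/-- reindexing along `n ↦ e * n` -/
theorem hasSum_qExpand (e : ℕ) [NeZero e] (x : LaurentSeries ℂ) (v : ℂ) {S : ℂ}
    (hS : HasSum (fun n : ℤ => x.coeff n * (v ^ e) ^ n) S) :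
    HasSum (fun m : ℤ => (ModularCurve.qExpand ℂ e x).coeff m * v ^ m) S := by
  have he : (e : ℤ) ≠ 0 := by exact_mod_cast NeZero.ne e
  have hinj : Function.Injective (fun n : ℤ => (e : ℤ) * n) := mul_right_injective₀ he
  rw [← hinj.hasSum_iff]
  · refine hS.congr_fun ?_
    intro n
    simp only [Function.comp]
    rw [ModularCurve.qExpand_coeff_mul, zpow_mul, zpow_natCast]
  · intro m hm
    have : ¬ (e : ℤ) ∣ m := fun ⟨k, hk⟩ => hm ⟨k, hk.symm⟩
    rw [ModularCurve.qExpand_coeff_of_not_dvd e x this, zero_mul]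

theorem uPar_pow (M e : ℕ) [NeZero e] (τ : ℍ) : uPar (M * e) τ ^ e = uPar M τ := by
  have he : 0 < e := Nat.pos_of_ne_zero (NeZero.ne e)
  rw [uPar_def, uPar_def, ← Complex.exp_nat_mul]
  congr 1
  have : (e : ℂ) ≠ 0 := by exact_mod_cast he.ne'
  push_cast
  rcases Nat.eq_zero_or_pos M with rfl | hM
  · simp
  have : (M : ℂ) ≠ 0 := by exact_mod_cast hM.ne'
  field_simp

/-- the same function, expanded in the parameter of a multiple level -/
theorem IsExp.change_level (hx : IsExp M x h) (e : ℕ) [NeZero e] :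
    IsExp (M * e) (ModularCurve.qExpand ℂ e x) h := by
  intro τ
  apply hasSum_qExpand
  rw [uPar_pow]
  exact hx τ

/-- expansion of `τ ↦ h ((a τ + b) / d)` -/
theorem IsExp.comp_affine (hx : IsExp M x h) (a d : ℕ) [NeZero a] (b : ℤ)
    (φ : ℍ → ℍ) (hφ : ∀ τ : ℍ, ((φ τ : ℍ) : ℂ) = ((a : ℂ) * τ + b) / d) :
    IsExp (M * d) (ModularCurve.qExpand ℂ a
      (dmul (fun n => cexp (2 * π * I * b / ((M : ℂ) * d)) ^ n) x)) (fun τ => h (φ τ)) := by
  intro τ
  apply hasSum_qExpand
  have key : uPar M (φ τ) = cexp (2 * π * I * b / ((M : ℂ) * d)) * uPar (M * d) τ ^ a := by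
    rw [uPar_def, uPar_def, hφ, ← Complex.exp_nat_mul, ← Complex.exp_add]
    congr 1
    push_cast
    rcases Nat.eq_zero_or_pos M with rfl | hM
    · simp
    rcases Nat.eq_zero_or_pos d with rfl | hd
    · simp
    have h1 : (M : ℂ) ≠ 0 := by exact_mod_cast hM.ne'
    have h2 : (d : ℂ) ≠ 0 := by exact_mod_cast hd.ne'
    field_simp
    ring
  refine (hx (φ τ)).congr_fun ?_
  intro n
  rw [dmul_coeff, key, mul_zpow]
  ring

/-- `T`-translation -/
theorem IsExp.comp_translate (hx : IsExp M x h)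
    (φ : ℍ → ℍ) (hφ : ∀ τ : ℍ, ((φ τ : ℍ) : ℂ) = τ + 1) :
    IsExp M (dmul (fun n => cexp (2 * π * I / (M : ℂ)) ^ n) x) (fun τ => h (φ τ)) := by
  have := hx.comp_affine 1 1 1 φ (fun τ => by rw [hφ]; simp)
  simpa [ModularCurve.qExpand_one_apply] using this

/-- a `1`-periodic function has an expansion supported on the multiples of `M` -/
theorem IsExp.dvd_of_periodic (hM : 0 < M) (hx : IsExp M x h)
    (φ : ℍ → ℍ) (hφ : ∀ τ : ℍ, ((φ τ : ℍ) : ℂ) = τ + 1) (hper : ∀ τ, h (φ τ) = h τ)
    (n : ℤ) (hn : x.coeff n ≠ 0) : (M : ℤ) ∣ n := by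
  have h1 := (hx.comp_translate φ hφ).congr hper
  have h2 := congrArg (fun y => HahnSeries.coeff y n) (h1.unique hM hx)
  simp only [dmul_coeff] at h2
  have h3 : cexp (2 * π * I / (M : ℂ)) ^ n = 1 := by
    have : (cexp (2 * π * I / (M : ℂ)) ^ n - 1) * x.coeff n = 0 := by
      rw [sub_mul, h2, one_mul, sub_self]
    rcases mul_eq_zero.mp this with h | h
    · exact sub_eq_zero.mp h
    · exact absurd h hn
  rw [← Complex.exp_int_mul, Complex.exp_eq_one_iff] at h3
  obtain ⟨k, hk⟩ := h3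
  have hM' : (M : ℂ) ≠ 0 := by exact_mod_cast hM.ne'
  have hpi : (2 * π * I : ℂ) ≠ 0 := by
    simp [Real.pi_ne_zero, Complex.I_ne_zero]
  have h4 : (n : ℂ) = (M : ℂ) * k := by
    field_simp at hk
    exact hk
  refine ⟨k, ?_⟩
  have : ((n : ℤ) : ℂ) = (((M : ℤ) * k : ℤ) : ℂ) := by push_cast; rw [h4]
  exact_mod_cast this

/-- an expansion without negative terms is bounded at `i∞` -/
theorem IsExp.isBoundedAtImInfty (hM : 0 < M) (hx : IsExp M x h)
    (h0 : ∀ n < 0, x.coeff n = 0) : IsBoundedAtImInfty h := by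
  have hM' : (0 : ℝ) < M := by exact_mod_cast hM
  refine isBoundedAtImInfty_of_hasSum_qExpansion (c := fun m : ℕ => x.coeff m) hM' ?_
  intro τ
  have := hx.hasSum_nat 0 h0 τ
  simpa [uPar] using this

end subst

end Fermat.Agent.FF
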