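import Mathlib
import Fermat.Agent.FF.ModExp
import Fermat.Agent.FF.ModExp2

/-!
# S24 item 69-CUSP: leading-term divisibility at the cusp

A quotient `A / B` invariant under `τ ↦ τ + k` has order divisible by `N / gcd(N, k)`.
-/

set_option autoImplicit false

open UpperHalfPlane hiding I
open Function Complex
open scoped Real

namespace Fermat.Agent.FF

section dmulOrder

variable {R : Type*} [CommRing R]

theorem order_eq_of_coeff {x : LaurentSeries R} {n : ℤ} (hn : x.coeff n ≠ 0)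
    (h : ∀ m < n, x.coeff m = 0) : x.order = n := by
  apply le_antisymm (HahnSeries.order_le_of_coeff_ne_zero hn)
  by_contra hlt
  push Not at hlt
  have hx : x ≠ 0 := by
    rintro rfl
    exact hn (by simp)
  exact (HahnSeries.coeff_order_eq_zero.not.mpr hx) (h _ hlt)

theorem dmul_order [NoZeroDivisors R] (c : ℤ → R) (hc : ∀ n, c n ≠ 0) (x : LaurentSeries R)
    (hx : x ≠ 0) : (dmul c x).order = x.order := by
  apply order_eq_of_coeff
  · rw [dmul_coeff]
    exact mul_ne_zero (hc _) (HahnSeries.coeff_order_eq_zero.not.mpr hx)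
  · intro m hm
    rw [dmul_coeff, HahnSeries.coeff_eq_zero_of_lt_order hm, mul_zero]

theorem dmul_leadingCoeff [NoZeroDivisors R] (c : ℤ → R) (hc : ∀ n, c n ≠ 0)
    (x : LaurentSeries R) (hx : x ≠ 0) :
    (dmul c x).leadingCoeff = c x.order * x.leadingCoeff := by
  rw [HahnSeries.leadingCoeff_eq, HahnSeries.leadingCoeff_eq, dmul_order c hc x hx, dmul_coeff]

end dmulOrder

theorem dvd_order_sub_of_translate_invariant {N : ℕ} (hN : 0 < N) (k : ℕ)
    {xA xB : LaurentSeries ℂ} {A B : UpperHalfPlane → ℂ} (hA : IsExp N xA A) (hB : IsExp N xB B)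
    (hxA : xA ≠ 0) (hxB : xB ≠ 0)
    (φ : UpperHalfPlane → UpperHalfPlane)
    (hφ : ∀ τ : UpperHalfPlane, ((φ τ : UpperHalfPlane) : ℂ) = τ + k)
    (hinv : ∀ τ, A (φ τ) * B τ = A τ * B (φ τ)) :
    (N : ℤ) ∣ k * (xA.order - xB.order) := by
  obtain ⟨ζ, hζ⟩ : ∃ ζ : ℂ, ζ = cexp (2 * π * I * k / (N : ℂ)) := ⟨_, rfl⟩
  have hζ0 : ζ ≠ 0 := by rw [hζ]; exact Complex.exp_ne_zero _
  have hc : ∀ n : ℤ, ζ ^ n ≠ 0 := fun n => zpow_ne_zero n hζ0
  -- expansions of the translates
  have htr : ∀ {x : LaurentSeries ℂ} {h : UpperHalfPlane → ℂ}, IsExp N x h →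
      IsExp N (dmul (fun n => ζ ^ n) x) (fun τ => h (φ τ)) := by
    intro x h hx
    have := hx.comp_affine 1 1 (k : ℤ) φ (fun τ => by rw [hφ]; simp)
    simp only [mul_one, Nat.cast_one, ModularCurve.qExpand_one_apply, Int.cast_natCast] at this
    rw [hζ]
    exact this
  have h1 : IsExp N (dmul (fun n => ζ ^ n) xA * xB) (fun τ => A (φ τ) * B τ) := (htr hA).mul hB
  have h2 : IsExp N (xA * dmul (fun n => ζ ^ n) xB) (fun τ => A τ * B (φ τ)) := hA.mul (htr hB)
  have h3 : dmul (fun n => ζ ^ n) xA * xB = xA * dmul (fun n => ζ ^ n) xB :=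
    (h1.congr hinv).unique hN h2
  have h4 : (dmul (fun n => ζ ^ n) xA * xB).coeff (xA.order + xB.order)
      = (xA * dmul (fun n => ζ ^ n) xB).coeff (xA.order + xB.order) := by rw [h3]
  have e1 : (dmul (fun n => ζ ^ n) xA * xB).coeff (xA.order + xB.order)
      = ζ ^ xA.order * xA.leadingCoeff * xB.leadingCoeff := by
    have := HahnSeries.coeff_mul_order_add_order (dmul (fun n => ζ ^ n) xA) xB
    rw [dmul_order _ hc xA hxA, dmul_leadingCoeff _ hc xA hxA] at this
    exact this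
  have e2 : (xA * dmul (fun n => ζ ^ n) xB).coeff (xA.order + xB.order)
      = xA.leadingCoeff * (ζ ^ xB.order * xB.leadingCoeff) := by
    have := HahnSeries.coeff_mul_order_add_order xA (dmul (fun n => ζ ^ n) xB)
    rw [dmul_order _ hc xB hxB, dmul_leadingCoeff _ hc xB hxB] at this
    exact this
  rw [e1, e2] at h4
  have ha : xA.leadingCoeff ≠ 0 := HahnSeries.leadingCoeff_ne_zero.mpr hxA
  have hb : xB.leadingCoeff ≠ 0 := HahnSeries.leadingCoeff_ne_zero.mpr hxB
  have h5 : ζ ^ xA.order = ζ ^ xB.order := by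
    have : (ζ ^ xA.order - ζ ^ xB.order) * (xA.leadingCoeff * xB.leadingCoeff) = 0 := by
      linear_combination h4
    rcases mul_eq_zero.mp this with h | h
    · exact sub_eq_zero.mp h
    · exact absurd h (mul_ne_zero ha hb)
  have h6 : ζ ^ (xA.order - xB.order) = 1 := by
    rw [zpow_sub₀ hζ0, h5, div_self (hc _)]
  rw [hζ, ← Complex.exp_int_mul, Complex.exp_eq_one_iff] at h6
  obtain ⟨m, hm⟩ := h6
  have hN' : (N : ℂ) ≠ 0 := by exact_mod_cast hN.ne'
  have hpi : (2 * π * I : ℂ) ≠ 0 := by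
    simp [Real.pi_ne_zero, Complex.I_ne_zero]
  refine ⟨m, ?_⟩
  have h7 : ((xA.order - xB.order : ℤ) : ℂ) * k = (N : ℂ) * m := by
    field_simp at hm
    linear_combination hm
  have : (((k : ℤ) * (xA.order - xB.order) : ℤ) : ℂ) = (((N : ℤ) * m : ℤ) : ℂ) := by
    push_cast
    push_cast at h7
    linear_combination h7
  exact_mod_cast this

end Fermat.Agent.FF
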