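import Mathlib
import Fermat.Agent.FF.Interface2
import Fermat.Agent.FF.ModExp
import Fermat.Agent.FF.ModExp2
import Fermat.Prelude.Thm_ModularCurve_coeffMap_qExpand

/-!
# S24 item 69 (WP-D), part 3: the ring `R = modRing N`

`modRing N` is the ring of holomorphic functions `h` on `ℍ` such that for every `γ ∈ SL(2,ℤ)`
the function `h ∘ γ` has a convergent Laurent expansion in `exp (2πiτ/N)` with coefficients in
`ι(ℚ̄)`.  It is a domain, stable under composition with `SL(2,ℤ)`, and carries the expansion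
homomorphism `expInf : modRing N →+* LaurentSeries ℚ̄`.
-/

set_option autoImplicit false

open UpperHalfPlane hiding I
open Function Complex
open scoped Real MatrixGroups Manifold

namespace Fermat.Agent.FF

/-- a fixed embedding `ℚ̄ → ℂ` -/
noncomputable def iotaK : Kbar →+* ℂ :=
  haveI : Algebra.IsAlgebraic ℚ Kbar := AlgebraicClosure.isAlgebraic ℚ
  ((IsAlgClosed.lift : Kbar →ₐ[ℚ] ℂ) : Kbar →+* ℂ)

theorem iotaK_injective : Function.Injective iotaK := iotaK.injective

theorem iotaK_algebraMap (c : ℚ) : iotaK (algebraMap ℚ Kbar c) = algebraMap ℚ ℂ c := by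
  haveI : Algebra.IsAlgebraic ℚ Kbar := AlgebraicClosure.isAlgebraic ℚ
  show (IsAlgClosed.lift : Kbar →ₐ[ℚ] ℂ) (algebraMap ℚ Kbar c) = _
  exact AlgHom.commutes _ c

/-- the coefficientwise embedding `ℚ̄((q)) → ℂ((q))` -/
noncomputable def iotaL : LaurentSeries Kbar →+* LaurentSeries ℂ := ModularCurve.coeffMap iotaK

theorem iotaL_coeff (x : LaurentSeries Kbar) (n : ℤ) : (iotaL x).coeff n = iotaK (x.coeff n) := rfl

theorem iotaL_injective : Function.Injective iotaL := by
  intro x y hxy
  ext n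
  have := congrArg (fun z => HahnSeries.coeff z n) hxy
  exact iotaK_injective this

theorem iotaL_coeffEmb (x : LaurentSeries ℚ) :
    iotaL (ModularCurve.coeffEmb Kbar x) = ModularCurve.coeffEmb ℂ x := by
  ext n
  simp only [iotaL_coeff, ModularCurve.coeffEmb_coeff, iotaK_algebraMap]

theorem iotaL_C (c : Kbar) : iotaL (HahnSeries.C c) = HahnSeries.C (iotaK c) := by
  show ModularCurve.coeffMap iotaK (HahnSeries.single 0 c) = HahnSeries.single 0 (iotaK c)
  exact ModularCurve.coeffMap_single iotaK 0 c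

theorem iotaL_order (x : LaurentSeries Kbar) : (iotaL x).order = x.order := by
  by_cases hx : x = 0
  · simp [hx]
  have hx' : iotaL x ≠ 0 := fun h => hx (iotaL_injective (by rw [h, map_zero]))
  apply le_antisymm
  · apply HahnSeries.order_le_of_coeff_ne_zero
    rw [iotaL_coeff]
    intro h
    exact hx (HahnSeries.coeff_order_eq_zero.mp (iotaK_injective (by rw [h, map_zero])))
  · apply HahnSeries.order_le_of_coeff_ne_zero
    intro h
    have := HahnSeries.coeff_order_eq_zero.not.mpr hx'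
    rw [iotaL_coeff] at this
    exact this (by rw [h, map_zero])

/-- `h` has the convergent expansion `x` with coefficients in `ℚ̄`. -/
def IsExpK (M : ℕ) (x : LaurentSeries Kbar) (h : ℍ → ℂ) : Prop := IsExp M (iotaL x) h

theorem IsExpK.unique {M : ℕ} (hM : 0 < M) {x y : LaurentSeries Kbar} {h : ℍ → ℂ}
    (hx : IsExpK M x h) (hy : IsExpK M y h) : x = y :=
  iotaL_injective (IsExp.unique hM hx hy)

/-- The ring of holomorphic functions on `ℍ` which have `ℚ̄`-rational Laurent expansions in
`exp (2πiτ/N)` at all cusps. -/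
def modRing (N : ℕ) : Subring (ℍ → ℂ) where
  carrier := {h | MDiff h ∧ ∀ γ : SL(2, ℤ), ∃ x : LaurentSeries Kbar,
    IsExpK N x (fun τ => h (γ • τ))}
  mul_mem' := by
    rintro f g ⟨hf, hf'⟩ ⟨hg, hg'⟩
    refine ⟨hf.mul hg, fun γ => ?_⟩
    obtain ⟨x, hx⟩ := hf' γ
    obtain ⟨y, hy⟩ := hg' γ
    refine ⟨x * y, ?_⟩
    have := IsExp.mul hx hy
    rw [← map_mul] at this
    exact this
  one_mem' := by
    refine ⟨mdifferentiable_const, fun γ => ⟨1, ?_⟩⟩
    have := isExp_one N
    show IsExp N (iotaL 1) _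
    rw [map_one]
    exact this
  add_mem' := by
    rintro f g ⟨hf, hf'⟩ ⟨hg, hg'⟩
    refine ⟨hf.add hg, fun γ => ?_⟩
    obtain ⟨x, hx⟩ := hf' γ
    obtain ⟨y, hy⟩ := hg' γ
    refine ⟨x + y, ?_⟩
    have := IsExp.add hx hy
    rw [← map_add] at this
    exact this
  zero_mem' := by
    refine ⟨mdifferentiable_const, fun γ => ⟨0, ?_⟩⟩
    have := isExp_zero N
    show IsExp N (iotaL 0) _
    rw [map_zero]
    exact this
  neg_mem' := by
    rintro f ⟨hf, hf'⟩
    refine ⟨hf.neg, fun γ => ?_⟩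
    obtain ⟨x, hx⟩ := hf' γ
    refine ⟨-x, ?_⟩
    have := IsExp.neg hx
    rw [← map_neg] at this
    exact this

/-- the carrier type of `modRing N` -/
abbrev RN (N : ℕ) : Type := ↥(modRing N)

theorem RN.mdiff {N : ℕ} (h : RN N) : MDiff (h : ℍ → ℂ) := h.2.1

theorem RN.exists_exp {N : ℕ} (h : RN N) (γ : SL(2, ℤ)) :
    ∃ x : LaurentSeries Kbar, IsExpK N x (fun τ => (h : ℍ → ℂ) (γ • τ)) := h.2.2 γ

theorem RN.ext {N : ℕ} {f g : RN N} (h : ∀ τ, (f : ℍ → ℂ) τ = (g : ℍ → ℂ) τ) : f = g :=
  Subtype.ext (funext h)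

/-- the evaluation ring homomorphism `RN N →+* (ℍ → ℂ)` -/
def evR (N : ℕ) : RN N →+* (ℍ → ℂ) := (modRing N).subtype

theorem evR_apply {N : ℕ} (h : RN N) : evR N h = (h : ℍ → ℂ) := rfl

theorem evR_injective (N : ℕ) : Function.Injective (evR N) := Subtype.val_injective

instance (N : ℕ) : IsDomain (RN N) := by
  have : NoZeroDivisors (RN N) := ⟨fun {a b} hab => by
    have h1 : (a : ℍ → ℂ) * (b : ℍ → ℂ) = 0 := by
      have := congrArg Subtype.val hab
      simpa using this
    rcases (UpperHalfPlane.mul_eq_zero_iff a.mdiff b.mdiff).mp h1 with h | h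
    · exact Or.inl (Subtype.ext h)
    · exact Or.inr (Subtype.ext h)⟩
  exact NoZeroDivisors.to_isDomain _

/-- constants -/
noncomputable def constR (N : ℕ) : Kbar →+* RN N where
  toFun c := ⟨fun _ => iotaK c, mdifferentiable_const, fun _ => ⟨HahnSeries.C c, by
    show IsExp N (iotaL (HahnSeries.C c)) _
    rw [iotaL_C]
    exact isExp_const N (iotaK c)⟩⟩
  map_one' := by apply RN.ext; intro τ; simp
  map_mul' a b := by apply RN.ext; intro τ; simp
  map_zero' := by apply RN.ext; intro τ; simp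
  map_add' a b := by apply RN.ext; intro τ; simp

noncomputable instance (N : ℕ) : Algebra Kbar (RN N) := (constR N).toAlgebra

theorem algebraMap_RN_apply {N : ℕ} (c : Kbar) (τ : ℍ) :
    ((algebraMap Kbar (RN N) c : RN N) : ℍ → ℂ) τ = iotaK c := rfl

theorem evR_const (N : ℕ) (c : Kbar) :
    ∃ z : ℂ, evR N (algebraMap Kbar (RN N) c) = fun _ => z := ⟨iotaK c, rfl⟩

/-- composition with `γ ∈ SL(2,ℤ)` -/
noncomputable def compSL (N : ℕ) (γ : SL(2, ℤ)) : RN N →+* RN N where
  toFun h := ⟨fun τ => (h : ℍ → ℂ) (γ • τ), by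
    refine ⟨?_, fun γ' => ?_⟩
    · have hγ : 0 < ((γ : GL (Fin 2) ℝ)).det.val := by simp
      exact h.mdiff.comp (UpperHalfPlane.mdifferentiable_smul hγ)
    · obtain ⟨x, hx⟩ := h.exists_exp (γ * γ')
      refine ⟨x, hx.congr fun τ => ?_⟩
      rw [mul_smul]⟩
  map_one' := by apply RN.ext; intro τ; rfl
  map_mul' a b := by apply RN.ext; intro τ; rfl
  map_zero' := by apply RN.ext; intro τ; rfl
  map_add' a b := by apply RN.ext; intro τ; rfl

@[simp] theorem compSL_apply {N : ℕ} (γ : SL(2, ℤ)) (h : RN N) (τ : ℍ) :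
    ((compSL N γ h : RN N) : ℍ → ℂ) τ = (h : ℍ → ℂ) (γ • τ) := rfl

theorem compSL_one {N : ℕ} (h : RN N) : compSL N 1 h = h := by
  apply RN.ext; intro τ; simp

theorem compSL_mul {N : ℕ} (γ δ : SL(2, ℤ)) (h : RN N) :
    compSL N (γ * δ) h = compSL N δ (compSL N γ h) := by
  apply RN.ext; intro τ; simp [mul_smul]

theorem compSL_algebraMap {N : ℕ} (γ : SL(2, ℤ)) (c : Kbar) :
    compSL N γ (algebraMap Kbar (RN N) c) = algebraMap Kbar (RN N) c := by
  apply RN.ext; intro τ; rfl

theorem compSL_injective {N : ℕ} (γ : SL(2, ℤ)) : Function.Injective (compSL N γ) := by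
  intro a b hab
  have h1 := congrArg (compSL N γ⁻¹) hab
  rwa [← compSL_mul, ← compSL_mul, mul_inv_cancel, compSL_one, compSL_one] at h1

section expansion

variable (N : ℕ) [NeZero N]

/-- the expansion at `∞` of an element of `RN N` -/
noncomputable def expInfFun (h : RN N) : LaurentSeries Kbar := (h.exists_exp 1).choose

theorem isExpK_expInfFun (h : RN N) : IsExpK N (expInfFun N h) (h : ℍ → ℂ) := by
  have := (h.exists_exp 1).choose_spec
  exact this.congr fun τ => by rw [one_smul]

variable {N} in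
theorem expInfFun_eq {h : RN N} {x : LaurentSeries Kbar} (hx : IsExpK N x (h : ℍ → ℂ)) :
    expInfFun N h = x :=
  IsExpK.unique (Nat.pos_of_ne_zero (NeZero.ne N)) (isExpK_expInfFun N h) hx

/-- the expansion at `∞`, as a ring homomorphism -/
noncomputable def expInf : RN N →+* LaurentSeries Kbar where
  toFun := expInfFun N
  map_one' := expInfFun_eq (by
    show IsExp N (iotaL 1) _
    rw [map_one]; exact isExp_one N)
  map_mul' a b := expInfFun_eq (by
    show IsExp N (iotaL _) _
    rw [map_mul]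
    exact IsExp.mul (isExpK_expInfFun N a) (isExpK_expInfFun N b))
  map_zero' := expInfFun_eq (by
    show IsExp N (iotaL 0) _
    rw [map_zero]; exact isExp_zero N)
  map_add' a b := expInfFun_eq (by
    show IsExp N (iotaL _) _
    rw [map_add]
    exact IsExp.add (isExpK_expInfFun N a) (isExpK_expInfFun N b))

theorem isExpK_expInf (h : RN N) : IsExpK N (expInf N h) (h : ℍ → ℂ) := isExpK_expInfFun N h

variable {N} in
theorem expInf_eq {h : RN N} {x : LaurentSeries Kbar} (hx : IsExpK N x (h : ℍ → ℂ)) :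
    expInf N h = x := expInfFun_eq hx

theorem expInf_injective : Function.Injective (expInf N) := by
  intro a b hab
  apply RN.ext
  intro τ
  have h1 := isExpK_expInf N a τ
  have h2 := isExpK_expInf N b τ
  rw [hab] at h1
  exact h1.unique h2

theorem expInf_algebraMap (c : Kbar) : expInf N (algebraMap Kbar (RN N) c) = HahnSeries.C c :=
  expInf_eq (by
    show IsExp N (iotaL (HahnSeries.C c)) _
    rw [iotaL_C]
    exact isExp_const N (iotaK c))

end expansion

end Fermat.Agent.FF
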