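import Mathlib
import Fermat.Agent.FF.ModRing
import Fermat.Agent.FF.ModCusp
import Fermat.Agent.FF.Holo
import Fermat.Agent.FF.AnalyticJC3
import Fermat.Agent.FF.JqExpansion

/-!
# Item 73 (dictionary), piece DJ: the weight two form `D j = (2πi)⁻¹ j'`

* `mdiff_D_jFun`, `D_jFun_ne_zero`, `D_jFun_slash` (weight `2` invariance under `SL(2,ℤ)`),
* `ordAt_D_jFun` : `ord_τ (D j) + 1 = ord_τ (j - j(τ))`,
* `exists_isExpK_D_jFun` : `D j` has the `q`-expansion `θ(jq)` (order `-1`, coefficients in `ℚ̄`).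
-/

set_option autoImplicit false

open UpperHalfPlane hiding I
open ModularForm EisensteinSeries Filter Topology Complex Function
open scoped MatrixGroups Manifold Modular Derivative Real

namespace Fermat.Agent.FF

local notation "𝕢" => Periodic.qParam

theorem mdiff_D_jFun : MDiff (D jFun) :=
  Derivative.normalizedDerivOfComplex_mdifferentiable mdiff_jFun

theorem jFun_slash_zero (γ : SL(2, ℤ)) : jFun ∣[(0 : ℤ)] γ = jFun := by
  ext τ
  rw [ModularForm.SL_slash_apply]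
  simp only [neg_zero, zpow_zero, mul_one]
  exact jFun_smul γ τ

theorem D_jFun_slash (γ : SL(2, ℤ)) : (D jFun) ∣[(2 : ℤ)] γ = D jFun := by
  have h := Derivative.normalizedDerivOfComplex_SL_slash (k := 0) mdiff_jFun (γ := γ)
  rw [jFun_slash_zero] at h
  have h2 : (fun z : ℍ ↦ ((0 : ℤ) : ℂ) * (2 * π * I)⁻¹ * (γ 1 0 / denom γ z) * jFun z) = 0 := by
    ext z
    simp
  rw [h2, sub_zero] at h
  simpa using h.symm

theorem D_jFun_ne_zero : D jFun ≠ 0 := by
  intro h
  have h1 := congrFun h UpperHalfPlane.I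
  -- at a generic point `j' ≠ 0`; use a point with `j τ = 1`
  obtain ⟨τ, hτ⟩ := jFun_surjective 1
  have h0 : jFun τ ≠ 0 := by rw [hτ]; norm_num
  have h1728 : jFun τ ≠ 1728 := by rw [hτ]; norm_num
  have h2 := deriv_jFun_ne_zero h0 h1728
  rw [(hasDerivAt_of_mdiff mdiff_jFun τ).deriv, h] at h2
  simp at h2

/-- near `τ`, `(D F) ∘ ofComplex` is a constant multiple of the derivative of `F ∘ ofComplex` -/
theorem D_comp_ofComplex_eventuallyEq {F : ℍ → ℂ} (τ : ℍ) :
    ((D F) ∘ ofComplex) =ᶠ[𝓝 (τ : ℂ)]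
      fun z => (2 * π * I)⁻¹ * deriv (F ∘ ofComplex) z := by
  filter_upwards [isOpen_upperHalfPlaneSet.mem_nhds τ.im_pos] with z hz
  simp only [Function.comp_apply, Derivative.normalizedDerivOfComplex,
    ofComplex_apply_of_im_pos hz]

theorem analyticOrderAt_D_add_one {F : ℍ → ℂ} (hF : MDiff F) (τ : ℍ) :
    analyticOrderAt ((D F) ∘ ofComplex) (τ : ℂ) + 1
      = analyticOrderAt (fun z => F (ofComplex z) - F τ) (τ : ℂ) := by
  have han := analyticAt_of_mdiff hF τ
  have h1 := han.analyticOrderAt_deriv_add_one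
  have h2 : analyticOrderAt ((D F) ∘ ofComplex) (τ : ℂ)
      = analyticOrderAt (deriv (F ∘ ofComplex)) (τ : ℂ) := by
    rw [analyticOrderAt_congr (D_comp_ofComplex_eventuallyEq τ)]
    have hc : AnalyticAt ℂ (fun _ : ℂ => (2 * π * I)⁻¹) (τ : ℂ) := analyticAt_const
    have : (fun z => (2 * π * I)⁻¹ * deriv (F ∘ ofComplex) z)
        = (fun _ : ℂ => (2 * π * I)⁻¹) * deriv (F ∘ ofComplex) := rfl
    rw [this, analyticOrderAt_mul hc han.deriv]
    have h0 : analyticOrderAt (fun _ : ℂ => (2 * (π : ℂ) * I)⁻¹) (τ : ℂ) = 0 := by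
      rw [hc.analyticOrderAt_eq_zero]
      exact inv_ne_zero two_pi_I_ne_zero'
    rw [h0, zero_add]
  rw [h2, h1]
  simp only [Function.comp_apply, ofComplex_apply]

theorem ordAt_D_jFun (τ : ℍ) :
    ordAt τ (D jFun) + 1 = ordAt τ (fun z => jFun z - jFun τ) := by
  have h := analyticOrderAt_D_add_one mdiff_jFun τ
  have hne : analyticOrderAt ((D jFun) ∘ ofComplex) (τ : ℂ) ≠ ⊤ :=
    analyticOrderAt_comp_ofComplex_ne_top mdiff_D_jFun D_jFun_ne_zero τ
  obtain ⟨n, hn⟩ := ENat.ne_top_iff_exists.mp hne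
  rw [← hn] at h
  have h1 : ordAt τ (D jFun) = n := ordAt_eq_of_analyticOrderAt hn.symm
  have h2 : ordAt τ (fun z => jFun z - jFun τ) = (n + 1 : ℕ) := by
    apply ordAt_eq_of_analyticOrderAt
    have e : ((fun z => jFun z - jFun τ) ∘ ofComplex) = fun z => jFun (ofComplex z) - jFun τ := rfl
    rw [e, ← h]
    push_cast
    rfl
  rw [h1, h2]
  push_cast
  rfl


theorem taylorPS_deriv_coeff (f : ℂ → ℂ) (m : ℕ) :
    (taylorPS (deriv f)).coeff m = ((m : ℂ) + 1) * (taylorPS f).coeff (m + 1) := by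
  rw [taylorPS_coeff, taylorPS_coeff, iteratedDeriv_succ', Nat.factorial_succ]
  push_cast
  have h1 : ((m.factorial : ℂ)) ≠ 0 := by exact_mod_cast Nat.factorial_ne_zero m
  have h2 : ((m : ℂ) + 1) ≠ 0 := by exact_mod_cast Nat.succ_ne_zero m
  field_simp

theorem hasDerivAt_qParam_one (z : ℂ) : HasDerivAt (𝕢 1) (2 * π * I * 𝕢 1 z) z := by
  unfold Periodic.qParam
  have h1 : HasDerivAt (fun w : ℂ => 2 * π * I * w / (1 : ℝ)) (2 * π * I) z := by
    have := ((hasDerivAt_id z).const_mul (2 * π * I))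
    simpa using this
  have := h1.cexp
  simpa [mul_comm] using this

theorem D_jFun_eq_jNumFun (τ : ℍ) :
    D jFun τ = deriv jNumFun (𝕢 1 τ) - jNumFun (𝕢 1 τ) / 𝕢 1 τ := by
  have hq : ‖𝕢 1 (τ : ℂ)‖ < 1 := Periodic.norm_qParam_lt_one one_pos τ.im_pos
  have hq0 : 𝕢 1 (τ : ℂ) ≠ 0 := Periodic.qParam_ne_zero _
  have hG : HasDerivAt jNumFun (deriv jNumFun (𝕢 1 τ)) (𝕢 1 (τ : ℂ)) :=
    (differentiableOn_jNumFun.differentiableAt
      (Metric.isOpen_ball.mem_nhds (by simpa using hq))).hasDerivAt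
  have hqd := hasDerivAt_qParam_one (τ : ℂ)
  have hcomp := (hG.comp (τ : ℂ) hqd).div hqd hq0
  have heq : (jFun ∘ ofComplex) =ᶠ[𝓝 (τ : ℂ)] fun z => (jNumFun ∘ 𝕢 1) z / 𝕢 1 z := by
    filter_upwards [isOpen_upperHalfPlaneSet.mem_nhds τ.im_pos] with z hz
    have := jNumFun_qParam ⟨z, hz⟩
    simp only [Function.comp_apply, ofComplex_apply_of_im_pos hz]
    have hz0 : 𝕢 1 z ≠ 0 := Periodic.qParam_ne_zero _
    rw [eq_div_iff hz0, mul_comm]
    exact this.symm
  have hcomp' : HasDerivAt (fun z => (jNumFun ∘ 𝕢 1) z / 𝕢 1 z) _ (τ : ℂ) := hcomp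
  rw [Derivative.normalizedDerivOfComplex, heq.deriv_eq, hcomp'.deriv]
  have h2 : (2 * (π : ℂ) * I) ≠ 0 := by simp [Real.pi_ne_zero]
  simp only [Function.comp_apply]
  field_simp

/-- the formal derivative `θ = q d/dq` of the `q`-expansion of `j`, over `ℚ̄` -/
noncomputable def thetaJq : LaurentSeries Kbar :=
  dmul (fun n : ℤ => (n : Kbar)) (ModularCurve.coeffEmb Kbar ModularCurve.jq)

theorem iotaL_thetaJq :
    iotaL thetaJq = dmul (fun n : ℤ => (n : ℂ)) (ModularCurve.coeffEmb ℂ ModularCurve.jq) := by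
  rw [thetaJq, iotaL, coeffMap_dmul, ← iotaL, iotaL_coeffEmb]
  congr 1
  funext n
  simp

theorem thetaJq_order : thetaJq.order = -1 := by
  apply order_eq_of_coeff
  · rw [thetaJq, dmul_coeff, ModularCurve.coeffEmb_coeff, ModularCurve.coeff_jq_neg_one]
    simp
  · intro m hm
    rw [thetaJq, dmul_coeff, ModularCurve.coeffEmb_coeff, ModularCurve.coeff_jq_of_lt hm]
    simp

theorem isExpK_D_jFun : IsExpK 1 thetaJq (D jFun) := by
  show IsExp 1 (iotaL thetaJq) (D jFun)
  rw [iotaL_thetaJq]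
  intro τ
  have hu : uPar 1 τ = 𝕢 1 τ := by
    simp [uPar]
  rw [hu]
  set q := 𝕢 1 (τ : ℂ) with hqdef
  have hq : ‖q‖ < 1 := Periodic.norm_qParam_lt_one one_pos τ.im_pos
  have hq0 : q ≠ 0 := Periodic.qParam_ne_zero _
  rw [D_jFun_eq_jNumFun]
  -- the two sums
  have hdiff' : DifferentiableOn ℂ (deriv jNumFun) (Metric.ball 0 1) :=
    differentiableOn_jNumFun.deriv Metric.isOpen_ball
  have S1 := hasSum_taylorPS hdiff' hq
  have S2 := (hasSum_taylorPS differentiableOn_jNumFun hq).mul_right q⁻¹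
  simp_rw [taylorPS_deriv_coeff] at S1
  -- shift S1
  let f : ℕ → ℂ := fun m => (m : ℂ) * (taylorPS jNumFun).coeff m * q ^ ((m : ℤ) - 1)
  have S1' : HasSum f (deriv jNumFun q) := by
    rw [← hasSum_nat_add_iff' 1]
    simp only [Finset.range_one, Finset.sum_singleton]
    have hf0 : f 0 = 0 := by simp [f]
    rw [hf0, sub_zero]
    refine S1.congr_fun ?_
    intro m
    simp only [f]
    push_cast
    rw [show ((m : ℤ) + 1 - 1) = (m : ℤ) by ring, zpow_natCast]
  have S3 := S1'.sub S2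
  rw [← div_eq_mul_inv] at S3
  have hinj : Function.Injective (fun m : ℕ => (m : ℤ) - 1) := by
    intro a b hab
    simp only at hab
    omega
  rw [← hinj.hasSum_iff]
  · refine S3.congr_fun ?_
    intro m
    simp only [Function.comp_apply, f, dmul_coeff]
    rw [coeff_coeffEmb_jq, if_pos (by omega), taylorPS_jNumFun, zpow_sub₀ hq0, zpow_natCast,
      zpow_one]
    have : ((m : ℤ) - 1 + 1).toNat = m := by omega
    rw [this]
    simp only [PowerSeries.coeff_map, eq_intCast]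
    push_cast
    field_simp
  · intro n hn
    have hneg : n + 1 < 0 := by
      by_contra hcon
      push Not at hcon
      exact hn ⟨(n + 1).toNat, by simp; omega⟩
    rw [dmul_coeff, coeff_coeffEmb_jq, if_neg (by omega), mul_zero, zero_mul]

theorem exists_isExpK_D_jFun :
    ∃ y : LaurentSeries Kbar, IsExpK 1 y (D jFun) ∧ y.order = -1 :=
  ⟨thetaJq, isExpK_D_jFun, thetaJq_order⟩

end Fermat.Agent.FF
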