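import Mathlib
import Fermat.Agent.FF.Holo

/-!
# Item 73, piece 73-HOL: division of holomorphic functions on `ℍ`

`exists_mdiff_quotient`: if `ord_τ B ≤ ord_τ A` for all `τ`, then `A / B` extends to a
holomorphic function on `ℍ`.
-/

set_option autoImplicit false

open UpperHalfPlane hiding I
open Function Complex Filter Topology
open scoped Real MatrixGroups Manifold

namespace Fermat.Agent.FF

/-- division of analytic functions with compatible orders -/
theorem exists_analytic_quotient {a b : ℂ → ℂ} {U : Set ℂ}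
    (ha : AnalyticOnNhd ℂ a U) (hb : AnalyticOnNhd ℂ b U)
    (hord : ∀ z ∈ U, analyticOrderAt b z ≠ ⊤ ∧ analyticOrderAt b z ≤ analyticOrderAt a z) :
    ∃ g : ℂ → ℂ, AnalyticOnNhd ℂ g U ∧ ∀ z ∈ U, g z * b z = a z := by
  have hf : MeromorphicOn (a / b) U := fun z hz =>
    (ha z hz).meromorphicAt.div (hb z hz).meromorphicAt
  refine ⟨toMeromorphicNFOn (a / b) U, ?_, ?_⟩
  · intro z hz
    have hnf : MeromorphicNFAt (toMeromorphicNFOn (a / b) U) z :=
      meromorphicNFOn_toMeromorphicNFOn (a / b) U hz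
    rw [← hnf.meromorphicOrderAt_nonneg_iff_analyticAt,
      meromorphicOrderAt_toMeromorphicNFOn hf hz,
      meromorphicOrderAt_div (ha z hz).meromorphicAt (hb z hz).meromorphicAt,
      (ha z hz).meromorphicOrderAt_eq, (hb z hz).meromorphicOrderAt_eq]
    obtain ⟨h1, h2⟩ := hord z hz
    obtain ⟨n, hn⟩ := ENat.ne_top_iff_exists.mp h1
    rw [← hn] at h2 ⊢
    rcases eq_or_ne (analyticOrderAt a z) ⊤ with h3 | h3
    · rw [h3]
      simp
    · obtain ⟨m, hm⟩ := ENat.ne_top_iff_exists.mp h3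
      rw [← hm] at h2 ⊢
      have h4 : n ≤ m := by exact_mod_cast h2
      simp only [ENat.map_natCast]
      have : ((m : ℤ) : WithTop ℤ) - ((n : ℤ) : WithTop ℤ) = (((m : ℤ) - (n : ℤ) : ℤ) : WithTop ℤ) := by
        rfl
      rw [this]
      have h5 : (0 : ℤ) ≤ (m : ℤ) - n := by omega
      exact_mod_cast h5
  · intro z hz
    by_cases hbz : b z = 0
    · rw [hbz, mul_zero]
      obtain ⟨h1, h2⟩ := hord z hz
      have h3 : analyticOrderAt b z ≠ 0 := by
        rw [Ne, (hb z hz).analyticOrderAt_eq_zero]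
        exact fun h => h hbz
      have h4 : analyticOrderAt a z ≠ 0 := by
        intro h
        rw [h] at h2
        exact h3 (le_antisymm h2 zero_le)
      by_contra h5
      exact h4 ((ha z hz).analyticOrderAt_eq_zero.mpr (fun h => h5 h.symm))
    · have han : AnalyticAt ℂ (a / b) z := (ha z hz).div (hb z hz) hbz
      rw [toMeromorphicNFOn_eq_toMeromorphicNFAt hf hz,
        toMeromorphicNFAt_eq_self.mpr han.meromorphicNFAt]
      simp only [Pi.div_apply]
      field_simp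

/-- division of holomorphic functions on `ℍ` when the orders allow it -/
theorem exists_mdiff_quotient {A B : ℍ → ℂ} (hA : MDiff A) (hB : MDiff B) (hB0 : B ≠ 0)
    (hord : A = 0 ∨ ∀ τ : ℍ, ordAt τ B ≤ ordAt τ A) :
    ∃ g : ℍ → ℂ, MDiff g ∧ ∀ τ, B τ * g τ = A τ := by
  by_cases hA0 : A = 0
  · refine ⟨0, mdifferentiable_const, fun τ => ?_⟩
    rw [hA0]
    simp
  have hord' := hord.resolve_left hA0
  have haU : AnalyticOnNhd ℂ (A ∘ ofComplex) upperHalfPlaneSet := fun z hz =>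
    analyticAt_comp_ofComplex hA ⟨z, hz⟩
  have hbU : AnalyticOnNhd ℂ (B ∘ ofComplex) upperHalfPlaneSet := fun z hz =>
    analyticAt_comp_ofComplex hB ⟨z, hz⟩
  obtain ⟨g, hg, hgb⟩ := exists_analytic_quotient haU hbU (fun z hz => by
    have h1 := analyticOrderAt_comp_ofComplex_ne_top hB hB0 ⟨z, hz⟩
    refine ⟨h1, ?_⟩
    have h2 := hord' ⟨z, hz⟩
    have h3 := ordAt_cast hA hA0 ⟨z, hz⟩
    have h4 := ordAt_cast hB hB0 ⟨z, hz⟩
    show analyticOrderAt (B ∘ ofComplex) ((⟨z, hz⟩ : ℍ) : ℂ) ≤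
      analyticOrderAt (A ∘ ofComplex) ((⟨z, hz⟩ : ℍ) : ℂ)
    rw [← h3, ← h4]
    have a1 := ordAt_nonneg ⟨z, hz⟩ A
    have a2 := ordAt_nonneg ⟨z, hz⟩ B
    have : (ordAt ⟨z, hz⟩ B).toNat ≤ (ordAt ⟨z, hz⟩ A).toNat := by omega
    exact_mod_cast this)
  refine ⟨fun τ => g τ, ?_, fun τ => ?_⟩
  · rw [UpperHalfPlane.mdifferentiable_iff]
    have : DifferentiableOn ℂ g upperHalfPlaneSet := hg.differentiableOn
    refine this.congr fun z hz => ?_
    simp [ofComplex_apply_of_im_pos hz]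
  · have := hgb τ τ.2
    rw [mul_comm]
    simpa using this

end Fermat.Agent.FF
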