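import Mathlib
import Fermat.Agent.FF.Interface2

/-!
# S24 item 67, part 1 (helper6): basic calculus of order functions and places

* general lemmas on `OrdFn K F`;
* `H6.ofPlace v : OrdFn K F` (the order function of a place);
* `H6.toPlace w hw : Place K F` (the place of a nontrivial order function), with
  `w f = w π * (toPlace w hw).ord f`.
-/

set_option autoImplicit false

open AlgebraicCurve

namespace Fermat.Agent.FF.H6

variable {K F : Type*} [Field K] [Field F] [Algebra K F]

section OrdFnLemmas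

variable (w : OrdFn K F)

theorem w_one : w (1 : F) = 0 := by
  have h := w.map_const' 1 one_ne_zero
  rwa [map_one] at h

theorem w_neg_one : w (-1 : F) = 0 := by
  have h := w.map_const' (-1) (neg_ne_zero.mpr one_ne_zero)
  rwa [map_neg, map_one] at h

theorem w_mul {f g : F} (hf : f ≠ 0) (hg : g ≠ 0) : w (f * g) = w f + w g :=
  w.map_mul' f g hf hg

theorem w_neg {f : F} (hf : f ≠ 0) : w (-f) = w f := by
  have h := w_mul w (neg_ne_zero.mpr one_ne_zero : (-1 : F) ≠ 0) hf
  rw [w_neg_one, zero_add, neg_one_mul] at h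
  exact h

theorem w_inv {f : F} (hf : f ≠ 0) : w f⁻¹ = -w f := by
  have h := w_mul w hf (inv_ne_zero hf)
  rw [mul_inv_cancel₀ hf, w_one] at h
  linarith

theorem w_div {f g : F} (hf : f ≠ 0) (hg : g ≠ 0) : w (f / g) = w f - w g := by
  rw [div_eq_mul_inv, w_mul w hf (inv_ne_zero hg), w_inv w hg]
  ring

theorem w_pow {f : F} (hf : f ≠ 0) (n : ℕ) : w (f ^ n) = n * w f := by
  induction n with
  | zero => simp [w_one]
  | succ n ih =>
    rw [pow_succ, w_mul w (pow_ne_zero n hf) hf, ih]
    push_cast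
    ring

theorem w_zpow {f : F} (hf : f ≠ 0) (n : ℤ) : w (f ^ n) = n * w f := by
  obtain ⟨k, rfl | rfl⟩ := n.eq_nat_or_neg
  · rw [zpow_natCast, w_pow w hf]
  · rw [zpow_neg, zpow_natCast, w_inv w (pow_ne_zero k hf), w_pow w hf]
    ring

theorem w_add_ge {f g : F} (hf : f ≠ 0) (hg : g ≠ 0) (hfg : f + g ≠ 0) :
    min (w f) (w g) ≤ w (f + g) :=
  w.map_add' f g hf hg hfg

/-- strict ultrametric law -/
theorem w_add_eq_of_lt {f g : F} (hf : f ≠ 0) (hg : g ≠ 0) (h : w f < w g) :
    f + g ≠ 0 ∧ w (f + g) = w f := by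
  have hne : f + g ≠ 0 := by
    intro h0
    have : g = -f := by linear_combination h0
    rw [this, w_neg w hf] at h
    exact lt_irrefl _ h
  refine ⟨hne, le_antisymm ?_ ?_⟩
  · by_contra hlt
    rw [not_le] at hlt
    have h1 := w_add_ge w hne (neg_ne_zero.mpr hg) (by simpa using hf)
    rw [add_neg_cancel_right, w_neg w hg] at h1
    have : w f < min (w (f + g)) (w g) := lt_min hlt h
    exact absurd h1 (not_le.mpr this)
  · have := w_add_ge w hf hg hne
    rwa [min_eq_left h.le] at this

theorem w_add_eq_of_gt {f g : F} (hf : f ≠ 0) (hg : g ≠ 0) (h : w g < w f) :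
    f + g ≠ 0 ∧ w (f + g) = w g := by
  have := w_add_eq_of_lt w hg hf h
  rwa [add_comm] at this

/-- "lies in the maximal ideal" -/
def InMax (f : F) : Prop := f = 0 ∨ 0 < w f

/-- "lies in the valuation ring" -/
def InRing (f : F) : Prop := f = 0 ∨ 0 ≤ w f

theorem inRing_add {f g : F} (hf : InRing w f) (hg : InRing w g) : InRing w (f + g) := by
  by_cases hf0 : f = 0
  · rwa [hf0, zero_add]
  by_cases hg0 : g = 0
  · rwa [hg0, add_zero]
  by_cases hfg : f + g = 0
  · exact Or.inl hfg
  right
  have hf' := hf.resolve_left hf0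
  have hg' := hg.resolve_left hg0
  exact le_trans (le_min hf' hg') (w_add_ge w hf0 hg0 hfg)

theorem inMax_add {f g : F} (hf : InMax w f) (hg : InMax w g) : InMax w (f + g) := by
  by_cases hf0 : f = 0
  · rwa [hf0, zero_add]
  by_cases hg0 : g = 0
  · rwa [hg0, add_zero]
  by_cases hfg : f + g = 0
  · exact Or.inl hfg
  right
  have hf' := hf.resolve_left hf0
  have hg' := hg.resolve_left hg0
  exact lt_of_lt_of_le (lt_min hf' hg') (w_add_ge w hf0 hg0 hfg)

theorem inRing_mul {f g : F} (hf : InRing w f) (hg : InRing w g) : InRing w (f * g) := by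
  by_cases hf0 : f = 0
  · left; rw [hf0, zero_mul]
  by_cases hg0 : g = 0
  · left; rw [hg0, mul_zero]
  right
  rw [w_mul w hf0 hg0]
  exact add_nonneg (hf.resolve_left hf0) (hg.resolve_left hg0)

theorem inMax_mul {f g : F} (hf : InMax w f) (hg : InRing w g) : InMax w (f * g) := by
  by_cases hf0 : f = 0
  · left; rw [hf0, zero_mul]
  by_cases hg0 : g = 0
  · left; rw [hg0, mul_zero]
  right
  rw [w_mul w hf0 hg0]
  exact add_pos_of_pos_of_nonneg (hf.resolve_left hf0) (hg.resolve_left hg0)

theorem inRing_neg {f : F} (hf : InRing w f) : InRing w (-f) := by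
  by_cases hf0 : f = 0
  · left; rw [hf0, neg_zero]
  right
  rw [w_neg w hf0]
  exact hf.resolve_left hf0

theorem inMax_neg {f : F} (hf : InMax w f) : InMax w (-f) := by
  by_cases hf0 : f = 0
  · left; rw [hf0, neg_zero]
  right
  rw [w_neg w hf0]
  exact hf.resolve_left hf0

theorem inRing_algebraMap (c : K) : InRing w (algebraMap K F c) := by
  by_cases hc : c = 0
  · left; rw [hc, map_zero]
  right
  rw [w.map_const' c hc]

theorem inRing_one : InRing w (1 : F) := Or.inr (by rw [w_one])

theorem inMax_sum {ι : Type*} (s : Finset ι) (g : ι → F) (h : ∀ k ∈ s, InMax w (g k)) :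
    InMax w (∑ k ∈ s, g k) := by
  classical
  induction s using Finset.induction_on with
  | empty => left; simp
  | insert a s ha ih =>
    rw [Finset.sum_insert ha]
    exact inMax_add w (h a (Finset.mem_insert_self a s))
      (ih fun k hk => h k (Finset.mem_insert_of_mem hk))

theorem inRing_pow {f : F} (hf : InRing w f) (n : ℕ) : InRing w (f ^ n) := by
  induction n with
  | zero => rw [pow_zero]; exact inRing_one w
  | succ n ih => rw [pow_succ]; exact inRing_mul w ih hf

theorem inRing_of_inMax {f : F} (hf : InMax w f) : InRing w f :=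
  hf.imp id le_of_lt

/-- polynomials in an element of the valuation ring, with constant coefficients -/
theorem inRing_aeval {x : F} (hx : InRing w x) (p : Polynomial K) :
    InRing w (Polynomial.aeval x p) := by
  induction p using Polynomial.induction_on with
  | C c => rw [Polynomial.aeval_C]; exact inRing_algebraMap w c
  | add p q hp hq => rw [map_add]; exact inRing_add w hp hq
  | monomial n c h =>
    rw [map_mul, Polynomial.aeval_C, map_pow, Polynomial.aeval_X]
    exact inRing_mul w (inRing_algebraMap w c) (inRing_pow w hx (n + 1))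

end OrdFnLemmas

section ToValuationSubring

variable (w : OrdFn K F)

/-- the valuation ring of an order function -/
def valSubring : ValuationSubring F where
  carrier := {f | InRing w f}
  mul_mem' := fun hf hg => inRing_mul w hf hg
  one_mem' := inRing_one w
  add_mem' := fun hf hg => inRing_add w hf hg
  zero_mem' := Or.inl rfl
  neg_mem' := fun hf => inRing_neg w hf
  mem_or_inv_mem' := by
    intro f
    by_cases hf0 : f = 0
    · exact Or.inl (Or.inl hf0)
    rcases le_total 0 (w f) with h | h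
    · exact Or.inl (Or.inr h)
    · refine Or.inr (Or.inr ?_)
      rw [w_inv w hf0]
      linarith

theorem mem_valSubring {f : F} : f ∈ valSubring w ↔ InRing w f := Iff.rfl

theorem mem_valSubring_of_ne {f : F} (hf : f ≠ 0) : f ∈ valSubring w ↔ 0 ≤ w f :=
  ⟨fun h => h.resolve_left hf, Or.inr⟩

theorem isPrincipalIdealRing_valSubring : IsPrincipalIdealRing (valSubring w) := by
  classical
  refine ⟨fun J => ?_⟩
  by_cases hJ : J = ⊥
  · rw [hJ]; exact ⟨⟨0, by simp⟩⟩
  obtain ⟨g, hgJ, hg0⟩ := Submodule.exists_mem_ne_zero_of_ne_bot hJ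
  have hex : ∃ n : ℕ, ∃ g : valSubring w, g ∈ J ∧ g ≠ 0 ∧ w (g : F) = n := by
    have hgF : (g : F) ≠ 0 := fun h => hg0 (Subtype.ext h)
    have h0 : 0 ≤ w (g : F) := (mem_valSubring_of_ne w hgF).mp g.2
    exact ⟨(w (g : F)).toNat, g, hgJ, hg0, (Int.toNat_of_nonneg h0).symm⟩
  obtain ⟨g₀, hg₀J, hg₀0, hg₀⟩ := Nat.find_spec hex
  have hmin : ∀ n : ℕ, (∃ g : valSubring w, g ∈ J ∧ g ≠ 0 ∧ w (g : F) = n) → Nat.find hex ≤ n :=
    fun n hn => Nat.find_min' hex hn
  have hg₀F : (g₀ : F) ≠ 0 := fun h => hg₀0 (Subtype.ext h)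
  refine ⟨⟨g₀, le_antisymm ?_ ?_⟩⟩
  · intro f hf
    change f ∈ Ideal.span {g₀}
    rw [Ideal.mem_span_singleton']
    by_cases hf0 : f = 0
    · exact ⟨0, by rw [hf0, zero_mul]⟩
    have hfF : (f : F) ≠ 0 := fun h => hf0 (Subtype.ext h)
    have h0 : 0 ≤ w (f : F) := (mem_valSubring_of_ne w hfF).mp f.2
    have hle := hmin (w (f : F)).toNat ⟨f, hf, hf0, (Int.toNat_of_nonneg h0).symm⟩
    have hle' : w (g₀ : F) ≤ w (f : F) := by
      rw [hg₀]
      have : ((Nat.find hex : ℕ) : ℤ) ≤ ((w (f : F)).toNat : ℤ) := by exact_mod_cast hle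
      rwa [Int.toNat_of_nonneg h0] at this
    have hq : (f : F) / (g₀ : F) ∈ valSubring w := by
      rw [mem_valSubring_of_ne w (div_ne_zero hfF hg₀F), w_div w hfF hg₀F]
      linarith
    refine ⟨⟨_, hq⟩, ?_⟩
    apply Subtype.ext
    show (f : F) / (g₀ : F) * (g₀ : F) = f
    rw [div_mul_cancel₀ _ hg₀F]
  · change Ideal.span {g₀} ≤ J
    rw [Ideal.span_singleton_le_iff_mem]
    exact hg₀J

/-- the place of a nontrivial order function -/
def toPlace (hw : ∃ f : F, f ≠ 0 ∧ 0 < w f) : Place K F where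
  toValuationSubring := valSubring w
  algebraMap_mem' := fun c => inRing_algebraMap w c
  ne_top' := by
    obtain ⟨f, hf0, hf⟩ := hw
    intro htop
    have : f⁻¹ ∈ valSubring w := htop ▸ ValuationSubring.mem_top _
    rw [mem_valSubring_of_ne w (inv_ne_zero hf0), w_inv w hf0] at this
    linarith
  isPrincipalIdealRing' := isPrincipalIdealRing_valSubring w

@[simp]
theorem toPlace_toValuationSubring (hw : ∃ f : F, f ≠ 0 ∧ 0 < w f) :
    (toPlace w hw).toValuationSubring = valSubring w := rfl

end ToValuationSubring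

section PlaceLemmas

variable (v : Place K F)

theorem ord_nonneg_of_mem {f : F} (hf : f ∈ v.toValuationSubring) : 0 ≤ v.ord f := by
  rcases eq_or_ne f 0 with rfl | hf0
  · simp
  obtain ⟨π, hπ⟩ := IsDiscreteValuationRing.exists_irreducible v.toValuationSubring
  obtain ⟨n, u, hu⟩ :=
    IsDiscreteValuationRing.eq_unit_mul_pow_irreducible
      (x := (⟨f, hf⟩ : v.toValuationSubring)) (by simpa [Subtype.ext_iff] using hf0) hπ
  have hcoe : f = ((u : v.toValuationSubring) : F) * ((π : F) ^ (n : ℤ)) := by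
    have h := congrArg (Subtype.val) hu
    push_cast at h
    rw [zpow_natCast]
    exact h
  rw [hcoe, v.ord_unit_smul_zpow u hπ (n : ℤ)]
  exact Int.natCast_nonneg n

theorem mem_of_ord_nonneg {f : F} (h : 0 ≤ v.ord f) : f ∈ v.toValuationSubring := by
  rcases eq_or_ne f 0 with rfl | hf
  · exact zero_mem _
  obtain ⟨π, hπ⟩ := IsDiscreteValuationRing.exists_irreducible v.toValuationSubring
  obtain ⟨u, hu⟩ := v.exists_unit_mul_zpow hf hπ
  rw [hu, show v.ord f = (((v.ord f).toNat : ℕ) : ℤ) from (Int.toNat_of_nonneg h).symm,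
    zpow_natCast]
  exact mul_mem (u : v.toValuationSubring).2 (pow_mem (π : v.toValuationSubring).2 _)

theorem mem_iff_ord_nonneg {f : F} : f ∈ v.toValuationSubring ↔ 0 ≤ v.ord f :=
  ⟨ord_nonneg_of_mem v, mem_of_ord_nonneg v⟩

theorem ord_algebraMap (c : K) : v.ord (algebraMap K F c) = 0 := by
  rcases eq_or_ne c 0 with rfl | hc
  · simp
  have h1 := ord_nonneg_of_mem v (v.algebraMap_mem' c)
  have h2 := ord_nonneg_of_mem v (v.algebraMap_mem' c⁻¹)
  rw [map_inv₀, v.ord_inv] at h2
  linarith

theorem ord_add_ge' {f g : F} (hf : f ≠ 0) (hg : g ≠ 0) (hfg : f + g ≠ 0) :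
    min (v.ord f) (v.ord g) ≤ v.ord (f + g) := by
  wlog h : v.ord f ≤ v.ord g generalizing f g
  · have := this hg hf (by rwa [add_comm]) (le_of_not_ge h)
    rwa [add_comm, min_comm] at this
  rw [min_eq_left h]
  have hq : g / f ∈ v.toValuationSubring := by
    rw [mem_iff_ord_nonneg, div_eq_mul_inv, v.ord_mul hg (inv_ne_zero hf), v.ord_inv]
    linarith
  have h1 : 1 + g / f ∈ v.toValuationSubring := add_mem (one_mem _) hq
  have h1' := ord_nonneg_of_mem v h1
  have hne : 1 + g / f ≠ 0 := by
    intro h0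
    apply hfg
    have : f + g = f * (1 + g / f) := by field_simp
    rw [this, h0, mul_zero]
  have : f + g = f * (1 + g / f) := by field_simp
  rw [this, v.ord_mul hf hne]
  linarith

/-- the order function of a place -/
noncomputable def ofPlace : OrdFn K F where
  toFun := v.ord
  map_mul' := fun _ _ hf hg => v.ord_mul hf hg
  map_add' := fun _ _ hf hg hfg => ord_add_ge' v hf hg hfg
  map_const' := fun c _ => ord_algebraMap v c

@[simp]
theorem ofPlace_apply (f : F) : ofPlace v f = v.ord f := rfl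

theorem exists_ord_pos : ∃ f : F, f ≠ 0 ∧ 0 < v.ord f := by
  obtain ⟨π, hπ⟩ := IsDiscreteValuationRing.exists_irreducible v.toValuationSubring
  refine ⟨(π : F), ?_, ?_⟩
  · simpa [ne_eq, ZeroMemClass.coe_eq_zero] using hπ.ne_zero
  · rw [v.ord_coe_irreducible hπ]
    exact one_pos

theorem ne_zero_of_ord_ne_zero {f : F} (h : v.ord f ≠ 0) : f ≠ 0 := by
  rintro rfl
  exact h v.ord_zero

end PlaceLemmas

section Compare

variable (w : OrdFn K F) (hw : ∃ f : F, f ≠ 0 ∧ 0 < w f)

/-- The order function is a positive multiple of the order of its place. -/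
theorem exists_mul_ord :
    ∃ t : ℤ, 0 < t ∧ (∃ π : F, π ≠ 0 ∧ w π = t) ∧
      ∀ f : F, f ≠ 0 → w f = t * (toPlace w hw).ord f := by
  obtain ⟨π, hπ⟩ := IsDiscreteValuationRing.exists_irreducible (toPlace w hw).toValuationSubring
  have hπF : (π : F) ≠ 0 := by
    simpa [ne_eq, ZeroMemClass.coe_eq_zero] using hπ.ne_zero
  have hunit : ∀ u : ((toPlace w hw).toValuationSubring)ˣ,
      w (((u : (toPlace w hw).toValuationSubring)) : F) = 0 := by
    intro u
    have hu0 : (((u : (toPlace w hw).toValuationSubring)) : F) ≠ 0 :=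
      fun h => u.ne_zero (Subtype.ext h)
    have h1 : 0 ≤ w (((u : (toPlace w hw).toValuationSubring)) : F) :=
      (mem_valSubring_of_ne w hu0).mp (u : (toPlace w hw).toValuationSubring).2
    have hinv : ((((u⁻¹ : ((toPlace w hw).toValuationSubring)ˣ) :
        (toPlace w hw).toValuationSubring)) : F) =
        (((u : (toPlace w hw).toValuationSubring)) : F)⁻¹ := by
      have h' : ((((u⁻¹ : ((toPlace w hw).toValuationSubring)ˣ) :
        (toPlace w hw).toValuationSubring)) : F) *
        (((u : (toPlace w hw).toValuationSubring)) : F) = 1 :=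
        congrArg (Subtype.val) (u.inv_mul)
      exact eq_inv_of_mul_eq_one_left h'
    have h2 : 0 ≤ w ((((u⁻¹ : ((toPlace w hw).toValuationSubring)ˣ) :
        (toPlace w hw).toValuationSubring)) : F) :=
      (mem_valSubring_of_ne w (by rw [hinv]; exact inv_ne_zero hu0)).mp
        ((u⁻¹ : ((toPlace w hw).toValuationSubring)ˣ) : (toPlace w hw).toValuationSubring).2
    rw [hinv, w_inv w hu0] at h2
    linarith
  have ht0 : 0 ≤ w (π : F) := (mem_valSubring_of_ne w hπF).mp π.2
  have ht : 0 < w (π : F) := by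
    rcases ht0.lt_or_eq with h | h
    · exact h
    exfalso
    apply hπ.not_isUnit
    have hinvmem : (π : F)⁻¹ ∈ valSubring w := by
      rw [mem_valSubring_of_ne w (inv_ne_zero hπF), w_inv w hπF, ← h, neg_zero]
    refine IsUnit.of_mul_eq_one (⟨_, hinvmem⟩ : (toPlace w hw).toValuationSubring) ?_
    apply Subtype.ext
    show (π : F) * (π : F)⁻¹ = 1
    exact mul_inv_cancel₀ hπF
  refine ⟨w (π : F), ht, ⟨π, hπF, rfl⟩, fun f hf => ?_⟩
  obtain ⟨u, hu⟩ := (toPlace w hw).exists_unit_mul_zpow hf hπ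
  have hu0 : (((u : (toPlace w hw).toValuationSubring)) : F) ≠ 0 :=
    fun h => u.ne_zero (Subtype.ext h)
  conv_lhs => rw [hu]
  rw [w_mul w hu0 (zpow_ne_zero _ hπF), hunit u, zero_add, w_zpow w hπF]
  ring

end Compare

end Fermat.Agent.FF.H6
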