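import Mathlib
import Fermat.Agent.FF.ARH
import Fermat.Agent.FF.OrdFnBasic
import Fermat.Prelude.Def_AlgebraicCurve_Repartitions

/-!
# Item 73, piece A: order bounds for elements of `L(div dx)`

For an order function `w` on `F` and `h ∈ L(W)`, `W = div(dx)`:
* `dictOrd_fin`     : `0 < w (x - a) → 1 ≤ w h + w (x - a)`;
* `dictOrd_generic` : `0 ≤ w x → (∀ a, w (x - a) ≤ 0) → w h = 0` (any `h ≠ 0`);
* `dictOrd_inf`     : `w x < 0 → 1 ≤ w h + w x`.
-/

set_option autoImplicit false
set_option linter.unusedSectionVars false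
set_option linter.style.haveILetI false

open AlgebraicCurve IntermediateField KaehlerDifferential

noncomputable section

namespace Fermat.Agent.FF

variable {K F : Type*} [Field K] [Field F] [Algebra K F] [CharZero K] [IsAlgClosed K]

/-- an order function is trivial or has an element of positive order -/
theorem ordFn_trivial_or (w : OrdFn K F) :
    (∀ f : F, f ≠ 0 → w f = 0) ∨ ∃ f : F, f ≠ 0 ∧ 0 < w f := by
  by_cases h : ∃ f : F, f ≠ 0 ∧ 0 < w f
  · exact Or.inr h
  · left
    push Not at h
    intro f hf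
    have h1 := h f hf
    have h2 := h f⁻¹ (inv_ne_zero hf)
    rw [H6.w_inv w hf] at h2
    omega

variable (x : F) (hx : Transcendental K x) [FiniteDimensional K⟮x⟯ F]

include hx

/-- finite points: the differential `h dx` has nonnegative order in the parameter of `w` -/
theorem dictOrd_fin (w : OrdFn K F) (W : Divisor K F)
    (hW : ∀ v : Place K F, W v = v.ordDifferential (D K F x))
    (h : F) (hh : h ∈ riemannRochSpace W) (h0 : h ≠ 0) (a : K)
    (ha : 0 < w (x - algebraMap K F a)) :
    1 ≤ w h + w (x - algebraMap K F a) := by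
  have hxa : x - algebraMap K F a ≠ 0 := by
    intro h1
    apply hx
    rw [sub_eq_zero.mp h1]
    exact isAlgebraic_algebraMap a
  have hw : ∃ f : F, f ≠ 0 ∧ 0 < w f := ⟨_, hxa, ha⟩
  obtain ⟨t, ht, -, hmul⟩ := H6.exists_mul_ord w hw
  have h1 := hmul _ hxa
  have h2 := hmul h h0
  have hv : H6.toPlace w hw ∈ placesOver x a := by
    show 0 < (H6.toPlace w hw).ord (x - algebraMap K F a)
    rw [h1] at ha
    exact pos_of_mul_pos_right ha ht.le
  have h3 := ordDifferential_D_of_mem_placesOver x hx a _ hv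
  have h4 := (mem_riemannRochSpace_iff.mp hh) (H6.toPlace w hw)
  rcases h4 with h4 | h4
  · exact absurd h4 h0
  rw [hW, h3] at h4
  rw [h1, h2]
  nlinarith

/-- generic points (no `a ∈ K` below the point): `w` is trivial -/
theorem dictOrd_generic (w : OrdFn K F) (h : F) (h0 : h ≠ 0)
    (hx0 : 0 ≤ w x) (ha : ∀ a : K, w (x - algebraMap K F a) ≤ 0) :
    w h = 0 := by
  rcases ordFn_trivial_or w with htriv | hw
  · rw [htriv h h0]
  exfalso
  obtain ⟨t, ht, -, hmul⟩ := H6.exists_mul_ord w hw
  have hxne : x ≠ 0 := by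
    intro h1
    apply hx
    rw [h1]
    exact isAlgebraic_zero
  rcases mem_placesOverInf_or_exists x hx (H6.toPlace w hw) with hinf | ⟨a, hv⟩
  · have h1 : (H6.toPlace w hw).ord x < 0 := hinf
    have h2 := hmul x hxne
    nlinarith
  · have h1 : 0 < (H6.toPlace w hw).ord (x - algebraMap K F a) := hv
    have hxa : x - algebraMap K F a ≠ 0 := by
      intro h1
      apply hx
      rw [sub_eq_zero.mp h1]
      exact isAlgebraic_algebraMap a
    have h2 := hmul _ hxa
    have h3 := ha a
    nlinarith

/-- cusps (poles of `x`): the differential `h dx` has positive order -/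
theorem dictOrd_inf (w : OrdFn K F) (W : Divisor K F)
    (hW : ∀ v : Place K F, W v = v.ordDifferential (D K F x))
    (h : F) (hh : h ∈ riemannRochSpace W) (h0 : h ≠ 0)
    (hx0 : w x < 0) :
    1 ≤ w h + w x := by
  have hxne : x ≠ 0 := by
    intro h1
    apply hx
    rw [h1]
    exact isAlgebraic_zero
  have hw : ∃ f : F, f ≠ 0 ∧ 0 < w f := by
    refine ⟨x⁻¹, inv_ne_zero hxne, ?_⟩
    rw [H6.w_inv w hxne]
    omega
  obtain ⟨t, ht, -, hmul⟩ := H6.exists_mul_ord w hw
  have h1 := hmul _ hxne
  have h2 := hmul h h0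
  have hv : H6.toPlace w hw ∈ placesOverInf (K := K) x := by
    show (H6.toPlace w hw).ord x < 0
    rw [h1] at hx0
    by_contra hcon
    push Not at hcon
    nlinarith
  have h3 := ordDifferential_D_of_mem_placesOverInf x hx _ hv
  have h4 := (mem_riemannRochSpace_iff.mp hh) (H6.toPlace w hw)
  rcases h4 with h4 | h4
  · exact absurd h4 h0
  rw [hW, h3] at h4
  rw [h1, h2]
  nlinarith

end Fermat.Agent.FF
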