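import Mathlib

/-!
# S24 item 69-ALG (helper5): the abstract conjugates lemma

A finite family `Φ i : F →+* L` of embeddings of a field `F` (char 0), agreeing on a subfield
`K0`, such that for every `f` the polynomial `∏ i, (X - Φ i f)` descends to `K0`, and such that
some `θ` has pairwise distinct conjugates `Φ i θ`: then `[F : K0] = |I|`.

NB. the hypothesis `hK0` (the `Φ i` agree on `K0`) is necessary: `K0 = F = L = ℚ(√2)`,
`Φ = {id, conjugation}` satisfies all other hypotheses.
-/

set_option autoImplicit false

open Polynomial IntermediateField Module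

namespace Fermat.Agent.FF

section BoundedDegree

variable {K F : Type*} [Field K] [Field F] [Algebra K F] [CharZero K]

/-- An algebraic extension in characteristic `0` all of whose elements have degree `≤ n` is
finite of degree `≤ n`; moreover it is generated by any element of maximal degree. -/
theorem finite_of_forall_natDegree_minpoly_le (n : ℕ) (hint : ∀ f : F, IsIntegral K f)
    (hdeg : ∀ f : F, (minpoly K f).natDegree ≤ n) :
    FiniteDimensional K F ∧ Module.finrank K F ≤ n := by
  classical
  have : Algebra.IsAlgebraic K F := ⟨fun f => (hint f).isAlgebraic⟩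
  -- an element of maximal degree
  obtain ⟨θ', hmax⟩ : ∃ θ' : F, ∀ f : F, (minpoly K f).natDegree ≤ (minpoly K θ').natDegree := by
    let P : ℕ → Prop := fun m => ∃ f : F, (minpoly K f).natDegree = m
    have h0 : P (minpoly K (0 : F)).natDegree := ⟨0, rfl⟩
    obtain ⟨θ', hθ'⟩ : P (Nat.findGreatest P n) := Nat.findGreatest_spec (hdeg 0) h0
    refine ⟨θ', fun f => ?_⟩
    rw [hθ']
    exact Nat.le_findGreatest (hdeg f) ⟨f, rfl⟩
  have htop : K⟮θ'⟯ = ⊤ := by
    rw [eq_top_iff]
    intro f _
    -- `E = K(θ', f)` is finite separable, hence simple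
    let E : IntermediateField K F := K⟮θ'⟯ ⊔ K⟮f⟯
    have hfdE : FiniteDimensional K E := by
      have h1 := adjoin.finiteDimensional (hint θ')
      have h2 := adjoin.finiteDimensional (hint f)
      exact IntermediateField.finiteDimensional_sup K⟮θ'⟯ K⟮f⟯
    obtain ⟨g, hg⟩ := Field.exists_primitive_element K E
    have hdegg : (minpoly K (g : F)).natDegree = finrank K E := by
      rw [← IntermediateField.minpoly_eq]
      exact (Field.primitive_element_iff_minpoly_natDegree_eq K g).mp hg
    have hle : K⟮θ'⟯ ≤ E := le_sup_left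
    have hfin_le : finrank K E ≤ finrank K K⟮θ'⟯ := by
      rw [adjoin.finrank (hint θ'), ← hdegg]
      exact hmax _
    have heq : K⟮θ'⟯ = E := IntermediateField.eq_of_le_of_finrank_le hle hfin_le
    rw [heq]
    exact (le_sup_right : K⟮f⟯ ≤ E) (mem_adjoin_simple_self K f)
  have hfd : FiniteDimensional K F := by
    have h1 := adjoin.finiteDimensional (hint θ')
    rw [htop] at h1
    exact (IntermediateField.topEquiv (F := K) (E := F)).toLinearEquiv.finiteDimensional
  refine ⟨hfd, ?_⟩
  rw [← IntermediateField.finrank_top', ← htop, adjoin.finrank (hint θ')]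
  exact hdeg θ'

end BoundedDegree

section Conj

variable {K0 F L : Type*} [Field K0] [Field F] [Field L] [Algebra K0 F] [CharZero K0]
  {I : Type*} [Fintype I] [Nonempty I]

/-- **69-ALG.** The abstract conjugates lemma. -/
theorem finrank_eq_card_of_conjugates (Φ : I → (F →+* L))
    (hK0 : ∀ (i j : I) (c : K0), Φ i (algebraMap K0 F c) = Φ j (algebraMap K0 F c))
    (hcoef : ∀ f : F, ∃ P : Polynomial K0, P.Monic ∧
      ∀ i0 : I, P.map ((Φ i0).comp (algebraMap K0 F)) =
        ∏ i : I, (Polynomial.X - Polynomial.C (Φ i f)))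
    (θ : F) (hθ : Function.Injective (fun i => Φ i θ)) :
    FiniteDimensional K0 F ∧ Module.finrank K0 F = Fintype.card I := by
  classical
  -- every `f` is a root of a monic polynomial of degree `|I|`
  have hroot : ∀ f : F, ∃ P : Polynomial K0, P.Monic ∧ P.natDegree = Fintype.card I ∧
      Polynomial.aeval f P = 0 := by
    intro f
    obtain ⟨P, hPm, hP⟩ := hcoef f
    obtain ⟨i0⟩ := (inferInstance : Nonempty I)
    refine ⟨P, hPm, ?_, ?_⟩
    · have h1 := congrArg Polynomial.natDegree (hP i0)
      rw [Polynomial.natDegree_map, Polynomial.natDegree_prod_of_monic _ _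
        (fun i _ => Polynomial.monic_X_sub_C _)] at h1
      simpa using h1
    · apply (Φ i0).injective
      rw [map_zero, Polynomial.aeval_def, Polynomial.hom_eval₂, ← Polynomial.eval_map, hP i0,
        Polynomial.eval_prod]
      exact Finset.prod_eq_zero (Finset.mem_univ i0) (by simp)
  have hint : ∀ f : F, IsIntegral K0 f := fun f => by
    obtain ⟨P, hPm, -, hP0⟩ := hroot f
    exact ⟨P, hPm, hP0⟩
  have hdeg : ∀ f : F, (minpoly K0 f).natDegree ≤ Fintype.card I := fun f => by
    obtain ⟨P, hPm, hPd, hP0⟩ := hroot f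
    rw [← hPd]
    exact Polynomial.natDegree_le_of_dvd (minpoly.dvd K0 f hP0) hPm.ne_zero
  obtain ⟨hfd, hle⟩ := finite_of_forall_natDegree_minpoly_le (Fintype.card I) hint hdeg
  refine ⟨hfd, le_antisymm hle ?_⟩
  -- the `|I|` distinct conjugates of `θ` are roots of the minimal polynomial
  obtain ⟨i0⟩ := (inferInstance : Nonempty I)
  let ψ : K0 →+* L := (Φ i0).comp (algebraMap K0 F)
  have hψ : ∀ i, (Φ i).comp (algebraMap K0 F) = ψ := fun i => by
    ext c
    exact hK0 i i0 c
  let m := (minpoly K0 θ).map ψ
  have hm0 : m ≠ 0 := (Polynomial.map_ne_zero_iff ψ.injective).mpr (minpoly.ne_zero (hint θ))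
  have hmroot : ∀ i, m.IsRoot (Φ i θ) := fun i => by
    show Polynomial.eval (Φ i θ) ((minpoly K0 θ).map ψ) = 0
    rw [← hψ i, Polynomial.eval_map, ← Polynomial.hom_eval₂, ← Polynomial.aeval_def,
      minpoly.aeval, map_zero]
  have hcard : Fintype.card I ≤ m.natDegree := by
    have h1 : (Finset.univ.image (fun i => Φ i θ)).card = Fintype.card I := by
      rw [Finset.card_image_of_injective _ hθ, Finset.card_univ]
    rw [← h1]
    apply Polynomial.card_le_degree_of_subset_roots
    intro x hx
    rw [Finset.mem_val, Finset.mem_image] at hx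
    obtain ⟨i, -, rfl⟩ := hx
    exact (Polynomial.mem_roots hm0).mpr (hmroot i)
  calc Fintype.card I ≤ m.natDegree := hcard
    _ = (minpoly K0 θ).natDegree := Polynomial.natDegree_map _
    _ ≤ Module.finrank K0 F := minpoly.natDegree_le θ

omit [CharZero K0] in
/-- Under the hypotheses of `finrank_eq_card_of_conjugates`, the polynomial `P_f` is
the characteristic polynomial of `f`: it is monic of degree `|I|` and kills `f`. -/
theorem exists_monic_aeval_eq_zero_of_conjugates (Φ : I → (F →+* L))
    (hcoef : ∀ f : F, ∃ P : Polynomial K0, P.Monic ∧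
      ∀ i0 : I, P.map ((Φ i0).comp (algebraMap K0 F)) =
        ∏ i : I, (Polynomial.X - Polynomial.C (Φ i f))) (f : F) :
    ∃ P : Polynomial K0, P.Monic ∧ P.natDegree = Fintype.card I ∧ Polynomial.aeval f P = 0 ∧
      ∀ i0 : I, P.map ((Φ i0).comp (algebraMap K0 F)) =
        ∏ i : I, (Polynomial.X - Polynomial.C (Φ i f)) := by
  classical
  obtain ⟨P, hPm, hP⟩ := hcoef f
  obtain ⟨i0⟩ := (inferInstance : Nonempty I)
  refine ⟨P, hPm, ?_, ?_, hP⟩
  · have h1 := congrArg Polynomial.natDegree (hP i0)
    rw [Polynomial.natDegree_map, Polynomial.natDegree_prod_of_monic _ _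
      (fun i _ => Polynomial.monic_X_sub_C _)] at h1
    simpa using h1
  · apply (Φ i0).injective
    rw [map_zero, Polynomial.aeval_def, Polynomial.hom_eval₂, ← Polynomial.eval_map, hP i0,
      Polynomial.eval_prod]
    exact Finset.prod_eq_zero (Finset.mem_univ i0) (by simp)

end Conj

end Fermat.Agent.FF
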