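import Mathlib
import Fermat.Agent.FF.Holo
import Fermat.Agent.FF.ModRing

/-!
# S24 item 69 (WP-D), part 4: the field `L = Frac (modRing N)` and its order functions
-/

set_option autoImplicit false

open UpperHalfPlane hiding I
open Function Complex
open scoped Real MatrixGroups Manifold

namespace Fermat.Agent.FF

/-- the fraction field of `modRing N` -/
abbrev LN (N : ℕ) : Type := FractionRing (RN N)

section sigma

variable (N : ℕ)

/-- the endomorphism of `L` induced by composition with `γ` -/
noncomputable def sigmaL (γ : SL(2, ℤ)) : LN N →+* LN N :=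
  IsFractionRing.lift (g := (algebraMap (RN N) (LN N)).comp (compSL N γ))
    ((IsFractionRing.injective (RN N) (LN N)).comp (compSL_injective γ))

variable {N}

theorem sigmaL_algebraMap (γ : SL(2, ℤ)) (r : RN N) :
    sigmaL N γ (algebraMap (RN N) (LN N) r) = algebraMap (RN N) (LN N) (compSL N γ r) := by
  simp [sigmaL]

theorem sigmaL_one (x : LN N) : sigmaL N 1 x = x := by
  obtain ⟨a, b, hb, rfl⟩ := IsFractionRing.div_surjective (A := RN N) x
  rw [map_div₀, sigmaL_algebraMap, sigmaL_algebraMap, compSL_one, compSL_one]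

theorem sigmaL_mul (γ δ : SL(2, ℤ)) (x : LN N) :
    sigmaL N (γ * δ) x = sigmaL N δ (sigmaL N γ x) := by
  obtain ⟨a, b, hb, rfl⟩ := IsFractionRing.div_surjective (A := RN N) x
  simp only [map_div₀, sigmaL_algebraMap, compSL_mul]

theorem sigmaL_const (γ : SL(2, ℤ)) (c : Kbar) :
    sigmaL N γ (algebraMap Kbar (LN N) c) = algebraMap Kbar (LN N) c := by
  rw [IsScalarTower.algebraMap_apply Kbar (RN N) (LN N), sigmaL_algebraMap, compSL_algebraMap]

end sigma

section orders

variable (N : ℕ)

/-- the order at a point `τ₀ ∈ ℍ`, on `L` -/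
noncomputable def ordFin (τ₀ : ℍ) : OrdFn Kbar (LN N) :=
  ordFrac (K := Kbar) (L := LN N) (evR N) (evR_injective N) (fun r => r.mdiff) (evR_const N) τ₀

variable {N}

theorem ordFin_algebraMap (τ₀ : ℍ) {r : RN N} (hr : r ≠ 0) :
    ordFin N τ₀ (algebraMap (RN N) (LN N) r) = ordAt τ₀ (r : ℍ → ℂ) :=
  ordFrac_algebraMap _ _ _ _ τ₀ hr

theorem ordFin_sigmaL (γ : SL(2, ℤ)) (τ₀ : ℍ) (x : LN N) :
    ordFin N τ₀ (sigmaL N γ x) = ordFin N (γ • τ₀) x := by
  have hγ : 0 < ((γ : GL (Fin 2) ℝ)).det.val := by simp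
  exact ordFrac_comp (K := Kbar) (evR N) (evR_injective N) (fun r => r.mdiff) (evR_const N)
    hγ (sigmaL N γ) (compSL N γ) (sigmaL_algebraMap γ) (fun r τ => rfl) τ₀ x

section cusp

variable (N : ℕ) [NeZero N]

/-- the order at the cusp `∞` (in the parameter `exp (2πiτ/N)`), on `L` -/
noncomputable def ordCusp : OrdFn Kbar (LN N) :=
  OrdFn.ofOrd (fun r : RN N => (expInf N r).order)
    (by simp)
    (fun a b ha hb => by
      rw [map_mul]
      exact HahnSeries.order_mul
        (fun h => ha (expInf_injective N (by rw [h, map_zero])))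
        (fun h => hb (expInf_injective N (by rw [h, map_zero]))))
    (fun a b _ _ hab => by
      rw [map_add]
      exact HahnSeries.min_order_le_order_add
        (fun h => hab (expInf_injective N (by rw [map_add, h, map_zero]))))
    (fun c _ => by
      show (expInf N (algebraMap Kbar (RN N) c)).order = 0
      rw [expInf_algebraMap]
      exact HahnSeries.order_C)

variable {N}

theorem ordCusp_algebraMap {r : RN N} (hr : r ≠ 0) :
    ordCusp N (algebraMap (RN N) (LN N) r) = (expInf N r).order :=
  OrdFn.ofOrd_algebraMap _ _ _ _ _ hr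

theorem ordCusp_div {a b : RN N} (ha : a ≠ 0) (hb : b ≠ 0) :
    ordCusp N (algebraMap (RN N) (LN N) a / algebraMap (RN N) (LN N) b) =
      (expInf N a).order - (expInf N b).order :=
  OrdFn.ofOrd_div _ _ _ _ _ ha hb

theorem order_dmul {c : ℤ → ℂ} (hc : ∀ n, c n ≠ 0) (x : LaurentSeries ℂ) :
    (dmul c x).order = x.order := by
  by_cases hx : x = 0
  · subst hx
    have : dmul c (0 : LaurentSeries ℂ) = 0 := by ext n; simp
    rw [this]
  have hx' : dmul c x ≠ 0 := by
    intro h
    apply hx
    ext n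
    have := congrArg (fun z => HahnSeries.coeff z n) h
    simp only [dmul_coeff, HahnSeries.coeff_zero] at this
    rcases mul_eq_zero.mp this with h1 | h1
    · exact absurd h1 (hc n)
    · simpa using h1
  apply le_antisymm
  · apply HahnSeries.order_le_of_coeff_ne_zero
    rw [dmul_coeff]
    exact mul_ne_zero (hc _) (HahnSeries.coeff_order_eq_zero.not.mpr hx)
  · apply HahnSeries.order_le_of_coeff_ne_zero
    intro h
    have := HahnSeries.coeff_order_eq_zero.not.mpr hx'
    rw [dmul_coeff, h, mul_zero] at this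
    exact this rfl

/-- the order at `∞` of `r ∘ T^k` equals that of `r` -/
theorem order_expInf_compSL_T (k : ℤ) (r : RN N) :
    (expInf N (compSL N (ModularGroup.T ^ k) r)).order = (expInf N r).order := by
  have h1 : IsExp N (iotaL (expInf N r)) (r : ℍ → ℂ) := isExpK_expInf N r
  have h2 := h1.comp_affine 1 1 k (fun τ => ModularGroup.T ^ k • τ) (fun τ => by
    rw [ModularGroup.coe_T_zpow_smul_eq]; simp)
  have h3 : IsExp N (iotaL (expInf N (compSL N (ModularGroup.T ^ k) r)))
      (fun τ => (r : ℍ → ℂ) (ModularGroup.T ^ k • τ)) := isExpK_expInf N _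
  rw [mul_one, ModularCurve.qExpand_one_apply] at h2
  have h4 := IsExp.unique (Nat.pos_of_ne_zero (NeZero.ne N)) h3 h2
  rw [← iotaL_order, h4, order_dmul, iotaL_order]
  intro n
  exact zpow_ne_zero _ (Complex.exp_ne_zero _)

theorem ordCusp_sigmaL_T (k : ℤ) (x : LN N) :
    ordCusp N (sigmaL N (ModularGroup.T ^ k) x) = ordCusp N x := by
  by_cases hx : x = 0
  · rw [hx, map_zero]
  obtain ⟨a, b, hb, rfl⟩ := IsFractionRing.div_surjective (A := RN N) x
  have hb0 : b ≠ 0 := nonZeroDivisors.ne_zero hb
  have ha0 : a ≠ 0 := by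
    rintro rfl
    exact hx (by simp)
  have ha' : compSL N (ModularGroup.T ^ k) a ≠ 0 := fun h =>
    ha0 (compSL_injective _ (by rw [h, map_zero]))
  have hb' : compSL N (ModularGroup.T ^ k) b ≠ 0 := fun h =>
    hb0 (compSL_injective _ (by rw [h, map_zero]))
  rw [map_div₀, sigmaL_algebraMap, sigmaL_algebraMap, ordCusp_div ha' hb', ordCusp_div ha0 hb0,
    order_expInf_compSL_T, order_expInf_compSL_T]

end cusp

end orders

end Fermat.Agent.FF
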