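import Mathlib
import Fermat.Agent.FF.CosetParts
import Fermat.Agent.FF.CosetT

/-!
# S24 item 69-ORB: sizes of the orbits of `S`, `ST`, `T` on `SL(2,ℤ) ⧸ Γ₀(N)`
-/

set_option autoImplicit false

open CongruenceSubgroup MulAction
open scoped MatrixGroups

namespace Fermat.Agent.FF

section General

variable {G Y : Type*} [Group G] [MulAction G Y]

theorem card_orbit_zpowers (g : G) (x : Y) :
    Nat.card (orbit (Subgroup.zpowers g) x) = Function.minimalPeriod (g • ·) x := by
  rw [Nat.card_congr (MulAction.orbitZPowersEquiv g x), Nat.card_zmod]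

theorem orbit_of_pow_smul (g : G) (x : Y) (n : ℕ) (hn : 0 < n) (h : g ^ n • x = x) :
    ∃ k : ℕ, 0 < k ∧ k ∣ n ∧ Nat.card (orbit (Subgroup.zpowers g) x) = k ∧ g ^ k • x = x := by
  have hper : Function.IsPeriodicPt (g • ·) n x := by
    rw [Function.IsPeriodicPt, Function.IsFixedPt, smul_iterate_apply]
    exact h
  refine ⟨Function.minimalPeriod (g • ·) x, hper.minimalPeriod_pos hn, hper.minimalPeriod_dvd,
    card_orbit_zpowers g x, ?_⟩
  have := Function.isPeriodicPt_minimalPeriod (g • ·) x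
  rwa [Function.IsPeriodicPt, Function.IsFixedPt, smul_iterate_apply] at this

theorem orbit_of_prime_pow_smul (g : G) (x : Y) (p : ℕ) (hp : p.Prime) (h : g ^ p • x = x) :
    Nat.card (orbit (Subgroup.zpowers g) x) = p ∨
      (Nat.card (orbit (Subgroup.zpowers g) x) = 1 ∧ g • x = x) := by
  obtain ⟨k, -, hkp, hcard, hfix⟩ := orbit_of_pow_smul g x p hp.pos h
  rcases (Nat.dvd_prime hp).mp hkp with rfl | rfl
  · right
    exact ⟨hcard, by simpa using hfix⟩
  · left
    exact hcard

end General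

variable (N : ℕ) [NeZero N]

omit [NeZero N] in
theorem T_pow_smul (x : X N) : ModularGroup.T ^ N • x = x := by
  induction x using QuotientGroup.induction_on with
  | H g =>
    change ((ModularGroup.T ^ N * g : SL(2, ℤ)) : X N) = (g : X N)
    rw [QuotientGroup.eq, Gamma0_mem, ZMod.intCast_zmod_eq_zero_iff_dvd]
    have := CosetT.entry_aux (N : ℤ) g g
    rw [zpow_natCast] at this
    rw [this]
    exact ⟨g 1 0 * g 1 0, by ring⟩

theorem orbit_S (i : SL(2, ℤ) ⧸ CongruenceSubgroup.Gamma0 N) :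
    (Nat.card (MulAction.orbit (Subgroup.zpowers ModularGroup.S) i) = 2) ∨
    (Nat.card (MulAction.orbit (Subgroup.zpowers ModularGroup.S) i) = 1 ∧ ModularGroup.S • i = i) :=
  orbit_of_prime_pow_smul ModularGroup.S i 2 Nat.prime_two (S_sq_smul N i)

theorem orbit_ST (i : SL(2, ℤ) ⧸ CongruenceSubgroup.Gamma0 N) :
    (Nat.card (MulAction.orbit (Subgroup.zpowers (ModularGroup.S * ModularGroup.T)) i) = 3) ∨
    (Nat.card (MulAction.orbit (Subgroup.zpowers (ModularGroup.S * ModularGroup.T)) i) = 1 ∧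
      (ModularGroup.S * ModularGroup.T) • i = i) :=
  orbit_of_prime_pow_smul (ModularGroup.S * ModularGroup.T) i 3 Nat.prime_three (U_cube_smul N i)

theorem orbit_T (i : SL(2, ℤ) ⧸ CongruenceSubgroup.Gamma0 N) :
    ∃ k : ℕ, 0 < k ∧ k ∣ N ∧ Nat.card (MulAction.orbit (Subgroup.zpowers ModularGroup.T) i) = k ∧
      (ModularGroup.T ^ k) • i = i :=
  orbit_of_pow_smul ModularGroup.T i N (Nat.pos_of_ne_zero (NeZero.ne N)) (T_pow_smul N i)

end Fermat.Agent.FF
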