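import Mathlib
import Fermat.Agent.FF.ModExp2
import Fermat.Agent.FF.JqExpansion
import Fermat.Prelude.Thm_ModularCurve_coeffMap_qExpand

/-!
# S24 item 69-PK (helper5): pole-killing

A holomorphic `SL(2,ℤ)`-invariant function on `ℍ` with a convergent Laurent expansion at `i∞`
whose coefficients lie in (the image of) a field `K` is a polynomial in `j` with coefficients
in `K`.
-/

set_option autoImplicit false
set_option linter.unusedSectionVars false

open UpperHalfPlane hiding I
open ModularForm Filter Topology Complex Function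
open scoped MatrixGroups Manifold Modular Real

namespace Fermat.Agent.FF

/-- A holomorphic `SL(2,ℤ)`-invariant function which is bounded at `i∞` is constant. -/
theorem const_of_invariant_of_bounded {h : ℍ → ℂ} (hh : MDiff h)
    (hinv : ∀ (γ : SL(2, ℤ)) (τ : ℍ), h (γ • τ) = h τ) (hb : IsBoundedAtImInfty h) :
    ∃ c : ℂ, ∀ τ, h τ = c := by
  have hslash : ∀ γ : SL(2, ℤ), h ∣[(0 : ℤ)] γ = h := by
    intro γ
    ext τ
    rw [ModularForm.SL_slash_apply]
    simp only [neg_zero, zpow_zero, mul_one]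
    exact hinv γ τ
  let f : ModularForm 𝒮ℒ 0 :=
    { toFun := h
      slash_action_eq' := by
        rintro _ ⟨γ, rfl⟩
        have := hslash γ
        rw [ModularForm.SL_slash] at this
        exact this
      holo' := hh
      bdd_at_cusps' := by
        intro c hc
        rw [OnePoint.isBoundedAt_iff_forall_SL2Z hc]
        intro γ _
        rw [hslash γ]
        exact hb }
  obtain ⟨c, hc⟩ := ModularFormClass.levelOne_weight_zero_const f
  exact ⟨c, fun τ => congrFun hc τ⟩

section PK

variable {K : Type*} [Field K] [Algebra ℚ K] (ι : K →+* ℂ)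

theorem coeffMap_coeffEmb_jq :
    ModularCurve.coeffMap ι (ModularCurve.coeffEmb K ModularCurve.jq) =
      ModularCurve.coeffEmb ℂ ModularCurve.jq := by
  rw [ModularCurve.coeffEmb, ModularCurve.coeffMap_coeffMap]
  exact ModularCurve.coeffMap_congr (Subsingleton.elim _ _) _

theorem coeffMap_C (c : K) :
    ModularCurve.coeffMap ι (HahnSeries.C c) = HahnSeries.C (ι c) := by
  show ModularCurve.coeffMap ι (HahnSeries.single 0 c) = HahnSeries.single 0 (ι c)
  exact ModularCurve.coeffMap_single ι 0 c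

theorem coeff_C_mul (c : K) (y : LaurentSeries K) (m : ℤ) :
    (HahnSeries.C c * y).coeff m = c * y.coeff m := by
  rw [HahnSeries.C_mul_eq_smul, HahnSeries.coeff_smul, smul_eq_mul]

theorem coeff_coeffEmb_jq_pow (n : ℕ) (m : ℤ) :
    ((ModularCurve.coeffEmb K ModularCurve.jq) ^ n).coeff m =
      algebraMap ℚ K ((ModularCurve.jq ^ n).coeff m) := by
  rw [← map_pow, ModularCurve.coeffEmb_coeff]

/-- Pole-killing, level one, by induction on the pole order. -/
theorem pole_killing_aux (n : ℕ) : ∀ (h : ℍ → ℂ), MDiff h →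
    (∀ (γ : SL(2, ℤ)) (τ : ℍ), h (γ • τ) = h τ) → ∀ x : LaurentSeries K,
    IsExp 1 (ModularCurve.coeffMap ι x) h → (∀ m : ℤ, m < -(n : ℤ) → x.coeff m = 0) →
    ∃ p : Polynomial K, p.natDegree ≤ n ∧ p.coeff n = x.coeff (-(n : ℤ)) ∧
      ∀ τ, h τ = (p.map ι).eval (jFun τ) := by
  induction n with
  | zero =>
    intro h hh hinv x hx hord
    have hb : IsBoundedAtImInfty h := hx.isBoundedAtImInfty one_pos (fun m hm => by
      rw [ModularCurve.coeffMap_coeff, hord m (by simpa using hm), map_zero])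
    obtain ⟨c, hc⟩ := const_of_invariant_of_bounded hh hinv hb
    have h1 : IsExp 1 (HahnSeries.C c) h := (isExp_const 1 c).congr (fun τ => (hc τ).symm)
    have h2 := hx.unique one_pos h1
    have h3 : ι (x.coeff 0) = c := by
      have := congrArg (fun y : LaurentSeries ℂ => y.coeff 0) h2
      simpa using this
    refine ⟨Polynomial.C (x.coeff 0), by simp, by simp, fun τ => ?_⟩
    rw [Polynomial.map_C, Polynomial.eval_C, h3, hc τ]
  | succ n ih =>
    intro h hh hinv x hx hord
    set c : K := x.coeff (-((n + 1 : ℕ) : ℤ)) with hc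
    set jK : LaurentSeries K := ModularCurve.coeffEmb K ModularCurve.jq with hjK
    have hx' : IsExp 1 (ModularCurve.coeffMap ι (x - HahnSeries.C c * jK ^ (n + 1)))
        (fun τ => h τ - ι c * jFun τ ^ (n + 1)) := by
      rw [map_sub, map_mul, map_pow, coeffMap_C, hjK, coeffMap_coeffEmb_jq]
      exact hx.sub ((isExp_jFun.pow (n + 1)).const_mul (ι c))
    have hord' : ∀ m : ℤ, m < -(n : ℤ) → (x - HahnSeries.C c * jK ^ (n + 1)).coeff m = 0 := by
      intro m hm
      rw [HahnSeries.coeff_sub, coeff_C_mul, hjK, coeff_coeffEmb_jq_pow]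
      rcases lt_or_eq_of_le (show m ≤ -((n + 1 : ℕ) : ℤ) by push_cast; omega) with hlt | heq
      · rw [hord m hlt, ModularCurve.coeff_jq_pow_of_lt hlt, map_zero, mul_zero, sub_zero]
      · rw [heq, ModularCurve.coeff_jq_pow_self, map_one, mul_one, sub_self]
    have hh' : MDiff (fun τ => h τ - ι c * jFun τ ^ (n + 1)) :=
      hh.sub (mdifferentiable_const.mul (mdiff_jFun.pow (n + 1)))
    have hinv' : ∀ (γ : SL(2, ℤ)) (τ : ℍ),
        (fun τ => h τ - ι c * jFun τ ^ (n + 1)) (γ • τ) =
          (fun τ => h τ - ι c * jFun τ ^ (n + 1)) τ := by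
      intro γ τ
      simp only [hinv γ τ, jFun_smul γ τ]
    obtain ⟨p', hp'd, -, hp'⟩ := ih _ hh' hinv' _ hx' hord'
    refine ⟨p' + Polynomial.C c * Polynomial.X ^ (n + 1), ?_, ?_, fun τ => ?_⟩
    · refine (Polynomial.natDegree_add_le _ _).trans (max_le (hp'd.trans (Nat.le_succ n)) ?_)
      exact Polynomial.natDegree_C_mul_X_pow_le c (n + 1)
    · rw [Polynomial.coeff_add, Polynomial.coeff_C_mul_X_pow, if_pos rfl,
        Polynomial.coeff_eq_zero_of_natDegree_lt (lt_of_le_of_lt hp'd (Nat.lt_succ_self n)),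
        zero_add]
    · have := hp' τ
      rw [Polynomial.map_add, Polynomial.eval_add, ← this]
      simp

end PK

section Final

variable {K : Type*} [Field K]

/-- **69-PK** (pole-killing) with degree bookkeeping: the polynomial has degree exactly the
pole order of the expansion. -/
theorem pole_killing_natDegree (ι : K →+* ℂ) (h : ℍ → ℂ) (hh : MDiff h)
    (hinv : ∀ (γ : SL(2, ℤ)) (τ : ℍ), h (γ • τ) = h τ)
    (x : LaurentSeries K) (hx : IsExp 1 (ModularCurve.coeffMap ι x) h) :
    ∃ p : Polynomial K, p.natDegree = (-x.order).toNat ∧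
      ∀ τ, h τ = (p.map ι).eval (jFun τ) := by
  have : CharZero K := RingHom.charZero ι
  let _ : Algebra ℚ K := DivisionRing.toRatAlgebra
  have hn : ∀ m : ℤ, m < -(((-x.order).toNat : ℕ) : ℤ) → x.coeff m = 0 := by
    intro m hm
    by_cases hx0 : x = 0
    · rw [hx0]; rfl
    · refine HahnSeries.coeff_eq_zero_of_lt_order ?_
      have := Int.self_le_toNat (-x.order)
      omega
  obtain ⟨p, hpd, hpc, hp⟩ := pole_killing_aux ι (-x.order).toNat h hh hinv x hx hn
  refine ⟨p, le_antisymm hpd ?_, hp⟩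
  by_cases hx0 : x = 0
  · rw [hx0]
    simp
  rcases le_or_gt x.order 0 with hord | hord
  · have h1 : (((-x.order).toNat : ℕ) : ℤ) = -x.order := Int.toNat_of_nonneg (by omega)
    have h2 : p.coeff (-x.order).toNat ≠ 0 := by
      rw [hpc, h1, neg_neg]
      exact fun h0 => hx0 (HahnSeries.coeff_order_eq_zero.mp h0)
    exact Polynomial.le_natDegree_of_ne_zero h2
  · have : (-x.order).toNat = 0 := Int.toNat_of_nonpos (by omega)
    rw [this]
    exact Nat.zero_le _

/-- **69-PK** (pole-killing): a holomorphic `SL(2,ℤ)`-invariant function with a `K`-rational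
Laurent expansion in `q` is a polynomial in `j` with coefficients in `K`. -/
theorem pole_killing (ι : K →+* ℂ) (h : ℍ → ℂ) (hh : MDiff h)
    (hinv : ∀ (γ : SL(2, ℤ)) (τ : ℍ), h (γ • τ) = h τ)
    (x : LaurentSeries K) (hx : IsExp 1 (ModularCurve.coeffMap ι x) h) :
    ∃ p : Polynomial K, ∀ τ, h τ = (p.map ι).eval (jFun τ) := by
  obtain ⟨p, -, hp⟩ := pole_killing_natDegree ι h hh hinv x hx
  exact ⟨p, hp⟩

end Final

section Level

/-- A Laurent series supported on the multiples of `N` is `qExpand N` of a Laurent series. -/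
theorem exists_qExpand_eq {R : Type*} [CommRing R] (N : ℕ) [NeZero N] (x : LaurentSeries R)
    (hx : ∀ n : ℤ, x.coeff n ≠ 0 → (N : ℤ) ∣ n) :
    ∃ y : LaurentSeries R, ModularCurve.qExpand R N y = x := by
  have hN : (1 : ℤ) ≤ N := by exact_mod_cast Nat.pos_of_ne_zero (NeZero.ne N)
  have hbdd : BddBelow (Function.support (fun n : ℤ => x.coeff ((N : ℤ) * n))) := by
    refine ⟨min x.order 0, fun n hn => ?_⟩
    have h1 : x.order ≤ (N : ℤ) * n := HahnSeries.order_le_of_coeff_ne_zero hn
    by_contra hlt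
    push Not at hlt
    have h2 : n < 0 := lt_of_lt_of_le hlt (min_le_right _ _)
    have h3 : n < x.order := lt_of_lt_of_le hlt (min_le_left _ _)
    nlinarith
  refine ⟨HahnSeries.ofSuppBddBelow _ hbdd, ?_⟩
  ext k
  by_cases hk : (N : ℤ) ∣ k
  · obtain ⟨m, rfl⟩ := hk
    rw [ModularCurve.qExpand_coeff_mul, HahnSeries.coeff_ofSuppBddBelow]
  · rw [ModularCurve.qExpand_coeff_of_not_dvd N _ hk]
    by_contra h
    exact hk (hx k (Ne.symm h))

/-- An expansion in `exp(2πiτ/N)` supported on the multiples of `N` is an expansion in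
`exp(2πiτ)`. -/
theorem isExp_one_of_isExp_qExpand {N : ℕ} [NeZero N] {y : LaurentSeries ℂ} {h : ℍ → ℂ}
    (hx : IsExp N (ModularCurve.qExpand ℂ N y) h) : IsExp 1 y h := by
  intro τ
  have he : ((N : ℕ) : ℤ) ≠ 0 := by exact_mod_cast NeZero.ne N
  have hinj : Function.Injective (fun n : ℤ => (N : ℤ) * n) := mul_right_injective₀ he
  have h1 := hx τ
  rw [← hinj.hasSum_iff] at h1
  · refine h1.congr_fun ?_
    intro n
    simp only [Function.comp]
    rw [ModularCurve.qExpand_coeff_mul, zpow_mul, zpow_natCast]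
    have := uPar_pow 1 N τ
    rw [one_mul] at this
    rw [this]
  · intro m hm
    have : ¬ (N : ℤ) ∣ m := fun ⟨k, hk⟩ => hm ⟨k, hk.symm⟩
    rw [ModularCurve.qExpand_coeff_of_not_dvd N y this, zero_mul]

theorem order_qExpand {R : Type*} [CommRing R] (N : ℕ) [NeZero N] (y : LaurentSeries R) :
    (ModularCurve.qExpand R N y).order = (N : ℤ) * y.order := by
  by_cases hy : y = 0
  · simp [hy]
  have hN : (0 : ℤ) < N := by exact_mod_cast Nat.pos_of_ne_zero (NeZero.ne N)
  have hne : ModularCurve.qExpand R N y ≠ 0 := fun h =>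
    hy (ModularCurve.qExpand_injective N (by rw [h, map_zero]))
  apply le_antisymm
  · apply HahnSeries.order_le_of_coeff_ne_zero
    rw [ModularCurve.qExpand_coeff_mul]
    exact fun h0 => hy (HahnSeries.coeff_order_eq_zero.mp h0)
  · have h1 : (ModularCurve.qExpand R N y).coeff (ModularCurve.qExpand R N y).order ≠ 0 :=
      fun h0 => hne (HahnSeries.coeff_order_eq_zero.mp h0)
    have hdvd : (N : ℤ) ∣ (ModularCurve.qExpand R N y).order := by
      by_contra hnd
      exact h1 (ModularCurve.qExpand_coeff_of_not_dvd N y hnd)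
    obtain ⟨k, hk⟩ := hdvd
    rw [hk, ModularCurve.qExpand_coeff_mul] at h1
    have := HahnSeries.order_le_of_coeff_ne_zero h1
    rw [hk]
    exact mul_le_mul_of_nonneg_left this hN.le

variable {K : Type*} [Field K]

/-- **69-PK at level `N`**: an `SL(2,ℤ)`-invariant holomorphic function with a `K`-rational
expansion in `exp(2πiτ/N)` is a polynomial in `j` over `K`, of degree `(pole order)/N`. -/
theorem pole_killing_level (ι : K →+* ℂ) (N : ℕ) [NeZero N] (h : ℍ → ℂ) (hh : MDiff h)
    (hinv : ∀ (γ : SL(2, ℤ)) (τ : ℍ), h (γ • τ) = h τ)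
    (x : LaurentSeries K) (hx : IsExp N (ModularCurve.coeffMap ι x) h) :
    ∃ p : Polynomial K, ((N : ℤ) * p.natDegree = (-x.order).toNat) ∧
      ∀ τ, h τ = (p.map ι).eval (jFun τ) := by
  have hN : 0 < N := Nat.pos_of_ne_zero (NeZero.ne N)
  have hsupp : ∀ n : ℤ, x.coeff n ≠ 0 → (N : ℤ) ∣ n := by
    intro n hn
    refine hx.dvd_of_periodic hN (fun τ => ModularGroup.T • τ) (fun τ => ?_)
      (fun τ => hinv ModularGroup.T τ) n ?_
    · rw [UpperHalfPlane.modular_T_smul, UpperHalfPlane.coe_vadd]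
      push_cast
      ring
    · rw [ModularCurve.coeffMap_coeff]
      exact fun h0 => hn ((map_eq_zero ι).mp h0)
  obtain ⟨y, rfl⟩ := exists_qExpand_eq N x hsupp
  rw [ModularCurve.coeffMap_qExpand] at hx
  obtain ⟨p, hpd, hp⟩ := pole_killing_natDegree ι h hh hinv y (isExp_one_of_isExp_qExpand hx)
  refine ⟨p, ?_, hp⟩
  rw [hpd, order_qExpand]
  have hN' : (0 : ℤ) < N := by exact_mod_cast hN
  rcases le_or_gt y.order 0 with h0 | h0
  · rw [Int.toNat_of_nonneg (by omega), Int.toNat_of_nonneg (by nlinarith)]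
    ring
  · rw [Int.toNat_of_nonpos (by omega), Int.toNat_of_nonpos (by nlinarith)]
    simp

end Level

end Fermat.Agent.FF
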