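import Mathlib
import Fermat.Agent.FF.OrdFnBasic
import Fermat.Agent.FF.Holo

/-!
# S24 item 69-POLY (helper5): the polynomial clause of `OrdDataAt`

Generic statement: if the characteristic polynomial `∏ i, (X - Φ i f)` of `f` with respect to
a finite family of embeddings `Φ i : F →+* L` descends to `K0`, and `ν` is an order function on
`L` with `ν (Φ i f) = 0` for all `i`, then the descended polynomial has `ν`-integral
coefficients and a `ν`-unit constant term.
-/

set_option autoImplicit false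
set_option linter.unusedSectionVars false

open Polynomial

namespace Fermat.Agent.FF

section Poly

variable {K F L : Type*} [Field K] [Field F] [Field L] [Algebra K F] [Algebra K L]
  (K0 : IntermediateField K F) {I : Type*} [Fintype I] [Nonempty I]

/-- **69-POLY.** -/
theorem poly_clause_of_conjugates (Φ : I → (F →+* L)) (ν : OrdFn K L)
    (hcoef : ∀ f : F, ∃ P : Polynomial ↥K0, P.Monic ∧
      ∀ i0 : I, P.map ((Φ i0).comp (algebraMap ↥K0 F)) =
        ∏ i : I, (Polynomial.X - Polynomial.C (Φ i f)))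
    (f : F) (hf : f ≠ 0) (h0 : ∀ i, ν (Φ i f) = 0) :
    ∃ P : Polynomial ↥K0, P.Monic ∧ Polynomial.aeval f P = 0 ∧ P.coeff 0 ≠ 0 ∧
      (∀ i k, P.coeff k ≠ 0 → 0 ≤ ν (Φ i (P.coeff k : F))) ∧
      (∀ i, ν (Φ i (P.coeff 0 : F)) = 0) := by
  classical
  obtain ⟨P, hPm, hP⟩ := hcoef f
  obtain ⟨i0⟩ := (inferInstance : Nonempty I)
  have hΦf : ∀ j, Φ j f ≠ 0 := fun j => (_root_.map_ne_zero (Φ j)).mpr hf
  have hcoeff : ∀ i k, Φ i ((P.coeff k : ↥K0) : F) =
      (∏ j : I, (Polynomial.X - Polynomial.C (Φ j f))).coeff k := by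
    intro i k
    rw [← hP i, Polynomial.coeff_map]
    rfl
  -- all coefficients lie in the valuation ring of `ν`
  have hmem : ∀ j, Φ j f ∈ H6.valSubring ν := fun j => Or.inr (h0 j).ge
  have hprod : ∀ k, (∏ j : I, (Polynomial.X - Polynomial.C (Φ j f))).coeff k ∈
      H6.valSubring ν := by
    have e : ∏ j : I, (Polynomial.X - Polynomial.C (Φ j f)) =
        (∏ j : I, (Polynomial.X - Polynomial.C
          (⟨Φ j f, hmem j⟩ : H6.valSubring ν))).map (H6.valSubring ν).subtype := by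
      rw [Polynomial.map_prod]
      simp
    intro k
    rw [e, Polynomial.coeff_map]
    exact Subtype.mem _
  -- the constant term
  have hconst : ∀ i, Φ i ((P.coeff 0 : ↥K0) : F) = ∏ j : I, (-(Φ j f)) := by
    intro i
    rw [hcoeff i 0, Polynomial.coeff_zero_eq_eval_zero, Polynomial.eval_prod]
    simp
  have hconst_ne : ∏ j : I, (-(Φ j f)) ≠ 0 :=
    Finset.prod_ne_zero_iff.mpr (fun j _ => neg_ne_zero.mpr (hΦf j))
  refine ⟨P, hPm, ?_, ?_, ?_, ?_⟩
  · apply (Φ i0).injective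
    rw [map_zero, Polynomial.aeval_def, Polynomial.hom_eval₂, ← Polynomial.eval_map, hP i0,
      Polynomial.eval_prod]
    exact Finset.prod_eq_zero (Finset.mem_univ i0) (by simp)
  · intro h
    apply hconst_ne
    rw [← hconst i0, h]
    simp
  · intro i k hk
    have h1 := hprod k
    rw [← hcoeff i k] at h1
    have hne : Φ i ((P.coeff k : ↥K0) : F) ≠ 0 := by
      rw [_root_.map_ne_zero]
      intro h
      exact hk (Subtype.ext h)
    exact (H6.mem_valSubring_of_ne ν hne).mp h1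
  · intro i
    rw [hconst i, OrdFn.map_prod ν Finset.univ _ (fun j _ => neg_ne_zero.mpr (hΦf j))]
    apply Finset.sum_eq_zero
    intro j _
    rw [H6.w_neg ν (hΦf j), h0 j]

/-- **Condition (4) of `OrdDataAt`** in abstract form (helper3's exact statement;
`hK0` is not needed). -/
theorem ordData_poly {K F L : Type*} [Field K] [Field F] [Field L] [Algebra K F] [Algebra K L]
    {I : Type*} [Fintype I] [Nonempty I] (x : F) (Φ : I → (F →+* L))
    (_hK0 : ∀ (i j : I) (c : ↥(IntermediateField.adjoin K {x})), Φ i (c : F) = Φ j (c : F))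
    (hcoef : ∀ f : F, ∃ P : Polynomial ↥(IntermediateField.adjoin K {x}), P.Monic ∧
      ∀ i0 : I, P.map ((Φ i0).comp (algebraMap ↥(IntermediateField.adjoin K {x}) F)) =
        ∏ i : I, (Polynomial.X - Polynomial.C (Φ i f)))
    (ord : OrdFn K L) (f : F) (hf : f ≠ 0) (h0 : ∀ i, ord (Φ i f) = 0) :
    ∃ P : Polynomial ↥(IntermediateField.adjoin K {x}), P.Monic ∧ Polynomial.aeval f P = 0 ∧
      P.coeff 0 ≠ 0 ∧
      (∀ i k, P.coeff k ≠ 0 → 0 ≤ ord (Φ i (P.coeff k : F))) ∧
      (∀ i, ord (Φ i (P.coeff 0 : F)) = 0) :=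
  poly_clause_of_conjugates (IntermediateField.adjoin K {x}) Φ ord hcoef f hf h0

end Poly

section Assembly

open IntermediateField
open scoped MatrixGroups

theorem OrdFn.ext' {K F : Type*} [Field K] [Field F] [Algebra K F] {w₁ w₂ : OrdFn K F}
    (h : ∀ f, w₁ f = w₂ f) : w₁ = w₂ := by
  cases w₁
  cases w₂
  congr
  exact funext h

/-- **Generic assembly of `OrdDataAt`**: from a family of embeddings `Φ i : F_N →+* L` indexed
by the cosets, an order function `ν` on `L`, and the descent of the characteristic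
polynomials. -/
theorem ordDataAt_of (N : ℕ) [NeZero N] [Fintype (X N)] {L : Type*} [Field L] [Algebra Kbar L]
    (x : FN N) (a : Kbar) (H : Subgroup SL(2, ℤ)) (m : ℕ)
    (Φ : X N → (FN N →+* L)) (ν : OrdFn Kbar L)
    (hΦK : ∀ i (c : Kbar), c ≠ 0 → ν (Φ i (algebraMap Kbar (FN N) c)) = 0)
    (h1 : ∀ i, ν (Φ i (x - algebraMap Kbar (FN N) a)) = m)
    (h2 : ∀ (h : H) (i : X N) (f : FN N), ν (Φ (h • i) f) = ν (Φ i f))
    (h3 : ∀ i, ∃ r : ℕ, r * Nat.card (MulAction.orbit H i) = m ∧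
      ∀ f : FN N, f ≠ 0 → (r : ℤ) ∣ ν (Φ i f))
    (hcoef : ∀ f : FN N, ∃ P : Polynomial ↥Kbar⟮x⟯, P.Monic ∧
      ∀ i0 : X N, P.map ((Φ i0).comp (algebraMap ↥Kbar⟮x⟯ (FN N))) =
        ∏ i : X N, (Polynomial.X - Polynomial.C (Φ i f))) :
    OrdDataAt N x a H m := by
  refine ⟨⟨fun i => ν.comapRingHom (Φ i) (hΦK i), h1, ?_, h3, ?_⟩⟩
  · intro h i
    exact OrdFn.ext' (fun f => h2 h i f)
  · intro f hf h0
    exact poly_clause_of_conjugates Kbar⟮x⟯ Φ ν hcoef f hf h0

end Assembly

end Fermat.Agent.FF
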