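import Mathlib

/-!
# S24 item 69-HNF: Hermite normal form of an integral `2 × 2` matrix of positive determinant
-/

set_option autoImplicit false

namespace Fermat.Agent.FF

theorem exists_hnf (A : Matrix (Fin 2) (Fin 2) ℤ) (hA : 0 < A.det) :
    ∃ (δ : Matrix.SpecialLinearGroup (Fin 2) ℤ) (a b d : ℤ), 0 < a ∧ 0 < d ∧ a * d = A.det ∧
      A = (δ : Matrix (Fin 2) (Fin 2) ℤ) * !![a, b; 0, d] := by
  have hdet : A.det = A 0 0 * A 1 1 - A 0 1 * A 1 0 := Matrix.det_fin_two A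
  obtain ⟨x, hx⟩ : ∃ x : ℤ, x = A 0 0 := ⟨_, rfl⟩
  obtain ⟨y, hy⟩ : ∃ y : ℤ, y = A 1 0 := ⟨_, rfl⟩
  obtain ⟨g, hgdef⟩ : ∃ g : ℤ, g = (Int.gcd x y : ℤ) := ⟨_, rfl⟩
  have hxy : ¬ (x = 0 ∧ y = 0) := by
    rintro ⟨h1, h2⟩
    rw [hx] at h1
    rw [hy] at h2
    rw [hdet, h1, h2] at hA
    simp at hA
  have hgpos : 0 < g := by
    rw [hgdef]
    have : Int.gcd x y ≠ 0 := by
      rw [Ne, Int.gcd_eq_zero_iff]
      exact hxy
    exact_mod_cast Nat.pos_of_ne_zero this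
  obtain ⟨x₁, hx₁⟩ : g ∣ x := by rw [hgdef]; exact Int.gcd_dvd_left x y
  obtain ⟨y₁, hy₁⟩ : g ∣ y := by rw [hgdef]; exact Int.gcd_dvd_right x y
  obtain ⟨u, hu⟩ : ∃ u : ℤ, u = Int.gcdA x y := ⟨_, rfl⟩
  obtain ⟨v, hv⟩ : ∃ v : ℤ, v = Int.gcdB x y := ⟨_, rfl⟩
  have hbez : x₁ * u + y₁ * v = 1 := by
    have h := Int.gcd_eq_gcd_ab x y
    rw [← hgdef, ← hu, ← hv] at h
    have h2 : g * (x₁ * u + y₁ * v) = g * 1 := by
      linear_combination -h - u * hx₁ - v * hy₁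
    exact mul_left_cancel₀ hgpos.ne' h2
  obtain ⟨m, hmdef⟩ : ∃ m : ℤ, m = x₁ * A 1 1 - y₁ * A 0 1 := ⟨_, rfl⟩
  have hgm : g * m = A.det := by
    rw [hdet, hmdef, ← hx, ← hy]
    linear_combination (-A 1 1) * hx₁ + (A 0 1) * hy₁
  have hmpos : 0 < m := by
    by_contra hneg
    push Not at hneg
    have : g * m ≤ 0 := mul_nonpos_of_nonneg_of_nonpos hgpos.le hneg
    omega
  obtain ⟨δ, hδ⟩ : ∃ δ : Matrix.SpecialLinearGroup (Fin 2) ℤ,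
      (δ : Matrix (Fin 2) (Fin 2) ℤ) = !![x₁, -v; y₁, u] :=
    ⟨⟨!![x₁, -v; y₁, u], by
      rw [Matrix.det_fin_two_of]
      linear_combination hbez⟩, rfl⟩
  refine ⟨δ, g, u * A 0 1 + v * A 1 1, m, hgpos, hmpos, hgm, ?_⟩
  rw [hδ]
  ext i j
  fin_cases i <;> fin_cases j
  · simp [Matrix.mul_apply, Fin.sum_univ_two]
    rw [← hx]
    linear_combination hx₁
  · simp [Matrix.mul_apply, Fin.sum_univ_two]
    rw [hmdef]
    linear_combination (-(A 0 1)) * hbez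
  · simp [Matrix.mul_apply, Fin.sum_univ_two]
    rw [← hy]
    linear_combination hy₁
  · simp [Matrix.mul_apply, Fin.sum_univ_two]
    rw [hmdef]
    linear_combination (-(A 1 1)) * hbez

end Fermat.Agent.FF
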