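import Fermat.Agent.FF.JqExpansion
import Fermat.Agent.FF.ModExp2
import Fermat.Agent.FF.ModHNF
import Fermat.Prelude.Thm_ModularCurve_coeffMap_qExpand

/-!
# S24 item 69-JA: the functions `τ ↦ j (d · γ τ)`

* `mdiff_jFun_scale` (JA0): holomorphy of `τ ↦ j (d τ)`;
* `exists_isExp_jFun_scale` (JA1): every `SL(2,ℤ)`-translate of `j (d τ)`, `d ∣ N`, has a
  `K`-rational convergent Laurent expansion in `exp (2πiτ/N)`;
* `mem_Gamma0_of_jFun_scale_eq` (JA2): `j (N · g τ) = j (N τ)` for all `τ` forces `g ∈ Γ₀(N)`;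
* `jFun_scale_eq_of_mem_Gamma0` (JA3): `j (d τ)` is `Γ₀(N)`-invariant for `d ∣ N`.
-/

set_option autoImplicit false

open UpperHalfPlane hiding I
open ModularForm EisensteinSeries Filter Topology Complex Function
open scoped MatrixGroups Manifold Modular Real

namespace Fermat.Agent.FF

/-- Precomposition of a holomorphic function on `ℍ` with a self-map of `ℍ` that is induced by a
holomorphic function on the upper half plane. -/
theorem mdiff_comp_of_coe {h : ℍ → ℂ} (hh : MDiff h) (φ : ℍ → ℍ) (g : ℂ → ℂ)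
    (hg : DifferentiableOn ℂ g {z | 0 < z.im}) (hφ : ∀ τ : ℍ, ((φ τ : ℍ) : ℂ) = g τ) :
    MDiff (fun τ => h (φ τ)) := by
  rw [UpperHalfPlane.mdifferentiable_iff] at hh ⊢
  have hmaps : Set.MapsTo g {z | 0 < z.im} {z | 0 < z.im} := by
    intro z hz
    have := (φ ⟨z, hz⟩).im_pos
    rw [← UpperHalfPlane.coe_im, hφ] at this
    exact this
  have key : ∀ z ∈ {z : ℂ | 0 < z.im},
      ((fun τ => h (φ τ)) ∘ ofComplex) z = ((h ∘ ofComplex) ∘ g) z := by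
    intro z hz
    simp only [Function.comp_apply]
    congr 1
    apply UpperHalfPlane.ext
    rw [hφ, ofComplex_apply_of_im_pos hz, ofComplex_apply_of_im_pos (hmaps hz)]
  exact (hh.comp hg hmaps).congr key

/-- **JA0** -/
theorem mdiff_jFun_scale (d : ℕ) (ψ : ℍ → ℍ) (hψ : ∀ τ : ℍ, ((ψ τ : ℍ) : ℂ) = d * τ) :
    MDiff (fun τ => jFun (ψ τ)) :=
  mdiff_comp_of_coe mdiff_jFun ψ (fun z => d * z) (by fun_prop) hψ

/-- The affine self-map `τ ↦ (a τ + b) / d` of the upper half plane. -/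
noncomputable def affineMap (a d : ℕ) (b : ℤ) (ha : 0 < a) (hd : 0 < d) (τ : ℍ) : ℍ :=
  ⟨((a : ℂ) * τ + b) / d, by
    have h1 : (((a : ℂ) * τ + b) / d).im = (a : ℝ) * τ.im / d := by
      have : ((a : ℂ) * τ + b) / d = (((a : ℝ) : ℂ) * τ + ((b : ℝ) : ℂ)) / ((d : ℝ) : ℂ) := by
        push_cast; rfl
      rw [this, Complex.div_ofReal_im]
      simp
    rw [h1]
    have := τ.im_pos
    positivity⟩

theorem coe_affineMap (a d : ℕ) (b : ℤ) (ha : 0 < a) (hd : 0 < d) (τ : ℍ) :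
    ((affineMap a d b ha hd τ : ℍ) : ℂ) = ((a : ℂ) * τ + b) / d := rfl

/-- Hermite normal form of `diag(d, 1) · γ`, in terms of the action on `ℍ`. -/
theorem exists_hnf_scale (d : ℕ) (hd : 0 < d) (γ : SL(2, ℤ)) :
    ∃ (δ : SL(2, ℤ)) (a d' : ℕ) (b : ℤ) (ha : 0 < a) (hd' : 0 < d'), a * d' = d ∧
      γ 1 0 = δ 1 0 * a ∧
      ∀ (τ ψτ : ℍ), (ψτ : ℂ) = d * ((γ • τ : ℍ) : ℂ) → ψτ = δ • affineMap a d' b ha hd' τ := by
  have hdet : (!![(d : ℤ) * γ 0 0, (d : ℤ) * γ 0 1; γ 1 0, γ 1 1] : Matrix (Fin 2) (Fin 2) ℤ).det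
      = d := by
    rw [Matrix.det_fin_two_of]
    have := γ.det_coe
    rw [Matrix.det_fin_two] at this
    linear_combination (d : ℤ) * this
  obtain ⟨δ, a, b, d', ha, hd', had, hA⟩ := exists_hnf
    (!![(d : ℤ) * γ 0 0, (d : ℤ) * γ 0 1; γ 1 0, γ 1 1]) (by rw [hdet]; exact_mod_cast hd)
  rw [hdet] at had
  have e00 := congr_fun (congr_fun hA 0) 0
  have e01 := congr_fun (congr_fun hA 0) 1
  have e10 := congr_fun (congr_fun hA 1) 0
  have e11 := congr_fun (congr_fun hA 1) 1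
  simp [Matrix.mul_apply, Fin.sum_univ_two] at e00 e01 e10 e11
  lift a to ℕ using ha.le
  lift d' to ℕ using hd'.le
  have ha' : 0 < a := by exact_mod_cast ha
  have hd'' : 0 < d' := by exact_mod_cast hd'
  refine ⟨δ, a, d', b, ha', hd'', by exact_mod_cast had, e10, ?_⟩
  intro τ ψτ hψ
  apply UpperHalfPlane.ext
  rw [hψ, UpperHalfPlane.coe_specialLinearGroup_apply, UpperHalfPlane.coe_specialLinearGroup_apply,
    coe_affineMap]
  have hden1 : ((algebraMap ℤ ℝ (γ 1 0) : ℝ) : ℂ) * τ + ((algebraMap ℤ ℝ (γ 1 1) : ℝ) : ℂ) ≠ 0 := by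
    have := UpperHalfPlane.denom_ne_zero (Matrix.SpecialLinearGroup.mapGL ℝ γ) τ
    simpa [UpperHalfPlane.denom] using this
  have hden2 : ((algebraMap ℤ ℝ (δ 1 0) : ℝ) : ℂ) * (((a : ℂ) * τ + b) / d')
      + ((algebraMap ℤ ℝ (δ 1 1) : ℝ) : ℂ) ≠ 0 := by
    have := UpperHalfPlane.denom_ne_zero (Matrix.SpecialLinearGroup.mapGL ℝ δ)
      (affineMap a d' b ha' hd'' τ)
    simpa [UpperHalfPlane.denom, coe_affineMap] using this
  have hd'0 : (d' : ℂ) ≠ 0 := by exact_mod_cast hd''.ne'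
  have c00 : (d : ℂ) * (γ 0 0 : ℂ) = (δ 0 0 : ℂ) * a := by exact_mod_cast e00
  have c01 : (d : ℂ) * (γ 0 1 : ℂ) = (δ 0 0 : ℂ) * b + (δ 0 1 : ℂ) * d' := by exact_mod_cast e01
  have c10 : (γ 1 0 : ℂ) = (δ 1 0 : ℂ) * a := by exact_mod_cast e10
  have c11 : (γ 1 1 : ℂ) = (δ 1 0 : ℂ) * b + (δ 1 1 : ℂ) * d' := by exact_mod_cast e11
  simp only [algebraMap_int_eq, Int.coe_castRingHom, Complex.ofReal_intCast] at hden1 hden2 ⊢
  have hden2' : (δ 1 0 : ℂ) * ((a : ℂ) * τ + b) + (δ 1 1 : ℂ) * d' ≠ 0 := by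
    intro h0
    apply hden2
    have : (δ 1 0 : ℂ) * (((a : ℂ) * τ + b) / d') + (δ 1 1 : ℂ)
        = ((δ 1 0 : ℂ) * ((a : ℂ) * τ + b) + (δ 1 1 : ℂ) * d') / d' := by
      field_simp
    rw [this, h0, zero_div]
  rw [mul_div_assoc', div_eq_div_iff hden1 hden2]
  field_simp
  rw [c10, c11]
  linear_combination ((δ 1 0 : ℂ) * ((a : ℂ) * τ + b) + (δ 1 1 : ℂ) * d') * (τ * c00 + c01)

/-- roots of unity of `ℂ` lie in the image of any algebraically closed subfield -/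
theorem exists_preimage_of_pow_eq_one {K : Type*} [Field K] [IsAlgClosed K] [CharZero K]
    (ι : K →+* ℂ) (d : ℕ) (hd : 0 < d) (ξ : ℂ) (hξ : ξ ^ d = 1) : ∃ ζ : K, ι ζ = ξ := by
  have : NeZero (d : K) := ⟨by exact_mod_cast hd.ne'⟩
  have : NeZero d := ⟨hd.ne'⟩
  obtain ⟨ζ₀, hζ₀⟩ := HasEnoughRootsOfUnity.exists_primitiveRoot K d
  have h1 : IsPrimitiveRoot (ι ζ₀) d := hζ₀.map_of_injective ι.injective
  obtain ⟨i, -, hi⟩ := h1.eq_pow_of_pow_eq_one hξ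
  exact ⟨ζ₀ ^ i, by rw [map_pow, hi]⟩

theorem coeffMap_coeffEmb_eq {K : Type*} [Field K] [CharZero K] (ι : K →+* ℂ)
    (x : LaurentSeries ℚ) :
    ModularCurve.coeffMap ι (ModularCurve.coeffEmb K x) = ModularCurve.coeffEmb ℂ x := by
  rw [ModularCurve.coeffEmb, ModularCurve.coeffMap_coeffMap, ModularCurve.coeffEmb]
  exact ModularCurve.coeffMap_congr (Subsingleton.elim _ _) x

/-- the expansion of `j ((a τ + b) / d')` at level `d' * e` -/
theorem isExp_jFun_affine (a d' e : ℕ) (b : ℤ) (ha : 0 < a) (hd' : 0 < d') [NeZero a] [NeZero e] :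
    IsExp (1 * d' * e) (ModularCurve.qExpand ℂ e (ModularCurve.qExpand ℂ a
      (dmul (fun n => cexp (2 * π * I * b / (((1 : ℕ) : ℂ) * d')) ^ n)
        (ModularCurve.coeffEmb ℂ ModularCurve.jq))))
      (fun τ => jFun (affineMap a d' b ha hd' τ)) :=
  (isExp_jFun.comp_affine a d' b (affineMap a d' b ha hd')
    (fun τ => coe_affineMap a d' b ha hd' τ)).change_level e

/-- **JA1** -/
theorem exists_isExp_jFun_scale {K : Type*} [Field K] [IsAlgClosed K] [CharZero K] (ι : K →+* ℂ)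
    (N d : ℕ) [NeZero N] (hd : d ∣ N) (γ : SL(2, ℤ)) (ψ : ℍ → ℍ)
    (hψ : ∀ τ : ℍ, ((ψ τ : ℍ) : ℂ) = d * ((γ • τ : ℍ) : ℂ)) :
    ∃ x : LaurentSeries K, IsExp N (ModularCurve.coeffMap ι x) (fun τ => jFun (ψ τ)) := by
  have hN : 0 < N := Nat.pos_of_ne_zero (NeZero.ne N)
  have hdpos : 0 < d := Nat.pos_of_dvd_of_pos hd hN
  obtain ⟨δ, a, d', b, ha, hd', had, -, hact⟩ := exists_hnf_scale d hdpos γ
  have hj : ∀ τ, jFun (affineMap a d' b ha hd' τ) = jFun (ψ τ) := by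
    intro τ
    rw [hact τ (ψ τ) (hψ τ), jFun_smul]
  have hd'N : d' ∣ N := (Dvd.intro_left a had).trans hd
  obtain ⟨e, he⟩ := hd'N
  have he0 : e ≠ 0 := by
    rintro rfl
    simp at he
    exact hN.ne' he
  have : NeZero a := ⟨ha.ne'⟩
  have : NeZero e := ⟨he0⟩
  have h2 := (isExp_jFun_affine a d' e b ha hd').congr hj
  have hlev : 1 * d' * e = N := by rw [one_mul, he]
  rw [hlev] at h2
  obtain ⟨ζ, hζ⟩ := exists_preimage_of_pow_eq_one ι d' hd'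
    (cexp (2 * π * I * b / (((1 : ℕ) : ℂ) * d'))) (by
      rw [← Complex.exp_nat_mul, Complex.exp_eq_one_iff]
      refine ⟨b, ?_⟩
      have : (d' : ℂ) ≠ 0 := by exact_mod_cast hd'.ne'
      push_cast
      field_simp)
  refine ⟨ModularCurve.qExpand K e (ModularCurve.qExpand K a
    (dmul (fun n => ζ ^ n) (ModularCurve.coeffEmb K ModularCurve.jq))), ?_⟩
  rw [ModularCurve.coeffMap_qExpand, ModularCurve.coeffMap_qExpand, coeffMap_dmul,
    coeffMap_coeffEmb_eq]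
  simp only [map_zpow₀, hζ]
  exact h2

/-- **JA3** -/
theorem jFun_scale_eq_of_mem_Gamma0 (N d : ℕ) [NeZero N] (hd : d ∣ N) (g : SL(2, ℤ))
    (hg : g ∈ CongruenceSubgroup.Gamma0 N) (ψ ψ' : ℍ → ℍ)
    (hψ : ∀ τ : ℍ, ((ψ τ : ℍ) : ℂ) = d * ((g • τ : ℍ) : ℂ))
    (hψ' : ∀ τ : ℍ, ((ψ' τ : ℍ) : ℂ) = d * τ) (τ : ℍ) :
    jFun (ψ τ) = jFun (ψ' τ) := by
  have hN : 0 < N := Nat.pos_of_ne_zero (NeZero.ne N)
  have hdpos : 0 < d := Nat.pos_of_dvd_of_pos hd hN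
  rw [CongruenceSubgroup.Gamma0_mem] at hg
  have hNg : (N : ℤ) ∣ g 1 0 := (ZMod.intCast_zmod_eq_zero_iff_dvd _ _).mp hg
  obtain ⟨c, hc⟩ : (d : ℤ) ∣ g 1 0 := (Int.natCast_dvd_natCast.mpr hd).trans hNg
  have hdet := g.det_coe
  rw [Matrix.det_fin_two] at hdet
  obtain ⟨g', hg'⟩ : ∃ g' : SL(2, ℤ),
      (g' : Matrix (Fin 2) (Fin 2) ℤ) = !![g 0 0, d * g 0 1; c, g 1 1] :=
    ⟨⟨!![g 0 0, d * g 0 1; c, g 1 1], by
      rw [Matrix.det_fin_two_of]
      rw [hc] at hdet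
      linear_combination hdet⟩, rfl⟩
  have key : ψ τ = g' • ψ' τ := by
    apply UpperHalfPlane.ext
    rw [hψ, UpperHalfPlane.coe_specialLinearGroup_apply,
      UpperHalfPlane.coe_specialLinearGroup_apply, hψ']
    have e00 : g' 0 0 = g 0 0 := by
      show (g' : Matrix (Fin 2) (Fin 2) ℤ) 0 0 = _; rw [hg']; rfl
    have e01 : g' 0 1 = d * g 0 1 := by
      show (g' : Matrix (Fin 2) (Fin 2) ℤ) 0 1 = _; rw [hg']; rfl
    have e10 : g' 1 0 = c := by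
      show (g' : Matrix (Fin 2) (Fin 2) ℤ) 1 0 = _; rw [hg']; rfl
    have e11 : g' 1 1 = g 1 1 := by
      show (g' : Matrix (Fin 2) (Fin 2) ℤ) 1 1 = _; rw [hg']; rfl
    rw [e00, e01, e10, e11, hc]
    have hden1 : ((algebraMap ℤ ℝ (g 1 0) : ℝ) : ℂ) * τ + ((algebraMap ℤ ℝ (g 1 1) : ℝ) : ℂ) ≠ 0 := by
      have := UpperHalfPlane.denom_ne_zero (Matrix.SpecialLinearGroup.mapGL ℝ g) τ
      simpa [UpperHalfPlane.denom] using this
    rw [hc] at hden1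
    simp only [algebraMap_int_eq, Int.coe_castRingHom, Complex.ofReal_intCast, Int.cast_mul,
      Int.cast_natCast] at hden1 ⊢
    push_cast at hden1 ⊢
    have hden2 : (c : ℂ) * ((d : ℂ) * τ) + (g 1 1 : ℂ) ≠ 0 := by
      intro h0
      apply hden1
      rw [← h0]
      ring
    rw [mul_div_assoc', div_eq_div_iff hden1 hden2]
    ring
  rw [key, jFun_smul]

/-- **JA2** -/
theorem mem_Gamma0_of_jFun_scale_eq (N : ℕ) [NeZero N] (g : SL(2, ℤ)) (ψ ψ' : ℍ → ℍ)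
    (hψ : ∀ τ : ℍ, ((ψ τ : ℍ) : ℂ) = N * ((g • τ : ℍ) : ℂ))
    (hψ' : ∀ τ : ℍ, ((ψ' τ : ℍ) : ℂ) = N * τ)
    (h : ∀ τ, jFun (ψ τ) = jFun (ψ' τ)) : g ∈ CongruenceSubgroup.Gamma0 N := by
  have hN : 0 < N := Nat.pos_of_ne_zero (NeZero.ne N)
  obtain ⟨δ, a, d', b, ha, hd', had, hg10, hact⟩ := exists_hnf_scale N hN g
  have hj : ∀ τ, jFun (affineMap a d' b ha hd' τ) = jFun (ψ' τ) := by
    intro τ
    rw [← h τ, hact τ (ψ τ) (hψ τ), jFun_smul]
  have hj' : ∀ τ, jFun (affineMap N 1 0 hN one_pos τ) = jFun (ψ' τ) := by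
    intro τ
    congr 1
    apply UpperHalfPlane.ext
    rw [coe_affineMap, hψ']
    simp
  have : NeZero a := ⟨ha.ne'⟩
  have h1 := (isExp_jFun_affine a d' a b ha hd').congr hj
  have h2 := (isExp_jFun_affine N 1 N 0 hN one_pos).congr hj'
  have hlev1 : 1 * d' * a = N := by rw [one_mul, mul_comm, had]
  have hlev2 : 1 * 1 * N = N := by simp
  rw [hlev1] at h1
  rw [hlev2] at h2
  have huniq := h1.unique hN h2
  -- compare the coefficients at `-N²`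
  have hc2 : (ModularCurve.qExpand ℂ N (ModularCurve.qExpand ℂ N
      (dmul (fun n => cexp (2 * π * I * (0 : ℤ) / (((1 : ℕ) : ℂ) * (1 : ℕ))) ^ n)
        (ModularCurve.coeffEmb ℂ ModularCurve.jq)))).coeff ((N : ℤ) * ((N : ℤ) * (-1))) = 1 := by
    rw [ModularCurve.qExpand_coeff_mul, ModularCurve.qExpand_coeff_mul, dmul_coeff,
      ModularCurve.coeffEmb_coeff, ModularCurve.coeff_jq_neg_one]
    simp
  have hidx : (N : ℤ) * ((N : ℤ) * (-1)) = (a : ℤ) * ((a : ℤ) * (-((d' : ℤ) * d'))) := by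
    have : (N : ℤ) = a * d' := by exact_mod_cast had.symm
    rw [this]
    ring
  have hc1 : d' ≠ 1 → (ModularCurve.qExpand ℂ a (ModularCurve.qExpand ℂ a
      (dmul (fun n => cexp (2 * π * I * b / (((1 : ℕ) : ℂ) * d')) ^ n)
        (ModularCurve.coeffEmb ℂ ModularCurve.jq)))).coeff ((N : ℤ) * ((N : ℤ) * (-1))) = 0 := by
    intro hne
    rw [hidx, ModularCurve.qExpand_coeff_mul, ModularCurve.qExpand_coeff_mul, dmul_coeff,
      ModularCurve.coeffEmb_coeff, ModularCurve.coeff_jq_of_lt]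
    · simp
    · have h2' : 2 ≤ d' := by omega
      have : (2 : ℤ) ≤ d' := by exact_mod_cast h2'
      nlinarith
  have hd1 : d' = 1 := by
    by_contra hne
    have := hc1 hne
    rw [huniq, hc2] at this
    exact one_ne_zero this
  subst hd1
  rw [mul_one] at had
  subst had
  rw [CongruenceSubgroup.Gamma0_mem, hg10]
  simp

end Fermat.Agent.FF
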