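import Mathlib
import Fermat.Agent.FF.Interface

/-!
# S24 item 69-REAL-alg: generators of `modularFunctionFieldBar N`, transcendence of `j`
-/

set_option autoImplicit false

open IntermediateField HahnSeries

namespace Fermat.Agent.FF

section CoeffEmb

variable (L : Type*) [Field L] [Algebra ℚ L]

theorem coeffEmb_algebraMap (c : ℚ) :
    ModularCurve.coeffEmb L (algebraMap ℚ (LaurentSeries ℚ) c)
      = algebraMap L (LaurentSeries L) (algebraMap ℚ L c) := by
  rw [ModularCurve.algebraMap_apply_eq_single, ModularCurve.algebraMap_laurentSeries_eq_single,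
    ModularCurve.coeffEmb, ModularCurve.coeffMap_single]

/-- the image under `coeffEmb` of `adjoin ℚ s` lies in `adjoin L (coeffEmb '' s)` -/
theorem coeffEmb_mem_adjoin_image (s : Set (LaurentSeries ℚ)) {x : LaurentSeries ℚ}
    (hx : x ∈ IntermediateField.adjoin ℚ s) :
    ModularCurve.coeffEmb L x ∈ IntermediateField.adjoin L (⇑(ModularCurve.coeffEmb L) '' s) := by
  induction hx using IntermediateField.adjoin_induction with
  | mem y hy => exact IntermediateField.subset_adjoin L _ ⟨y, hy, rfl⟩
  | algebraMap c =>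
    rw [coeffEmb_algebraMap]
    exact IntermediateField.algebraMap_mem _ _
  | add y z _ _ hy hz =>
    rw [map_add]
    exact add_mem hy hz
  | inv y _ hy =>
    rw [map_inv₀]
    exact inv_mem hy
  | mul y z _ _ hy hz =>
    rw [map_mul]
    exact mul_mem hy hz

theorem laurentBaseChange_adjoin (s : Set (LaurentSeries ℚ)) :
    ModularCurve.laurentBaseChange L (IntermediateField.adjoin ℚ s)
      = IntermediateField.adjoin L (⇑(ModularCurve.coeffEmb L) '' s) := by
  apply le_antisymm
  · unfold ModularCurve.laurentBaseChange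
    rw [IntermediateField.adjoin_le_iff]
    rintro _ ⟨x, hx, rfl⟩
    exact coeffEmb_mem_adjoin_image L s hx
  · apply IntermediateField.adjoin.mono
    rintro _ ⟨x, hx, rfl⟩
    exact ⟨x, IntermediateField.subset_adjoin ℚ _ hx, rfl⟩

end CoeffEmb

theorem modularFunctionFieldBar_eq_adjoin (N : ℕ) [NeZero N] :
    ModularCurve.modularFunctionFieldBar N = IntermediateField.adjoin (AlgebraicClosure ℚ)
      {x | ∃ (d : ℕ) (_ : NeZero d), d ∣ N ∧
        x = ModularCurve.coeffEmb (AlgebraicClosure ℚ) (ModularCurve.qExpand ℚ d ModularCurve.jq)} := by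
  unfold ModularCurve.modularFunctionFieldBar ModularCurve.modularFunctionFieldFull
  rw [laurentBaseChange_adjoin]
  congr 1
  ext x
  constructor
  · rintro ⟨y, ⟨d, hd, hdN, rfl⟩, rfl⟩
    exact ⟨d, hd, hdN, rfl⟩
  · rintro ⟨d, hd, hdN, rfl⟩
    exact ⟨_, ⟨d, hd, hdN, rfl⟩, rfl⟩

section Transcendental

variable (L : Type*) [Field L] [Algebra ℚ L]

theorem coeff_coeffEmb_jq_pow_self (n : ℕ) :
    ((ModularCurve.coeffEmb L ModularCurve.jq) ^ n).coeff (-(n : ℤ)) = 1 := by
  rw [← map_pow, ModularCurve.coeffEmb_coeff, ModularCurve.coeff_jq_pow_self, map_one]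

theorem coeff_coeffEmb_jq_pow_of_lt {n : ℕ} {m : ℤ} (hm : m < -(n : ℤ)) :
    ((ModularCurve.coeffEmb L ModularCurve.jq) ^ n).coeff m = 0 := by
  rw [← map_pow, ModularCurve.coeffEmb_coeff, ModularCurve.coeff_jq_pow_of_lt hm, map_zero]

/-- the coefficient of `P(j)` at `-deg P` is the leading coefficient of `P` -/
theorem coeff_aeval_coeffEmb_jq (p : Polynomial L) :
    (Polynomial.aeval (ModularCurve.coeffEmb L ModularCurve.jq) p).coeff (-(p.natDegree : ℤ))
      = p.leadingCoeff := by
  rw [Polynomial.aeval_eq_sum_range, HahnSeries.coeff_sum,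
    Finset.sum_eq_single_of_mem p.natDegree (Finset.self_mem_range_succ _)]
  · rw [Algebra.smul_def, ModularCurve.algebraMap_laurentSeries_eq_single,
      HahnSeries.coeff_single_mul, sub_zero, coeff_coeffEmb_jq_pow_self,
      mul_one, Polynomial.coeff_natDegree]
  · intro i hi hne
    rw [Algebra.smul_def, ModularCurve.algebraMap_laurentSeries_eq_single,
      HahnSeries.coeff_single_mul, sub_zero, coeff_coeffEmb_jq_pow_of_lt, mul_zero]
    have : i < p.natDegree := lt_of_le_of_ne (Nat.lt_succ_iff.mp (Finset.mem_range.mp hi)) hne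
    omega

theorem transcendental_coeffEmb_jq :
    Transcendental L (ModularCurve.coeffEmb L ModularCurve.jq) := by
  rintro ⟨p, hp0, hp⟩
  have := coeff_aeval_coeffEmb_jq L p
  rw [hp, HahnSeries.coeff_zero] at this
  exact hp0 (Polynomial.leadingCoeff_eq_zero.mp this.symm)

end Transcendental

theorem transcendental_jBar (N : ℕ) [NeZero N] :
    Transcendental (AlgebraicClosure ℚ) (jBar N) := by
  intro h
  apply transcendental_coeffEmb_jq (AlgebraicClosure ℚ)
  have h2 : IsAlgebraic (AlgebraicClosure ℚ)
      (algebraMap ↥(ModularCurve.modularFunctionFieldBar N)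
        (LaurentSeries (AlgebraicClosure ℚ)) (jBar N)) :=
    h.algebraMap
  exact h2

end Fermat.Agent.FF
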