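import Mathlib
import Fermat.Agent.FF.ModField
import Fermat.Agent.FF.ModJA
import Fermat.Agent.FF.ModRealAlg

/-!
# S24 item 69 (WP-D), part 5: realisation of the function field `F_N` inside `L = Frac (modRing N)`
-/

set_option autoImplicit false

open UpperHalfPlane hiding I
open Function Complex
open scoped Real MatrixGroups Manifold

namespace Fermat.Agent.FF

/-- `τ ↦ dτ` on the upper half plane -/
noncomputable def scaleH (d : ℕ) [NeZero d] (τ : ℍ) : ℍ :=
  ⟨(d : ℂ) * τ, by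
    have hd : (0 : ℝ) < d := by exact_mod_cast Nat.pos_of_ne_zero (NeZero.ne d)
    simpa using mul_pos hd τ.im_pos⟩

@[simp] theorem coe_scaleH (d : ℕ) [NeZero d] (τ : ℍ) : ((scaleH d τ : ℍ) : ℂ) = d * τ := rfl

instance instAlgClosedKbar : IsAlgClosed Kbar := inferInstance

section jR

variable (N : ℕ) [NeZero N]

/-- `j(dτ)` as an element of `modRing N`, for `d ∣ N` -/
noncomputable def jR (d : ℕ) [NeZero d] (hd : d ∣ N) : RN N :=
  ⟨fun τ => jFun (scaleH d τ), mdiff_jFun_scale d (scaleH d) (fun τ => rfl), fun γ =>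
    exists_isExp_jFun_scale iotaK N d hd γ (fun τ => scaleH d (γ • τ)) (fun τ => rfl)⟩

@[simp] theorem jR_apply (d : ℕ) [NeZero d] (hd : d ∣ N) (τ : ℍ) :
    ((jR N d hd : RN N) : ℍ → ℂ) τ = jFun (scaleH d τ) := rfl

/-- the formal `q`-expansion of `j(dτ)` over `ℚ̄` -/
noncomputable def Jd (d : ℕ) [NeZero d] : LaurentSeries Kbar :=
  ModularCurve.coeffEmb Kbar (ModularCurve.qExpand ℚ d ModularCurve.jq)

theorem expInf_jR (d : ℕ) [NeZero d] (hd : d ∣ N) :
    expInf N (jR N d hd) = ModularCurve.qExpand Kbar N (Jd d) := by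
  apply expInf_eq
  show IsExp N (iotaL (ModularCurve.qExpand Kbar N (Jd d))) _
  have h1 := isExp_jFun.comp_affine d 1 0 (scaleH d) (fun τ => by simp)
  have h2 : dmul (fun n : ℤ => cexp (2 * π * I * ((0 : ℤ) : ℂ) / (((1 : ℕ) : ℂ) * ((1 : ℕ) : ℂ))) ^ n)
      (ModularCurve.coeffEmb ℂ ModularCurve.jq) = ModularCurve.coeffEmb ℂ ModularCurve.jq := by
    ext n
    simp
  rw [h2] at h1
  have h3 := h1.change_level N
  have h4 : iotaL (ModularCurve.qExpand Kbar N (Jd d)) =
      ModularCurve.qExpand ℂ N (ModularCurve.qExpand ℂ d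
        (ModularCurve.coeffEmb ℂ ModularCurve.jq)) := by
    rw [iotaL, ModularCurve.coeffMap_qExpand, Jd]
    congr 1
    rw [← iotaL, iotaL_coeffEmb]
    exact ModularCurve.coeffMap_qExpand (algebraMap ℚ ℂ) d ModularCurve.jq
  rw [h4]
  have h5 : (1 : ℕ) * 1 * N = N := by simp
  rw [h5] at h3
  exact h3

theorem compSL_jR (d : ℕ) [NeZero d] (hd : d ∣ N) (γ : SL(2, ℤ))
    (hγ : γ ∈ CongruenceSubgroup.Gamma0 N) : compSL N γ (jR N d hd) = jR N d hd := by
  apply RN.ext
  intro τ
  exact jFun_scale_eq_of_mem_Gamma0 N d hd γ hγ (fun τ => scaleH d (γ • τ)) (scaleH d)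
    (fun τ => rfl) (fun τ => rfl) τ

end jR

section realisation

variable (N : ℕ) [NeZero N]

/-- A realisation of the function field `F_N` inside `L = Frac (modRing N)`. -/
structure Realisation where
  /-- the embedding -/
  Φ : FN N →+* LN N
  map_const : ∀ c : Kbar, Φ (algebraMap Kbar (FN N) c) = algebraMap Kbar (LN N) c
  map_jBar : Φ (jBar N) = algebraMap (RN N) (LN N) (jR N 1 (one_dvd N))
  invariant : ∀ γ0 ∈ CongruenceSubgroup.Gamma0 N, ∀ f : FN N, sigmaL N γ0 (Φ f) = Φ f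

variable {N}

/-- the conjugate embeddings `f ↦ (Φ f) ∘ g_i⁻¹`, `g_i` a representative of the coset `i` -/
noncomputable def Realisation.conj (R : Realisation N) (i : X N) : FN N →+* LN N :=
  (sigmaL N (Quotient.out i)⁻¹).comp R.Φ

theorem Realisation.conj_apply (R : Realisation N) (i : X N) (f : FN N) :
    R.conj i f = sigmaL N (Quotient.out i)⁻¹ (R.Φ f) := rfl

/-- the conjugate embedding can be computed with any representative of the coset -/
theorem Realisation.conj_mk (R : Realisation N) (g : SL(2, ℤ)) (f : FN N) :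
    R.conj (QuotientGroup.mk g : X N) f = sigmaL N g⁻¹ (R.Φ f) := by
  rw [R.conj_apply]
  set g' := Quotient.out (QuotientGroup.mk g : X N) with hg'
  have h1 : (QuotientGroup.mk g' : X N) = QuotientGroup.mk g := Quotient.out_eq _
  have h2 : g⁻¹ * g' ∈ CongruenceSubgroup.Gamma0 N := by
    rw [← QuotientGroup.eq]
    exact h1.symm
  -- g'⁻¹ = (g⁻¹ g')⁻¹ g⁻¹
  have h3 : g'⁻¹ = (g⁻¹ * g')⁻¹ * g⁻¹ := by group
  rw [h3, sigmaL_mul, R.invariant _ (inv_mem h2)]

theorem Realisation.conj_smul (R : Realisation N) (h : SL(2, ℤ)) (i : X N) (f : FN N) :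
    R.conj (h • i) f = sigmaL N h⁻¹ (R.conj i f) := by
  obtain ⟨g, rfl⟩ := QuotientGroup.mk_surjective i
  have : h • (QuotientGroup.mk g : X N) = QuotientGroup.mk (h * g) := rfl
  rw [this, R.conj_mk, R.conj_mk, ← sigmaL_mul, mul_inv_rev]

end realisation

end Fermat.Agent.FF
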