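import Mathlib
import Fermat.Agent.FF.ModField
import Fermat.Agent.FF.ModReal
import Fermat.Agent.FF.ModConj
import Fermat.Agent.FF.ModPoly
import Fermat.Agent.FF.ModPK
import Fermat.Agent.FF.ModOrbits
import Fermat.Agent.FF.ModCusp
import Fermat.Agent.FF.AnalyticJC3
import Fermat.Agent.FF.JqExpansion
import Fermat.Agent.FF.ModRealAlg

/-!
# S24 item 69-FIN (helper5): assembly of `ModularOrdData N`

From a realisation `R : Realisation N` of the function field `F_N` inside
`L = Frac (modRing N)`, the descent `hcoef` of the characteristic polynomials of the conjugates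
and an element `θ` with pairwise distinct conjugates, we assemble `ModularOrdData N`.
-/

set_option autoImplicit false
set_option linter.unusedSectionVars false

open UpperHalfPlane hiding I
open IntermediateField CongruenceSubgroup
open scoped MatrixGroups Manifold

namespace Fermat.Agent.FF

namespace Realisation

variable {N : ℕ} [NeZero N] (R : Realisation N)

theorem scaleH_one (τ : ℍ) : scaleH 1 τ = τ := by
  apply UpperHalfPlane.ext
  simp

theorem jR_one_apply (τ : ℍ) : ((jR N 1 (one_dvd N) : RN N) : ℍ → ℂ) τ = jFun τ := by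
  rw [jR_apply, scaleH_one]

theorem compSL_jR_one (γ : SL(2, ℤ)) :
    compSL N γ (jR N 1 (one_dvd N)) = jR N 1 (one_dvd N) := by
  apply RN.ext
  intro τ
  rw [compSL_apply, jR_one_apply, jR_one_apply, jFun_smul]

theorem conj_const (i : X N) (c : Kbar) :
    R.conj i (algebraMap Kbar (FN N) c) = algebraMap Kbar (LN N) c := by
  rw [R.conj_apply, R.map_const, sigmaL_const]

theorem conj_j (i : X N) :
    R.conj i (jBar N) = algebraMap (RN N) (LN N) (jR N 1 (one_dvd N)) := by
  rw [R.conj_apply, R.map_jBar, sigmaL_algebraMap, compSL_jR_one]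

/-- fixed cosets give invariant conjugates -/
theorem sigmaL_conj_of_smul_eq {h : SL(2, ℤ)} {i : X N} (hi : h • i = i) (f : FN N) :
    sigmaL N h (R.conj i f) = R.conj i f := by
  have h1 := R.conj_smul h i f
  rw [hi] at h1
  conv_lhs => rw [h1]
  rw [← sigmaL_mul, inv_mul_cancel, sigmaL_one]

theorem conj_ne_zero (i : X N) {f : FN N} (hf : f ≠ 0) : R.conj i f ≠ 0 :=
  (map_ne_zero (R.conj i)).mpr hf

/-- the function `j - a` as an element of `modRing N` -/
theorem coe_jR_sub (a : Kbar) :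
    ((jR N 1 (one_dvd N) - algebraMap Kbar (RN N) a : RN N) : ℍ → ℂ) =
      fun τ => jFun τ - iotaK a := by
  funext τ
  show ((jR N 1 (one_dvd N) : RN N) : ℍ → ℂ) τ -
    ((algebraMap Kbar (RN N) a : RN N) : ℍ → ℂ) τ = _
  rw [jR_one_apply, algebraMap_RN_apply]

theorem conj_j_sub (i : X N) (a : Kbar) :
    R.conj i (jBar N - algebraMap Kbar (FN N) a) =
      algebraMap (RN N) (LN N) (jR N 1 (one_dvd N) - algebraMap Kbar (RN N) a) := by
  rw [map_sub, R.conj_j, R.conj_const, map_sub,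
    ← IsScalarTower.algebraMap_apply Kbar (RN N) (LN N)]

/-- the order of `j - a` at a point `τ₀` over `a`, for every conjugate -/
theorem ordFin_conj_j_sub (i : X N) (a : Kbar) (τ₀ : ℍ) (m : ℕ)
    (hm : analyticOrderAt (fun z => jFun (ofComplex z) - iotaK a) (τ₀ : ℂ) = m) :
    ordFin N τ₀ (R.conj i (jBar N - algebraMap Kbar (FN N) a)) = m := by
  have hfun : ((jR N 1 (one_dvd N) - algebraMap Kbar (RN N) a : RN N) : ℍ → ℂ) ∘ ofComplex =
      fun z => jFun (ofComplex z) - iotaK a := by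
    rw [coe_jR_sub]
    rfl
  have hne : (jR N 1 (one_dvd N) - algebraMap Kbar (RN N) a : RN N) ≠ 0 := by
    intro h0
    have h1 : ((jR N 1 (one_dvd N) - algebraMap Kbar (RN N) a : RN N) : ℍ → ℂ) = 0 := by
      rw [h0]; rfl
    have h2 : analyticOrderAt (fun z => jFun (ofComplex z) - iotaK a) (τ₀ : ℂ) = ⊤ := by
      rw [← hfun, h1, analyticOrderAt_eq_top]
      exact Filter.Eventually.of_forall (fun z => rfl)
    rw [h2] at hm
    exact ENat.top_ne_natCast m hm
  rw [R.conj_j_sub, ordFin_algebraMap τ₀ hne]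
  apply ordAt_eq_of_analyticOrderAt
  rw [hfun]
  exact hm

section Finite

variable [Fintype (X N)]
  (hcoef : ∀ f : FN N, ∃ P : Polynomial ↥Kbar⟮jBar N⟯, P.Monic ∧
    ∀ i0 : X N, P.map ((R.conj i0).comp (algebraMap ↥Kbar⟮jBar N⟯ (FN N))) =
      ∏ i : X N, (Polynomial.X - Polynomial.C (R.conj i f)))

include hcoef

/-- **`OrdDataAt` at a finite point** `τ₀` over `a`, given the orbit/divisibility clause. -/
theorem ordDataAt_fin (a : Kbar) (τ₀ : ℍ) (H : Subgroup SL(2, ℤ)) (m : ℕ)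
    (hm : analyticOrderAt (fun z => jFun (ofComplex z) - iotaK a) (τ₀ : ℂ) = m)
    (hH : ∀ h ∈ H, h • τ₀ = τ₀)
    (h3 : ∀ i : X N, ∃ r : ℕ, r * Nat.card (MulAction.orbit H i) = m ∧
      ∀ f : FN N, f ≠ 0 → (r : ℤ) ∣ ordFin N τ₀ (R.conj i f)) :
    OrdDataAt N (jBar N) a H m := by
  refine ordDataAt_of N (jBar N) a H m R.conj (ordFin N τ₀) ?_ ?_ ?_ h3 hcoef
  · intro i c hc
    rw [R.conj_const]
    exact (ordFin N τ₀).map_const' c hc
  · intro i
    exact R.ordFin_conj_j_sub i a τ₀ m hm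
  · intro h i f
    have h1 : (h • i : X N) = (h : SL(2, ℤ)) • i := rfl
    rw [h1, R.conj_smul, ordFin_sigmaL]
    have h2 : (h : SL(2, ℤ))⁻¹ • τ₀ = τ₀ := hH _ (inv_mem h.2)
    rw [h2]

omit [Fintype (X N)] hcoef in
theorem card_orbit_bot (i : X N) :
    Nat.card (MulAction.orbit (⊥ : Subgroup SL(2, ℤ)) i) = 1 := by
  rw [Nat.card_eq_one_iff_unique]
  refine ⟨⟨?_⟩, ⟨⟨i, MulAction.mem_orbit_self i⟩⟩⟩
  rintro ⟨x, ⟨h, rfl⟩⟩ ⟨y, ⟨h', rfl⟩⟩
  have e1 : h = 1 := Subsingleton.elim _ _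
  have e2 : h' = 1 := Subsingleton.elim _ _
  subst e1 e2
  rfl

/-- generic points -/
theorem ordDataAt_generic (a : Kbar) (ha0 : a ≠ 0) (ha1 : a ≠ 1728) :
    OrdDataAt N (jBar N) a ⊥ 1 := by
  obtain ⟨τ₀, hτ⟩ := jFun_surjective (iotaK a)
  have h0 : iotaK a ≠ 0 := (map_ne_zero iotaK).mpr ha0
  have h1 : iotaK a ≠ 1728 := by
    intro h
    apply ha1
    apply iotaK_injective
    rw [h, map_ofNat]
  refine R.ordDataAt_fin hcoef a τ₀ ⊥ 1 (by simpa using jFun_order_generic hτ h0 h1)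
    (fun h hh => by rw [Subgroup.mem_bot.mp hh, one_smul])
    (fun i => ⟨1, by rw [card_orbit_bot], fun f _ => one_dvd _⟩)

/-- the point `ρ` over `0` -/
theorem ordDataAt_zero :
    OrdDataAt N (jBar N) 0 (Subgroup.zpowers (ModularGroup.S * ModularGroup.T)) 3 := by
  obtain ⟨τ₀, hfix, -, hord⟩ := exists_ST_fixed_order_three
  have hH : ∀ h ∈ Subgroup.zpowers (ModularGroup.S * ModularGroup.T), h • τ₀ = τ₀ := by
    intro h hh
    have : Subgroup.zpowers (ModularGroup.S * ModularGroup.T) ≤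
        MulAction.stabilizer SL(2, ℤ) τ₀ :=
      Subgroup.zpowers_le.mpr (MulAction.mem_stabilizer_iff.mpr hfix)
    exact MulAction.mem_stabilizer_iff.mp (this hh)
  refine R.ordDataAt_fin hcoef 0 τ₀ _ 3 (by simpa using hord) hH (fun i => ?_)
  rcases orbit_ST N i with h | ⟨h, hi⟩
  · exact ⟨1, by rw [h], fun f _ => one_dvd _⟩
  · refine ⟨3, by rw [h], fun f hf => ?_⟩
    exact ordFrac_elliptic_ST (K := Kbar) (evR N) (evR_injective N) (fun r => r.mdiff)
      (evR_const N) (sigmaL N (ModularGroup.S * ModularGroup.T))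
      (compSL N (ModularGroup.S * ModularGroup.T)) (sigmaL_algebraMap _) (fun r τ => rfl) hfix
      (R.conj_ne_zero i hf) (R.sigmaL_conj_of_smul_eq hi f)

/-- the point `i` over `1728` -/
theorem ordDataAt_1728 :
    OrdDataAt N (jBar N) 1728 (Subgroup.zpowers ModularGroup.S) 2 := by
  obtain ⟨τ₀, hfix, -, hord⟩ := exists_S_fixed_order_two
  have hH : ∀ h ∈ Subgroup.zpowers ModularGroup.S, h • τ₀ = τ₀ := by
    intro h hh
    have : Subgroup.zpowers ModularGroup.S ≤ MulAction.stabilizer SL(2, ℤ) τ₀ :=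
      Subgroup.zpowers_le.mpr (MulAction.mem_stabilizer_iff.mpr hfix)
    exact MulAction.mem_stabilizer_iff.mp (this hh)
  have h1728 : iotaK 1728 = 1728 := map_ofNat iotaK 1728
  refine R.ordDataAt_fin hcoef 1728 τ₀ _ 2 (by rw [h1728]; exact hord) hH (fun i => ?_)
  rcases orbit_S N i with h | ⟨h, hi⟩
  · exact ⟨1, by rw [h], fun f _ => one_dvd _⟩
  · refine ⟨2, by rw [h], fun f hf => ?_⟩
    exact ordFrac_elliptic_S (K := Kbar) (evR N) (evR_injective N) (fun r => r.mdiff)
      (evR_const N) (sigmaL N ModularGroup.S) (compSL N ModularGroup.S) (sigmaL_algebraMap _)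
      (fun r τ => rfl) hfix (R.conj_ne_zero i hf) (R.sigmaL_conj_of_smul_eq hi f)

end Finite

section Cusp

omit R in
theorem order_Jd_one : (Jd 1 : LaurentSeries Kbar).order = -1 := by
  have h1 : (Jd 1 : LaurentSeries Kbar) = ModularCurve.coeffEmb Kbar ModularCurve.jq := by
    rw [Jd, ModularCurve.qExpand_one_apply]
  rw [h1]
  apply order_eq_of_coeff
  · rw [ModularCurve.coeffEmb_coeff, ModularCurve.coeff_jq_neg_one, map_one]
    exact one_ne_zero
  · intro m hm
    rw [ModularCurve.coeffEmb_coeff, ModularCurve.coeff_jq_of_lt hm, map_zero]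

omit R in
theorem order_expInf_jR_one : (expInf N (jR N 1 (one_dvd N))).order = -(N : ℤ) := by
  rw [expInf_jR, order_qExpand, order_Jd_one]
  ring

omit R in
theorem jR_one_ne_zero : jR N 1 (one_dvd N) ≠ 0 := by
  intro h
  have h1 := order_expInf_jR_one (N := N)
  rw [h, map_zero, HahnSeries.order_zero] at h1
  have : (N : ℤ) ≠ 0 := by exact_mod_cast NeZero.ne N
  omega

theorem ordCusp_conj_j (i : X N) : ordCusp N (R.conj i (jBar N)) = -(N : ℤ) := by
  rw [R.conj_j, ordCusp_algebraMap jR_one_ne_zero, order_expInf_jR_one]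

omit R in
theorem jBar_ne_zero : jBar N ≠ 0 := by
  intro h
  have h1 := transcendental_jBar N
  rw [h] at h1
  exact h1 (isAlgebraic_zero)

theorem ordCusp_conj_j_inv (i : X N) :
    ordCusp N (R.conj i ((jBar N)⁻¹ - algebraMap Kbar (FN N) 0)) = (N : ℤ) := by
  rw [map_zero, sub_zero, map_inv₀, OrdFn.map_inv _ (R.conj_ne_zero i jBar_ne_zero),
    R.ordCusp_conj_j, neg_neg]

/-- divisibility at the cusp: a `T^k`-invariant element has order divisible by `N / k` -/
theorem dvd_ordCusp_of_invariant {k r : ℕ} (hk : 0 < k) (hkr : N = k * r) {y : LN N}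
    (hy : y ≠ 0) (hfix : sigmaL N (ModularGroup.T ^ k) y = y) : (r : ℤ) ∣ ordCusp N y := by
  have hN : 0 < N := Nat.pos_of_ne_zero (NeZero.ne N)
  obtain ⟨A, B, hB, rfl⟩ := IsFractionRing.div_surjective (A := RN N) y
  have hB0 : B ≠ 0 := nonZeroDivisors.ne_zero hB
  have hA0 : A ≠ 0 := by
    rintro rfl
    exact hy (by simp)
  have hinv := ev_invariant_of_fixed
    (γ := ((ModularGroup.T ^ k : SL(2, ℤ)) : GL (Fin 2) ℝ)) (evR N)
    (sigmaL N (ModularGroup.T ^ k)) (compSL N (ModularGroup.T ^ k)) (sigmaL_algebraMap _)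
    (fun r τ => rfl) hB0 hfix
  have hxA : iotaL (expInf N A) ≠ 0 := fun h =>
    hA0 (expInf_injective N (iotaL_injective (by rw [h, map_zero, map_zero])))
  have hxB : iotaL (expInf N B) ≠ 0 := fun h =>
    hB0 (expInf_injective N (iotaL_injective (by rw [h, map_zero, map_zero])))
  have key := dvd_order_sub_of_translate_invariant hN k (isExpK_expInf N A) (isExpK_expInf N B)
    hxA hxB (fun τ => (ModularGroup.T ^ k : SL(2, ℤ)) • τ) (fun τ => by
      have := ModularGroup.coe_T_zpow_smul_eq (z := τ) (n := (k : ℤ))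
      rw [zpow_natCast] at this
      rw [this]
      push_cast
      ring) hinv
  rw [iotaL_order, iotaL_order] at key
  rw [ordCusp_div hA0 hB0]
  have hk' : (k : ℤ) ≠ 0 := by exact_mod_cast hk.ne'
  have hN' : (N : ℤ) = (k : ℤ) * r := by exact_mod_cast hkr
  rw [hN'] at key
  exact (mul_dvd_mul_iff_left hk').mp key

omit R in
theorem hcoef_transport {F L : Type*} [Field F] [Field L] [Algebra Kbar F] {I : Type*}
    [Fintype I] (Φ : I → (F →+* L)) {E₁ E₂ : IntermediateField Kbar F} (h : E₁ = E₂)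
    (hc : ∀ f : F, ∃ P : Polynomial ↥E₁, P.Monic ∧
      ∀ i0 : I, P.map ((Φ i0).comp (algebraMap ↥E₁ F)) =
        ∏ i : I, (Polynomial.X - Polynomial.C (Φ i f))) :
    ∀ f : F, ∃ P : Polynomial ↥E₂, P.Monic ∧
      ∀ i0 : I, P.map ((Φ i0).comp (algebraMap ↥E₂ F)) =
        ∏ i : I, (Polynomial.X - Polynomial.C (Φ i f)) := by
  subst h
  exact hc

variable [Fintype (X N)]
  (hcoef : ∀ f : FN N, ∃ P : Polynomial ↥Kbar⟮jBar N⟯, P.Monic ∧
    ∀ i0 : X N, P.map ((R.conj i0).comp (algebraMap ↥Kbar⟮jBar N⟯ (FN N))) =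
      ∏ i : X N, (Polynomial.X - Polynomial.C (R.conj i f)))

include hcoef in
/-- the cusp `∞` -/
theorem ordDataAt_inf :
    OrdDataAt N (jBar N)⁻¹ 0 (Subgroup.zpowers ModularGroup.T) N := by
  refine ordDataAt_of N (jBar N)⁻¹ 0 _ N R.conj (ordCusp N) ?_ ?_ ?_ ?_
    (hcoef_transport R.conj (adjoin_simple_inv_eq (K := Kbar) (jBar N)).symm hcoef)
  · intro i c hc
    rw [R.conj_const]
    exact (ordCusp N).map_const' c hc
  · intro i
    exact R.ordCusp_conj_j_inv i
  · rintro ⟨h, hh⟩ i f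
    obtain ⟨k, rfl⟩ := Subgroup.mem_zpowers_iff.mp hh
    have h1 : ((⟨ModularGroup.T ^ k, hh⟩ : Subgroup.zpowers ModularGroup.T) • i : X N) =
        (ModularGroup.T ^ k : SL(2, ℤ)) • i := rfl
    rw [h1, R.conj_smul, ← zpow_neg, ordCusp_sigmaL_T]
  · intro i
    obtain ⟨k, hk0, ⟨r, hr⟩, hcard, hfix⟩ := orbit_T N i
    refine ⟨r, by rw [hcard, hr, mul_comm], fun f hf => ?_⟩
    exact dvd_ordCusp_of_invariant hk0 hr (R.conj_ne_zero i hf)
      (R.sigmaL_conj_of_smul_eq hfix f)

end Cusp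

section Degree

/-- the intermediate field of elements whose image is `SL(2,ℤ)`-invariant -/
def invField : IntermediateField Kbar (FN N) where
  carrier := {c | ∀ g : SL(2, ℤ), sigmaL N g (R.Φ c) = R.Φ c}
  mul_mem' := fun {a b} ha hb g => by
    rw [RingHom.map_mul R.Φ a b, RingHom.map_mul (sigmaL N g), ha g, hb g]
  one_mem' := fun g => by rw [RingHom.map_one R.Φ, RingHom.map_one (sigmaL N g)]
  add_mem' := fun {a b} ha hb g => by
    rw [RingHom.map_add R.Φ a b, RingHom.map_add (sigmaL N g), ha g, hb g]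
  zero_mem' := fun g => by rw [RingHom.map_zero R.Φ, RingHom.map_zero (sigmaL N g)]
  algebraMap_mem' := fun c g => by rw [R.map_const, sigmaL_const]
  inv_mem' := fun c hc g => by
    rw [map_inv₀ R.Φ c, map_inv₀ (sigmaL N g), hc g]

theorem mem_invField {c : FN N} :
    c ∈ R.invField ↔ ∀ g : SL(2, ℤ), sigmaL N g (R.Φ c) = R.Φ c := Iff.rfl

theorem adjoin_jBar_le_invField : Kbar⟮jBar N⟯ ≤ R.invField := by
  rw [adjoin_simple_le_iff, mem_invField]
  intro g
  rw [R.map_jBar, sigmaL_algebraMap, compSL_jR_one]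

/-- all conjugates agree on `ℚ̄(j)` -/
theorem conj_eq_on_adjoin (i j : X N) (c : ↥Kbar⟮jBar N⟯) :
    R.conj i (algebraMap ↥Kbar⟮jBar N⟯ (FN N) c) =
      R.conj j (algebraMap ↥Kbar⟮jBar N⟯ (FN N) c) := by
  have hc : (algebraMap ↥Kbar⟮jBar N⟯ (FN N) c) ∈ R.invField :=
    R.adjoin_jBar_le_invField c.2
  rw [R.conj_apply, R.conj_apply, hc, hc]

end Degree

end Realisation

/-- **69-FIN**: the assembly of `ModularOrdData N` from a realisation, the descent of the
characteristic polynomials and an element with distinct conjugates. -/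
theorem modularOrdData_of_realisation (N : ℕ) [NeZero N] [Fintype (X N)] (R : Realisation N)
    (hcoef : ∀ f : FN N, ∃ P : Polynomial ↥Kbar⟮jBar N⟯, P.Monic ∧
      ∀ i0 : X N, P.map ((R.conj i0).comp (algebraMap ↥Kbar⟮jBar N⟯ (FN N))) =
        ∏ i : X N, (Polynomial.X - Polynomial.C (R.conj i f)))
    (hdist : ∃ θ : FN N, Function.Injective (fun i : X N => R.conj i θ)) :
    ModularOrdData N := by
  obtain ⟨θ, hθ⟩ := hdist
  obtain ⟨hfd, hfr⟩ := finrank_eq_card_of_conjugates R.conj R.conj_eq_on_adjoin hcoef θ hθ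
  exact
    { transc := transcendental_jBar N
      findim := hfd
      finrank_eq := by rw [hfr, Nat.card_eq_fintype_card]
      generic := fun a h0 h1 => R.ordDataAt_generic hcoef a h0 h1
      at_zero := R.ordDataAt_zero hcoef
      at_1728 := R.ordDataAt_1728 hcoef
      at_inf := R.ordDataAt_inf hcoef }

end Fermat.Agent.FF
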