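import Mathlib
import Fermat.Agent.FF.ModRing
import Fermat.Agent.FF.ModPK

/-!
# S24 item 69 (helper9 for helper3): 69-LVL, 69-INV, 69-SYM

* `IsExpK.exists_level_one`  : a 1-periodic function with an expansion in `exp(2πiτ/N)` has an
  expansion in `exp(2πiτ)`;
* `exists_poly_of_invariant` : `SL(2,ℤ)`-invariant elements of `RN N` are polynomials in `jFun`
  with coefficients in `ℚ̄`;
* `normPoly`, `normPoly_map_compSL`, `normPoly_coeff_eq_poly` : the norm polynomial of a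
  `Γ₀(N)`-invariant pair is `SL(2,ℤ)`-invariant.
-/

set_option autoImplicit false
set_option linter.unusedSectionVars false
set_option linter.style.haveILetI false

open UpperHalfPlane hiding I
open Function Complex
open scoped Real MatrixGroups Manifold

namespace Fermat.Agent.FF

/-- **69-LVL**: a 1-periodic function with an expansion in `exp(2πiτ/N)` has an expansion in
`exp(2πiτ)`. -/
theorem IsExpK.exists_level_one {N : ℕ} [NeZero N] {x : LaurentSeries Kbar} {h : ℍ → ℂ}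
    (hx : IsExpK N x h) (φ : ℍ → ℍ) (hφ : ∀ τ : ℍ, ((φ τ : ℍ) : ℂ) = τ + 1)
    (hper : ∀ τ, h (φ τ) = h τ) :
    ∃ y : LaurentSeries Kbar, IsExpK 1 y h ∧ x = ModularCurve.qExpand Kbar N y := by
  have hN : 0 < N := Nat.pos_of_ne_zero (NeZero.ne N)
  have hsupp : ∀ n : ℤ, x.coeff n ≠ 0 → (N : ℤ) ∣ n := by
    intro n hn
    refine IsExp.dvd_of_periodic hN hx φ hφ hper n ?_
    rw [iotaL_coeff]
    exact fun h0 => hn ((map_eq_zero iotaK).mp h0)
  obtain ⟨y, rfl⟩ := exists_qExpand_eq N x hsupp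
  refine ⟨y, ?_, rfl⟩
  have hx' : IsExp N (ModularCurve.coeffMap iotaK (ModularCurve.qExpand Kbar N y)) h := hx
  rw [ModularCurve.coeffMap_qExpand] at hx'
  exact isExp_one_of_isExp_qExpand hx'

/-- **69-INV** with degree bookkeeping. -/
theorem exists_poly_of_invariant_natDegree {N : ℕ} [NeZero N] (c : RN N)
    (hc : ∀ γ : SL(2, ℤ), compSL N γ c = c) :
    ∃ p : Polynomial Kbar, ((N : ℤ) * p.natDegree = (-(expInf N c).order).toNat) ∧
      ∀ τ : ℍ, (c : ℍ → ℂ) τ = (p.map iotaK).eval (jFun τ) := by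
  refine pole_killing_level iotaK N (c : ℍ → ℂ) c.mdiff (fun γ τ => ?_) (expInf N c)
    (isExpK_expInf N c)
  have := congrArg (fun d : RN N => (d : ℍ → ℂ) τ) (hc γ)
  simpa using this

/-- **69-INV**: `SL(2,ℤ)`-invariant elements of `RN N` are polynomials in `jFun` over `ℚ̄`. -/
theorem exists_poly_of_invariant {N : ℕ} [NeZero N] (c : RN N)
    (hc : ∀ γ : SL(2, ℤ), compSL N γ c = c) :
    ∃ p : Polynomial Kbar, ∀ τ : ℍ, (c : ℍ → ℂ) τ = (p.map iotaK).eval (jFun τ) := by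
  obtain ⟨p, -, hp⟩ := exists_poly_of_invariant_natDegree c hc
  exact ⟨p, hp⟩

/-- **69-INV**, regular case: an invariant element which is regular at `∞` is constant. -/
theorem exists_const_of_invariant_of_order_nonneg {N : ℕ} [NeZero N] (c : RN N)
    (hc : ∀ γ : SL(2, ℤ), compSL N γ c = c) (h0 : 0 ≤ (expInf N c).order) :
    ∃ a : Kbar, c = algebraMap Kbar (RN N) a := by
  obtain ⟨p, hpd, hp⟩ := exists_poly_of_invariant_natDegree c hc
  have hN : (0 : ℤ) < N := by exact_mod_cast Nat.pos_of_ne_zero (NeZero.ne N)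
  have hdeg : p.natDegree = 0 := by
    rw [Int.toNat_of_nonpos (by omega)] at hpd
    have : (N : ℤ) * (p.natDegree : ℤ) = 0 := by exact_mod_cast hpd
    rcases mul_eq_zero.mp this with h | h
    · omega
    · exact_mod_cast h
  obtain ⟨a, rfl⟩ := Polynomial.natDegree_eq_zero.mp hdeg
  refine ⟨a, RN.ext fun τ => ?_⟩
  rw [hp τ, algebraMap_RN_apply]
  simp

/-- `Q A B = ∏_{i ∈ SL2(Z)/Γ0(N)} (B_i X - A_i)`, `A_i = A ∘ g_i⁻¹`, `g_i` a representative of
the coset `i`. -/
noncomputable def normPoly (N : ℕ) [NeZero N] (A B : RN N) : Polynomial (RN N) :=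
  letI : Fintype (X N) := Fintype.ofFinite _
  ∏ i : X N, (Polynomial.C (compSL N (Quotient.out i)⁻¹ B) * Polynomial.X
    - Polynomial.C (compSL N (Quotient.out i)⁻¹ A))

/-- translation of the representative: `compSL γ (A ∘ g_i⁻¹) = A ∘ g_j⁻¹`, `j = γ⁻¹ • i`. -/
theorem compSL_out_inv {N : ℕ} [NeZero N] (A : RN N)
    (hA : ∀ γ0 ∈ CongruenceSubgroup.Gamma0 N, compSL N γ0 A = A) (γ : SL(2, ℤ)) (i : X N) :
    compSL N γ (compSL N (Quotient.out i)⁻¹ A) =
      compSL N (Quotient.out (γ⁻¹ • i))⁻¹ A := by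
  rw [← compSL_mul]
  set g := Quotient.out i with hg
  set g' := Quotient.out (γ⁻¹ • i) with hg'
  have hmem : g'⁻¹ * (γ⁻¹ * g) ∈ CongruenceSubgroup.Gamma0 N := by
    rw [← QuotientGroup.eq]
    have h1 : ((g' : SL(2, ℤ)) : X N) = γ⁻¹ • i := Quotient.out_eq' _
    have h2 : ((g : SL(2, ℤ)) : X N) = i := Quotient.out_eq' _
    rw [h1, ← h2]
    rfl
  have hinv := hA _ (inv_mem hmem)
  have e : g⁻¹ * γ = (g'⁻¹ * (γ⁻¹ * g))⁻¹ * g'⁻¹ := by group
  rw [e, compSL_mul, hinv]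

/-- **69-SYM**: the norm polynomial of a `Γ₀(N)`-invariant pair is `SL(2,ℤ)`-invariant. -/
theorem normPoly_map_compSL {N : ℕ} [NeZero N] (A B : RN N)
    (hA : ∀ γ0 ∈ CongruenceSubgroup.Gamma0 N, compSL N γ0 A = A)
    (hB : ∀ γ0 ∈ CongruenceSubgroup.Gamma0 N, compSL N γ0 B = B) (γ : SL(2, ℤ)) :
    (normPoly N A B).map (compSL N γ) = normPoly N A B := by
  classical
  letI : Fintype (X N) := Fintype.ofFinite _
  unfold normPoly
  rw [Polynomial.map_prod]
  refine Fintype.prod_equiv (MulAction.toPerm γ⁻¹) _ _ fun i => ?_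
  rw [Polynomial.map_sub, Polynomial.map_mul, Polynomial.map_C, Polynomial.map_C,
    Polynomial.map_X, compSL_out_inv A hA γ i, compSL_out_inv B hB γ i]
  rfl

/-- every coefficient of the norm polynomial is a polynomial in `jFun` over `ℚ̄` -/
theorem normPoly_coeff_eq_poly {N : ℕ} [NeZero N] (A B : RN N)
    (hA : ∀ γ0 ∈ CongruenceSubgroup.Gamma0 N, compSL N γ0 A = A)
    (hB : ∀ γ0 ∈ CongruenceSubgroup.Gamma0 N, compSL N γ0 B = B) (k : ℕ) :
    ∃ p : Polynomial Kbar, ∀ τ : ℍ,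
      ((normPoly N A B).coeff k : ℍ → ℂ) τ = (p.map iotaK).eval (jFun τ) := by
  refine exists_poly_of_invariant _ fun γ => ?_
  rw [← Polynomial.coeff_map, normPoly_map_compSL A B hA hB γ]

end Fermat.Agent.FF
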