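import Mathlib
import Fermat.Agent.FF.ModReal

/-!
# S24 item 69 (WP-D), part 6 (REAL-ev): construction of a realisation `Φ : F_N → L`

Every element of the function field `F_N = ℚ̄(j(dτ), d ∣ N) ⊆ ℚ̄((q))` is a quotient of
`q`-expansions of `Γ₀(N)`-invariant elements of the ring `modRing N` of holomorphic functions.
-/

set_option autoImplicit false

open UpperHalfPlane hiding I
open Function Complex
open scoped Real MatrixGroups Manifold

namespace Fermat.Agent.FF

section realEv

variable (N : ℕ) [NeZero N]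

/-- `Γ₀(N)`-invariance of an element of `RN N` -/
def IsInv0 (r : RN N) : Prop :=
  ∀ γ0 ∈ CongruenceSubgroup.Gamma0 N, compSL N γ0 r = r

/-- the subalgebra of Laurent series which are `q`-expansions of `Γ₀(N)`-invariant elements
of `RN N` -/
noncomputable def realSub : Subalgebra Kbar (LaurentSeries Kbar) where
  carrier := {s | ∃ r : RN N, expInf N r = ModularCurve.qExpand Kbar N s ∧ IsInv0 N r}
  mul_mem' := by
    rintro a b ⟨r, hr, hri⟩ ⟨t, ht, hti⟩
    exact ⟨r * t, by rw [map_mul, map_mul, hr, ht],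
      fun γ hγ => by rw [map_mul, hri γ hγ, hti γ hγ]⟩
  one_mem' := ⟨1, by rw [map_one, map_one], fun γ _ => map_one _⟩
  add_mem' := by
    rintro a b ⟨r, hr, hri⟩ ⟨t, ht, hti⟩
    exact ⟨r + t, by rw [map_add, map_add, hr, ht],
      fun γ hγ => by rw [map_add, hri γ hγ, hti γ hγ]⟩
  zero_mem' := ⟨0, by rw [map_zero, map_zero], fun γ _ => map_zero _⟩
  algebraMap_mem' := fun c => ⟨algebraMap Kbar (RN N) c, by
    rw [expInf_algebraMap, ModularCurve.algebraMap_laurentSeries_eq_single]
    exact (ModularCurve.qExpand_C (R := Kbar) (N := N) c).symm,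
    fun γ _ => compSL_algebraMap γ c⟩

theorem mem_realSub_iff {s : LaurentSeries Kbar} :
    s ∈ realSub N ↔ ∃ r : RN N, expInf N r = ModularCurve.qExpand Kbar N s ∧ IsInv0 N r :=
  Iff.rfl

/-- the function attached to an element of `realSub N` -/
noncomputable def evSFun (s : realSub N) : RN N := s.2.choose

theorem expInf_evSFun (s : realSub N) :
    expInf N (evSFun N s) = ModularCurve.qExpand Kbar N (s : LaurentSeries Kbar) :=
  s.2.choose_spec.1

theorem isInv0_evSFun (s : realSub N) : IsInv0 N (evSFun N s) := s.2.choose_spec.2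

theorem evSFun_eq {s : realSub N} {r : RN N}
    (h : expInf N r = ModularCurve.qExpand Kbar N (s : LaurentSeries Kbar)) :
    evSFun N s = r :=
  expInf_injective N (by rw [expInf_evSFun, h])

/-- the evaluation `realSub N → RN N` -/
noncomputable def evS : realSub N →+* RN N where
  toFun := evSFun N
  map_one' := evSFun_eq N (by rw [map_one]; exact (map_one _).symm)
  map_mul' a b := evSFun_eq N (by
    rw [map_mul, expInf_evSFun, expInf_evSFun]; exact (map_mul _ _ _).symm)
  map_zero' := evSFun_eq N (by rw [map_zero]; exact (map_zero _).symm)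
  map_add' a b := evSFun_eq N (by
    rw [map_add, expInf_evSFun, expInf_evSFun]; exact (map_add _ _ _).symm)

theorem expInf_evS (s : realSub N) :
    expInf N (evS N s) = ModularCurve.qExpand Kbar N (s : LaurentSeries Kbar) :=
  expInf_evSFun N s

theorem isInv0_evS (s : realSub N) : IsInv0 N (evS N s) := isInv0_evSFun N s

theorem evS_eq {s : realSub N} {r : RN N}
    (h : expInf N r = ModularCurve.qExpand Kbar N (s : LaurentSeries Kbar)) :
    evS N s = r := evSFun_eq N h

theorem evS_injective : Injective (evS N) := by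
  intro a b hab
  apply Subtype.ext
  apply ModularCurve.qExpand_injective (R := Kbar) (N := N)
  rw [← expInf_evS, ← expInf_evS, hab]

theorem evS_algebraMap (c : Kbar) :
    evS N (algebraMap Kbar (realSub N) c) = algebraMap Kbar (RN N) c := by
  apply evS_eq
  rw [expInf_algebraMap]
  show _ = ModularCurve.qExpand Kbar N (algebraMap Kbar (LaurentSeries Kbar) c)
  rw [ModularCurve.algebraMap_laurentSeries_eq_single]
  exact (ModularCurve.qExpand_C (R := Kbar) (N := N) c).symm

/-- the generators `j(dτ)`, `d ∣ N`, of the function field -/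
def genSet : Set (LaurentSeries Kbar) :=
  {x | ∃ (d : ℕ) (_ : NeZero d), d ∣ N ∧
    x = ModularCurve.coeffEmb Kbar (ModularCurve.qExpand ℚ d ModularCurve.jq)}

theorem Jd_mem_realSub (d : ℕ) [NeZero d] (hd : d ∣ N) : Jd d ∈ realSub N :=
  ⟨jR N d hd, expInf_jR N d hd, fun γ hγ => compSL_jR N d hd γ hγ⟩

theorem evS_Jd (d : ℕ) [NeZero d] (hd : d ∣ N) :
    evS N ⟨Jd d, Jd_mem_realSub N d hd⟩ = jR N d hd :=
  evS_eq N (expInf_jR N d hd)

theorem genSet_subset : genSet N ⊆ realSub N := by
  rintro x ⟨d, hd, hdN, rfl⟩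
  exact Jd_mem_realSub N d hdN

theorem adjoin_le_realSub : Algebra.adjoin Kbar (genSet N) ≤ realSub N :=
  Algebra.adjoin_le (genSet_subset N)

/-- the evaluation on the algebra generated by the `j(dτ)` -/
noncomputable def evA : Algebra.adjoin Kbar (genSet N) →+* LN N :=
  ((algebraMap (RN N) (LN N)).comp (evS N)).comp
    (Subalgebra.inclusion (adjoin_le_realSub N)).toRingHom

theorem evA_apply (a : Algebra.adjoin Kbar (genSet N)) :
    evA N a = algebraMap (RN N) (LN N)
      (evS N ⟨(a : LaurentSeries Kbar), adjoin_le_realSub N a.2⟩) := rfl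

theorem evA_injective : Injective (evA N) := by
  intro a b hab
  rw [evA_apply, evA_apply] at hab
  have h1 := evS_injective N (IsFractionRing.injective (RN N) (LN N) hab)
  exact Subtype.ext (congrArg (fun s : realSub N => (s : LaurentSeries Kbar)) h1)

open scoped IntermediateField.algebraAdjoinAdjoin in
/-- the realisation on `ℚ̄(j(dτ), d ∣ N)` -/
noncomputable def PhiAdj : IntermediateField.adjoin Kbar (genSet N) →+* LN N :=
  IsFractionRing.lift (A := Algebra.adjoin Kbar (genSet N)) (evA_injective N)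

open scoped IntermediateField.algebraAdjoinAdjoin in
theorem PhiAdj_algebraMap (a : Algebra.adjoin Kbar (genSet N)) :
    PhiAdj N (algebraMap (Algebra.adjoin Kbar (genSet N))
      (IntermediateField.adjoin Kbar (genSet N)) a) = evA N a :=
  IsFractionRing.lift_algebraMap _ _

/-- value of `PhiAdj` on an element of `realSub`-type -/
theorem PhiAdj_of_mem (x : IntermediateField.adjoin Kbar (genSet N))
    (hx : (x : LaurentSeries Kbar) ∈ Algebra.adjoin Kbar (genSet N)) :
    PhiAdj N x = algebraMap (RN N) (LN N)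
      (evS N ⟨(x : LaurentSeries Kbar), adjoin_le_realSub N hx⟩) := by
  have := PhiAdj_algebraMap N ⟨(x : LaurentSeries Kbar), hx⟩
  rw [evA_apply] at this
  rw [← this]
  congr 1

theorem FN_le_adjoin : ModularCurve.modularFunctionFieldBar N ≤
    IntermediateField.adjoin Kbar (genSet N) :=
  le_of_eq (modularFunctionFieldBar_eq_adjoin N)

/-- **REAL-ev**: the realisation `Φ : F_N → L = Frac (modRing N)` -/
noncomputable def PhiN : FN N →+* LN N :=
  (PhiAdj N).comp (IntermediateField.inclusion (FN_le_adjoin N)).toRingHom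

theorem PhiN_apply (f : FN N) :
    PhiN N f = PhiAdj N ⟨(f : LaurentSeries Kbar), FN_le_adjoin N f.2⟩ := rfl

/-- every element of `F_N` is a quotient of two elements of the algebra `ℚ̄[j(dτ), d ∣ N]` -/
theorem exists_div_of_FN (f : FN N) :
    ∃ a ∈ Algebra.adjoin Kbar (genSet N), ∃ b ∈ Algebra.adjoin Kbar (genSet N),
      b ≠ 0 ∧ (f : LaurentSeries Kbar) = a / b := by
  obtain ⟨a, ha, b, hb, hab⟩ := IntermediateField.mem_adjoin_iff_div.mp (FN_le_adjoin N f.2)
  by_cases hb0 : b = 0
  · refine ⟨0, zero_mem _, 1, one_mem _, one_ne_zero, ?_⟩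
    rw [hab, hb0, div_zero, zero_div]
  · exact ⟨a, ha, b, hb, hb0, hab⟩

/-- value of `Φ` on an element of the algebra `ℚ̄[j(dτ), d ∣ N]` -/
theorem PhiN_of_mem (f : FN N) (hf : (f : LaurentSeries Kbar) ∈ Algebra.adjoin Kbar (genSet N)) :
    PhiN N f = algebraMap (RN N) (LN N)
      (evS N ⟨(f : LaurentSeries Kbar), adjoin_le_realSub N hf⟩) := by
  rw [PhiN_apply]
  exact PhiAdj_of_mem N _ hf

/-- value of `Φ` on a quotient -/
theorem PhiN_div (f : FN N) (a b : LaurentSeries Kbar)
    (ha : a ∈ Algebra.adjoin Kbar (genSet N)) (hb : b ∈ Algebra.adjoin Kbar (genSet N))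
    (hab : (f : LaurentSeries Kbar) = a / b) :
    PhiN N f = algebraMap (RN N) (LN N) (evS N ⟨a, adjoin_le_realSub N ha⟩) /
      algebraMap (RN N) (LN N) (evS N ⟨b, adjoin_le_realSub N hb⟩) := by
  have haF : a ∈ ModularCurve.modularFunctionFieldBar N := by
    rw [modularFunctionFieldBar_eq_adjoin]
    exact IntermediateField.algebra_adjoin_le_adjoin _ _ ha
  have hbF : b ∈ ModularCurve.modularFunctionFieldBar N := by
    rw [modularFunctionFieldBar_eq_adjoin]
    exact IntermediateField.algebra_adjoin_le_adjoin _ _ hb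
  have e : f = (⟨a, haF⟩ : FN N) / ⟨b, hbF⟩ := Subtype.ext (by rw [hab]; rfl)
  rw [e, map_div₀, PhiN_of_mem N ⟨a, haF⟩ ha, PhiN_of_mem N ⟨b, hbF⟩ hb]

theorem PhiN_map_const (c : Kbar) :
    PhiN N (algebraMap Kbar (FN N) c) = algebraMap Kbar (LN N) c := by
  have hc : ((algebraMap Kbar (FN N) c : FN N) : LaurentSeries Kbar) ∈
      Algebra.adjoin Kbar (genSet N) := Subalgebra.algebraMap_mem _ c
  rw [PhiN_of_mem N _ hc, IsScalarTower.algebraMap_apply Kbar (RN N) (LN N)]
  congr 1
  exact evS_algebraMap N c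

theorem PhiN_Jd (d : ℕ) [NeZero d] (hd : d ∣ N) (f : FN N)
    (hf : (f : LaurentSeries Kbar) = Jd d) :
    PhiN N f = algebraMap (RN N) (LN N) (jR N d hd) := by
  have hmem : (f : LaurentSeries Kbar) ∈ Algebra.adjoin Kbar (genSet N) := by
    rw [hf]
    exact Algebra.subset_adjoin ⟨d, inferInstance, hd, rfl⟩
  rw [PhiN_of_mem N f hmem]
  congr 1
  apply evS_eq
  rw [expInf_jR]
  congr 1
  exact hf.symm

omit [NeZero N] in
theorem jBar_coe [NeZero N] : ((jBar N : FN N) : LaurentSeries Kbar) = Jd 1 := by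
  show ModularCurve.coeffEmb Kbar ModularCurve.jq = _
  rw [Jd, ModularCurve.qExpand_one_apply]

theorem PhiN_map_jBar :
    PhiN N (jBar N) = algebraMap (RN N) (LN N) (jR N 1 (one_dvd N)) :=
  PhiN_Jd N 1 (one_dvd N) (jBar N) (jBar_coe N)

/-- every value of `Φ` is a quotient of `Γ₀(N)`-invariant elements of `RN N` -/
theorem exists_PhiN_eq_div (f : FN N) :
    ∃ A B : RN N, B ≠ 0 ∧ IsInv0 N A ∧ IsInv0 N B ∧
      PhiN N f = algebraMap (RN N) (LN N) A / algebraMap (RN N) (LN N) B ∧
      ModularCurve.qExpand Kbar N (f : LaurentSeries Kbar) = expInf N A / expInf N B := by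
  obtain ⟨a, ha, b, hb, hb0, hab⟩ := exists_div_of_FN N f
  refine ⟨evS N ⟨a, adjoin_le_realSub N ha⟩, evS N ⟨b, adjoin_le_realSub N hb⟩, ?_,
    isInv0_evS N _, isInv0_evS N _, PhiN_div N f a b ha hb hab, ?_⟩
  · intro h0
    apply hb0
    have := evS_injective N (h0.trans (map_zero (evS N)).symm)
    exact congrArg Subtype.val this
  · rw [expInf_evS, expInf_evS, hab, map_div₀]

theorem PhiN_invariant (γ0 : SL(2, ℤ)) (hγ : γ0 ∈ CongruenceSubgroup.Gamma0 N) (f : FN N) :
    sigmaL N γ0 (PhiN N f) = PhiN N f := by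
  obtain ⟨A, B, -, hA, hB, hf, -⟩ := exists_PhiN_eq_div N f
  rw [hf, map_div₀, sigmaL_algebraMap, sigmaL_algebraMap, hA γ0 hγ, hB γ0 hγ]

/-- **REAL-ev**: the realisation of `F_N` in `L` -/
noncomputable def realisationN : Realisation N where
  Φ := PhiN N
  map_const := PhiN_map_const N
  map_jBar := PhiN_map_jBar N
  invariant := PhiN_invariant N

@[simp] theorem realisationN_Φ : (realisationN N).Φ = PhiN N := rfl

end realEv

end Fermat.Agent.FF
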