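import Mathlib
import Fermat.Agent.FF.ModRealEv
import Fermat.Agent.FF.ModInv
import Fermat.Agent.FF.ModFin

/-!
# S24 item 69 (WP-D), part 7 (DEG): the characteristic polynomials descend to `ℚ̄(j)`

For `f ∈ F_N` the polynomial `∏_i (X - f_i)` over the conjugates `f_i = (Φ f) ∘ g_i⁻¹` has
coefficients in `Φ(ℚ̄(j))`: write `Φ f = A / B`; the polynomial `∏_i (B_i X - A_i)` is
`SL(2,ℤ)`-invariant with coefficients in `modRing N`, hence its coefficients are polynomials
in `j` (pole killing).
-/

set_option autoImplicit false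

open UpperHalfPlane hiding I
open Function Complex IntermediateField
open scoped Real MatrixGroups Manifold

namespace Fermat.Agent.FF

section deg

variable (N : ℕ) [NeZero N]

/-- evaluation of a polynomial in `j` (as an element of `RN N`) -/
theorem aeval_jR_one_apply (p : Polynomial Kbar) (τ : ℍ) :
    ((Polynomial.aeval (jR N 1 (one_dvd N)) p : RN N) : ℍ → ℂ) τ =
      (p.map iotaK).eval (jFun τ) := by
  let evτ : RN N →+* ℂ := (Pi.evalRingHom (fun _ : ℍ => ℂ) τ).comp (evR N)
  have h1 : evτ.comp (algebraMap Kbar (RN N)) = iotaK := by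
    ext c
    exact algebraMap_RN_apply (N := N) c τ
  have h2 : evτ (jR N 1 (one_dvd N)) = jFun τ := Realisation.jR_one_apply (N := N) τ
  show evτ (Polynomial.aeval (jR N 1 (one_dvd N)) p) = _
  rw [Polynomial.aeval_def, Polynomial.hom_eval₂, h1, h2, Polynomial.eval_map]

/-- `Φ` on polynomials in `j` -/
theorem PhiN_aeval_jBar (p : Polynomial Kbar) :
    PhiN N (Polynomial.aeval (jBar N) p) =
      algebraMap (RN N) (LN N) (Polynomial.aeval (jR N 1 (one_dvd N)) p) := by
  rw [Polynomial.aeval_def, Polynomial.hom_eval₂, Polynomial.aeval_def, Polynomial.hom_eval₂,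
    PhiN_map_jBar]
  congr 1
  ext c
  show PhiN N (algebraMap Kbar (FN N) c) = algebraMap (RN N) (LN N) (algebraMap Kbar (RN N) c)
  rw [PhiN_map_const, IsScalarTower.algebraMap_apply Kbar (RN N) (LN N)]

/-- an `SL(2,ℤ)`-invariant element of `RN N` comes from `ℚ̄[j]` -/
theorem exists_aeval_eq_of_invariant (c : RN N) (hc : ∀ γ : SL(2, ℤ), compSL N γ c = c) :
    ∃ p : Polynomial Kbar, c = Polynomial.aeval (jR N 1 (one_dvd N)) p := by
  obtain ⟨p, hp⟩ := exists_poly_of_invariant c hc
  refine ⟨p, RN.ext fun τ => ?_⟩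
  rw [hp τ, aeval_jR_one_apply]

/-- the element of `ℚ̄(j)` attached to a polynomial -/
noncomputable def polyJ (p : Polynomial Kbar) : ↥Kbar⟮jBar N⟯ :=
  ⟨Polynomial.aeval (jBar N) p,
    IntermediateField.algebra_adjoin_le_adjoin Kbar _
      (Polynomial.aeval_mem_adjoin_singleton Kbar (jBar N))⟩

theorem conj_polyJ (i0 : X N) (p : Polynomial Kbar) :
    (realisationN N).conj i0 (algebraMap ↥Kbar⟮jBar N⟯ (FN N) (polyJ N p)) =
      algebraMap (RN N) (LN N) (Polynomial.aeval (jR N 1 (one_dvd N)) p) := by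
  show sigmaL N (Quotient.out i0)⁻¹ (PhiN N (Polynomial.aeval (jBar N) p)) = _
  rw [PhiN_aeval_jBar, sigmaL_algebraMap]
  congr 1
  apply RN.ext
  intro τ
  rw [compSL_apply, aeval_jR_one_apply, aeval_jR_one_apply, jFun_smul]

/-- the norm polynomial over `L` is `u • ∏ (X - f_i)` -/
theorem normPoly_map_eq [Fintype (X N)] (A B : RN N) (hB : B ≠ 0) (x : LN N)
    (hx : x = algebraMap (RN N) (LN N) A / algebraMap (RN N) (LN N) B) :
    (normPoly N A B).map (algebraMap (RN N) (LN N)) =
      Polynomial.C (∏ i : X N, algebraMap (RN N) (LN N) (compSL N (Quotient.out i)⁻¹ B)) *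
        ∏ i : X N, (Polynomial.X - Polynomial.C (sigmaL N (Quotient.out i)⁻¹ x)) := by
  classical
  subst hx
  have hinst : (inferInstance : Fintype (X N)) = Fintype.ofFinite (X N) := Subsingleton.elim _ _
  unfold normPoly
  rw [← hinst, Polynomial.map_prod, map_prod, ← Finset.prod_mul_distrib]
  refine Finset.prod_congr rfl fun i _ => ?_
  have hb : algebraMap (RN N) (LN N) (compSL N (Quotient.out i)⁻¹ B) ≠ 0 := by
    intro h0
    apply hB
    apply compSL_injective (Quotient.out i)⁻¹
    rw [map_zero]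
    exact IsFractionRing.injective (RN N) (LN N) (h0.trans (map_zero _).symm)
  rw [Polynomial.map_sub, Polynomial.map_mul, Polynomial.map_C, Polynomial.map_C,
    Polynomial.map_X, map_div₀, sigmaL_algebraMap, sigmaL_algebraMap, mul_sub, ← Polynomial.C_mul,
    mul_div_cancel₀ _ hb]

/-- descent of a polynomial along a field embedding (pure algebra) -/
theorem descend_poly {K0 L : Type*} [Field K0] [Field L] (φ : K0 →+* L)
    (QL M : Polynomial L) (u : L) (hu : u ≠ 0) (hM : M.Monic) (hQ : QL = Polynomial.C u * M)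
    (c : ℕ → K0) (hc : ∀ k, φ (c k) = QL.coeff k) :
    (Polynomial.C (c M.natDegree)⁻¹ *
      ∑ k ∈ Finset.range (M.natDegree + 1), Polynomial.C (c k) * Polynomial.X ^ k).map φ = M := by
  have hdeg : QL.natDegree = M.natDegree := by
    rw [hQ, Polynomial.natDegree_C_mul hu]
  have hlead : QL.coeff M.natDegree = u := by
    rw [hQ, Polynomial.coeff_C_mul, Polynomial.coeff_natDegree, hM.leadingCoeff, mul_one]
  have hsum : (∑ k ∈ Finset.range (M.natDegree + 1),
      Polynomial.C (c k) * Polynomial.X ^ k).map φ = QL := by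
    conv_rhs => rw [Polynomial.as_sum_range_C_mul_X_pow QL, hdeg]
    rw [Polynomial.map_sum]
    refine Finset.sum_congr rfl fun k _ => ?_
    rw [Polynomial.map_mul, Polynomial.map_C, Polynomial.map_pow, Polynomial.map_X, hc k]
  rw [Polynomial.map_mul, Polynomial.map_C, map_inv₀, hc, hlead, hsum, hQ, ← mul_assoc,
    ← Polynomial.C_mul, inv_mul_cancel₀ hu, Polynomial.C_1, one_mul]

/-- **DEG (hcoef)**: the characteristic polynomial of `f` over the conjugates has
coefficients in `ℚ̄(j)`. -/
theorem realisationN_hcoef [Fintype (X N)] (f : FN N) :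
    ∃ P : Polynomial ↥Kbar⟮jBar N⟯, P.Monic ∧ ∀ i0 : X N,
      P.map (((realisationN N).conj i0).comp (algebraMap ↥Kbar⟮jBar N⟯ (FN N))) =
        ∏ i : X N, (Polynomial.X - Polynomial.C ((realisationN N).conj i f)) := by
  classical
  obtain ⟨A, B, hB0, hA, hB, hf, -⟩ := exists_PhiN_eq_div N f
  -- the coefficients of `Q` are polynomials in `j`
  have hcoeff : ∀ k : ℕ, ∃ p : Polynomial Kbar,
      (normPoly N A B).coeff k = Polynomial.aeval (jR N 1 (one_dvd N)) p := fun k =>
    exists_aeval_eq_of_invariant N _ fun γ => by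
      rw [← Polynomial.coeff_map, normPoly_map_compSL A B hA hB γ]
  choose p hp using hcoeff
  have hMmonic : (∏ i : X N, (Polynomial.X - Polynomial.C ((realisationN N).conj i f))).Monic :=
    Polynomial.monic_prod_of_monic _ _ fun i _ => Polynomial.monic_X_sub_C _
  have hu0 : (∏ i : X N, algebraMap (RN N) (LN N) (compSL N (Quotient.out i)⁻¹ B)) ≠ 0 := by
    refine Finset.prod_ne_zero_iff.mpr fun i _ h0 => hB0 ?_
    apply compSL_injective (Quotient.out i)⁻¹
    rw [map_zero]
    exact IsFractionRing.injective (RN N) (LN N) (h0.trans (map_zero _).symm)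
  have hQL : (normPoly N A B).map (algebraMap (RN N) (LN N)) =
      Polynomial.C (∏ i : X N, algebraMap (RN N) (LN N) (compSL N (Quotient.out i)⁻¹ B)) *
        ∏ i : X N, (Polynomial.X - Polynomial.C ((realisationN N).conj i f)) :=
    normPoly_map_eq N A B hB0 (PhiN N f) hf
  have key : ∀ i0 : X N, (Polynomial.C (polyJ N (p
        (∏ i : X N, (Polynomial.X - Polynomial.C ((realisationN N).conj i f))).natDegree))⁻¹ *
      ∑ k ∈ Finset.range
        ((∏ i : X N, (Polynomial.X - Polynomial.C ((realisationN N).conj i f))).natDegree + 1),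
        Polynomial.C (polyJ N (p k)) * Polynomial.X ^ k).map
        (((realisationN N).conj i0).comp (algebraMap ↥Kbar⟮jBar N⟯ (FN N))) =
      ∏ i : X N, (Polynomial.X - Polynomial.C ((realisationN N).conj i f)) := fun i0 =>
    descend_poly _ _ _ _ hu0 hMmonic hQL (fun k => polyJ N (p k)) fun k => by
      rw [RingHom.comp_apply, conj_polyJ, ← hp k, Polynomial.coeff_map]
  refine ⟨_, ?_, key⟩
  have i0 : X N := QuotientGroup.mk 1
  refine Polynomial.monic_of_injective
    (((realisationN N).conj i0).comp (algebraMap ↥Kbar⟮jBar N⟯ (FN N))).injective ?_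
  rw [key i0]
  exact hMmonic

end deg

end Fermat.Agent.FF
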