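import Mathlib
import Fermat.Agent.FF.ModRealEv

/-!
# S24 item 69 (WP-D), `hdist`: the conjugates of `j(Nτ)` are pairwise distinct

For the realisation `realisationN N : Realisation N` the element `θ = j(Nτ)` of the function
field `F_N` has pairwise distinct conjugates `θ ∘ g_i⁻¹`, `i ∈ SL(2,ℤ) ⧸ Γ₀(N)`.
-/

set_option autoImplicit false

open UpperHalfPlane hiding I
open Function Complex
open scoped Real MatrixGroups Manifold

namespace Fermat.Agent.FF

/-- `j(dτ)`, `d ∣ N`, lies in the function field `F_N` -/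
theorem Jd_mem_FN (N : ℕ) [NeZero N] (d : ℕ) [NeZero d] (hd : d ∣ N) :
    Jd d ∈ ModularCurve.modularFunctionFieldBar N :=
  ModularCurve.coeffEmb_mem_laurentBaseChange (AlgebraicClosure ℚ)
    (ModularCurve.jqd_mem_full N hd)

/-- `j(dτ)`, `d ∣ N`, as an element of the function field `F_N` -/
noncomputable def JdF (N : ℕ) [NeZero N] (d : ℕ) [NeZero d] (hd : d ∣ N) : FN N :=
  ⟨Jd d, Jd_mem_FN N d hd⟩

@[simp] theorem JdF_coe (N : ℕ) [NeZero N] (d : ℕ) [NeZero d] (hd : d ∣ N) :
    ((JdF N d hd : FN N) : LaurentSeries Kbar) = Jd d := rfl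

/-- the conjugates of `j(dτ)` under the realisation `realisationN N` -/
theorem realisationN_conj_JdF (N : ℕ) [NeZero N] (d : ℕ) [NeZero d] (hd : d ∣ N)
    (g : SL(2, ℤ)) :
    (realisationN N).conj (QuotientGroup.mk g : X N) (JdF N d hd) =
      algebraMap (RN N) (LN N) (compSL N g⁻¹ (jR N d hd)) := by
  rw [Realisation.conj_mk, realisationN_Φ, PhiN_Jd N d hd _ (JdF_coe N d hd),
    sigmaL_algebraMap]

/-- **hdist**: the conjugates of `θ = j(Nτ)` are pairwise distinct -/
theorem realisationN_hdist (N : ℕ) [NeZero N] :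
    ∃ θ : FN N, Function.Injective (fun i : X N => (realisationN N).conj i θ) := by
  refine ⟨JdF N N dvd_rfl, ?_⟩
  intro i j hij
  obtain ⟨g, rfl⟩ := QuotientGroup.mk_surjective i
  obtain ⟨h, rfl⟩ := QuotientGroup.mk_surjective j
  have hij' : (realisationN N).conj (QuotientGroup.mk g : X N) (JdF N N dvd_rfl) =
      (realisationN N).conj (QuotientGroup.mk h : X N) (JdF N N dvd_rfl) := hij
  rw [realisationN_conj_JdF, realisationN_conj_JdF] at hij'
  have h1 := IsFractionRing.injective (RN N) (LN N) hij'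
  rw [QuotientGroup.eq]
  apply mem_Gamma0_of_jFun_scale_eq N (g⁻¹ * h) (fun τ => scaleH N ((g⁻¹ * h) • τ))
    (scaleH N) (fun τ => rfl) (fun τ => rfl)
  intro τ
  have h2 := congrArg (fun r : RN N => (r : ℍ → ℂ) (h • τ)) h1
  simp only [compSL_apply, jR_apply] at h2
  rw [← mul_smul, ← mul_smul, inv_mul_cancel, one_smul] at h2
  exact h2

end Fermat.Agent.FF
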