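import Mathlib
import Fermat.Agent.FF.ModDeg
import Fermat.Agent.FF.ModDist
import Fermat.Agent.FF.ModFin

/-!
# S24 item 69 (WP-D): the deliverable `ModularOrdData N`
-/

set_option autoImplicit false

namespace Fermat.Agent.FF

/-- **Item 69 deliverable**: the analytic order data of the modular function field. -/
theorem modularOrdData (N : ℕ) [NeZero N] : ModularOrdData N := by
  classical
  letI : Fintype (X N) := Fintype.ofFinite _
  exact modularOrdData_of_realisation N (realisationN N) (realisationN_hcoef N)
    (realisationN_hdist N)

end Fermat.Agent.FF
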