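import Mathlib
import Fermat.Agent.FF.ModData
import Fermat.Agent.FF.DictOrd
import Fermat.Agent.FF.DictHol
import Fermat.Agent.FF.DictDJ

/-!
# Item 73: bridging lemmas between the algebraic order bounds and the analytic side

* `exists_mdiff_of_mem_RR` : for `h ∈ L(div dj)` with `Φ h = A / B`, the function
  `A · D j / B` extends to a holomorphic function on `ℍ`.
* `order_lt_of_mem_RR`     : at every cusp `γ∞`, `ord (B ∘ γ) + N < ord (A ∘ γ)`.
-/

set_option autoImplicit false
set_option linter.unusedSectionVars false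
set_option linter.style.haveILetI false

open UpperHalfPlane hiding I
open AlgebraicCurve IntermediateField
open ModularForm EisensteinSeries Filter Topology Complex Function
open scoped MatrixGroups Manifold Modular Derivative Real

noncomputable section

namespace Fermat.Agent.FF

variable (N : ℕ) [NeZero N]

theorem PhiN_jBar_sub (a : Kbar) :
    PhiN N (jBar N - algebraMap Kbar (FN N) a) =
      algebraMap (RN N) (LN N) (jR N 1 (one_dvd N) - algebraMap Kbar (RN N) a) := by
  rw [map_sub, PhiN_map_jBar, PhiN_map_const, map_sub,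
    ← IsScalarTower.algebraMap_apply Kbar (RN N) (LN N)]

theorem jR_one_sub_ne_zero (a : Kbar) :
    jR N 1 (one_dvd N) - algebraMap Kbar (RN N) a ≠ 0 := by
  intro h
  have h1 : PhiN N (jBar N - algebraMap Kbar (FN N) a) = 0 := by
    rw [PhiN_jBar_sub, h, map_zero]
  have h2 : jBar N - algebraMap Kbar (FN N) a = 0 := (map_eq_zero (PhiN N)).mp h1
  apply transcendental_jBar N
  rw [sub_eq_zero.mp h2]
  exact isAlgebraic_algebraMap a

theorem coe_jR_one_sub (a : Kbar) :
    ((jR N 1 (one_dvd N) - algebraMap Kbar (RN N) a : RN N) : ℍ → ℂ) =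
      fun τ => jFun τ - iotaK a := Realisation.coe_jR_sub a

/-- the order function `ord_τ ∘ Φ` on `F_N` -/
def ordFinPhi (τ : ℍ) : OrdFn Kbar (FN N) :=
  (ordFin N τ).comapRingHom (PhiN N) (fun c hc => by
    rw [PhiN_map_const]
    exact (ordFin N τ).map_const' c hc)

theorem ordFinPhi_apply (τ : ℍ) (f : FN N) : ordFinPhi N τ f = ordFin N τ (PhiN N f) := rfl

theorem ordFinPhi_jBar_sub (τ : ℍ) (a : Kbar) :
    ordFinPhi N τ (jBar N - algebraMap Kbar (FN N) a) = ordAt τ (fun z => jFun z - iotaK a) := by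
  rw [ordFinPhi_apply, PhiN_jBar_sub, ordFin_algebraMap τ (jR_one_sub_ne_zero N a),
    coe_jR_one_sub]

theorem ordFin_div (τ : ℍ) {A B : RN N} (hA : A ≠ 0) (hB : B ≠ 0) :
    ordFin N τ (algebraMap (RN N) (LN N) A / algebraMap (RN N) (LN N) B) =
      ordAt τ (A : ℍ → ℂ) - ordAt τ (B : ℍ → ℂ) :=
  ordFrac_div (K := Kbar) (L := LN N) (evR N) (evR_injective N) (fun r => r.mdiff)
    (evR_const N) τ hA hB

theorem coe_ne_zero_of_ne_zero {A : RN N} (hA : A ≠ 0) : (A : ℍ → ℂ) ≠ 0 := fun h =>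
  hA (Subtype.ext h)

/-- finite points: `ord_τ B ≤ ord_τ (A · D j)` -/
theorem ordAt_le_of_mem_RR (W : Divisor Kbar (FN N))
    (hW : ∀ v : Place Kbar (FN N),
      W v = v.ordDifferential (KaehlerDifferential.D Kbar (FN N) (jBar N)))
    (h : FN N) (hh : h ∈ riemannRochSpace W) (h0 : h ≠ 0) (A B : RN N) (hB : B ≠ 0)
    (hAB : PhiN N h = algebraMap (RN N) (LN N) A / algebraMap (RN N) (LN N) B) (τ : ℍ) :
    ordAt τ (B : ℍ → ℂ) ≤ ordAt τ ((A : ℍ → ℂ) * D jFun) := by
  have hx := transcendental_jBar N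
  haveI : FiniteDimensional Kbar⟮jBar N⟯ (FN N) := (modularOrdData N).findim
  have hA : A ≠ 0 := by
    intro hA
    rw [hA, map_zero, zero_div] at hAB
    exact h0 ((map_eq_zero (PhiN N)).mp hAB)
  have hA' := coe_ne_zero_of_ne_zero N hA
  rw [ordAt_mul A.mdiff mdiff_D_jFun hA' D_jFun_ne_zero]
  have hwh : ordFinPhi N τ h = ordAt τ (A : ℍ → ℂ) - ordAt τ (B : ℍ → ℂ) := by
    rw [ordFinPhi_apply, hAB, ordFin_div N τ hA hB]
  have hD0 := ordAt_nonneg τ (D jFun)
  by_cases hex : ∃ a : Kbar, iotaK a = jFun τ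
  · obtain ⟨a, ha⟩ := hex
    have h1 : ordFinPhi N τ (jBar N - algebraMap Kbar (FN N) a) = ordAt τ (D jFun) + 1 := by
      rw [ordFinPhi_jBar_sub, ha, ordAt_D_jFun]
    have h2 := dictOrd_fin (jBar N) hx (ordFinPhi N τ) W hW h hh h0 a (by rw [h1]; omega)
    rw [h1, hwh] at h2
    omega
  · push Not at hex
    have h1 : ∀ a : Kbar, ordFinPhi N τ (jBar N - algebraMap Kbar (FN N) a) ≤ 0 := by
      intro a
      rw [ordFinPhi_jBar_sub]
      have hmd : MDiff (fun z : ℍ => jFun z - iotaK a) := by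
        have := (jR N 1 (one_dvd N) - algebraMap Kbar (RN N) a : RN N).mdiff
        rwa [coe_jR_one_sub] at this
      have hne : (fun z : ℍ => jFun z - iotaK a) ≠ 0 := by
        have := coe_ne_zero_of_ne_zero N (jR_one_sub_ne_zero N a)
        rwa [coe_jR_one_sub] at this
      have := (ordAt_eq_zero_iff hmd hne τ).mpr (by
        intro hz
        exact hex a (sub_eq_zero.mp hz).symm)
      omega
    have h2 : 0 ≤ ordFinPhi N τ (jBar N) := by
      have := ordFinPhi_jBar_sub N τ 0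
      rw [map_zero, sub_zero] at this
      rw [this]
      exact ordAt_nonneg _ _
    have h3 := dictOrd_generic (jBar N) hx (ordFinPhi N τ) h h0 h2 h1
    rw [hwh] at h3
    omega

theorem exists_mdiff_of_mem_RR (W : Divisor Kbar (FN N))
    (hW : ∀ v : Place Kbar (FN N),
      W v = v.ordDifferential (KaehlerDifferential.D Kbar (FN N) (jBar N)))
    (h : FN N) (hh : h ∈ riemannRochSpace W) (A B : RN N) (hB : B ≠ 0)
    (hAB : PhiN N h = algebraMap (RN N) (LN N) A / algebraMap (RN N) (LN N) B) :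
    ∃ G : ℍ → ℂ, MDiff G ∧ ∀ τ, (B : ℍ → ℂ) τ * G τ = (A : ℍ → ℂ) τ * D jFun τ := by
  have hBalg : algebraMap (RN N) (LN N) B ≠ 0 := fun hz =>
    hB ((IsFractionRing.injective (RN N) (LN N)) (by rw [hz, map_zero]))
  by_cases hA : A = 0
  · refine ⟨0, mdifferentiable_const, fun τ => ?_⟩
    rw [hA]
    simp
  have h0 : h ≠ 0 := by
    intro h0
    rw [h0, map_zero, eq_comm, div_eq_zero_iff] at hAB
    rcases hAB with h1 | h1
    · exact hA ((IsFractionRing.injective (RN N) (LN N)) (by rw [h1, map_zero]))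
    · exact hBalg h1
  have hB' := coe_ne_zero_of_ne_zero N hB
  obtain ⟨G, hG, hGB⟩ := exists_mdiff_quotient (A.mdiff.mul mdiff_D_jFun) B.mdiff hB'
    (Or.inr (ordAt_le_of_mem_RR N W hW h hh h0 A B hB hAB))
  exact ⟨G, hG, fun τ => hGB τ⟩

/-- the order function `ord_∞ ∘ σ_γ ∘ Φ` on `F_N` (order at the cusp `γ∞`) -/
def ordCuspPhi (γ : SL(2, ℤ)) : OrdFn Kbar (FN N) :=
  (ordCusp N).comapRingHom ((sigmaL N γ).comp (PhiN N)) (fun c hc => by
    rw [RingHom.comp_apply, PhiN_map_const, sigmaL_const]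
    exact (ordCusp N).map_const' c hc)

theorem ordCuspPhi_apply (γ : SL(2, ℤ)) (f : FN N) :
    ordCuspPhi N γ f = ordCusp N (sigmaL N γ (PhiN N f)) := rfl

theorem ordCuspPhi_jBar (γ : SL(2, ℤ)) : ordCuspPhi N γ (jBar N) = -(N : ℤ) := by
  rw [ordCuspPhi_apply, PhiN_map_jBar, sigmaL_algebraMap, Realisation.compSL_jR_one,
    ordCusp_algebraMap Realisation.jR_one_ne_zero, Realisation.order_expInf_jR_one]

theorem order_lt_of_mem_RR (W : Divisor Kbar (FN N))
    (hW : ∀ v : Place Kbar (FN N),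
      W v = v.ordDifferential (KaehlerDifferential.D Kbar (FN N) (jBar N)))
    (h : FN N) (hh : h ∈ riemannRochSpace W) (h0 : h ≠ 0) (γ : SL(2, ℤ)) (A B : RN N)
    (hB : B ≠ 0)
    (hAB : PhiN N h = algebraMap (RN N) (LN N) A / algebraMap (RN N) (LN N) B) :
    (expInf N (compSL N γ B)).order + N < (expInf N (compSL N γ A)).order := by
  have hx := transcendental_jBar N
  haveI : FiniteDimensional Kbar⟮jBar N⟯ (FN N) := (modularOrdData N).findim
  have hBalg : algebraMap (RN N) (LN N) B ≠ 0 := fun hz =>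
    hB ((IsFractionRing.injective (RN N) (LN N)) (by rw [hz, map_zero]))
  have hA : A ≠ 0 := by
    intro hA
    rw [hA, map_zero, zero_div] at hAB
    exact h0 ((map_eq_zero (PhiN N)).mp hAB)
  have hA' : compSL N γ A ≠ 0 := fun hz => hA (compSL_injective γ (by rw [hz, map_zero]))
  have hB' : compSL N γ B ≠ 0 := fun hz => hB (compSL_injective γ (by rw [hz, map_zero]))
  have h1 := dictOrd_inf (jBar N) hx (ordCuspPhi N γ) W hW h hh h0 (by
    rw [ordCuspPhi_jBar]
    have : 0 < N := Nat.pos_of_ne_zero (NeZero.ne N)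
    omega)
  rw [ordCuspPhi_jBar, ordCuspPhi_apply, hAB, map_div₀, sigmaL_algebraMap, sigmaL_algebraMap,
    ordCusp_div hA' hB'] at h1
  omega

end Fermat.Agent.FF
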