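import Mathlib
import Fermat.Agent.FF.ModExp
import Fermat.Agent.FF.ModExp2

/-!
# Item 73 (dictionary), piece CUSP: vanishing at `i∞` from orders of expansions

`isZeroAtImInfty_of_isExp_quot`: if `B * g = A`, where `A`, `B` have convergent Laurent
expansions `a`, `b` in `exp (2πiτ/M)` with `b ≠ 0` and `order b < order a`, then `g` tends to `0`
at `i∞`.
-/

set_option autoImplicit false

open UpperHalfPlane hiding I
open Filter Topology Complex Function
open scoped Real

namespace Fermat.Agent.FF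

local notation "𝕢" => Periodic.qParam

theorem hasSum_cuspFunction_punctured {h : ℝ} {f : ℍ → ℂ} (hh : 0 < h) {c : ℕ → ℂ}
    (hf : ∀ (τ : ℍ), HasSum (fun m ↦ c m • 𝕢 h τ ^ m) (f τ)) {q : ℂ} (hq : ‖q‖ < 1)
    (hq1 : q ≠ 0) : HasSum (fun m ↦ c m • q ^ m) (cuspFunction h f q) := by
  have h1 := Periodic.im_invQParam_pos_of_norm_lt_one hh hq hq1
  let τ : ℍ := ⟨Periodic.invQParam h q, h1⟩
  have h2 := (Periodic.cuspFunction_eq_of_nonzero h (f ∘ ofComplex) hq1)
  have : cuspFunction h f q = f τ := by simpa [UpperHalfPlane.ofComplex_apply_of_im_pos h1]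
    using! h2
  grind [hf τ, Periodic.qParam_right_inv]

theorem hasFPowerSeriesOnBall_update_cusp {h : ℝ} {f : ℍ → ℂ} (hh : 0 < h) {c : ℕ → ℂ}
    (hf : ∀ τ : ℍ, HasSum (fun m : ℕ ↦ (c m) • 𝕢 h τ ^ m) (f τ)) :
    HasFPowerSeriesOnBall (update (cuspFunction h f) 0 (c 0)) (.ofScalars ℂ c) 0 1 := by
  constructor
  · refine le_of_forall_lt_imp_le_of_dense fun r hr ↦ ?_
    rcases eq_or_ne r 0 with rfl | hr'
    · simp
    · lift r to NNReal using hr.ne_top
      let : FiniteDimensional ℝ ℂ := basisOneI.finiteDimensional_of_finite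
      apply FormalMultilinearSeries.le_radius_of_summable
      simpa [smul_eq_mul, norm_mul, mul_comm, mul_left_comm, mul_assoc] using
        (hasSum_cuspFunction_punctured hh hf (q := r) (by simpa using hr)
          (mod_cast hr')).summable.norm
  · simp
  · intro y hy
    rw [← ENNReal.coe_one, Metric.eball_coe, NNReal.coe_one, mem_ball_zero_iff] at hy
    rcases eq_or_ne y 0 with rfl | hy'
    · simpa +contextual [zero_pow_eq] using hasSum_ite_eq 0 (c 0)
    · simpa [update_of_ne hy', mul_comm]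
        using hasSum_cuspFunction_punctured hh hf hy hy'

/-- A function given by a convergent `q`-expansion with non-negative exponents tends to its
constant coefficient at `i∞`. -/
theorem tendsto_of_hasSum_qParam {h : ℝ} {f : ℍ → ℂ} {c : ℕ → ℂ} (hh : 0 < h)
    (hf : ∀ τ : ℍ, HasSum (fun m ↦ c m • 𝕢 h τ ^ m) (f τ)) :
    Tendsto f atImInfty (𝓝 (c 0)) := by
  have hfeq : f = fun τ : ℍ ↦ update (cuspFunction h f) 0 (c 0) (𝕢 h τ) := by
    funext τ
    rw [update_of_ne (Periodic.qParam_ne_zero _)]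
    exact (hf τ).unique (hasSum_cuspFunction_punctured hh hf
      (Periodic.norm_qParam_lt_one hh τ.im_pos) (exp_ne_zero _))
  rw [hfeq]
  simpa [update_self, Function.comp_def] using
    (hasFPowerSeriesOnBall_update_cusp hh hf).hasFPowerSeriesAt.continuousAt.tendsto.comp
      (qParam_tendsto_atImInfty hh)

theorem tendsto_uPar_atImInfty {M : ℕ} (hM : 0 < M) :
    Tendsto (fun τ : ℍ => uPar M τ) atImInfty (𝓝 0) := by
  have hM' : (0 : ℝ) < M := by exact_mod_cast hM
  exact qParam_tendsto_atImInfty hM'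

/-- the normalised function `X · u^{-k}` tends to the coefficient `x_k`, if `x` has no terms of
exponent `< k` -/
theorem IsExp.tendsto_mul_zpow {M : ℕ} (hM : 0 < M) {x : LaurentSeries ℂ} {X : ℍ → ℂ}
    (hx : IsExp M x X) (k : ℤ) (hk : ∀ n < k, x.coeff n = 0) :
    Tendsto (fun τ => X τ * uPar M τ ^ (-k)) atImInfty (𝓝 (x.coeff k)) := by
  have hM' : (0 : ℝ) < M := by exact_mod_cast hM
  have h1 := tendsto_of_hasSum_qParam (h := (M : ℝ)) (f := fun τ => X τ * uPar M τ ^ (-k))
    (c := fun m : ℕ => x.coeff (m + k)) hM' (fun τ => by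
      have := hx.hasSum_nat k hk τ
      simpa [uPar] using this)
  simpa using h1

theorem IsExp.eq_zero_of_zero {M : ℕ} {X : ℍ → ℂ} (hx : IsExp M 0 X) (τ : ℍ) : X τ = 0 := by
  have h1 := hx τ
  have h2 : HasSum (fun n : ℤ => (0 : LaurentSeries ℂ).coeff n * uPar M τ ^ n) 0 := by
    simpa using (hasSum_zero : HasSum (fun _ : ℤ => (0 : ℂ)) 0)
  exact h1.unique h2

theorem isZeroAtImInfty_of_isExp_quot {M : ℕ} (hM : 0 < M) {a b : LaurentSeries ℂ}
    {A B g : ℍ → ℂ} (ha : IsExp M a A) (hb : IsExp M b B) (hb0 : b ≠ 0)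
    (hord : a = 0 ∨ b.order < a.order) (hg : ∀ τ, B τ * g τ = A τ) :
    IsZeroAtImInfty g := by
  have hβ : b.coeff b.order ≠ 0 := HahnSeries.coeff_order_eq_zero.not.mpr hb0
  have hB := hb.tendsto_mul_zpow hM b.order
    (fun n hn => HahnSeries.coeff_eq_zero_of_lt_order hn)
  -- eventually `B ≠ 0`
  have hBne : ∀ᶠ τ in atImInfty, B τ ≠ 0 := by
    have := hB.eventually_ne hβ
    filter_upwards [this] with τ hτ h0
    exact hτ (by rw [h0, zero_mul])
  show Tendsto g atImInfty (𝓝 0)
  rcases hord with rfl | hord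
  · -- `A = 0`
    have hgz : g =ᶠ[atImInfty] fun _ => (0 : ℂ) := by
      filter_upwards [hBne] with τ hτ
      have := hg τ
      rw [ha.eq_zero_of_zero τ] at this
      rcases mul_eq_zero.mp this with h | h
      · exact absurd h hτ
      · exact h
    exact (tendsto_const_nhds).congr' hgz.symm
  · have hA := ha.tendsto_mul_zpow hM (b.order + 1) (fun n hn =>
      HahnSeries.coeff_eq_zero_of_lt_order (by omega))
    have hu := tendsto_uPar_atImInfty hM
    have hquot := hu.mul (hA.div hB hβ)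
    rw [zero_mul] at hquot
    refine hquot.congr' ?_
    filter_upwards [hBne] with τ hτ
    have hu0 := uPar_ne_zero M τ
    have h1 := hg τ
    have hz1 : uPar M τ ^ (-(b.order + 1)) = (uPar M τ ^ b.order)⁻¹ * (uPar M τ)⁻¹ := by
      rw [neg_add, zpow_add₀ hu0, zpow_neg, zpow_neg, zpow_one]
    have hz2 : uPar M τ ^ (-b.order) = (uPar M τ ^ b.order)⁻¹ := zpow_neg _ _
    have hz3 : uPar M τ ^ b.order ≠ 0 := zpow_ne_zero _ hu0
    simp only [Pi.div_apply]
    rw [hz1, hz2, ← h1]
    field_simp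

end Fermat.Agent.FF
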