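import Mathlib
import Fermat.Agent.FF.ModRing
import Fermat.Prelude.Thm_CongruenceSubgroup_one_mem_strictPeriods_Gamma0

/-!
# Item 73, piece 73-Q: rationality of the `q`-expansion of a quotient

If `A, B` have `ℚ̄`-rational expansions in `exp (2πiτ/N)` and the cusp form `f` satisfies
`B f = A`, then the `q`-expansion coefficients of `f` lie in `ι(ℚ̄)`.
-/

set_option autoImplicit false

open UpperHalfPlane hiding I
open Function Complex
open scoped Real MatrixGroups Manifold

namespace Fermat.Agent.FF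

/-- an `ℕ`-indexed `q`-expansion is a Laurent expansion -/
theorem isExp_of_hasSum_nat {M : ℕ} {p : PowerSeries ℂ} {h : ℍ → ℂ}
    (hp : ∀ τ : ℍ, HasSum (fun m : ℕ => p.coeff m * uPar M τ ^ m) (h τ)) :
    IsExp M (p : LaurentSeries ℂ) h := by
  intro τ
  have hinj : Function.Injective (Nat.cast : ℕ → ℤ) := Nat.cast_injective
  rw [← hinj.hasSum_iff]
  · refine (hp τ).congr_fun ?_
    intro m
    simp only [Function.comp]
    rw [PowerSeries.coeff_coe, if_neg (by omega), Int.natAbs_natCast, zpow_natCast]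
  · intro n hn
    have hneg : n < 0 := by
      by_contra hcon
      push Not at hcon
      exact hn ⟨n.toNat, by simp [hcon]⟩
    rw [PowerSeries.coeff_coe, if_pos hneg, zero_mul]

/-- the `q`-expansion of a cusp form of level `Γ₀(N)` as a Laurent expansion -/
theorem isExp_qExpansion_cuspForm {N : ℕ} [NeZero N] {k : ℤ}
    (f : CuspForm (CongruenceSubgroup.Gamma0 N) k) :
    IsExp 1 ((qExpansion 1 f : PowerSeries ℂ) : LaurentSeries ℂ) f := by
  apply isExp_of_hasSum_nat
  intro τ
  have := ModularForm.hasSum_qExpansion (f := f) one_pos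
    (CongruenceSubgroup.one_mem_strictPeriods_Gamma0 N) τ
  refine this.congr_fun ?_
  intro m
  simp [uPar]

theorem qExpansion_coeff_mem_of_isExpK_quot {N : ℕ} [NeZero N] {k : ℤ}
    {a b : LaurentSeries Kbar} {A B : ℍ → ℂ}
    (ha : IsExpK N a A) (hb : IsExpK N b B) (hb0 : b ≠ 0)
    (f : CuspForm (CongruenceSubgroup.Gamma0 N) k) (hf : ∀ τ, B τ * f τ = A τ) (n : ℕ) :
    ∃ c : Kbar, (qExpansion 1 f).coeff n = iotaK c := by
  have hN : 0 < N := Nat.pos_of_ne_zero (NeZero.ne N)
  have h1 := (isExp_qExpansion_cuspForm f).change_level N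
  rw [one_mul] at h1
  have h2 : IsExp N (iotaL b * ModularCurve.qExpand ℂ N
      ((qExpansion 1 f : PowerSeries ℂ) : LaurentSeries ℂ)) A :=
    (IsExp.mul hb h1).congr hf
  have h3 := IsExp.unique hN h2 ha
  have hb' : iotaL b ≠ 0 := fun h => hb0 (iotaL_injective (by rw [h, map_zero]))
  have h4 : ModularCurve.qExpand ℂ N ((qExpansion 1 f : PowerSeries ℂ) : LaurentSeries ℂ)
      = iotaL (a / b) := by
    rw [map_div₀, eq_div_iff hb', mul_comm]
    exact h3
  refine ⟨(a / b).coeff ((N : ℤ) * n), ?_⟩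
  rw [← iotaL_coeff, ← h4, ModularCurve.qExpand_coeff_mul, PowerSeries.coeff_coe,
    if_neg (by omega), Int.natAbs_natCast]

end Fermat.Agent.FF
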