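import Mathlib
import Fermat.Agent.FF.ModRealEv
import Fermat.Agent.FF.DictDJ
import Fermat.Agent.FF.DictCusp
import Fermat.Agent.FF.DictHol
import Fermat.Agent.FF.DictQ
import Fermat.Agent.FF.ModPK

/-!
# Item 73 (dictionary), piece E2: the cusp form `(A / B) · D j`

For `Γ₀(N)`-invariant `A, B ∈ modRing N`, `B ≠ 0`, such that `A · D j / B` has nonnegative order
at all points of `ℍ` and positive order at all cusps, `A · D j / B` is a cusp form of weight `2`
on `Γ₀(N)`, with `q`-expansion coefficients in `ι(ℚ̄)`.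
-/

set_option autoImplicit false

open UpperHalfPlane hiding I
open ModularForm Filter Topology Complex Function CongruenceSubgroup
open scoped MatrixGroups Manifold Modular Real

namespace Fermat.Agent.FF

local notation "Dj" => Derivative.normalizedDerivOfComplex jFun

variable {N : ℕ} [NeZero N]

theorem RN.coe_fun_ne_zero {B : RN N} (hB : B ≠ 0) : (B : ℍ → ℂ) ≠ 0 := fun h =>
  hB (Subtype.ext h)

theorem D_jFun_smul (γ : SL(2, ℤ)) (τ : ℍ) : Dj (γ • τ) * denom γ τ ^ (-(2 : ℤ)) = Dj τ := by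
  have h := congrFun (D_jFun_slash γ) τ
  rwa [ModularForm.SL_slash_apply] at h

/-- cancellation of a nonzero holomorphic factor -/
theorem eq_of_mul_eq_mul {B f g : ℍ → ℂ} (hB : MDiff B) (hf : MDiff f) (hg : MDiff g)
    (hB0 : B ≠ 0) (h : ∀ τ, B τ * f τ = B τ * g τ) : f = g := by
  have h1 : B * (f - g) = 0 := by
    funext τ
    simp only [Pi.mul_apply, Pi.sub_apply, Pi.zero_apply, mul_sub, h τ, sub_self]
  rcases (UpperHalfPlane.mul_eq_zero_iff hB (hf.sub hg)).mp h1 with h2 | h2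
  · exact absurd h2 hB0
  · exact sub_eq_zero.mp h2

theorem isExp_mul_D_jFun (A : RN N) :
    IsExp N (iotaL (expInf N A * ModularCurve.qExpand Kbar N thetaJq))
      (fun τ => (A : ℍ → ℂ) τ * Dj τ) := by
  have h1 : IsExp N (iotaL (expInf N A)) (A : ℍ → ℂ) := isExpK_expInf N A
  have h2 : IsExp 1 (iotaL thetaJq) Dj := isExpK_D_jFun
  have h3 := h2.change_level N
  rw [one_mul] at h3
  have h4 : iotaL (ModularCurve.qExpand Kbar N thetaJq)
      = ModularCurve.qExpand ℂ N (iotaL thetaJq) := by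
    rw [iotaL, ModularCurve.coeffMap_qExpand]
  rw [map_mul, h4]
  exact h1.mul h3

theorem isExpK_mul_D_jFun (A : RN N) :
    IsExpK N (expInf N A * ModularCurve.qExpand Kbar N thetaJq)
      (fun τ => (A : ℍ → ℂ) τ * Dj τ) := isExp_mul_D_jFun A

/-- **E2**: the cusp form attached to a quotient `A / B`, given the holomorphic quotient `g`. -/
theorem exists_cuspForm_of_mdiff (A B : RN N) (hB : B ≠ 0)
    (hA : IsInv0 N A) (hBinv : IsInv0 N B)
    (g : ℍ → ℂ) (hg : MDiff g) (hgB : ∀ τ, (B : ℍ → ℂ) τ * g τ = (A : ℍ → ℂ) τ * Dj τ)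
    (hcusp : A = 0 ∨ ∀ γ : SL(2, ℤ), (expInf N (compSL N γ B)).order
      < (expInf N (compSL N γ A) * ModularCurve.qExpand Kbar N thetaJq).order) :
    ∃ f : CuspForm (Gamma0 N) 2, (∀ τ, (B : ℍ → ℂ) τ * f τ = (A : ℍ → ℂ) τ * Dj τ) ∧
      ∀ n : ℕ, ∃ c : Kbar, (qExpansion 1 f).coeff n = iotaK c := by
  have hN : 0 < N := Nat.pos_of_ne_zero (NeZero.ne N)
  have hB0 : (B : ℍ → ℂ) ≠ 0 := RN.coe_fun_ne_zero hB
  have hgB' : ∀ τ, (B : ℍ → ℂ) τ * g τ = (A : ℍ → ℂ) τ * Dj τ := hgB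
  -- the slash of `g` by any `γ ∈ SL(2,ℤ)`
  have hslash : ∀ (γ : SL(2, ℤ)) (τ : ℍ),
      ((compSL N γ B : RN N) : ℍ → ℂ) τ * (g ∣[(2 : ℤ)] γ) τ
        = ((compSL N γ A : RN N) : ℍ → ℂ) τ * Dj τ := by
    intro γ τ
    rw [ModularForm.SL_slash_apply, compSL_apply, compSL_apply, ← D_jFun_smul γ τ, ← mul_assoc,
      hgB' (γ • τ)]
    ring
  have hgslash : ∀ γ : SL(2, ℤ), MDiff (g ∣[(2 : ℤ)] γ) := fun γ => by
    have := hg.slash (2 : ℤ) (γ : GL (Fin 2) ℝ)
    exact this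
  -- invariance under `Γ₀(N)`
  have hinv : ∀ γ ∈ Gamma0 N, g ∣[(2 : ℤ)] γ = g := by
    intro γ hγ
    apply eq_of_mul_eq_mul B.mdiff (hgslash γ) hg hB0
    intro τ
    have h1 := hslash γ τ
    rw [hA γ hγ, hBinv γ hγ] at h1
    rw [h1, hgB' τ]
  -- vanishing at the cusps
  have hzero : ∀ γ : SL(2, ℤ), IsZeroAtImInfty (g ∣[(2 : ℤ)] γ) := by
    intro γ
    have hb : IsExp N (iotaL (expInf N (compSL N γ B))) ((compSL N γ B : RN N) : ℍ → ℂ) :=
      isExpK_expInf N _
    have ha := isExp_mul_D_jFun (compSL N γ A)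
    have hb0 : iotaL (expInf N (compSL N γ B)) ≠ 0 := by
      intro h0
      have h1 : expInf N (compSL N γ B) = 0 := iotaL_injective (by rw [h0, map_zero])
      have h2 : compSL N γ B = 0 := expInf_injective N (by rw [h1, map_zero])
      exact hB (compSL_injective γ (by rw [h2, map_zero]))
    refine isZeroAtImInfty_of_isExp_quot hN ha hb hb0 ?_ (fun τ => hslash γ τ)
    rcases hcusp with rfl | h
    · left
      rw [map_zero, map_zero, zero_mul, map_zero]
    · right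
      rw [iotaL_order, iotaL_order]
      exact h γ
  let f : CuspForm (Gamma0 N) 2 :=
    { toFun := g
      slash_action_eq' := by
        rintro γ ⟨γ0, hγ0, rfl⟩
        exact hinv γ0 hγ0
      holo' := hg
      zero_at_cusps' := fun {c} hc => by
        rw [Subgroup.IsArithmetic.isCusp_iff_isCusp_SL2Z] at hc
        rw [OnePoint.isZeroAt_iff_forall_SL2Z hc]
        intro γ _
        exact hzero γ }
  have hfg : ∀ τ, f τ = g τ := fun τ => rfl
  refine ⟨f, fun τ => by rw [hfg]; exact hgB' τ, fun n => ?_⟩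
  exact qExpansion_coeff_mem_of_isExpK_quot (isExpK_mul_D_jFun A) (isExpK_expInf N B)
    (fun h0 => hB (expInf_injective N (by rw [h0, map_zero]))) f
    (fun τ => by rw [hfg]; exact hgB' τ) n

/-- **E2**: the cusp form attached to a quotient `A / B` (order form). -/
theorem exists_cuspForm_of_quot (A B : RN N) (hB : B ≠ 0)
    (hA : IsInv0 N A) (hBinv : IsInv0 N B)
    (hfin : A = 0 ∨ ∀ τ : ℍ, ordAt τ (B : ℍ → ℂ) ≤ ordAt τ ((A : ℍ → ℂ) * Dj))
    (hcusp : A = 0 ∨ ∀ γ : SL(2, ℤ), (expInf N (compSL N γ B)).order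
      < (expInf N (compSL N γ A) * ModularCurve.qExpand Kbar N thetaJq).order) :
    ∃ f : CuspForm (Gamma0 N) 2, (∀ τ, (B : ℍ → ℂ) τ * f τ = (A : ℍ → ℂ) τ * Dj τ) ∧
      ∀ n : ℕ, ∃ c : Kbar, (qExpansion 1 f).coeff n = iotaK c := by
  have hB0 : (B : ℍ → ℂ) ≠ 0 := RN.coe_fun_ne_zero hB
  have hADj : MDiff ((A : ℍ → ℂ) * Dj) := A.mdiff.mul mdiff_D_jFun
  have hfin' : (A : ℍ → ℂ) * Dj = 0 ∨
      ∀ τ : ℍ, ordAt τ (B : ℍ → ℂ) ≤ ordAt τ ((A : ℍ → ℂ) * Dj) := by
    rcases hfin with rfl | h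
    · left
      funext τ
      simp
    · exact Or.inr h
  obtain ⟨g, hg, hgB⟩ := exists_mdiff_quotient hADj B.mdiff hB0 hfin'
  exact exists_cuspForm_of_mdiff A B hB hA hBinv g hg hgB hcusp

/-- conversion of the cusp inequality -/
theorem order_mul_thetaJq {a : LaurentSeries Kbar} (ha : a ≠ 0) :
    (a * ModularCurve.qExpand Kbar N thetaJq).order = a.order - N := by
  have h1 : ModularCurve.qExpand Kbar N thetaJq ≠ 0 := by
    intro h0
    have h2 : thetaJq = 0 := ModularCurve.qExpand_injective (R := Kbar) N (by rw [h0, map_zero])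
    have h3 := thetaJq_order
    rw [h2] at h3
    simp at h3
  rw [HahnSeries.order_mul ha h1, order_qExpand, thetaJq_order]
  ring

end Fermat.Agent.FF
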