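import Mathlib
import Fermat.Agent.Lib.CuspFormFinDim

/-!
# Item 73 (c): linear independence over `K` implies linear independence over `ℂ`

If `Ψ : V → S_k(Γ₀(N))` is additive, semilinear over `ι : K →+* ℂ`, injective, and all
`q`-expansion coefficients of the `Ψ v` lie in `ι K`, then `dim_K V ≤ dim_ℂ S_k(Γ₀(N))`.
-/

set_option autoImplicit false
set_option linter.style.haveILetI false

open UpperHalfPlane

namespace Fermat.Agent.FF

open Fermat.Agent.Lib.CuspFormFinDim in
theorem finrank_le_of_semilinear_injective {K V : Type*} [Field K] [AddCommGroup V] [Module K V]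
    (ι : K →+* ℂ) (N : ℕ) [NeZero N] (k : ℤ)
    (Ψ : V → CuspForm (CongruenceSubgroup.Gamma0 N) k)
    (hadd : ∀ u v, Ψ (u + v) = Ψ u + Ψ v) (hsmul : ∀ (c : K) v, Ψ (c • v) = ι c • Ψ v)
    (hinj : ∀ v, Ψ v = 0 → v = 0)
    (hcoeff : ∀ v (n : ℕ), ∃ b : K, (qExpansion 1 (Ψ v)).coeff n = ι b) :
    Module.finrank K V ≤ Module.finrank ℂ (CuspForm (CongruenceSubgroup.Gamma0 N) k) := by
  classical
  haveI : FiniteDimensional ℂ (CuspForm (CongruenceSubgroup.Gamma0 N) k) := finiteDimensional N k
  letI : Algebra K ℂ := ι.toAlgebra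
  haveI : FaithfulSMul K ℂ := (faithfulSMul_iff_algebraMap_injective K ℂ).mpr ι.injective
  have halg : ∀ c : K, algebraMap K ℂ c = ι c := fun _ => rfl
  -- Ψ as a semilinear map
  let Ψl : V →ₛₗ[ι] CuspForm (CongruenceSubgroup.Gamma0 N) k :=
    { toFun := Ψ
      map_add' := hadd
      map_smul' := hsmul }
  have hΨl : ∀ v, Ψl v = Ψ v := fun _ => rfl
  apply Module.finrank_le_of_rank_le
  apply rank_le
  intro s hs
  -- coefficient vectors over `K`
  choose b hb using hcoeff
  let B : s → (Fin (P2MW.S_CuspForm_intLattice_fg.W3WsD.sturmB N k + 1) → K) :=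
    fun i n => b (i : V) n
  have hBι : ∀ i : s, (fun n => algebraMap K ℂ (B i n)) = truncC N k (Ψ (i : V)) := by
    intro i
    funext n
    rw [halg]
    exact (hb (i : V) n).symm
  have hBind : LinearIndependent K B := by
    rw [Fintype.linearIndependent_iff]
    intro c hc
    rw [Fintype.linearIndependent_iff] at hs
    apply hs c
    apply hinj
    apply truncC_injective N k
    have e1 : Ψ (∑ i, c i • (i : V)) = ∑ i, ι (c i) • Ψ (i : V) := by
      rw [← hΨl, map_sum]
      exact Finset.sum_congr rfl fun i _ => map_smulₛₗ Ψl (c i) (i : V)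
    rw [e1, map_zero, map_sum]
    funext n
    have h1 := congrFun hc n
    simp only [Finset.sum_apply, Pi.smul_apply, smul_eq_mul, Pi.zero_apply] at h1
    have h2 := congrArg ι h1
    rw [map_sum, map_zero] at h2
    rw [Finset.sum_apply, Pi.zero_apply, ← h2]
    refine Finset.sum_congr rfl fun i _ => ?_
    rw [map_smul, Pi.smul_apply, smul_eq_mul, map_mul, ← congrFun (hBι i) n, halg]
  have hBC : LinearIndependent ℂ (fun i : s => algebraMap K ℂ ∘ B i) :=
    linearIndependent_algebraMap_comp_iff.mpr hBind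
  have hfam : (fun i : s => algebraMap K ℂ ∘ B i)
      = (truncC N k) ∘ fun i : s => Ψ (i : V) := by
    funext i
    exact hBι i
  rw [hfam] at hBC
  have hΨind : LinearIndependent ℂ (fun i : s => Ψ (i : V)) := LinearIndependent.of_comp _ hBC
  have := hΨind.fintype_card_le_finrank
  rwa [Fintype.card_coe] at this

end Fermat.Agent.FF
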