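import Mathlib
import Fermat.Prelude.Def_ModularCurve_PeriodMap
import Fermat.Prelude.Def_ModularCurve_GenusNumerics
import Fermat.Agent.FF.ParabolicAbstract
import Fermat.Agent.FF.CosetFinal

/-!
# Item 75: `dim Hom_par(Γ₀(N), ℂ) ≤ 2 g` (lead)
-/

set_option autoImplicit false

open CongruenceSubgroup MulAction
open scoped MatrixGroups

namespace Fermat.Agent.FF

variable (N : ℕ) [NeZero N]

omit [NeZero N] in
theorem T_pow_smul_X (x : X N) : ModularGroup.T ^ N • x = x := by
  induction x using QuotientGroup.induction_on with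
  | H g =>
    show (((ModularGroup.T ^ N * g : SL(2, ℤ)) : X N)) = (g : X N)
    rw [coset_eq_iff]
    have hT : ((ModularGroup.T ^ N : SL(2, ℤ)) : Matrix (Fin 2) (Fin 2) ℤ) = !![1, (N : ℤ); 0, 1] := by
      rw [← zpow_natCast, ModularGroup.coe_T_zpow]
    have e00 : ((ModularGroup.T ^ N * g : SL(2, ℤ)) 0 0 : ℤ) = g 0 0 + N * g 1 0 := by
      rw [Matrix.SpecialLinearGroup.coe_mul, Matrix.mul_apply, Fin.sum_univ_two, hT]
      simp
    have e10 : ((ModularGroup.T ^ N * g : SL(2, ℤ)) 1 0 : ℤ) = g 1 0 := by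
      rw [Matrix.SpecialLinearGroup.coe_mul, Matrix.mul_apply, Fin.sum_univ_two, hT]
      simp
    rw [e00, e10]
    push_cast
    rw [ZMod.natCast_self]
    ring

theorem closure_S_ST :
    Subgroup.closure ({ModularGroup.S, ModularGroup.S * ModularGroup.T} : Set SL(2, ℤ)) = ⊤ := by
  rw [eq_top_iff, ← _root_.SpecialLinearGroup.SL2Z_generators, Subgroup.closure_le]
  rintro g (rfl | rfl)
  · exact Subgroup.subset_closure (by simp)
  · have hT : ModularGroup.T = ModularGroup.S⁻¹ * (ModularGroup.S * ModularGroup.T) := by group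
    rw [hT]
    exact Subgroup.mul_mem _ (Subgroup.inv_mem _ (Subgroup.subset_closure (by simp)))
      (Subgroup.subset_closure (by simp))

theorem trace_conj_SL (g e : SL(2, ℤ)) :
    ((g⁻¹ * e * g : SL(2, ℤ)) : Matrix (Fin 2) (Fin 2) ℤ).trace
      = (e : Matrix (Fin 2) (Fin 2) ℤ).trace := by
  rw [Matrix.SpecialLinearGroup.coe_mul, Matrix.SpecialLinearGroup.coe_mul,
    Matrix.trace_mul_cycle, ← Matrix.SpecialLinearGroup.coe_mul, mul_inv_cancel,
    Matrix.SpecialLinearGroup.coe_one, one_mul]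

theorem trace_S_sq : ((ModularGroup.S ^ 2 : SL(2, ℤ)) : Matrix (Fin 2) (Fin 2) ℤ).trace = -2 := by
  rw [pow_two, Matrix.SpecialLinearGroup.coe_mul, ModularGroup.S_mul_S_eq]
  simp [Matrix.trace_fin_two]

theorem trace_U_cube :
    (((ModularGroup.S * ModularGroup.T) ^ 3 : SL(2, ℤ)) : Matrix (Fin 2) (Fin 2) ℤ).trace = -2 := by
  have : (ModularGroup.S * ModularGroup.T) ^ 3 = (-1 : SL(2, ℤ)) := by
    apply Subtype.ext
    simp only [pow_succ, pow_zero, one_mul, Matrix.SpecialLinearGroup.coe_mul,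
      ModularGroup.coe_S, ModularGroup.coe_T, Matrix.SpecialLinearGroup.coe_neg,
      Matrix.SpecialLinearGroup.coe_one]
    ext i j
    fin_cases i <;> fin_cases j <;> simp [Matrix.mul_apply, Fin.sum_univ_two]
  rw [this]
  simp [Matrix.trace_fin_two]

omit [NeZero N] in
theorem trace_T_pow :
    ((ModularGroup.T ^ N : SL(2, ℤ)) : Matrix (Fin 2) (Fin 2) ℤ).trace = 2 := by
  rw [← zpow_natCast, ModularGroup.coe_T_zpow]
  simp [Matrix.trace_fin_two]

/-- **Item 75**: the space of parabolic homomorphisms `Γ₀(N) → ℂ` is finite-dimensional of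
dimension at most `2 g`. -/
theorem parabolicHoms_bound :
    Module.Finite ℂ (ModularCurve.Period.parabolicHoms ℂ (Gamma0 N) ℂ) ∧
      (Module.finrank ℂ (ModularCurve.Period.parabolicHoms ℂ (Gamma0 N) ℂ) : ℚ)
        ≤ 2 * ModularCurve.genusFormula N := by
  have hTdef : (ModularGroup.S)⁻¹ * (ModularGroup.S * ModularGroup.T) = ModularGroup.T := by group
  have hN : 0 < N := Nat.pos_of_ne_zero (NeZero.ne N)
  have key := PB.finrank_add_orbits_le (G := SL(2, ℤ)) (Gamma0 N)
    ModularGroup.S (ModularGroup.S * ModularGroup.T) closure_S_ST N hN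
    (S_sq_smul N) (U_cube_smul N) (by rw [hTdef]; exact T_pow_smul_X N)
    (ModularCurve.Period.parabolicHoms ℂ (Gamma0 N) ℂ) (by
      intro φ hφ e he g
      by_cases hmem : g⁻¹ * e * g ∈ Gamma0 N
      · rw [PB.ext0_mem _ φ hmem]
        refine hφ ⟨g⁻¹ * e * g, hmem⟩ ?_
        show ((g⁻¹ * e * g : SL(2, ℤ)) : Matrix (Fin 2) (Fin 2) ℤ).trace ^ 2 = 4
        rw [trace_conj_SL]
        rcases he with rfl | rfl | rfl
        · rw [trace_S_sq]; norm_num
        · rw [trace_U_cube]; norm_num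
        · rw [hTdef, trace_T_pow]; norm_num
      · unfold PB.ext0
        rw [dif_neg hmem])
  refine ⟨key.1, ?_⟩
  have h2 := key.2
  rw [hTdef] at h2
  have hC := cosetCounts N
  have hX : Nat.card (SL(2, ℤ) ⧸ Gamma0 N) = ModularCurve.dedekindPsi N := hC.card_X
  have hkey : ∀ (dH oS oU oT : ℕ), dH + oS + oU + oT ≤ Nat.card (SL(2, ℤ) ⧸ Gamma0 N) + 2 →
      oS = orbCount N ModularGroup.S → oU = orbCount N (ModularGroup.S * ModularGroup.T) →
      oT = orbCount N ModularGroup.T →
      (dH : ℚ) ≤ 2 * ModularCurve.genusFormula N := by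
    intro dH oS oU oT h hS hU hT
    rw [hX] at h
    have hoS := hC.orb_S
    have hoU := hC.orb_U
    have hoT := hC.orb_T
    rw [← hS] at hoS
    rw [← hU] at hoU
    rw [← hT] at hoT
    unfold ModularCurve.genusFormula
    have h' : (dH : ℚ) + oS + oU + oT ≤ ModularCurve.dedekindPsi N + 2 := by exact_mod_cast h
    have hoS' : (2 : ℚ) * oS = ModularCurve.dedekindPsi N + ModularCurve.nuTwo N := by
      exact_mod_cast hoS
    have hoU' : (3 : ℚ) * oU = ModularCurve.dedekindPsi N + 2 * ModularCurve.nuThree N := by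
      exact_mod_cast hoU
    have hoT' : (oT : ℚ) = ModularCurve.cuspCount N := by exact_mod_cast hoT
    rw [← hoT']
    linarith
  exact hkey _ _ _ _ h2 rfl rfl rfl

end Fermat.Agent.FF
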