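import Mathlib
import Fermat.Prelude.Def_ModularCurve_PeriodHomPair
import Fermat.Prelude.Def_AlgebraicCurve_Repartitions
import Fermat.Agent.FF.Interface
import Fermat.Agent.FF.ParabolicBound
import Fermat.Agent.Lib.CuspFormFinDim

/-!
# S20 / S21 interface (lead): contracts for items 72, 73, 76 and the assemblies 74, 77

* `RRStatement K F`   : item 72 (Riemann–Roch for the canonical divisor `div(dx)`), pure algebra.
* `DictStatement N`   : item 73 (direction `L(div dj) → S₂(Γ₀(N))`, over `K = ℚ̄`).
* `PeriodStatement N` : item 76 (periodHomPair injective with parabolic range).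
* `parabolicHoms_bound` (item 75, done), `RHStatement`, `ModularRamification`, `CosetCounts` (S24).
-/

set_option autoImplicit false

open AlgebraicCurve KaehlerDifferential CongruenceSubgroup IntermediateField
open scoped MatrixGroups

namespace Fermat.Agent.FF

section General

variable (K F : Type*) [Field K] [Field F] [Algebra K F]

/-- **Item 72 deliverable** (Riemann–Roch for the canonical divisor of `dx`). -/
def RRStatement : Prop :=
  ∀ (x : F), Transcendental K x → FiniteDimensional K⟮x⟯ F →
    ∀ W : Divisor K F, (∀ v : Place K F, W v = v.ordDifferential (D K F x)) →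
      Module.Finite K (riemannRochSpace W) ∧
        2 * (Module.finrank K (riemannRochSpace W) : ℤ) = Divisor.degree W + 2

end General

section Modular

variable (N : ℕ) [NeZero N]

/-- **Item 73 deliverable**: holomorphic differentials of `F_N` give cusp forms. -/
def DictStatement : Prop :=
  ∀ W : Divisor (AlgebraicClosure ℚ) ↥(ModularCurve.modularFunctionFieldBar N),
    (∀ v : Place (AlgebraicClosure ℚ) ↥(ModularCurve.modularFunctionFieldBar N),
      W v = v.ordDifferential (D (AlgebraicClosure ℚ) ↥(ModularCurve.modularFunctionFieldBar N)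
        (jBar N))) →
    Module.finrank (AlgebraicClosure ℚ) (riemannRochSpace W)
      ≤ Module.finrank ℂ (CuspForm (Gamma0 N) 2)

/-- existence of the divisor of `dj` (finite support); from item 66 -/
def DivisorDjExists : Prop :=
  ∃ W : Divisor (AlgebraicClosure ℚ) ↥(ModularCurve.modularFunctionFieldBar N),
    ∀ v : Place (AlgebraicClosure ℚ) ↥(ModularCurve.modularFunctionFieldBar N),
      W v = v.ordDifferential (D (AlgebraicClosure ℚ) ↥(ModularCurve.modularFunctionFieldBar N)
        (jBar N))

/-- **Item 76 deliverable**. -/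
def PeriodStatement : Prop :=
  Function.Injective (ModularCurve.periodHomPair N) ∧
    LinearMap.range (ModularCurve.periodHomPair N)
      ≤ ModularCurve.Period.parabolicHoms ℂ (Gamma0 N) ℂ

omit [NeZero N] in
/-- the degree of `div(dj)` (what the S24 computation really proves) -/
theorem degree_div_dj
    (hRH : RHStatement (AlgebraicClosure ℚ) ↥(ModularCurve.modularFunctionFieldBar N))
    (hM : ModularRamification N) (hC : CosetCounts N)
    (W : Divisor (AlgebraicClosure ℚ) ↥(ModularCurve.modularFunctionFieldBar N))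
    (hW : ∀ v : Place (AlgebraicClosure ℚ) ↥(ModularCurve.modularFunctionFieldBar N),
      W v = v.ordDifferential (D (AlgebraicClosure ℚ) ↥(ModularCurve.modularFunctionFieldBar N)
        (jBar N)))
    (hne : D (AlgebraicClosure ℚ) ↥(ModularCurve.modularFunctionFieldBar N) (jBar N) ≠ 0) :
    (Divisor.degree W : ℚ) = 2 * ModularCurve.genusFormula N - 2 := by
  classical
  obtain ⟨hex, hdeg⟩ := hRH (jBar N) hM.transc hM.findim
  have h01 : (0 : AlgebraicClosure ℚ) ≠ 1728 := by norm_num
  have hB : ∀ a, a ∉ ({0, 1728} : Finset (AlgebraicClosure ℚ)) →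
      ∀ v : Place (AlgebraicClosure ℚ) ↥(ModularCurve.modularFunctionFieldBar N),
        0 < v.ord (jBar N - algebraMap _ _ a) → v.ord (jBar N - algebraMap _ _ a) = 1 := by
    intro a ha v hv
    simp only [Finset.mem_insert, Finset.mem_singleton, not_or] at ha
    exact hM.unram a ha.1 ha.2 v hv
  have hdeg' := hdeg {0, 1728} hB _ hne W hW
  rw [Finset.sum_pair h01, hM.finrank_eq, hM.card_zero, hM.card_1728, hM.card_inf,
    hC.card_X] at hdeg'
  rw [hdeg', ModularCurve.genusFormula]
  have h2 := congrArg (Nat.cast : ℕ → ℚ) hC.orb_S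
  have h3 := congrArg (Nat.cast : ℕ → ℚ) hC.orb_U
  have h4 := congrArg (Nat.cast : ℕ → ℚ) hC.orb_T
  push_cast at h2 h3 h4 ⊢
  linarith

/-- upper bound from Eichler–Shimura injectivity and the group-theoretic count -/
theorem finrank_cuspForm_le (hP : PeriodStatement N) :
    (Module.finrank ℂ (CuspForm (Gamma0 N) 2) : ℚ) ≤ ModularCurve.genusFormula N := by
  have : FiniteDimensional ℂ (CuspForm (Gamma0 N) 2) :=
    Fermat.Agent.Lib.CuspFormFinDim.finiteDimensional N 2
  obtain ⟨hfin, hle⟩ := parabolicHoms_bound N
  have h1 : Module.finrank ℂ (CuspForm (Gamma0 N) 2 × CuspForm (Gamma0 N) 2)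
      = Module.finrank ℂ (LinearMap.range (ModularCurve.periodHomPair N)) :=
    (LinearMap.finrank_range_of_inj hP.1).symm
  have h2 : Module.finrank ℂ (LinearMap.range (ModularCurve.periodHomPair N))
      ≤ Module.finrank ℂ (ModularCurve.Period.parabolicHoms ℂ (Gamma0 N) ℂ) :=
    Submodule.finrank_mono hP.2
  rw [Module.finrank_prod] at h1
  have h3 : (2 * Module.finrank ℂ (CuspForm (Gamma0 N) 2) : ℚ)
      ≤ Module.finrank ℂ (ModularCurve.Period.parabolicHoms ℂ (Gamma0 N) ℂ) := by
    have : 2 * Module.finrank ℂ (CuspForm (Gamma0 N) 2)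
        ≤ Module.finrank ℂ (ModularCurve.Period.parabolicHoms ℂ (Gamma0 N) ℂ) := by omega
    exact_mod_cast this
  linarith

/-- **Item 74: assembly of S20.** -/
theorem finrank_cuspForm_eq_of_interfaces
    (hRH : RHStatement (AlgebraicClosure ℚ) ↥(ModularCurve.modularFunctionFieldBar N))
    (hM : ModularRamification N) (hC : CosetCounts N)
    (hRR : RRStatement (AlgebraicClosure ℚ) ↥(ModularCurve.modularFunctionFieldBar N))
    (hW : DivisorDjExists N)
    (hne : D (AlgebraicClosure ℚ) ↥(ModularCurve.modularFunctionFieldBar N) (jBar N) ≠ 0)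
    (hD : DictStatement N) (hP : PeriodStatement N) :
    (Module.finrank ℂ (CuspForm (Gamma0 N) 2) : ℚ) = ModularCurve.genusFormula N := by
  apply le_antisymm (finrank_cuspForm_le N hP)
  obtain ⟨W, hW⟩ := hW
  have hdeg := degree_div_dj N hRH hM hC W hW hne
  obtain ⟨_, hrr⟩ := hRR (jBar N) hM.transc hM.findim W hW
  have hdict := hD W hW
  have hrr' : (2 * Module.finrank (AlgebraicClosure ℚ) (riemannRochSpace W) : ℚ)
      = Divisor.degree W + 2 := by exact_mod_cast hrr
  have hdict' : (Module.finrank (AlgebraicClosure ℚ) (riemannRochSpace W) : ℚ)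
      ≤ Module.finrank ℂ (CuspForm (Gamma0 N) 2) := by exact_mod_cast hdict
  linarith

/-- **Item 77: assembly of S21.** -/
theorem eichlerShimura_of_interfaces (hP : PeriodStatement N)
    (hS20 : (Module.finrank ℂ (CuspForm (Gamma0 N) 2) : ℚ) = ModularCurve.genusFormula N) :
    Function.Injective (ModularCurve.periodHomPair N)
      ∧ LinearMap.range (ModularCurve.periodHomPair N)
          = ModularCurve.Period.parabolicHoms ℂ (Gamma0 N) ℂ := by
  refine ⟨hP.1, ?_⟩
  have : FiniteDimensional ℂ (CuspForm (Gamma0 N) 2) :=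
    Fermat.Agent.Lib.CuspFormFinDim.finiteDimensional N 2
  obtain ⟨hfin, hle⟩ := parabolicHoms_bound N
  have h1 : Module.finrank ℂ (CuspForm (Gamma0 N) 2 × CuspForm (Gamma0 N) 2)
      = Module.finrank ℂ (LinearMap.range (ModularCurve.periodHomPair N)) :=
    (LinearMap.finrank_range_of_inj hP.1).symm
  rw [Module.finrank_prod] at h1
  have h2 : Module.finrank ℂ (ModularCurve.Period.parabolicHoms ℂ (Gamma0 N) ℂ)
      ≤ Module.finrank ℂ (LinearMap.range (ModularCurve.periodHomPair N)) := by
    have h3 : (Module.finrank ℂ (ModularCurve.Period.parabolicHoms ℂ (Gamma0 N) ℂ) : ℚ)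
        ≤ (Module.finrank ℂ (LinearMap.range (ModularCurve.periodHomPair N)) : ℚ) := by
      rw [← h1]
      push_cast
      linarith
    exact_mod_cast h3
  exact Submodule.eq_of_le_of_finrank_le hP.2 h2

end Modular

end Fermat.Agent.FF
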