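import Mathlib
import Fermat.Agent.FF.DictForm
import Fermat.Agent.FF.DictLin
import Fermat.Agent.FF.S20Interface
import Fermat.Agent.FF.DictBridge

/-!
# Item 73 (dictionary): `DictStatement N`
-/

set_option autoImplicit false

open UpperHalfPlane hiding I
open AlgebraicCurve ModularForm Filter Topology Complex Function CongruenceSubgroup
open scoped MatrixGroups Manifold Modular Real

namespace Fermat.Agent.FF

local notation "Dj" => Derivative.normalizedDerivOfComplex jFun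

variable (N : ℕ) [NeZero N]

/-- `g` is the differential `x · dj` attached to `x ∈ L = Frac (modRing N)` -/
def IsDiffOf (x : LN N) (g : ℍ → ℂ) : Prop :=
  ∃ A B : RN N, B ≠ 0 ∧ x = algebraMap (RN N) (LN N) A / algebraMap (RN N) (LN N) B ∧
    ∀ τ, (B : ℍ → ℂ) τ * g τ = (A : ℍ → ℂ) τ * Dj τ

variable {N}

theorem algebraMap_RN_ne_zero {B : RN N} (hB : B ≠ 0) : algebraMap (RN N) (LN N) B ≠ 0 :=
  fun h => hB (IsFractionRing.injective (RN N) (LN N) (by rw [h, map_zero]))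

theorem div_eq_div_RN {A B A' B' : RN N} (hB : B ≠ 0) (hB' : B' ≠ 0)
    (h : algebraMap (RN N) (LN N) A / algebraMap (RN N) (LN N) B
      = algebraMap (RN N) (LN N) A' / algebraMap (RN N) (LN N) B') :
    A * B' = A' * B := by
  apply IsFractionRing.injective (RN N) (LN N)
  rw [map_mul, map_mul]
  have h1 := algebraMap_RN_ne_zero hB
  have h2 := algebraMap_RN_ne_zero hB'
  field_simp at h
  rw [h, mul_comm]

theorem IsDiffOf.unique {x : LN N} {g g' : ℍ → ℂ} (h : IsDiffOf N x g) (h' : IsDiffOf N x g')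
    (hg : MDiff g) (hg' : MDiff g') : g = g' := by
  obtain ⟨A, B, hB, hx, hAB⟩ := h
  obtain ⟨A', B', hB', hx', hAB'⟩ := h'
  have hcross := div_eq_div_RN hB hB' (hx.symm.trans hx')
  have hc : ∀ τ, (A : ℍ → ℂ) τ * (B' : ℍ → ℂ) τ = (A' : ℍ → ℂ) τ * (B : ℍ → ℂ) τ := by
    intro τ
    have := congrArg (fun r : RN N => (r : ℍ → ℂ) τ) hcross
    exact this
  have hBB : ((B * B' : RN N) : ℍ → ℂ) ≠ 0 := RN.coe_fun_ne_zero (mul_ne_zero hB hB')
  apply eq_of_mul_eq_mul (B * B').mdiff hg hg' hBB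
  intro τ
  show (B : ℍ → ℂ) τ * (B' : ℍ → ℂ) τ * g τ = (B : ℍ → ℂ) τ * (B' : ℍ → ℂ) τ * g' τ
  calc (B : ℍ → ℂ) τ * (B' : ℍ → ℂ) τ * g τ
      = (B' : ℍ → ℂ) τ * ((B : ℍ → ℂ) τ * g τ) := by ring
    _ = (B' : ℍ → ℂ) τ * ((A : ℍ → ℂ) τ * Dj τ) := by rw [hAB τ]
    _ = ((A : ℍ → ℂ) τ * (B' : ℍ → ℂ) τ) * Dj τ := by ring
    _ = ((A' : ℍ → ℂ) τ * (B : ℍ → ℂ) τ) * Dj τ := by rw [hc τ]
    _ = (B : ℍ → ℂ) τ * ((A' : ℍ → ℂ) τ * Dj τ) := by ring
    _ = (B : ℍ → ℂ) τ * ((B' : ℍ → ℂ) τ * g' τ) := by rw [hAB' τ]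
    _ = (B : ℍ → ℂ) τ * (B' : ℍ → ℂ) τ * g' τ := by ring

theorem IsDiffOf.add {x x' : LN N} {g g' : ℍ → ℂ} (h : IsDiffOf N x g) (h' : IsDiffOf N x' g') :
    IsDiffOf N (x + x') (g + g') := by
  obtain ⟨A, B, hB, hx, hAB⟩ := h
  obtain ⟨A', B', hB', hx', hAB'⟩ := h'
  refine ⟨A * B' + A' * B, B * B', mul_ne_zero hB hB', ?_, fun τ => ?_⟩
  · have h1 := algebraMap_RN_ne_zero hB
    have h2 := algebraMap_RN_ne_zero hB'
    rw [hx, hx', map_add, map_mul, map_mul, map_mul]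
    field_simp
  · show (B : ℍ → ℂ) τ * (B' : ℍ → ℂ) τ * (g τ + g' τ)
      = ((A : ℍ → ℂ) τ * (B' : ℍ → ℂ) τ + (A' : ℍ → ℂ) τ * (B : ℍ → ℂ) τ) * Dj τ
    have e1 := hAB τ
    have e2 := hAB' τ
    linear_combination (B' : ℍ → ℂ) τ * e1 + (B : ℍ → ℂ) τ * e2

theorem IsDiffOf.smul {x : LN N} {g : ℍ → ℂ} (h : IsDiffOf N x g) (c : Kbar) :
    IsDiffOf N (algebraMap Kbar (LN N) c * x) (iotaK c • g) := by
  obtain ⟨A, B, hB, hx, hAB⟩ := h
  refine ⟨algebraMap Kbar (RN N) c * A, B, hB, ?_, fun τ => ?_⟩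
  · rw [hx, map_mul, ← IsScalarTower.algebraMap_apply Kbar (RN N) (LN N), mul_div_assoc]
  · show (B : ℍ → ℂ) τ * (iotaK c * g τ) = (iotaK c * (A : ℍ → ℂ) τ) * Dj τ
    have e1 := hAB τ
    linear_combination iotaK c * e1

theorem IsDiffOf.eq_zero {x : LN N} (h : IsDiffOf N x 0) : x = 0 := by
  obtain ⟨A, B, hB, hx, hAB⟩ := h
  have h1 : (A : ℍ → ℂ) * Dj = 0 := by
    funext τ
    have := hAB τ
    simp only [Pi.zero_apply, mul_zero] at this
    simpa using this.symm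
  rcases (UpperHalfPlane.mul_eq_zero_iff A.mdiff mdiff_D_jFun).mp h1 with h2 | h2
  · have : A = 0 := Subtype.ext h2
    rw [hx, this, map_zero, zero_div]
  · exact absurd h2 D_jFun_ne_zero

variable (N)

/-- existence of the cusp form attached to `h ∈ L(div dj)` -/
theorem exists_cuspForm_of_mem
    (W : Divisor Kbar (FN N))
    (hW : ∀ v : Place Kbar (FN N),
      W v = v.ordDifferential (KaehlerDifferential.D Kbar (FN N) (jBar N)))
    (h : FN N) (hh : h ∈ riemannRochSpace W) :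
    ∃ f : CuspForm (Gamma0 N) 2, IsDiffOf N (PhiN N h) f ∧
      ∀ n : ℕ, ∃ c : Kbar, (qExpansion 1 f).coeff n = iotaK c := by
  obtain ⟨A, B, hB, hA, hBinv, hAB, -⟩ := exists_PhiN_eq_div N h
  have hA0 : h ≠ 0 → A ≠ 0 := by
    rintro h0 rfl
    rw [map_zero, zero_div] at hAB
    exact h0 ((map_eq_zero (PhiN N)).mp hAB)
  have key : A = 0 ∨ h ≠ 0 := by
    by_cases h0 : h = 0
    · left
      by_contra hne
      rw [h0, map_zero] at hAB
      have := algebraMap_RN_ne_zero hne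
      have hb := algebraMap_RN_ne_zero hB
      exact (div_ne_zero this hb) hAB.symm
    · exact Or.inr h0
  obtain ⟨g, hg, hgB⟩ := exists_mdiff_of_mem_RR N W hW h hh A B hB hAB
  obtain ⟨f, hf, hcoef⟩ := exists_cuspForm_of_mdiff A B hB hA hBinv g hg hgB
    (key.imp id fun h0 γ => by
      have h1 := order_lt_of_mem_RR N W hW h hh h0 γ A B hB hAB
      have hA' : expInf N (compSL N γ A) ≠ 0 := by
        intro hz
        have e1 : compSL N γ A = 0 := expInf_injective N (by rw [hz, map_zero])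
        exact hA0 h0 (compSL_injective γ (by rw [e1, map_zero]))
      rw [order_mul_thetaJq hA']
      omega)
  exact ⟨f, ⟨A, B, hB, hAB, hf⟩, hcoef⟩

set_option synthInstance.maxHeartbeats 400000 in
set_option maxHeartbeats 1000000 in
/-- **Item 73**: `dim_ℚ̄ L(div dj) ≤ dim_ℂ S₂(Γ₀(N))`. -/
theorem dictStatement : DictStatement N := by
  intro W hW
  choose Ψ hΨ hcoef using fun h : riemannRochSpace W =>
    exists_cuspForm_of_mem N W hW (h : FN N) h.2
  have hmd : ∀ f : CuspForm (Gamma0 N) 2, MDiff (f : ℍ → ℂ) := fun f => ModularFormClass.holo f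
  refine finrank_le_of_semilinear_injective (K := Kbar) (V := riemannRochSpace W) iotaK N 2 Ψ
    ?_ ?_ ?_ hcoef
  · intro u v
    apply DFunLike.coe_injective
    have h1 : IsDiffOf N (PhiN N ((u + v : riemannRochSpace W) : FN N)) (Ψ (u + v)) := hΨ (u + v)
    have h2 := (hΨ u).add (hΨ v)
    rw [← RingHom.map_add] at h2
    exact h1.unique h2 (hmd _) ((hmd _).add (hmd _))
  · intro c v
    apply DFunLike.coe_injective
    have h1 : IsDiffOf N (PhiN N ((c • v : riemannRochSpace W) : FN N)) (Ψ (c • v)) := hΨ (c • v)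
    have h2 := (hΨ v).smul c
    rw [← PhiN_map_const, ← RingHom.map_mul, ← Algebra.smul_def] at h2
    exact h1.unique h2 (hmd _) ((hmd _).const_smul _)
  · intro v hv
    have h1 := hΨ v
    rw [hv] at h1
    have h2 : PhiN N (v : FN N) = 0 := IsDiffOf.eq_zero (by simpa using h1)
    exact Subtype.ext ((map_eq_zero (PhiN N)).mp h2)

end Fermat.Agent.FF
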