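import Mathlib
import Fermat.Agent.FF.ModRealEv
import Fermat.Agent.FF.ModData
import Fermat.Agent.FF.DictOrd
import Fermat.Agent.FF.DictDJ
import Fermat.Agent.FF.DictBridge

/-!
# Item 73, piece E1: the order inequalities for `h ∈ L(div dj)`
-/

set_option autoImplicit false

open UpperHalfPlane hiding I
open AlgebraicCurve Filter Topology Complex Function
open scoped MatrixGroups Manifold Real

namespace Fermat.Agent.FF

variable (N : ℕ) [NeZero N]

/-- finite points: `ord_τ B ≤ ord_τ (A · D j)` -/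
theorem dict_ordAt_le
    (W : Divisor Kbar (FN N))
    (hW : ∀ v : Place Kbar (FN N),
      W v = v.ordDifferential (KaehlerDifferential.D Kbar (FN N) (jBar N)))
    (h : FN N) (hh : h ∈ riemannRochSpace W) (h0 : h ≠ 0) (A B : RN N) (hB : B ≠ 0)
    (hAB : PhiN N h = algebraMap (RN N) (LN N) A / algebraMap (RN N) (LN N) B) (τ : ℍ) :
    ordAt τ (B : ℍ → ℂ) ≤ ordAt τ ((A : ℍ → ℂ) * Derivative.normalizedDerivOfComplex jFun) :=
  ordAt_le_of_mem_RR N W hW h hh h0 A B hB hAB τ

/-- cusps: `ord_∞ (B ∘ γ) < ord_∞ ((A ∘ γ) · D j)` in the parameter `exp (2πiτ/N)` -/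
theorem dict_order_lt
    (W : Divisor Kbar (FN N))
    (hW : ∀ v : Place Kbar (FN N),
      W v = v.ordDifferential (KaehlerDifferential.D Kbar (FN N) (jBar N)))
    (h : FN N) (hh : h ∈ riemannRochSpace W) (h0 : h ≠ 0) (A B : RN N) (hB : B ≠ 0)
    (hAB : PhiN N h = algebraMap (RN N) (LN N) A / algebraMap (RN N) (LN N) B) (γ : SL(2, ℤ)) :
    (expInf N (compSL N γ B)).order
      < (expInf N (compSL N γ A) * ModularCurve.qExpand Kbar N thetaJq).order := by
  have h1 := order_lt_of_mem_RR N W hW h hh h0 γ A B hB hAB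
  have hA : A ≠ 0 := by
    intro hA
    rw [hA, map_zero, zero_div] at hAB
    exact h0 ((map_eq_zero (PhiN N)).mp hAB)
  have hA' : expInf N (compSL N γ A) ≠ 0 := fun hz =>
    hA (compSL_injective γ (by
      rw [map_zero]
      exact expInf_injective N (by rw [hz, map_zero])))
  have hθ : thetaJq ≠ 0 := by
    intro hz
    have := thetaJq_order
    rw [hz, HahnSeries.order_zero] at this
    omega
  have hθ' : ModularCurve.qExpand Kbar N thetaJq ≠ 0 := fun hz =>
    hθ (ModularCurve.qExpand_injective N (by rw [hz, map_zero]))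
  rw [HahnSeries.order_mul hA' hθ', order_qExpand, thetaJq_order]
  omega

end Fermat.Agent.FF
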