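import Mathlib
import Fermat.Agent.FF.ARH
import Fermat.Agent.FF.S20Interface
import Fermat.Agent.FF.ModRealAlg

/-!
# Item 79: the divisor of `dj` exists, `dj ≠ 0`
-/

set_option autoImplicit false
set_option linter.unusedSectionVars false
set_option linter.style.haveILetI false

open AlgebraicCurve IntermediateField KaehlerDifferential

noncomputable section

namespace Fermat.Agent.FF

section General

variable {K F : Type*} [Field K] [Field F] [Algebra K F] [CharZero K] [IsAlgClosed K]

/-- The divisor of `dx` exists (finite support), if `x` is unramified outside a finite set. -/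
theorem exists_divisor_D (x : F) (hx : Transcendental K x) [FiniteDimensional K⟮x⟯ F]
    (B : Finset K)
    (hB : ∀ a, a ∉ B → ∀ v : Place K F, 0 < v.ord (x - algebraMap K F a) →
      v.ord (x - algebraMap K F a) = 1) :
    ∃ W : Divisor K F, ∀ v : Place K F, W v = v.ordDifferential (D K F x) := by
  classical
  have hfin : (Function.support fun v : Place K F => v.ordDifferential (D K F x)).Finite := by
    have hsub : (Function.support fun v : Place K F => v.ordDifferential (D K F x)) ⊆
        placesOverInf (K := K) x ∪ ⋃ a ∈ B, placesOver x a := by
      intro v hv
      rw [Function.mem_support] at hv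
      rcases mem_placesOverInf_or_exists x hx v with h | ⟨a, ha⟩
      · exact Or.inl h
      · right
        by_cases haB : a ∈ B
        · exact Set.mem_biUnion haB ha
        · exfalso
          apply hv
          rw [ordDifferential_D_of_mem_placesOver x hx a v ha, hB a haB v ha, sub_self]
    refine Set.Finite.subset ?_ hsub
    exact (placesOverInf_finite (K := K) x hx).union
      (Set.Finite.biUnion B.finite_toSet fun a _ => placesOver_finite x hx a)
  refine ⟨Finsupp.ofSupportFinite _ hfin, fun v => rfl⟩

end General

variable (N : ℕ) [NeZero N]

theorem D_jBar_ne_zero (hM : ModularRamification N) :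
    D (AlgebraicClosure ℚ) ↥(ModularCurve.modularFunctionFieldBar N) (jBar N) ≠ 0 := by
  haveI := hM.findim
  exact D_ne_zero_of_transcendental (jBar N) hM.transc

theorem divisorDjExists (hM : ModularRamification N) : DivisorDjExists N := by
  classical
  haveI := hM.findim
  have h01 : (0 : AlgebraicClosure ℚ) ≠ 1728 := by norm_num
  refine exists_divisor_D (jBar N) hM.transc ({0, 1728} : Finset (AlgebraicClosure ℚ)) ?_
  intro a ha v hv
  simp only [Finset.mem_insert, Finset.mem_singleton, not_or] at ha
  exact hM.unram a ha.1 ha.2 v hv

end Fermat.Agent.FF
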