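import Fermat.Agent.FF.OrdFnBasic

/-!
# S24 item 67, part 2 (helper6): separation of finitely many places (weak approximation)

`separation v s hv : ∃ f ≠ 0, 0 < v.ord f ∧ ∀ u ∈ s, u.ord f = 0` for a place `v` and a finite set
`s` of places not containing `v`.  Pure valuation theory (discrete valuation rings are maximal
subrings).  This is the third clause of `PlacesAlgebraStatement`.
-/

set_option autoImplicit false

open AlgebraicCurve

namespace Fermat.Agent.FF.H6

variable {K F : Type*} [Field K] [Field F] [Algebra K F]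

theorem ord_add_eq_of_lt (v : Place K F) {f g : F} (hf : f ≠ 0) (hg : g ≠ 0)
    (h : v.ord f < v.ord g) : f + g ≠ 0 ∧ v.ord (f + g) = v.ord f :=
  w_add_eq_of_lt (ofPlace v) hf hg h

theorem ord_add_eq_of_gt (v : Place K F) {f g : F} (hf : f ≠ 0) (hg : g ≠ 0)
    (h : v.ord g < v.ord f) : f + g ≠ 0 ∧ v.ord (f + g) = v.ord g :=
  w_add_eq_of_gt (ofPlace v) hf hg h

theorem ord_pow' (v : Place K F) (f : F) (n : ℕ) : v.ord (f ^ n) = n * v.ord f := by
  have := v.ord_zpow f (n : ℤ)
  rwa [zpow_natCast] at this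

theorem ord_div' (v : Place K F) {f g : F} (hf : f ≠ 0) (hg : g ≠ 0) :
    v.ord (f / g) = v.ord f - v.ord g := by
  rw [div_eq_mul_inv, v.ord_mul hf (inv_ne_zero hg), v.ord_inv]
  ring

/-- Discrete valuation rings are maximal: distinct places are incomparable. -/
theorem exists_nonneg_neg {v u : Place K F} (h : v ≠ u) :
    ∃ f : F, f ≠ 0 ∧ 0 ≤ v.ord f ∧ u.ord f < 0 := by
  by_contra hcon
  have hle : ∀ f : F, f ≠ 0 → 0 ≤ v.ord f → 0 ≤ u.ord f := by
    intro f hf hv
    by_contra hu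
    exact hcon ⟨f, hf, hv, not_le.mp hu⟩
  by_cases hsub : ∀ f : F, f ≠ 0 → 0 ≤ u.ord f → 0 ≤ v.ord f
  · -- the valuation rings coincide
    apply h
    apply Place.ext
    ext f
    rw [mem_iff_ord_nonneg, mem_iff_ord_nonneg]
    rcases eq_or_ne f 0 with rfl | hf
    · simp
    · exact ⟨hle f hf, hsub f hf⟩
  · -- `O_v ⊊ O_u` forces `O_u = F`
    rw [not_forall] at hsub
    obtain ⟨f, hf⟩ := hsub
    rw [Classical.not_imp, Classical.not_imp, not_le] at hf
    obtain ⟨hf0, hfu, hfv⟩ := hf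
    obtain ⟨π, hπ0, hπ⟩ := exists_ord_pos u
    -- `g = π⁻¹` has negative order at `u`
    have hg0 : π⁻¹ ≠ 0 := inv_ne_zero hπ0
    have hgu : u.ord π⁻¹ < 0 := by rw [u.ord_inv]; linarith
    obtain ⟨k, hk⟩ : ∃ k : ℕ, -v.ord π⁻¹ ≤ (k : ℤ) := ⟨(-v.ord π⁻¹).toNat, Int.self_le_toNat _⟩
    have hfk : f ^ k ≠ 0 := pow_ne_zero k hf0
    have hq0 : π⁻¹ / f ^ k ≠ 0 := div_ne_zero hg0 hfk
    have hqv : 0 ≤ v.ord (π⁻¹ / f ^ k) := by
      rw [ord_div' v hg0 hfk, ord_pow']
      have : (k : ℤ) * v.ord f ≤ -(k : ℤ) := by nlinarith [Int.natCast_nonneg k]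
      linarith
    have hqu := hle _ hq0 hqv
    rw [ord_div' u hg0 hfk, ord_pow'] at hqu
    have : 0 ≤ (k : ℤ) * u.ord f := mul_nonneg (Int.natCast_nonneg k) hfu
    linarith

theorem exists_pos_neg {v u : Place K F} (h : v ≠ u) :
    ∃ z : F, z ≠ 0 ∧ 0 < v.ord z ∧ u.ord z < 0 := by
  obtain ⟨f, hf0, hfv, hfu⟩ := exists_nonneg_neg h
  obtain ⟨g, hg0, hgu, hgv⟩ := exists_nonneg_neg (Ne.symm h)
  refine ⟨f / g, div_ne_zero hf0 hg0, ?_, ?_⟩
  · rw [ord_div' v hf0 hg0]; linarith
  · rw [ord_div' u hf0 hg0]; linarith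

theorem exists_pos_forall_neg (v : Place K F) (s : Finset (Place K F)) (hv : v ∉ s) :
    ∃ z : F, z ≠ 0 ∧ 0 < v.ord z ∧ ∀ u ∈ s, u.ord z < 0 := by
  classical
  induction s using Finset.induction_on with
  | empty =>
    obtain ⟨π, hπ0, hπ⟩ := exists_ord_pos v
    exact ⟨π, hπ0, hπ, fun u hu => absurd hu (Finset.notMem_empty u)⟩
  | insert u s hus ih =>
    have hvu : v ≠ u := fun h => hv (h ▸ Finset.mem_insert_self u s)
    have hvs : v ∉ s := fun h => hv (Finset.mem_insert_of_mem h)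
    obtain ⟨z, hz0, hzv, hzs⟩ := ih hvs
    obtain ⟨y, hy0, hyv, hyu⟩ := exists_pos_neg hvu
    -- `z + y ^ r` for `r` large
    obtain ⟨r, hr⟩ : ∃ r : ℕ, ∀ t ∈ insert u s, |t.ord z| < (r : ℤ) := by
      refine ⟨(∑ t ∈ insert u s, |t.ord z|).toNat + 1, fun t ht => ?_⟩
      have h1 : |t.ord z| ≤ ∑ t ∈ insert u s, |t.ord z| :=
        Finset.single_le_sum (f := fun t : Place K F => |t.ord z|)
          (fun i _ => abs_nonneg _) ht
      have h2 : (∑ t ∈ insert u s, |t.ord z|) ≤ ((∑ t ∈ insert u s, |t.ord z|).toNat : ℤ) :=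
        Int.self_le_toNat _
      push_cast
      linarith
    have hr1 : (1 : ℤ) ≤ r := by
      have := hr u (Finset.mem_insert_self u s)
      have := abs_nonneg (u.ord z)
      linarith
    have hyr0 : y ^ r ≠ 0 := pow_ne_zero r hy0
    -- places where `y` has a pole
    have key : ∀ t ∈ insert u s, t.ord y < 0 → z + y ^ r ≠ 0 ∧ t.ord (z + y ^ r) < 0 := by
      intro t ht hty
      have h1 : t.ord (y ^ r) < t.ord z := by
        rw [ord_pow']
        have h2 := hr t ht
        have h3 : -|t.ord z| ≤ t.ord z := neg_abs_le _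
        have h4 : (r : ℤ) * t.ord y ≤ -(r : ℤ) := by nlinarith
        linarith
      obtain ⟨h5, h6⟩ := ord_add_eq_of_gt t hz0 hyr0 h1
      refine ⟨h5, ?_⟩
      rw [h6, ord_pow']
      nlinarith
    have hne : z + y ^ r ≠ 0 := (key u (Finset.mem_insert_self u s) hyu).1
    refine ⟨z + y ^ r, hne, ?_, fun t ht => ?_⟩
    · have h1 := ord_add_ge' v hz0 hyr0 hne
      have h2 : 0 < v.ord (y ^ r) := by
        rw [ord_pow']
        exact mul_pos (by linarith) hyv
      exact lt_of_lt_of_le (lt_min hzv h2) h1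
    · by_cases hty : t.ord y < 0
      · exact (key t ht hty).2
      · rw [not_lt] at hty
        have hts : t ∈ s := by
          rcases Finset.mem_insert.mp ht with h | h
          · exfalso
            rw [h] at hty
            linarith
          · exact h
        have h1 : t.ord z < t.ord (y ^ r) := by
          rw [ord_pow']
          have := hzs t hts
          have : 0 ≤ (r : ℤ) * t.ord y := mul_nonneg (by linarith) hty
          linarith
        rw [(ord_add_eq_of_lt t hz0 hyr0 h1).2]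
        exact hzs t hts

/-- **Separation of places** (third clause of `PlacesAlgebraStatement`). -/
theorem separation (v : Place K F) (s : Finset (Place K F)) (hv : v ∉ s) :
    ∃ f : F, f ≠ 0 ∧ 0 < v.ord f ∧ ∀ u ∈ s, u.ord f = 0 := by
  obtain ⟨z, hz0, hzv, hzs⟩ := exists_pos_forall_neg v s hv
  have h1 : (1 : F) ≠ 0 := one_ne_zero
  -- at `v`: `ord (1 + z) = 0`
  obtain ⟨hne, hv1⟩ := ord_add_eq_of_lt v h1 hz0 (by rw [v.ord_one]; exact hzv)
  rw [v.ord_one] at hv1
  refine ⟨z / (1 + z), div_ne_zero hz0 hne, ?_, fun u hu => ?_⟩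
  · rw [ord_div' v hz0 hne, hv1, sub_zero]
    exact hzv
  · obtain ⟨-, hu1⟩ := ord_add_eq_of_gt u h1 hz0 (by rw [u.ord_one]; exact hzs u hu)
    rw [ord_div' u hz0 hne, hu1, sub_self]

/-- `PlacesAlgebraStatement` from its first two clauses. -/
theorem placesAlgebraStatement_of
    (h : ∀ (x : F), Transcendental K x → FiniteDimensional (IntermediateField.adjoin K {x}) F →
      ∀ a : K, (placesOver x a).Finite ∧
        (∑ᶠ v ∈ placesOver x a, v.ord (x - algebraMap K F a) =
          (Module.finrank (IntermediateField.adjoin K {x}) F : ℤ))) :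
    PlacesAlgebraStatement K F := by
  intro x hx hfd a
  obtain ⟨h1, h2⟩ := h x hx hfd a
  exact ⟨h1, h2, fun v s _ hvs => separation v s hvs⟩

end Fermat.Agent.FF.H6
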