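import Mathlib
import Fermat.Agent.FF.S20Interface
import Fermat.Agent.FF.ARH
import Fermat.Agent.FF.CountingFinal
import Fermat.Agent.FF.CosetFinal
import Fermat.Agent.FF.ModData
import Fermat.Agent.FF.DivDj
import Fermat.Agent.FF.DictFinal
import Fermat.Agent.RR.ARRStatement
import Fermat.Agent.S21.InjPeriodStatement

/-!
# Final assembly of S20 (`dim S₂(Γ₀(N)) = g(X₀(N))`) from items 66–76
-/

set_option autoImplicit false

namespace Fermat.Agent.FF

theorem modularRamificationN (N : ℕ) [NeZero N] : ModularRamification N :=
  modularRamification_of N (H6.countingStatement _ _) (modularOrdData N)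

/-- **S20**: `dim_ℂ S₂(Γ₀(N)) = genusFormula N`. -/
theorem finrank_cuspForm_eq_genusFormula (N : ℕ) [NeZero N] :
    (Module.finrank ℂ (CuspForm (CongruenceSubgroup.Gamma0 N) 2) : ℚ)
      = ModularCurve.genusFormula N :=
  finrank_cuspForm_eq_of_interfaces N (rhStatement _ _) (modularRamificationN N) (cosetCounts N)
    (Fermat.Agent.RR.rrStatement _ _) (divisorDjExists N (modularRamificationN N))
    (D_jBar_ne_zero N (modularRamificationN N)) (dictStatement N)
    (Fermat.Agent.S21.periodStatement N)

end Fermat.Agent.FF
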