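import Mathlib

/-!
# Taylor power series at `0` of functions `ℂ → ℂ` (helper library for S24 WP-C)

`taylorPS f` is the formal Taylor series of `f` at `0`.  It is multiplicative on functions
analytic at `0`, represents `f` on the unit disc if `f` is holomorphic there, is determined by any
convergent power series representation, and is continuous for locally uniform convergence.
-/

set_option autoImplicit false

open Filter Topology Complex Function

namespace Fermat.Agent.FF

/-- The formal Taylor series at `0`. -/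
noncomputable def taylorPS (f : ℂ → ℂ) : PowerSeries ℂ :=
  .mk fun m ↦ ((m.factorial : ℂ))⁻¹ * iteratedDeriv m f 0

theorem taylorPS_coeff (f : ℂ → ℂ) (m : ℕ) :
    (taylorPS f).coeff m = ((m.factorial : ℂ))⁻¹ * iteratedDeriv m f 0 := by
  simp [taylorPS]

theorem taylorPS_congr {f g : ℂ → ℂ} (h : f =ᶠ[𝓝 0] g) : taylorPS f = taylorPS g := by
  ext m
  rw [taylorPS_coeff, taylorPS_coeff, h.iteratedDeriv_eq]

theorem taylorPS_mul {f g : ℂ → ℂ} (hf : AnalyticAt ℂ f 0) (hg : AnalyticAt ℂ g 0) :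
    taylorPS (f * g) = taylorPS f * taylorPS g := by
  ext m
  simp only [taylorPS_coeff, iteratedDeriv_mul hf.contDiffAt hg.contDiffAt, Finset.mul_sum,
    PowerSeries.coeff_mul, Finset.Nat.sum_antidiagonal_eq_sum_range_succ_mk, Nat.succ_eq_add_one]
  refine Finset.sum_congr rfl fun i hi ↦ ?_
  rw [Nat.cast_choose _ (by grind)]
  field_simp [Nat.factorial_ne_zero]

theorem taylorPS_pow {f : ℂ → ℂ} (hf : AnalyticAt ℂ f 0) (n : ℕ) :
    taylorPS (f ^ n) = taylorPS f ^ n := by
  induction n with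
  | zero =>
    ext m
    rw [taylorPS_coeff, pow_zero, pow_zero]
    have : (1 : ℂ → ℂ) = fun _ => (1 : ℂ) := rfl
    rw [this, iteratedDeriv_const]
    rcases m with _ | m <;> simp [PowerSeries.coeff_one]
  | succ n ih => rw [pow_succ, pow_succ, taylorPS_mul (hf.pow n) hf, ih]

theorem hasSum_taylorPS {f : ℂ → ℂ} (hf : DifferentiableOn ℂ f (Metric.ball 0 1)) {q : ℂ}
    (hq : ‖q‖ < 1) : HasSum (fun m : ℕ ↦ (taylorPS f).coeff m * q ^ m) (f q) := by
  have := Complex.hasSum_taylorSeries_on_ball hf (z := q) (by simpa using hq)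
  refine this.congr_fun ?_ |>.mono_left le_rfl
  intro m
  rw [taylorPS_coeff]
  simp [smul_eq_mul]
  ring

theorem hasFPowerSeriesOnBall_of_hasSum {f : ℂ → ℂ} {c : ℕ → ℂ}
    (h : ∀ q : ℂ, ‖q‖ < 1 → HasSum (fun m ↦ c m * q ^ m) (f q)) :
    HasFPowerSeriesOnBall f (.ofScalars ℂ c) 0 1 := by
  constructor
  · refine le_of_forall_lt_imp_le_of_dense fun r hr ↦ ?_
    lift r to NNReal using hr.ne_top
    apply FormalMultilinearSeries.le_radius_of_summable
    have hr' : ‖((r : ℝ) : ℂ)‖ < 1 := by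
      simpa using hr
    have := (h (r : ℝ) hr').summable.norm
    simpa [norm_mul, mul_comm] using this
  · simp
  · intro y hy
    rw [← ENNReal.coe_one, Metric.eball_coe, NNReal.coe_one, mem_ball_zero_iff] at hy
    simpa [mul_comm] using h y hy

theorem taylorPS_eq_of_hasSum {f : ℂ → ℂ} {c : ℕ → ℂ}
    (h : ∀ q : ℂ, ‖q‖ < 1 → HasSum (fun m ↦ c m * q ^ m) (f q)) :
    taylorPS f = PowerSeries.mk c := by
  have h1 := (hasFPowerSeriesOnBall_of_hasSum h).hasFPowerSeriesAt
  have h2 := h1.analyticAt.hasFPowerSeriesAt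
  have h3 := h1.eq_formalMultilinearSeries h2
  ext m
  have h4 := congr_arg (FormalMultilinearSeries.coeff · m) h3
  simp only [FormalMultilinearSeries.coeff_ofScalars] at h4
  rw [taylorPS_coeff, PowerSeries.coeff_mk, h4]
  simp [div_eq_inv_mul]

theorem taylorPS_polynomial (p : Polynomial ℂ) :
    taylorPS (fun q => p.eval q) = (p : PowerSeries ℂ) := by
  rw [taylorPS_eq_of_hasSum (c := fun m => p.coeff m)]
  · ext m
    simp
  · intro q _
    rw [Polynomial.eval_eq_sum_range]
    refine hasSum_sum_of_ne_finset_zero fun m hm => ?_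
    have : p.coeff m = 0 := Polynomial.coeff_eq_zero_of_natDegree_lt (by
      simp only [Finset.mem_range, not_lt] at hm
      omega)
    simp [this]


/-- Iterated derivatives pass to locally uniform limits of holomorphic functions. -/
theorem tendstoLocallyUniformlyOn_iteratedDeriv {ι : Type*} {φ : Filter ι} {F : ι → ℂ → ℂ}
    {f : ℂ → ℂ} {U : Set ℂ} (hU : IsOpen U) (hf : TendstoLocallyUniformlyOn F f φ U)
    (hF : ∀ᶠ n in φ, DifferentiableOn ℂ (F n) U) (m : ℕ) :
    TendstoLocallyUniformlyOn (fun n => iteratedDeriv m (F n)) (iteratedDeriv m f) φ U ∧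
      ∀ᶠ n in φ, DifferentiableOn ℂ (iteratedDeriv m (F n)) U := by
  induction m with
  | zero =>
    simp only [iteratedDeriv_zero]
    exact ⟨hf, hF⟩
  | succ m ih =>
    obtain ⟨h1, h2⟩ := ih
    refine ⟨?_, ?_⟩
    · have := h1.deriv h2 hU
      simp only [iteratedDeriv_succ]
      exact this
    · filter_upwards [h2] with n hn
      rw [iteratedDeriv_succ]
      exact hn.deriv hU

theorem tendsto_taylorPS_coeff {ι : Type*} {φ : Filter ι} {F : ι → ℂ → ℂ}
    {f : ℂ → ℂ} {U : Set ℂ} (hU : IsOpen U) (h0 : (0 : ℂ) ∈ U)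
    (hf : TendstoLocallyUniformlyOn F f φ U)
    (hF : ∀ᶠ n in φ, DifferentiableOn ℂ (F n) U) (m : ℕ) :
    Tendsto (fun n => (taylorPS (F n)).coeff m) φ (𝓝 ((taylorPS f).coeff m)) := by
  have h := (tendstoLocallyUniformlyOn_iteratedDeriv hU hf hF m).1.tendsto_at h0
  simp only [taylorPS_coeff]
  exact h.const_mul _

/-- The Euler function `∏ (1 - q^(n+1))` on the unit disc. -/
noncomputable def eulerFun (q : ℂ) : ℂ := ∏' n : ℕ, (1 - q ^ (n + 1))

theorem differentiableOn_eulerFun : DifferentiableOn ℂ eulerFun (Metric.ball 0 1) :=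
  ModularForm.differentiableOn_tprod_one_sub_pow

theorem taylorPS_eulerFun : taylorPS eulerFun = PowerSeries.pentagonalSeries ℂ := by
  ext m
  have hlu : TendstoLocallyUniformlyOn (fun (s : Finset ℕ) (q : ℂ) => ∏ n ∈ s, (1 - q ^ (n + 1)))
      eulerFun atTop (Metric.ball 0 1) := by
    have := ModularForm.multipliableLocallyUniformlyOn_one_sub_pow.hasProdLocallyUniformlyOn
    rw [hasProdLocallyUniformlyOn_iff_tendstoLocallyUniformlyOn] at this
    exact this
  have hdiff : ∀ᶠ s : Finset ℕ in atTop,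
      DifferentiableOn ℂ (fun (q : ℂ) => ∏ n ∈ s, (1 - q ^ (n + 1))) (Metric.ball 0 1) :=
    .of_forall fun s => by
      have : (fun (q : ℂ) => ∏ n ∈ s, (1 - q ^ (n + 1))) =
          ∏ n ∈ s, (fun (q : ℂ) => 1 - q ^ (n + 1)) := by
        funext q
        simp [Finset.prod_apply]
      rw [this]
      exact DifferentiableOn.finsetProd (fun _ _ ↦ by fun_prop)
  have h1 := tendsto_taylorPS_coeff Metric.isOpen_ball (Metric.mem_ball_self one_pos) hlu hdiff m
  have hpoly : ∀ s : Finset ℕ, taylorPS (fun (q : ℂ) => ∏ n ∈ s, (1 - q ^ (n + 1))) =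
      ∏ n ∈ s, (1 - PowerSeries.X ^ (n + 1) : PowerSeries ℂ) := by
    intro s
    have : (fun (q : ℂ) => ∏ n ∈ s, (1 - q ^ (n + 1))) =
        fun q => (∏ n ∈ s, (1 - Polynomial.X ^ (n + 1) : Polynomial ℂ)).eval q := by
      funext q
      simp [Polynomial.eval_prod]
    rw [this, taylorPS_polynomial, ← Polynomial.coeToPowerSeries.ringHom_apply, map_prod]
    refine Finset.prod_congr rfl fun n _ => ?_
    rw [Polynomial.coeToPowerSeries.ringHom_apply]
    simp
  have h2 : ∀ᶠ s : Finset ℕ in atTop,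
      (taylorPS (fun (q : ℂ) => ∏ n ∈ s, (1 - q ^ (n + 1)))).coeff m =
        (PowerSeries.pentagonalSeries ℂ).coeff m := by
    filter_upwards [PowerSeries.coeff_prod_one_sub_X_pow_eventually_eq ℂ m] with s hs
    rw [hpoly, hs]
  exact tendsto_nhds_unique h1 (tendsto_nhds_of_eventually_eq h2)

end Fermat.Agent.FF
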